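/-
Mazur's principle: the normalised derivative acts on `q`-expansions as the Euler operator; the
derivative of `j`.
-/
import Fermat.Agent.Places.Main
import Fermat.Agent.Genus.LaurentDerivation
import Mathlib.NumberTheory.ModularForms.Derivative

set_option autoImplicit false

noncomputable section

open Filter UpperHalfPlane ModularCurve
open Fermat.Agent.ModFun
open scoped Topology Manifold Real MatrixGroups ModularForm

namespace Fermat.Agent.MazurPrinciple

local notation "𝕢" => Function.Periodic.qParam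

/-- The normalised derivative `(2 π i)⁻¹ d / dτ`. -/
abbrev dTau (f : ℍ → ℂ) : ℍ → ℂ := Derivative.normalizedDerivOfComplex f

theorem hasDerivAt_qParam_one (z : ℂ) :
    HasDerivAt (fun w => 𝕢 ((1 : ℕ) : ℝ) w) (2 * π * Complex.I * 𝕢 ((1 : ℕ) : ℝ) z) z := by
  have h : HasDerivAt (fun w : ℂ => 2 * π * Complex.I * w / ((1 : ℕ) : ℝ))
      (2 * π * Complex.I) z := by
    simpa using ((hasDerivAt_id z).const_mul (2 * π * Complex.I))
  simpa [Function.Periodic.qParam, mul_comm] using h.cexp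

/-- The coefficients of the derivative of the sum of a power series. -/
theorem eventually_hasSum_deriv_psum {p : PowerSeries ℂ}
    (h : HasFPowerSeriesAt (psum p)
      (FormalMultilinearSeries.ofScalars ℂ fun m => p.coeff m) 0) :
    ∀ᶠ q in 𝓝 (0 : ℂ),
      HasSum (fun m : ℕ => (m : ℂ) * p.coeff m * q ^ m) (q * deriv (psum p) q) := by
  have ha : AnalyticAt ℂ (psum p) 0 := ⟨_, h⟩
  have hc : ∀ m, iteratedDeriv m (psum p) 0 / (m.factorial : ℂ) = p.coeff m := by
    intro m
    have h1 := congrArg (fun s : FormalMultilinearSeries ℂ ℂ ℂ => s.coeff m)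
      (ha.hasFPowerSeriesAt.eq_formalMultilinearSeries h)
    simpa [FormalMultilinearSeries.coeff_ofScalars] using h1
  have hd := hasFPowerSeriesAt_iff.1 ha.deriv.hasFPowerSeriesAt
  filter_upwards [hd] with q hq
  rw [zero_add] at hq
  have h2 : HasSum (fun m : ℕ => ((m + 1 : ℕ) : ℂ) * p.coeff (m + 1) * q ^ (m + 1))
      (q * deriv (psum p) q) := by
    refine (hq.mul_left q).congr_fun fun m => ?_
    rw [FormalMultilinearSeries.coeff_ofScalars, smul_eq_mul, ← iteratedDeriv_succ', ← hc (m + 1),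
      Nat.factorial_succ]
    have hm : (m.factorial : ℂ) ≠ 0 := Nat.cast_ne_zero.2 m.factorial_ne_zero
    have hm' : ((m + 1 : ℕ) : ℂ) ≠ 0 := Nat.cast_ne_zero.2 (Nat.succ_ne_zero m)
    push_cast at hm' ⊢
    field_simp
    ring
  refine (hasSum_nat_add_iff' 1).1 ?_
  simpa using h2

/-- The normalised derivative acts on expansions as `q d / dq`. -/
theorem hasQExp_dTau {f : ℍ → ℂ} {x : LaurentSeries ℂ} (hf : HasQExp 1 f x) :
    HasQExp 1 (dTau f) (Genus.eulerOp x) := by
  set n := x.order with hn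
  set p := shiftPS n x with hp
  have hlt : ∀ k < n, x.coeff k = 0 := fun k hk => HahnSeries.coeff_eq_zero_of_lt_order hk
  have hlt' : ∀ k < n, (Genus.eulerOp x).coeff k = 0 := fun k hk => by simp [hlt k hk]
  obtain ⟨ha, he⟩ := hf.exists_psum hlt
  have hf' := hf
  rw [eq_single_mul_shiftPS hlt, hasQExp_single_mul_iff] at hf'
  have hfps := hasFPowerSeriesAt_psum (p := p) (eventually_nhdsNE_of_atImInfty (h := 1)
    (P := fun q => Summable fun m => p.coeff m * q ^ m) (hf'.mono fun τ h1 => h1.summable))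
  have hd := eventually_hasSum_deriv_psum hfps
  rw [eq_single_mul_shiftPS hlt', hasQExp_single_mul_iff]
  have hT := HasQExp.tendsto_qParam (h := 1)
  obtain ⟨B, hB⟩ := (atImInfty_mem _).1
    (he.and (hT.eventually ha.eventually_analyticAt))
  have hbig : ∀ᶠ τ : ℍ in atImInfty, B + 1 ≤ τ.im :=
    (atImInfty_mem _).2 ⟨B + 1, fun τ hτ => hτ⟩
  filter_upwards [hf', hT.eventually hd, hbig] with τ hs hs' hτ
  set q := 𝕢 ((1 : ℕ) : ℝ) (τ : ℂ) with hq
  have hq0 : q ≠ 0 := qParam_ne _ τ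
  have hloc : f ∘ ofComplex =ᶠ[𝓝 (τ : ℂ)]
      fun z => 𝕢 ((1 : ℕ) : ℝ) z ^ n * psum p (𝕢 ((1 : ℕ) : ℝ) z) := by
    have hopen : {z : ℂ | B < z.im ∧ 0 < z.im} ∈ 𝓝 (τ : ℂ) :=
      ((isOpen_lt continuous_const Complex.continuous_im).inter
        (isOpen_lt continuous_const Complex.continuous_im)).mem_nhds
        ⟨show B < (τ : ℂ).im by rw [UpperHalfPlane.coe_im]; linarith, τ.im_pos⟩
    filter_upwards [hopen] with z hz
    rw [Function.comp_apply, ofComplex_apply_of_im_pos hz.2]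
    exact (hB ⟨z, hz.2⟩ (le_of_lt hz.1)).1
  have hP : HasDerivAt (psum p) (deriv (psum p) q) q :=
    (hB τ (by linarith)).2.differentiableAt.hasDerivAt
  have hqd := hasDerivAt_qParam_one (τ : ℂ)
  have hD : HasDerivAt (fun z => 𝕢 ((1 : ℕ) : ℝ) z ^ n * psum p (𝕢 ((1 : ℕ) : ℝ) z))
      ((n : ℂ) * q ^ (n - 1) * (2 * π * Complex.I * q) * psum p q +
        q ^ n * (deriv (psum p) q * (2 * π * Complex.I * q))) (τ : ℂ) := by
    have h1 := HasDerivAt.comp (h₂ := fun w : ℂ => w ^ n) (τ : ℂ)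
      (hasDerivAt_zpow n q (Or.inl hq0)) hqd
    have h2 := HasDerivAt.comp (h₂ := psum p) (τ : ℂ) hP hqd
    exact h1.mul h2
  have hval : dTau f τ / q ^ n = (n : ℂ) * psum p q + q * deriv (psum p) q := by
    rw [dTau, Derivative.normalizedDerivOfComplex, hloc.deriv_eq, hD.deriv, zpow_sub_one₀ hq0]
    have hpi : (π : ℂ) ≠ 0 := Complex.ofReal_ne_zero.2 Real.pi_ne_zero
    have hqn : q ^ n ≠ 0 := zpow_ne_zero _ hq0
    field_simp
  rw [hval]
  have hps : psum p q = f τ / q ^ n := hs.tsum_eq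
  refine ((hs.mul_left (n : ℂ)).add hs').congr_fun (fun m => ?_) |> fun h => by
    simpa [hps] using h
  rw [shiftPS, PowerSeries.coeff_mk, Genus.eulerOp_coeff, hp, shiftPS, PowerSeries.coeff_mk]
  push_cast
  ring

theorem mdifferentiable_dTau {f : ℍ → ℂ} (hf : MDiff f) : MDiff (dTau f) :=
  Derivative.normalizedDerivOfComplex_mdifferentiable hf

/-- The derivative of `j` has weight two. -/
theorem dTau_jfun_slash (γ : SL(2, ℤ)) : dTau jfun ∣[(2 : ℤ)] γ = dTau jfun := by
  have h0 : jfun ∣[(0 : ℤ)] γ = jfun := by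
    funext τ
    simp [ModularForm.SL_slash_apply]
    exact jfun_smul γ τ
  have h := Derivative.normalizedDerivOfComplex_SL_slash (k := 0) mdifferentiable_jfun (γ := γ)
  rw [h0] at h
  funext τ
  have h1 := congrFun h τ
  simp only [Pi.sub_apply, Int.cast_zero, zero_mul, sub_zero, zero_add] at h1
  exact h1.symm

theorem hasQExp_dTau_jfun : HasQExp 1 (dTau jfun) (Genus.eulerOp (jqModC ℂ)) :=
  hasQExp_dTau hasQExp_jfun

/-- The order of `d j` at a point. -/
theorem ordH_dTau_jfun (τ : ℍ) :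
    ordH (dTau jfun) τ = (((Places.ellPeriod ⊤ τ : ℕ) - 1 : ℤ) : WithTop ℤ) := by
  have hE := Places.ellPeriod_pos (Γ := ⊤) (Subgroup.mem_top _) τ
  have hj := Places.ordH_jfun_sub τ
  rw [ordH] at hj
  have hd : meromorphicOrderAt (deriv ((jfun - fun _ => jfun τ) ∘ ofComplex)) (τ : ℂ) =
      (((Places.ellPeriod ⊤ τ : ℕ) - 1 : ℤ) : WithTop ℤ) :=
    meromorphicOrderAt_deriv_eq_sub_one (Nat.cast_ne_zero.2 hE.ne') (by rw [hj]; rfl)
  have hsub : deriv ((jfun - fun _ => jfun τ) ∘ ofComplex) = deriv (jfun ∘ ofComplex) :=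
    funext fun z => deriv_sub_const (f := jfun ∘ ofComplex) (jfun τ)
  rw [hsub] at hd
  set c : ℂ := (2 * π * Complex.I)⁻¹ with hc
  have hc0 : c ≠ 0 := inv_ne_zero Complex.two_pi_I_ne_zero
  have hloc : dTau jfun ∘ ofComplex =ᶠ[𝓝[≠] (τ : ℂ)]
      (fun _ => c) * deriv (jfun ∘ ofComplex) := by
    refine Filter.Eventually.filter_mono nhdsWithin_le_nhds ?_
    filter_upwards [isOpen_upperHalfPlaneSet.mem_nhds τ.im_pos] with z hz
    simp [dTau, Derivative.normalizedDerivOfComplex, hc, ofComplex_apply_of_im_pos hz]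
  have hm : MeromorphicAt (deriv (jfun ∘ ofComplex)) (τ : ℂ) :=
    ((UpperHalfPlane.mdifferentiable_iff.1 mdifferentiable_jfun).analyticAt
      (isOpen_upperHalfPlaneSet.mem_nhds τ.im_pos)).meromorphicAt.deriv
  rw [ordH, meromorphicOrderAt_congr hloc, meromorphicOrderAt_mul (MeromorphicAt.const c _) hm,
    meromorphicOrderAt_const, if_neg hc0, zero_add, hd]

theorem eventually_dTau_jfun_ne_zero (τ : ℍ) :
    ∀ᶠ z in 𝓝[≠] (τ : ℂ), (dTau jfun ∘ ofComplex) z ≠ 0 :=
  (meromorphicOrderAt_ne_top_iff_eventually_ne_zero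
    (meroH_of_mdifferentiable (mdifferentiable_dTau mdifferentiable_jfun) _ τ.im_pos)).1
    (by rw [← ordH, ordH_dTau_jfun]; exact WithTop.coe_ne_top)

end Fermat.Agent.MazurPrinciple

end
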