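/-
Mazur's principle at `p`: the modular unit `U = Δ (q τ) / Δ (τ)` in the function field of
`X₀(M q)`. It has neither zeros nor poles where `j` is finite.
-/
import Fermat.Agent.BadReduction.X0Model
import Fermat.Agent.Integral.Scaled
import Fermat.Agent.ModFun.Field
import Fermat.Agent.Places.Gamma0
import Fermat.Agent.Places.Main
import Fermat.Agent.Curve.ConstExtJZero
import Fermat.Agent.Igusa.JacobianGood
import Fermat.Prelude.Def_ModularCurve_ModularUnit

set_option autoImplicit false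
set_option linter.style.haveILetI false

noncomputable section

open ModularCurve UpperHalfPlane AlgebraicCurve CongruenceSubgroup
open Fermat.Agent.ModFun
open scoped MatrixGroups Manifold Topology ModularForm

namespace Fermat.Agent.MazurPrinciple

local notation "ℚbar" => AlgebraicClosure ℚ

/-- `Δ (d τ) / Δ (τ)`. -/
def unitFun (d : ℕ) (τ : ℍ) : ℂ :=
  ModularForm.discriminant (ModularForm.heckeDiagMatrix d • τ) / ModularForm.discriminant τ

theorem unitFun_ne_zero (d : ℕ) (τ : ℍ) : unitFun d τ ≠ 0 :=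
  div_ne_zero (ModularForm.discriminant_ne_zero _) (ModularForm.discriminant_ne_zero _)

theorem mdifferentiable_unitFun (d : ℕ) : MDiff (unitFun d) :=
  (CuspForm.discriminant.holo'.comp
      (mdifferentiable_smul (ModularForm.det_heckeDiagMatrix_pos d))).div
    CuspForm.discriminant.holo' ModularForm.discriminant_ne_zero

theorem unitFun_eq_scaledDelta (d : ℕ) (τ : ℍ) :
    unitFun d τ = Integral.scaledDelta d τ / (1728 * ModularForm.discriminant τ) := by
  rw [unitFun, Integral.scaledDelta, mul_div_mul_left _ _ (by norm_num : (1728 : ℂ) ≠ 0)]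

theorem unitFun_smul {d : ℕ} (hd : d ≠ 0) (γ : SL(2, ℤ)) (τ : ℍ) :
    unitFun d (γ • τ) =
      (Integral.scaledDelta d ∣[(12 : ℤ)] γ) τ / (1728 * ModularForm.discriminant τ) := by
  have h : denom γ τ ^ (12 : ℤ) ≠ 0 := zpow_ne_zero _ (denom_ne_zero _ _)
  rw [unitFun_eq_scaledDelta, Integral.discriminant_SL_smul, ModularForm.SL_slash_apply, zpow_neg,
    div_eq_div_iff (mul_ne_zero (by norm_num) (mul_ne_zero h (ModularForm.discriminant_ne_zero _)))
      (mul_ne_zero (by norm_num) (ModularForm.discriminant_ne_zero _))]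
  field_simp

theorem hasQExp_deltaSeries :
    HasQExp 1 ModularForm.discriminant (coeffMap (algebraMap ℚ ℂ) deltaSeries) := by
  refine hasQExp_discriminant.of_eq ?_
  ext n
  rw [coeffMap_coeff, deltaSeries, map_mul, HahnSeries.ofPowerSeries_X, dedekindEtaUnitQ]
  rw [HahnSeries.coeff_single_mul, HahnSeries.coeff_single_mul, one_mul, one_mul]
  rcases lt_or_ge (n - 1) 0 with h | h
  · rw [ofPowerSeries_coeff_of_neg _ h, ofPowerSeries_coeff_of_neg _ h, map_zero]
  · obtain ⟨m, hm⟩ := Int.eq_ofNat_of_zero_le h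
    rw [hm, HahnSeries.ofPowerSeries_apply_coeff, HahnSeries.ofPowerSeries_apply_coeff,
      PowerSeries.coeff_map, PowerSeries.coeff_map]
    simp

theorem hasQExp_unitFun (d : ℕ) [NeZero d] :
    HasQExp 1 (unitFun d)
      (coeffMap (algebraMap ℚ ℂ) (deltaSeriesN d / deltaSeries)) := by
  have h := (hasQExp_deltaSeries.comp_mul d).div hasQExp_deltaSeries
  rw [← coeffMap_qExpand, ← map_div₀] at h
  refine h.congr (.of_forall fun τ => ?_)
  show ModularForm.discriminant (triPoint d 0 1 τ) / ModularForm.discriminant τ = unitFun d τ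
  rw [unitFun, heckeDiagMatrix_smul_eq_triPoint]

theorem isModularFun_unitFun {N d : ℕ} [NeZero N] [NeZero d] (hd : d ∣ N) :
    IsModularFun N (unitFun d) where
  mero := meroH_of_mdifferentiable (mdifferentiable_unitFun d)
  smul_eq γ hγ τ := by
    rw [unitFun_smul (NeZero.ne d), Integral.scaledDelta_slash_of_mem (NeZero.ne d) (by
      rw [Gamma0_mem, ZMod.intCast_zmod_eq_zero_iff_dvd] at hγ ⊢
      exact dvd_trans (Int.natCast_dvd_natCast.2 hd) hγ), ← unitFun_eq_scaledDelta]
  cusps γ := by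
    obtain ⟨a, b, e, ha, he, hae, -, hform⟩ :=
      Integral.exists_translate_scaledDelta (NeZero.ne d) γ
    obtain ⟨a', rfl⟩ := Int.eq_ofNat_of_zero_le ha.le
    obtain ⟨e', rfl⟩ := Int.eq_ofNat_of_zero_le he.le
    haveI : NeZero a' := ⟨by omega⟩
    haveI : NeZero e' := ⟨by omega⟩
    have hed : e' ∣ N := dvd_trans ⟨a', by rw [mul_comm]; exact_mod_cast hae.symm⟩ hd
    obtain ⟨c, hc⟩ := hed
    haveI : NeZero c := ⟨right_ne_zero_of_mul (hc ▸ NeZero.ne N)⟩
    set b' : ℕ := (b % e').toNat with hb'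
    have hb : (b' : ℤ) + e' * (b / e') = b := by
      rw [hb', Int.toNat_of_nonneg (Int.emod_nonneg _ he.ne'), Int.emod_add_mul_ediv]
    have hbC : (b : ℂ) = (b' : ℂ) + e' * ((b / e' : ℤ) : ℂ) := by exact_mod_cast hb.symm
    have hd1 : HasQExp N ModularForm.discriminant
        (qExpand ℂ N (coeffMap (algebraMap ℚ ℂ) deltaSeries)) := by
      have := hasQExp_deltaSeries.expand_period N
      rwa [one_mul] at this
    have hd2 := ((hasQExp_deltaSeries.comp_triPoint a' b' e').expand_period c).const_mul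
      (((e' : ℂ) ^ (12 : ℤ))⁻¹)
    rw [← hc] at hd2
    refine ⟨_, (hd2.div hd1).congr (.of_forall fun τ => ?_)⟩
    have hw : (((((b / e' : ℤ) : ℝ) +ᵥ triPoint a' b' e' τ : ℍ)) : ℂ) =
        ((((a' : ℤ) : ℂ)) * τ + b) / ((e' : ℤ) : ℂ) := by
      have he0 : (e' : ℂ) ≠ 0 := Nat.cast_ne_zero.2 (NeZero.ne e')
      rw [coe_vadd, coe_triPoint, hbC]
      push_cast
      field_simp
      ring
    show _ = unitFun d (γ • τ)
    rw [unitFun_smul (NeZero.ne d), hform τ _ hw, Integral.discriminant_vAdd_int]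
    simp only [Pi.div_apply, Int.cast_natCast]
    field_simp

section Field

variable (M q : ℕ) [NeZero M] [hq : Fact q.Prime]

local instance neZero_primeNodesUnit : NeZero q := ⟨hq.out.ne_zero⟩

theorem coeffMap_unitSeries_mem :
    coeffMap (algebraMap ℚ ℂ) (deltaSeriesN q / deltaSeries) ∈
      modularFunctionFieldC ℂ (M * q) :=
  mem_modularFunctionFieldC_of_hasQExp (isModularFun_unitFun (dvd_mul_left q M))
    (hasQExp_unitFun q)

theorem unitSeries_mem :
    coeffEmb ℚbar (deltaSeriesN q / deltaSeries) ∈ modularFunctionFieldBar (M * q) := by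
  refine coeffEmb_mem_laurentBaseChange ℚbar (modularFunctionField_le_full (M * q) ?_)
  refine mem_adjoin_of_coeffMap_mem (L := ℂ) _ ?_
  rw [← jqModC_rat, Set.image_insert_eq, Set.image_singleton, ModFun.coeffMap_jqModC,
    coeffMap_qExpand_jqModC]
  exact coeffMap_unitSeries_mem M q

/-- The modular unit `Δ (q τ) / Δ (τ)`. -/
def modUnit : BadReduction.X0F M q :=
  ⟨coeffEmb ℚbar (deltaSeriesN q / deltaSeries), unitSeries_mem M q⟩

theorem coe_modUnit :
    (modUnit M q : LaurentSeries ℚbar) = coeffEmb ℚbar (deltaSeriesN q / deltaSeries) := rfl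

theorem modUnit_ne_zero : modUnit M q ≠ 0 := fun h => by
  have h1 : coeffEmb ℚbar (deltaSeriesN q / deltaSeries) = 0 := congrArg Subtype.val h
  exact div_ne_zero (deltaSeriesN_ne_zero q) deltaSeries_ne_zero
    ((map_eq_zero (coeffEmb ℚbar)).1 h1)

/-- Galois fixes `U`. -/
theorem galois_smul_modUnit (σ : ℚbar ≃ₐ[ℚ] ℚbar) :
    arithmeticGalois (modularFunctionFieldFull (M * q)) σ • modUnit M q = modUnit M q :=
  Subtype.ext (by rw [BadReduction.coe_galois_smul, coe_modUnit]; exact coeffMap_coeffEmb σ _)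

theorem hasQExp_barToC_modUnit (ι : ℚbar →+* ℂ) :
    HasQExp 1 (unitFun q) ((barToC (M * q) ι (modUnit M q)) : LaurentSeries ℂ) := by
  refine (hasQExp_unitFun q).of_eq ?_
  show _ = coeffMap ι (coeffMap (algebraMap ℚ ℚbar) _)
  rw [coeffMap_coeffMap]
  exact coeffMap_congr (Subsingleton.elim _ _) _

theorem toFun_barToC_modUnit (ι : ℚbar →+* ℂ) :
    EqPunct (toFun (barToC (M * q) ι (modUnit M q))) (unitFun q) :=
  toFun_eqPunct _ (isModularFun_unitFun (dvd_mul_left q M)) (hasQExp_barToC_modUnit M q ι)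

/-- `U` has neither zeros nor poles where `j` is finite. -/
theorem ord_modUnit_eq_zero (v : Place ℚbar (BadReduction.X0F M q))
    (hv : 0 ≤ v.ord (Igusa.jBar (M * q))) : v.ord (modUnit M q) = 0 := by
  haveI : (Gamma0 (M * q)).FiniteIndex :=
    ⟨by rw [Places.index_Gamma0]; exact (Gamma0.dedekindPsi_pos (N := M * q)).ne'⟩
  let ι : ℚbar →+* ℂ := (IsAlgClosed.lift (R := ℚ) (S := ℚbar) (M := ℂ)).toRingHom
  let Mod := Places.x0Model (M * q)
  set w := Curve.placeToC (M * q) ι v with hw
  have hj : barToC (M * q) ι (Igusa.jBar (M * q)) = Mod.jF := Subtype.ext (by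
    show coeffMap ι (Igusa.jBar (M * q) : LaurentSeries ℚbar) = jqModC ℂ
    rw [Igusa.coe_jBar, coeffEmb, coeffMap_coeffMap, ← jqModC_rat, ModFun.coeffMap_jqModC])
  have hwj : 0 ≤ w.ord Mod.jF := by rwa [← hj, hw, Curve.ord_placeToC]
  rw [← Curve.ord_placeToC (M * q) ι v, ← hw]
  rcases Mod.exists_placeAt_or_cuspPlace w with ⟨τ, hτ⟩ | ⟨g, hg⟩
  · have hne : barToC (M * q) ι (modUnit M q) ≠ 0 :=
      (map_ne_zero (barToC (M * q) ι)).2 (modUnit_ne_zero M q)
    have h0 : ordH (toFun (barToC (M * q) ι (modUnit M q))) τ = 0 := by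
      rw [(toFun_barToC_modUnit M q ι).ordH_eq τ]
      have han : AnalyticAt ℂ (unitFun q ∘ ofComplex) (τ : ℂ) :=
        (UpperHalfPlane.mdifferentiable_iff.1 (mdifferentiable_unitFun q)).analyticAt
          (isOpen_upperHalfPlaneSet.mem_nhds τ.im_pos)
      rw [ordH, han.meromorphicOrderAt_eq, han.analyticOrderAt_eq_zero.2
        (by simpa using unitFun_ne_zero q τ)]
      rfl
    have h := Mod.ordH_ev hne τ
    rw [Places.x0Model_ev, h0, hτ] at h
    have h' : (Places.ellPeriod (Gamma0 (M * q)) τ : ℤ) *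
        w.ord (barToC (M * q) ι (modUnit M q)) = 0 := by
      exact_mod_cast h.symm
    exact (mul_eq_zero.1 h').resolve_left
      (by exact_mod_cast (Places.ellPeriod_pos Mod.neg_one_mem τ).ne')
  · exact absurd hwj (not_le.2 ((Mod.ord_jF_neg_iff w).2 ⟨g, hg⟩))

end Field

end Fermat.Agent.MazurPrinciple

end
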