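/-
Mazur's principle at `p`: `w_q U = q ^ (-12) U⁻¹`, and the reductions of the modular unit on the
two components of the special fibre at `q`.
-/
import Fermat.Agent.MazurPrinciple.NodesUnit
import Fermat.Agent.BadReduction.X0Reduction
import Fermat.Agent.BadReduction.X0Frobenius
import Fermat.Agent.Igusa.FibreExpansion

set_option autoImplicit false
set_option linter.style.haveILetI false

noncomputable section

open ModularCurve IntermediateField IsLocalRing AlgebraicCurve UpperHalfPlane CongruenceSubgroup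
open Fermat.Agent.ModFun
open Fermat.Agent.Igusa.Fibre (deltaS deltaInvS deltaS_mul_deltaInvS coeffMap_deltaS)
open scoped MatrixGroups Manifold Topology ModularForm

namespace Fermat.Agent.MazurPrinciple

local notation "ℚbar" => AlgebraicClosure ℚ

variable {M q : ℕ} [NeZero M] [hq : Fact q.Prime]

local instance neZero_primeNodesUnitRed : NeZero q := ⟨hq.out.ne_zero⟩

/-- The Atkin-Lehner point map. -/
theorem exists_point_swap_unit (hqM : ¬ q ∣ M) : ∃ W : ℍ → ℍ,
    (∀ d ∈ (M * q).divisors, ∀ τ, jNfun d (W τ) = jNfun (BadReduction.swapDiv M q d) τ) ∧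
      ∀ τ, unitFun q (W τ) * unitFun q τ = ((q : ℂ) ^ 12)⁻¹ := by
  have hbez : IsCoprime (q : ℤ) (M : ℤ) := Int.isCoprime_iff_gcd_eq_one.2
    (by simpa [Int.gcd_natCast_natCast] using BadReduction.coprime_of_not_dvd hqM)
  obtain ⟨a, b, hab⟩ := hbez
  let γ₀ : SL(2, ℤ) := ⟨!![a, -b; (M : ℤ), (q : ℤ)], by
    rw [Matrix.det_fin_two_of]; linarith⟩
  let γ₁ : SL(2, ℤ) := ⟨!![a * q, -b; (M : ℤ), 1], by
    rw [Matrix.det_fin_two_of]; linarith⟩
  have hΓ : ∀ γ : SL(2, ℤ), γ 1 0 = (M : ℤ) → ∀ d : ℕ, d ∣ M → γ ∈ Gamma0 d := fun γ hγ d hd => by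
    rw [Gamma0_mem, hγ, Int.cast_natCast]
    exact (ZMod.natCast_eq_zero_iff _ _).2 hd
  have hq0 : (q : ℂ) ≠ 0 := Nat.cast_ne_zero.2 hq.out.ne_zero
  let W : ℍ → ℍ := fun τ => γ₀ • (ModularForm.heckeDiagMatrix q • τ)
  have hW : ∀ τ, ModularForm.heckeDiagMatrix q • W τ = γ₁ • τ := by
    intro τ
    refine UpperHalfPlane.ext ?_
    rw [BadReduction.coe_diag_smul, UpperHalfPlane.coe_specialLinearGroup_apply,
      UpperHalfPlane.coe_specialLinearGroup_apply, BadReduction.coe_diag_smul]
    simp only [γ₀, γ₁, Matrix.of_apply, Matrix.cons_val', Matrix.cons_val_zero,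
      Matrix.cons_val_one, Matrix.empty_val', Matrix.cons_val_fin_one, algebraMap_int_eq,
      eq_intCast]
    push_cast
    rw [show (M : ℂ) * ((q : ℂ) * τ) + q = (q : ℂ) * ((M : ℂ) * τ + 1) by ring,
      ← mul_div_assoc, mul_div_mul_left _ _ hq0]
    ring
  refine ⟨W, fun d hd τ => ?_, fun τ => ?_⟩
  · rcases BadReduction.dvd_cases hqM (Nat.dvd_of_mem_divisors hd) with ⟨h, hn⟩ | ⟨d', h, rfl⟩
    · haveI : NeZero d := ⟨(Nat.pos_of_mem_divisors hd).ne'⟩
      rw [BadReduction.swapDiv, if_neg hn, jNfun_smul d (hΓ γ₀ rfl d h),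
        BadReduction.jNfun_mul]
    · haveI : NeZero d' := ⟨ne_zero_of_dvd_ne_zero (NeZero.ne M) h⟩
      rw [BadReduction.swapDiv, if_pos (dvd_mul_left q d'), Nat.mul_div_cancel _ hq.out.pos,
        BadReduction.jNfun_mul, hW, jNfun_smul d' (hΓ γ₁ rfl d' h)]
  · have h0 : denom γ₀ ((ModularForm.heckeDiagMatrix q • τ : ℍ) : ℂ) =
        (q : ℂ) * denom γ₁ τ := by
      have hden : ∀ (g : SL(2, ℤ)) (t : ℍ), denom g (t : ℂ) = (g 1 0 : ℂ) * t + g 1 1 := by
        intro g t; simp [denom]
      rw [hden, hden, BadReduction.coe_diag_smul]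
      simp [γ₀, γ₁]
      ring
    have h1 : denom γ₁ τ ^ (12 : ℤ) ≠ 0 := zpow_ne_zero _ (denom_ne_zero _ _)
    have hΔ := ModularForm.discriminant_ne_zero τ
    have hΔq := ModularForm.discriminant_ne_zero (ModularForm.heckeDiagMatrix q • τ)
    rw [unitFun, hW]
    show ModularForm.discriminant (γ₁ • τ) /
      ModularForm.discriminant (γ₀ • (ModularForm.heckeDiagMatrix q • τ)) * unitFun q τ = _
    rw [Integral.discriminant_SL_smul, Integral.discriminant_SL_smul, h0, mul_zpow,
      show (12 : ℤ) = ((12 : ℕ) : ℤ) from rfl, zpow_natCast, unitFun]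
    rw [show (12 : ℤ) = ((12 : ℕ) : ℤ) from rfl, zpow_natCast] at h1
    field_simp
    norm_cast

/-- `w_q U = q ^ (-12) U⁻¹`. -/
theorem modUnit_mul_atkinLehner (hqM : ¬ q ∣ M) :
    modUnit M q * BadReduction.atkinLehner hqM (modUnit M q) =
      algebraMap ℚbar (BadReduction.X0F M q) ((q : ℚbar) ^ 12)⁻¹ := by
  let ι : ℚbar →+* ℂ := (IsAlgClosed.lift (R := ℚ) (S := ℚbar) (M := ℂ)).toRingHom
  have hx : (modUnit M q : LaurentSeries ℚbar) ∈
      IntermediateField.adjoin ℚbar (Set.range (BadReduction.jdBar (N := M * q))) := by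
    rw [← BadReduction.modularFunctionFieldBar_eq_adjoin]; exact (modUnit M q).2
  obtain ⟨r, hr, s, hs, hrs⟩ := IntermediateField.mem_adjoin_iff_div.1 hx
  rw [Algebra.adjoin_range_eq_range_aeval] at hr hs
  obtain ⟨P, rfl⟩ := hr
  obtain ⟨Q, rfl⟩ := hs
  change _ = MvPolynomial.aeval BadReduction.jdBar P / MvPolynomial.aeval BadReduction.jdBar Q
    at hrs
  set Qs := MvPolynomial.aeval (BadReduction.jdBar (N := M * q)) Q with hQs
  set Ps := MvPolynomial.aeval (BadReduction.jdBar (N := M * q)) P with hPs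
  have hQ0 : Qs ≠ 0 := fun h0 => modUnit_ne_zero M q (Subtype.ext (by rw [hrs, h0, div_zero]; rfl))
  set P' := MvPolynomial.rename (BadReduction.swapIdx hqM) P
  set Q' := MvPolynomial.rename (BadReduction.swapIdx hqM) Q
  have hU : HasQExp 1 (unitFun q) (coeffMap ι (modUnit M q : LaurentSeries ℚbar)) :=
    hasQExp_barToC_modUnit M q ι
  -- the identity between the functions
  have hfun : ∀ τ, unitFun q τ * BadReduction.evalFun ι Q τ = BadReduction.evalFun ι P τ := by
    intro τ
    have h1 := BadReduction.hasQExp_evalFun ι P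
    have h2 := BadReduction.hasQExp_evalFun ι Q
    have h3 : HasQExp 1 (fun τ => unitFun q τ * BadReduction.evalFun ι Q τ -
        BadReduction.evalFun ι P τ) 0 := by
      refine ((hU.mul h2.1).sub h1.1).of_eq ?_
      rw [← map_mul, ← map_sub, hrs, ← hPs, ← hQs, div_mul_cancel₀ _ hQ0, sub_self, map_zero]
    exact sub_eq_zero.1 (BadReduction.eq_zero_of_eventually_atImInfty
      (((mdifferentiable_unitFun q).mul h2.2).sub h1.2) h3.eventually_eq_zero τ)
  obtain ⟨W, hWj, hWU⟩ := exists_point_swap_unit hqM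
  have heval : ∀ (R : MvPolynomial {d : ℕ // d ∈ (M * q).divisors} ℚbar) τ,
      BadReduction.evalFun ι R (W τ) =
        BadReduction.evalFun ι (MvPolynomial.rename (BadReduction.swapIdx hqM) R) τ := by
    intro R τ
    have hg : (fun d : {d : ℕ // d ∈ (M * q).divisors} => jNfun d.1 (W τ)) =
        (fun d : {d : ℕ // d ∈ (M * q).divisors} => jNfun d.1 τ) ∘ BadReduction.swapIdx hqM :=
      funext fun d => hWj d.1 d.2 τ
    show MvPolynomial.eval₂ ι (fun d : {d : ℕ // d ∈ (M * q).divisors} => jNfun d.1 (W τ)) R =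
      MvPolynomial.eval₂ ι (fun d : {d : ℕ // d ∈ (M * q).divisors} => jNfun d.1 τ)
        (MvPolynomial.rename (BadReduction.swapIdx hqM) R)
    rw [MvPolynomial.eval₂_rename, hg]
  have hser : algebraMap ℚbar (LaurentSeries ℚbar) ((q : ℚbar) ^ 12)⁻¹ *
      MvPolynomial.aeval BadReduction.jdBar Q' =
        (modUnit M q : LaurentSeries ℚbar) * MvPolynomial.aeval BadReduction.jdBar P' := by
    have h1 := (BadReduction.hasQExp_evalFun ι Q').1.const_mul (((q : ℂ) ^ 12)⁻¹)
    have h2 := hU.mul (BadReduction.hasQExp_evalFun ι P').1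
    have h3 := (h1.congr (g := fun τ => unitFun q τ * BadReduction.evalFun ι P' τ)
      (.of_forall fun τ => ?_)).unique h2
    · refine HahnSeries.ext (funext fun n => ι.injective ?_)
      rw [← map_mul] at h3
      have h4 := congrArg (fun z : LaurentSeries ℂ => z.coeff n) h3
      simp only [coeffMap_coeff] at h4
      rw [← h4]
      have h5 : coeffMap ι (algebraMap ℚbar (LaurentSeries ℚbar) ((q : ℚbar) ^ 12)⁻¹) =
          HahnSeries.C (((q : ℂ) ^ 12)⁻¹) := by
        rw [algebraMap_laurentSeries_eq_single, coeffMap_single, map_inv₀, map_pow, map_natCast]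
        rfl
      rw [← coeffMap_coeff, map_mul, h5]
    · show ((q : ℂ) ^ 12)⁻¹ * BadReduction.evalFun ι Q' τ =
        unitFun q τ * BadReduction.evalFun ι P' τ
      rw [← hWU τ, ← heval, ← heval, ← hfun]
      ring
  -- back to the function field
  let e : MvPolynomial {d : ℕ // d ∈ (M * q).divisors} ℚbar →ₐ[ℚbar] BadReduction.X0F M q :=
    MvPolynomial.aeval fun d => (⟨BadReduction.jdBar d, BadReduction.jdBar_mem d⟩ :
      BadReduction.X0F M q)
  have he : ∀ R, (e R : LaurentSeries ℚbar) = MvPolynomial.aeval BadReduction.jdBar R := fun R => by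
    show (modularFunctionFieldBar (M * q)).val (e R) = _
    rw [← AlgHom.comp_apply, MvPolynomial.comp_aeval]
    rfl
  have hew : ∀ R, BadReduction.atkinLehner hqM (e R) =
      e (MvPolynomial.rename (BadReduction.swapIdx hqM) R) := fun R => by
    rw [BadReduction.atkinLehner_apply]
    simp only [e]
    rw [← AlgHom.comp_apply, MvPolynomial.comp_aeval, MvPolynomial.aeval_rename]
    congr 2
    funext d
    exact BadReduction.atkinHom_jdBar hqM d
  have heQ : e Q ≠ 0 := fun h0 => hQ0 (by rw [hQs, ← he, h0]; rfl)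
  have heQ' : e Q' ≠ 0 := by
    rw [← hew]
    exact (map_ne_zero (BadReduction.atkinLehner hqM)).2 heQ
  have hUPQ : modUnit M q = e P / e Q :=
    Subtype.ext (by rw [IntermediateField.coe_div, he, he, ← hPs, ← hQs, ← hrs])
  have hser' : algebraMap ℚbar (BadReduction.X0F M q) ((q : ℚbar) ^ 12)⁻¹ * e Q' =
      modUnit M q * e P' := Subtype.ext (by
    rw [IntermediateField.coe_mul, IntermediateField.coe_mul, he, he]
    exact hser)
  conv_lhs => rw [hUPQ, map_div₀, hew, hew, ← hUPQ]
  rw [← mul_div_assoc, ← hser', mul_div_assoc, div_self heQ', mul_one]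

theorem atkinLehner_modUnit (hqM : ¬ q ∣ M) :
    BadReduction.atkinLehner hqM (modUnit M q) =
      algebraMap ℚbar (BadReduction.X0F M q) ((q : ℚbar) ^ 12)⁻¹ * (modUnit M q)⁻¹ := by
  rw [← modUnit_mul_atkinLehner hqM, mul_comm (modUnit M q), mul_assoc,
    mul_inv_cancel₀ (modUnit_ne_zero M q), mul_one]

section Reduction

variable (hqM : ¬ q ∣ M) (A : ValuationSubring ℚbar) (hA : A.LiesOverPrime q)

omit [NeZero M] in
theorem coe_modUnit_eq :
    coeffEmb ℚbar (deltaSeriesN q / deltaSeries) * coeffMap A.subtype (deltaS A) =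
      coeffMap A.subtype (qExpand A q (deltaS A)) := by
  have h1 : coeffEmb ℚbar deltaSeries = deltaS ℚbar := by
    rw [coeffEmb]; exact coeffMap_deltaS (algebraMap ℚ ℚbar)
  have h2 : coeffEmb ℚbar (deltaSeriesN q) = qExpand ℚbar q (deltaS ℚbar) := by
    rw [← h1, coeffEmb, deltaSeriesN, coeffMap_qExpand]
  rw [coeffMap_qExpand, coeffMap_deltaS, map_div₀, h1, h2,
    div_mul_cancel₀ _ (left_ne_zero_of_mul_eq_one deltaS_mul_deltaInvS)]

theorem deltaS_ne_zero (k : Type*) [CommRing k] [Nontrivial k] : deltaS k ≠ 0 :=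
  left_ne_zero_of_mul_eq_one deltaS_mul_deltaInvS

theorem coeffMap_residue_deltaS_ne_zero :
    coeffMap (residue A) (deltaS A) ≠ 0 := by
  rw [coeffMap_deltaS]; exact deltaS_ne_zero _

theorem modUnit_mem_compV_zero : modUnit M q ∈ BadReduction.compV hqM A 0 :=
  ⟨_, _, coeffMap_residue_deltaS_ne_zero A, coe_modUnit_eq (q := q) A⟩

include hA in
/-- The reduction of `U` on the component `∞`. -/
theorem coe_compPhi_zero_modUnit :
    (BadReduction.compPhi hqM A hA 0 ⟨modUnit M q, modUnit_mem_compV_zero hqM A⟩ :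
      LaurentSeries (ResidueField A)) =
      qExpand (ResidueField A) q (deltaS (ResidueField A)) / deltaS (ResidueField A) := by
  have e1 : BadReduction.infRed M q A ⟨modUnit M q, modUnit_mem_compV_zero hqM A⟩ =
      coeffMap (residue A) (qExpand A q (deltaS A)) / coeffMap (residue A) (deltaS A) :=
    BadReduction.infRed_eq A (⟨modUnit M q, modUnit_mem_compV_zero hqM A⟩ : BadReduction.infV M q A)
      (coeffMap_residue_deltaS_ne_zero A) (coe_modUnit_eq (q := q) A)
  refine (BadReduction.coe_compPhi_zero hqM A hA _).trans (e1.trans ?_)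
  rw [coeffMap_qExpand, coeffMap_deltaS]

include hA in
theorem compPhi_zero_modUnit_ne_zero :
    BadReduction.compPhi hqM A hA 0 ⟨modUnit M q, modUnit_mem_compV_zero hqM A⟩ ≠ 0 := by
  intro h
  have h1 := coe_compPhi_zero_modUnit hqM A hA
  rw [h] at h1
  exact div_ne_zero ((map_ne_zero_iff _ (qExpand_injective (R := ResidueField A) q)).2
    (deltaS_ne_zero _)) (deltaS_ne_zero _) h1.symm

include hA in
/-- In characteristic `q` the reduction of `U` is `Δ ^ (q - 1)`. -/
theorem coe_compPhi_zero_modUnit_eq_pow [CharP (ResidueField A) q] :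
    (BadReduction.compPhi hqM A hA 0 ⟨modUnit M q, modUnit_mem_compV_zero hqM A⟩ :
      LaurentSeries (ResidueField A)) = deltaS (ResidueField A) ^ (q - 1) := by
  rw [coe_compPhi_zero_modUnit, div_eq_iff (deltaS_ne_zero _), ← pow_succ,
    Nat.sub_add_cancel hq.out.one_le, BadReduction.pow_char_laurent, coeffMap_deltaS]

theorem scaled_modUnit_mem_compV_one :
    ((q : ℚbar) ^ 12) • modUnit M q ∈ BadReduction.compV hqM A 1 := by
  have hU : (modUnit M q : BadReduction.X0F M q) ≠ 0 := modUnit_ne_zero M q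
  rw [BadReduction.mem_compV_one, BadReduction.atkinLehner_smul, atkinLehner_modUnit,
    Algebra.smul_def, ← mul_assoc, ← map_mul,
    mul_inv_cancel₀ (pow_ne_zero _ (Nat.cast_ne_zero.2 hq.out.ne_zero)), map_one, one_mul]
  refine ⟨deltaS A, qExpand A q (deltaS A), ?_, ?_⟩
  · show coeffMap (residue A) (qExpand A q (deltaS A)) ≠ 0
    rw [coeffMap_qExpand, coeffMap_deltaS]
    exact (map_ne_zero_iff _ (qExpand_injective (R := ResidueField A) q)).2 (deltaS_ne_zero _)
  · show ((modUnit M q : BadReduction.X0F M q)⁻¹ : LaurentSeries ℚbar) *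
      coeffMap A.subtype (qExpand A q (deltaS A)) = coeffMap A.subtype (deltaS A)
    rw [← coe_modUnit_eq (q := q) A, coe_modUnit, ← mul_assoc,
      inv_mul_cancel₀ (show coeffEmb ℚbar (deltaSeriesN q / deltaSeries) ≠ 0 from
        fun h => hU (Subtype.ext h)), one_mul]

include hA in
/-- The reduction of `q ^ 12 U` on the other component is the inverse of that of `U` on `∞`. -/
theorem compPhi_one_scaled_modUnit :
    BadReduction.compPhi hqM A hA 1 ⟨_, scaled_modUnit_mem_compV_one hqM A⟩ =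
      (BadReduction.compPhi hqM A hA 0 ⟨modUnit M q, modUnit_mem_compV_zero hqM A⟩)⁻¹ := by
  have hw : BadReduction.atkinLehner hqM (((q : ℚbar) ^ 12) • modUnit M q) * modUnit M q = 1 := by
    rw [BadReduction.atkinLehner_smul, atkinLehner_modUnit, Algebra.smul_def, ← mul_assoc,
      ← map_mul, mul_inv_cancel₀ (pow_ne_zero _ (Nat.cast_ne_zero.2 hq.out.ne_zero)), map_one,
      one_mul, inv_mul_cancel₀ (modUnit_ne_zero M q)]
  refine eq_inv_of_mul_eq_one_left (Subtype.ext ?_)
  rw [IntermediateField.coe_mul, BadReduction.coe_compPhi_one, BadReduction.coe_compPhi_zero,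
    IntermediateField.coe_one]
  exact (map_mul (BadReduction.infRed M q A) _ _).symm.trans
    ((congrArg (BadReduction.infRed M q A) (Subtype.ext hw)).trans (map_one _))

end Reduction

end Fermat.Agent.MazurPrinciple

end
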