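/-
Mazur's principle, group theory: a representation all of whose elements are roots of the
characteristic polynomials of an irreducible two-dimensional representation `ρ`.

If `U` is a non-zero irreducible such representation then the kernel of `ρ` acts trivially on `U`,
and an element with two different eigenvalues for `ρ` does not act as a scalar on `U`.
-/
import Mathlib.GroupTheory.PGroup
import Mathlib.LinearAlgebra.Dimension.Finrank
import Mathlib.RingTheory.Artinian.Module
import Mathlib.LinearAlgebra.Eigenspace.Basic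
import Mathlib.Algebra.CharP.Lemmas
import Mathlib.Algebra.Field.ZMod
import Mathlib.LinearAlgebra.FreeModule.Finite.Basic
import Mathlib.FieldTheory.Finiteness

set_option autoImplicit false
set_option linter.style.haveILetI false

namespace Fermat.Agent.MazurPrinciple

variable {p : ℕ} [Fact p.Prime] {G : Type*} [Group G]
  {U : Type*} [AddCommGroup U] [Module (ZMod p) U] [FiniteDimensional (ZMod p) U]

/-- There is no invariant subspace except `⊥` and `⊤`. -/
def NoInvariant (u : G →* Module.End (ZMod p) U) : Prop :=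
  ∀ W : Submodule (ZMod p) U, (∀ g : G, ∀ x ∈ W, u g x ∈ W) → W = ⊥ ∨ W = ⊤

omit [FiniteDimensional (ZMod p) U] in
theorem pow_prime_eq_one_of_sq_sub_one_eq_zero {a : Module.End (ZMod p) U}
    (h : (a - 1) * (a - 1) = 0) : a ^ p = 1 := by
  have h2 : (2 : ℕ) ≤ p := (Fact.out : p.Prime).two_le
  have key : ∀ m : ℕ, a ^ m = 1 + (m : ZMod p) • (a - 1) := by
    intro m
    induction m with
    | zero => simp
    | succ m ih =>
      have ha : a = 1 + (a - 1) := by abel
      rw [pow_succ, ih]
      conv_lhs => arg 2; rw [ha]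
      rw [add_mul, mul_add, mul_add, one_mul, one_mul, mul_one, smul_mul_assoc, h, smul_zero,
        add_zero, Nat.cast_succ, add_smul, one_smul]
      abel
  rw [key p, ZMod.natCast_self, zero_smul, add_zero]

/-- A normal subgroup all of whose elements are unipotent acts trivially. -/
theorem eq_one_of_forall_unipotent (u : G →* Module.End (ZMod p) U) (hu : NoInvariant u)
    (H : Subgroup G) [H.Normal]
    (hH : ∀ h ∈ H, (u h - 1) * (u h - 1) = 0) : ∀ h ∈ H, u h = 1 := by
  classical
  let f : H →* (Module.End (ZMod p) U)ˣ := (u.comp H.subtype).toHomUnits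
  let P : Subgroup (Module.End (ZMod p) U)ˣ := f.range
  have hf : ∀ h : H, ((f h : (Module.End (ZMod p) U)ˣ) : Module.End (ZMod p) U) = u h :=
    fun h => rfl
  have hP : IsPGroup p P := by
    rintro ⟨_, h, rfl⟩
    refine ⟨1, Subtype.ext (Units.ext ?_)⟩
    simp only [pow_one, SubmonoidClass.coe_pow, OneMemClass.coe_one, Units.val_pow_eq_pow_val,
      Units.val_one, hf]
    exact pow_prime_eq_one_of_sq_sub_one_eq_zero (hH h h.2)
  let W : Submodule (ZMod p) U :=
    { carrier := {x | ∀ h ∈ H, u h x = x}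
      add_mem' := fun {x y} hx hy h hh => by rw [map_add, hx h hh, hy h hh]
      zero_mem' := fun h _ => map_zero _
      smul_mem' := fun c x hx h hh => by rw [map_smul, hx h hh] }
  have hstab : ∀ g : G, ∀ x ∈ W, u g x ∈ W := by
    intro g x hx h hh
    have hconj : g⁻¹ * h * g ∈ H := by
      simpa using Subgroup.Normal.conj_mem ‹H.Normal› h hh g⁻¹
    have e : u h (u g x) = u g (u (g⁻¹ * h * g) x) := by
      rw [← Module.End.mul_apply, ← Module.End.mul_apply, ← map_mul, ← map_mul]
      congr 2
      group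
    rw [e, hx _ hconj]
  intro h hh
  rcases hu W hstab with hW | hW
  · rcases subsingleton_or_nontrivial U with hU | hU
    · exact LinearMap.ext fun x => Subsingleton.elim _ _
    · exfalso
      haveI : Finite U := Module.finite_of_finite (ZMod p)
      letI : MulAction P U := MulAction.compHom U P.subtype
      have hcard : p ∣ Nat.card U := by
        rw [Module.natCard_eq_pow_finrank (K := ZMod p), Nat.card_zmod]
        exact dvd_pow_self p Module.finrank_pos.ne'
      have hfix : (0 : U) ∈ MulAction.fixedPoints P U := fun g => by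
        change (g.1 : Module.End (ZMod p) U) (0 : U) = 0
        exact map_zero _
      obtain ⟨b, hb, hb0⟩ := hP.exists_fixed_point_of_prime_dvd_card_of_fixed_point U hcard hfix
      have hbW : b ∈ W := fun g hg => by
        have h1 := hb ⟨f ⟨g, hg⟩, ⟨g, hg⟩, rfl⟩
        exact h1
      rw [hW, Submodule.mem_bot] at hbW
      exact hb0 hbW.symm
  · exact LinearMap.ext fun x =>
      (show ∀ h ∈ H, u h x = x from (hW ▸ Submodule.mem_top : x ∈ W)) h hh

/-! ### Representations killed by the characteristic polynomials of a two-dimensional one -/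

variable {V : Type*} [AddCommGroup V] [Module (ZMod p) V] [FiniteDimensional (ZMod p) V]

/-- `u` and `ρ` satisfy the same quadratic relations `x² - t x + d = 0`, `d` is a character and
`ρ g = 1` forces the relation `(x - 1)²`. -/
structure QuadCompatible (u : G →* Module.End (ZMod p) U) (ρ : G →* Module.End (ZMod p) V)
    (t : G → ZMod p) (d : G →* ZMod p) : Prop where
  rel : ∀ g, u g * u g - t g • u g + d g • 1 = 0
  rel' : ∀ g, ρ g * ρ g - t g • ρ g + d g • 1 = 0
  ker : ∀ g, ρ g = 1 → t g = 2 ∧ d g = 1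

variable {u : G →* Module.End (ZMod p) U} {ρ : G →* Module.End (ZMod p) V}
  {t : G → ZMod p} {d : G →* ZMod p}

theorem sq_sub_one_of_rel {M : Type*} [AddCommGroup M] [Module (ZMod p) M]
    {a : Module.End (ZMod p) M} {T D : ZMod p} (h : a * a - T • a + D • 1 = 0) (hT : T = 2)
    (hD : D = 1) : (a - 1) * (a - 1) = 0 := by
  subst hT hD
  rw [← h, sub_mul, mul_sub, mul_sub, one_mul, one_mul, mul_one, one_smul, two_smul]
  abel

omit [FiniteDimensional (ZMod p) V] in
/-- The kernel of `ρ` acts trivially on `U`. -/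
theorem QuadCompatible.eq_one_of_mem_ker (h : QuadCompatible u ρ t d) (hu : NoInvariant u)
    {g : G} (hg : ρ g = 1) : u g = 1 :=
  eq_one_of_forall_unipotent u hu ρ.ker
    (fun x hx => sq_sub_one_of_rel (h.rel x) (h.ker x hx).1 (h.ker x hx).2) g hg

omit [FiniteDimensional (ZMod p) U] in
/-- An element with eigenvalue `1` and another eigenvalue `c ≠ 1` for `ρ` does not act as a
scalar on `U`. -/
theorem QuadCompatible.not_scalar (h : QuadCompatible u ρ t d) [Nontrivial U]
    (hρ : NoInvariant ρ) {z : G} {v w : V} (hv : v ≠ 0) (hvz : ρ z v = v) (hw : w ≠ 0)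
    {c : ZMod p} (hwz : ρ z w = c • w) (hc : c ≠ 1) (a : ZMod p) : u z ≠ a • 1 := by
  intro hz
  -- commutators with `z` act trivially on `U`
  have hcomm : ∀ g : G, u (g * z * g⁻¹ * z⁻¹) = 1 := by
    intro g
    have h1 : u g * (a • 1) = (a • 1) * u g := by
      rw [mul_smul_comm, mul_one, smul_mul_assoc, one_mul]
    rw [map_mul, map_mul, map_mul, hz, h1, mul_assoc (a • 1) (u g), ← map_mul, mul_inv_cancel,
      map_one, mul_one, ← hz, ← map_mul, mul_inv_cancel, map_one]
  let H : Subgroup G := u.ker ⊓ d.ker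
  have hH : ∀ x ∈ H, (ρ x - 1) * (ρ x - 1) = 0 := by
    rintro x ⟨hxu, hxd⟩
    have hd1 : d x = 1 := hxd
    refine sq_sub_one_of_rel (h.rel' x) ?_ hd1
    have h2 := h.rel x
    rw [show u x = 1 from hxu, hd1, mul_one, one_smul, sub_add_eq_add_sub, sub_eq_zero,
      ← two_smul (ZMod p)] at h2
    obtain ⟨y, hy⟩ := exists_ne (0 : U)
    have h3 := LinearMap.congr_fun h2 y
    exact (smul_left_injective (ZMod p) hy h3).symm
  have hρ1 := eq_one_of_forall_unipotent ρ hρ H hH
  have hzc : ∀ g : G, ρ z * ρ g = ρ g * ρ z := by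
    intro g
    have hmem : g * z * g⁻¹ * z⁻¹ ∈ H := by
      refine ⟨hcomm g, ?_⟩
      show d _ = 1
      rw [map_mul, map_mul, map_mul, mul_comm (d g) (d z), mul_assoc (d z) (d g), ← map_mul,
        mul_inv_cancel, map_one, mul_one, ← map_mul, mul_inv_cancel, map_one]
    have h1 := hρ1 _ hmem
    calc ρ z * ρ g = ρ (g * z * g⁻¹ * z⁻¹) * (ρ z * ρ g) := by rw [h1, one_mul]
      _ = ρ g * ρ z := by
        rw [← map_mul, ← map_mul, ← map_mul]
        congr 1
        group
  let E : Submodule (ZMod p) V :=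
    { carrier := {x | ρ z x = x}
      add_mem' := fun {x y} hx hy => by rw [Set.mem_ofPred_eq, map_add, hx, hy]
      zero_mem' := map_zero _
      smul_mem' := fun r x hx => by rw [Set.mem_ofPred_eq, map_smul, hx] }
  rcases hρ E (fun g x hx => by
      show ρ z (ρ g x) = ρ g x
      rw [← Module.End.mul_apply, hzc, Module.End.mul_apply, hx]) with hE | hE
  · exact hv ((Submodule.mem_bot (ZMod p)).1 (hE ▸ (hvz : v ∈ E)))
  · have h1 : ρ z w = w := (hE ▸ Submodule.mem_top : w ∈ E)
    rw [hwz] at h1
    exact hc (smul_left_injective (ZMod p) hw (h1.trans (one_smul _ w).symm))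

/-- A non-zero invariant subspace of a finite-dimensional representation contains a non-zero
invariant subspace with no smaller ones. -/
theorem exists_minimal_invariant (u : G →* Module.End (ZMod p) U) (W : Submodule (ZMod p) U)
    (hW : W ≠ ⊥) (hst : ∀ g : G, ∀ x ∈ W, u g x ∈ W) :
    ∃ W₀ : Submodule (ZMod p) U, W₀ ≤ W ∧ W₀ ≠ ⊥ ∧ (∀ g : G, ∀ x ∈ W₀, u g x ∈ W₀) ∧
      ∀ W₁ : Submodule (ZMod p) U, W₁ ≤ W₀ → (∀ g : G, ∀ x ∈ W₁, u g x ∈ W₁) →
        W₁ = ⊥ ∨ W₁ = W₀ := by
  let S : Set (Submodule (ZMod p) U) :=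
    {X | X ≤ W ∧ X ≠ ⊥ ∧ ∀ g : G, ∀ x ∈ X, u g x ∈ X}
  obtain ⟨W₀, hW₀, hmin⟩ := wellFounded_lt.has_min S ⟨W, le_rfl, hW, hst⟩
  refine ⟨W₀, hW₀.1, hW₀.2.1, hW₀.2.2, fun W₁ h1 h2 => ?_⟩
  by_contra hcon
  push Not at hcon
  exact hmin W₁ ⟨h1.trans hW₀.1, hcon.1, h2⟩ (lt_of_le_of_ne h1 hcon.2)

end Fermat.Agent.MazurPrinciple
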