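/-
Mazur's principle: the valuation on the field fixed by a subgroup `H` of finite index of inertia.

If every `c` fixed by `H` has at most `d` conjugates under inertia, the values of `H`-fixed
elements form a discrete group: there is a uniformiser `π`, `v(p) = v(π) ^ e`, `e ≤ d`; moreover
residues have lifts fixed by all of inertia.
-/
import Fermat.Agent.AtP.Inertia
import Fermat.Agent.Mult.Inertia
import Mathlib.FieldTheory.Finite.Basic
import Mathlib.Algebra.Algebra.ZMod
import Mathlib.RingTheory.RootsOfUnity.Basic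
import Mathlib.GroupTheory.GroupAction.Quotient
import Mathlib.RingTheory.Polynomial.Cyclotomic.Basic
import Mathlib.RingTheory.RootsOfUnity.AlgebraicallyClosed
import Fermat.Agent.Curve.ConnectedRank

set_option autoImplicit false
set_option linter.style.haveILetI false

noncomputable section

namespace Fermat.Agent.MazurPrinciple

local notation "ℚbar" => AlgebraicClosure ℚ
local notation "Γℚ" => AlgebraicClosure ℚ ≃ₐ[ℚ] AlgebraicClosure ℚ

/-- `x` is fixed by every element of `H`. -/
def IsFixedBy (H : Subgroup Γℚ) (x : ℚbar) : Prop := ∀ σ ∈ H, σ x = x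

theorem IsFixedBy.mul {H : Subgroup Γℚ} {x y : ℚbar} (hx : IsFixedBy H x) (hy : IsFixedBy H y) :
    IsFixedBy H (x * y) := fun σ hσ => by rw [map_mul, hx σ hσ, hy σ hσ]

theorem IsFixedBy.inv {H : Subgroup Γℚ} {x : ℚbar} (hx : IsFixedBy H x) : IsFixedBy H x⁻¹ :=
  fun σ hσ => by rw [map_inv₀, hx σ hσ]

theorem IsFixedBy.zpow {H : Subgroup Γℚ} {x : ℚbar} (hx : IsFixedBy H x) (n : ℤ) :
    IsFixedBy H (x ^ n) := fun σ hσ => by rw [map_zpow₀, hx σ hσ]

theorem IsFixedBy.sub {H : Subgroup Γℚ} {x y : ℚbar} (hx : IsFixedBy H x) (hy : IsFixedBy H y) :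
    IsFixedBy H (x - y) := fun σ hσ => by rw [map_sub, hx σ hσ, hy σ hσ]

theorem IsFixedBy.mono {H H' : Subgroup Γℚ} {x : ℚbar} (hx : IsFixedBy H x) (h : H' ≤ H) :
    IsFixedBy H' x := fun σ hσ => hx σ (h hσ)

variable {A : ValuationSubring ℚbar} {p : ℕ}

/-- Inertia preserves the valuation of every element. -/
theorem valuation_inertia_apply {σ : Γℚ} (hσ : σ ∈ A.inertiaSubgroupIn ℚ) (c : ℚbar) :
    A.valuation (σ c) = A.valuation c := by
  classical
  rcases eq_or_ne c 0 with rfl | hc
  · rw [map_zero]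
  have hdec := Mult.mem_decomposition_of_mem_inertia hσ
  have hle : ∀ x y : ℚbar, y ≠ 0 → (A.valuation x ≤ A.valuation y ↔ x / y ∈ A) := fun x y hy => by
    have hy' : A.valuation y ≠ 0 := by simpa using hy
    rw [← A.valuation_le_one_iff, map_div₀, div_le_one₀ (zero_lt_iff.2 hy')]
  have hmono : ∀ x y : ℚbar, A.valuation x < A.valuation y →
      A.valuation (σ x) < A.valuation (σ y) := fun x y hxy => by
    rcases eq_or_ne x 0 with rfl | hx
    · rw [map_zero, map_zero] at *
      refine zero_lt_iff.2 ?_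
      simpa using zero_lt_iff.1 hxy
    · refine lt_of_not_ge fun h => hxy.not_ge ((hle y x hx).2 ?_)
      rw [← Mult.apply_mem_iff_of_mem_decomposition hdec, map_div₀]
      exact (hle _ _ (by simpa using hx)).1 h
  have hint : IsIntegral ℚ c := Algebra.IsIntegral.isIntegral c
  let f : ℕ → ℚbar := fun i => σ^[i] c
  have hroot : ∀ i, f i ∈ ((minpoly ℚ c).aroots ℚbar).toFinset := fun i => by
    rw [Multiset.mem_toFinset, Polynomial.mem_aroots]
    refine ⟨minpoly.ne_zero hint, ?_⟩
    induction i with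
    | zero => exact minpoly.aeval ℚ c
    | succ i ih =>
      show Polynomial.aeval (σ^[i + 1] c) (minpoly ℚ c) = 0
      rw [Function.iterate_succ_apply']
      have h := Polynomial.aeval_algHom_apply (σ : ℚbar →ₐ[ℚ] ℚbar) (f i) (minpoly ℚ c)
      rw [ih, map_zero] at h
      exact h
  have hfin : (Set.range f).Finite := Set.Finite.subset
    (Finset.finite_toSet _) (by rintro _ ⟨i, rfl⟩; exact Finset.mem_coe.2 (hroot i))
  by_contra hne
  have hni : Function.Injective f := by
    rcases lt_or_gt_of_ne hne with h | h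
    · exact Function.Injective.of_comp (f := A.valuation) <| StrictAnti.injective <|
        strictAnti_nat_of_succ_lt fun i => by
          induction i with
          | zero => exact h
          | succ i ih =>
            simp only [Function.comp_apply, f, Function.iterate_succ_apply'] at ih ⊢
            exact hmono _ _ ih
    · exact Function.Injective.of_comp (f := A.valuation) <| StrictMono.injective <|
        strictMono_nat_of_lt_succ fun i => by
          induction i with
          | zero => exact h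
          | succ i ih =>
            simp only [Function.comp_apply, f, Function.iterate_succ_apply'] at ih ⊢
            exact hmono _ _ ih
  exact Set.infinite_range_of_injective hni hfin

/-- The product over the orbit of a finite-orbit element is fixed by inertia and its valuation
is the power of the valuation of the element. -/
theorem exists_pow_card_valuation (hp : p.Prime) (hA : A.LiesOverPrime p) {c : ℚbar} (hc : c ≠ 0)
    (S : Finset ℚbar) (hcS : c ∈ S) (hS : ∀ σ ∈ A.inertiaSubgroupIn ℚ, σ c ∈ S) :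
    ∃ (j : ℕ) (m : ℤ), 0 < j ∧ j ≤ S.card ∧ A.valuation c ^ j = A.valuation (p : ℚbar) ^ m := by
  classical
  let orb : Finset ℚbar := S.filter fun y => ∃ σ ∈ A.inertiaSubgroupIn ℚ, σ c = y
  have hcorb : c ∈ orb := Finset.mem_filter.2 ⟨hcS, 1, one_mem _, rfl⟩
  have hval : ∀ y ∈ orb, A.valuation y = A.valuation c := fun y hy => by
    obtain ⟨-, σ, hσ, rfl⟩ := Finset.mem_filter.1 hy
    exact valuation_inertia_apply hσ c
  have hprod : A.valuation (∏ y ∈ orb, y) = A.valuation c ^ orb.card := by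
    rw [map_prod, Finset.prod_congr rfl hval, Finset.prod_const]
  have hne : (∏ y ∈ orb, y) ≠ 0 := by
    refine Finset.prod_ne_zero_iff.2 fun y hy => ?_
    obtain ⟨-, σ, hσ, rfl⟩ := Finset.mem_filter.1 hy
    simpa using hc
  obtain ⟨m, hm⟩ := AtP.exists_zpow_valuation_eq hp hA hne fun τ hτ => by
    rw [map_prod]
    have hmem : ∀ y ∈ orb, τ y ∈ orb := fun y hy => by
      obtain ⟨-, σ, hσ, rfl⟩ := Finset.mem_filter.1 hy
      exact Finset.mem_filter.2 ⟨hS (τ * σ) (mul_mem hτ hσ), τ * σ, mul_mem hτ hσ, rfl⟩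
    refine Finset.prod_bij (fun y _ => τ y) hmem (fun a _ b _ h => τ.injective h) ?_
      (fun y _ => rfl)
    intro b hb
    have himg : orb.image (fun y => τ y) = orb := by
      refine Finset.eq_of_subset_of_card_le ?_ (le_of_eq (Finset.card_image_of_injective _ τ.injective).symm)
      intro y hy
      obtain ⟨x, hx, rfl⟩ := Finset.mem_image.1 hy
      exact hmem x hx
    rw [← himg] at hb
    obtain ⟨x, hx, hxb⟩ := Finset.mem_image.1 hb
    exact ⟨x, hx, hxb⟩
  exact ⟨orb.card, m, Finset.card_pos.2 ⟨c, hcorb⟩, Finset.card_le_card (Finset.filter_subset _ _),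
    by rw [← hm, hprod]⟩

/-- A uniformiser for the `H`-fixed elements. -/
structure Uniformiser (A : ValuationSubring ℚbar) (p : ℕ) (H : Subgroup Γℚ) where
  π : ℚbar
  e : ℕ
  ne_zero : π ≠ 0
  fixed : IsFixedBy H π
  mem_nonunits : π ∈ A.nonunits
  e_pos : 0 < e
  valuation_p : A.valuation (p : ℚbar) = A.valuation π ^ e
  exists_zpow : ∀ c : ℚbar, c ≠ 0 → IsFixedBy H c →
    ∃ i : ℤ, A.valuation c = A.valuation π ^ i

/-- A uniformiser exists, with `e ≤ d`, when every fixed element has at most `d` conjugates. -/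
theorem exists_uniformiser (hp : p.Prime) (hA : A.LiesOverPrime p) (H : Subgroup Γℚ) (d : ℕ)
    (hd : ∀ c : ℚbar, IsFixedBy H c →
      ∃ S : Finset ℚbar, c ∈ S ∧ S.card ≤ d ∧ ∀ σ ∈ A.inertiaSubgroupIn ℚ, σ c ∈ S) :
    ∃ U : Uniformiser A p H, U.e ≤ d := by
  classical
  have hp0 : (p : ℚbar) ≠ 0 := Nat.cast_ne_zero.2 hp.ne_zero
  have hvp0 : A.valuation (p : ℚbar) ≠ 0 := by simpa using hp0
  have hvp1 : A.valuation (p : ℚbar) < 1 := (A.mem_nonunits_iff).1 hA
  have hppow : ∀ {a b : ℤ}, A.valuation (p : ℚbar) ^ a = A.valuation (p : ℚbar) ^ b → a = b :=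
    fun h => zpow_right_injective₀ (zero_lt_iff.2 hvp0) hvp1.ne h
  let D : ℕ := d.factorial
  have hD : 0 < D := Nat.factorial_pos d
  have hall : ∀ c : ℚbar, c ≠ 0 → IsFixedBy H c →
      ∃ i : ℤ, A.valuation c ^ D = A.valuation (p : ℚbar) ^ i := fun c hc hcfix => by
    obtain ⟨S, hcS, hcard, hS⟩ := hd c hcfix
    obtain ⟨j, m, hj0, hj, hjm⟩ := exists_pow_card_valuation hp hA hc S hcS hS
    obtain ⟨t, ht⟩ : j ∣ D := Nat.dvd_factorial hj0 (hj.trans hcard)
    exact ⟨m * t, by rw [ht, pow_mul, hjm, zpow_mul, zpow_natCast]⟩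
  let G : AddSubgroup ℤ :=
    { carrier := {i | ∃ c : ℚbar, c ≠ 0 ∧ IsFixedBy H c ∧
        A.valuation c ^ D = A.valuation (p : ℚbar) ^ i}
      zero_mem' := ⟨1, one_ne_zero, fun σ _ => map_one σ, by simp⟩
      add_mem' := fun {i j} hi hj => by
        obtain ⟨c, hc, hcf, hci⟩ := hi
        obtain ⟨c', hc', hcf', hci'⟩ := hj
        exact ⟨c * c', mul_ne_zero hc hc', hcf.mul hcf',
          by rw [map_mul, mul_pow, hci, hci', zpow_add₀ hvp0]⟩
      neg_mem' := fun {i} hi => by
        obtain ⟨c, hc, hcf, hci⟩ := hi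
        exact ⟨c⁻¹, inv_ne_zero hc, hcf.inv, by rw [map_inv₀, inv_pow, hci, zpow_neg]⟩ }
  have hpG : (D : ℤ) ∈ G :=
    ⟨p, hp0, fun σ _ => map_natCast σ p, by rw [zpow_natCast]⟩
  obtain ⟨g, hg⟩ := Int.subgroup_cyclic G
  have hgmem : ∀ i : ℤ, i ∈ G ↔ ∃ n : ℤ, n * g = i := fun i => by
    rw [hg, AddSubgroup.mem_closure_singleton]
    simp
  obtain ⟨n, hn⟩ := (hgmem D).1 hpG
  -- normalise the generator to be positive
  let g' : ℤ := if 0 < g then g else -g
  have hg0 : g ≠ 0 := fun h => by
    rw [h, mul_zero] at hn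
    exact hD.ne (by exact_mod_cast hn)
  have hg' : 0 < g' := by
    simp only [g']
    split_ifs with h <;> omega
  have hg'mem : ∀ i : ℤ, i ∈ G ↔ ∃ n : ℤ, n * g' = i := fun i => by
    rw [hgmem]
    simp only [g']
    split_ifs with h
    · rfl
    · constructor <;> rintro ⟨m, hm⟩ <;> exact ⟨-m, by rw [← hm]; ring⟩
  obtain ⟨π, hπ0, hπfix, hπv⟩ : g' ∈ G := (hg'mem g').2 ⟨1, one_mul _⟩
  obtain ⟨n', hn'⟩ := (hg'mem D).1 hpG
  have hn'0 : 0 < n' := by
    refine pos_of_mul_pos_left ?_ hg'.le
    rw [hn']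
    exact_mod_cast hD
  obtain ⟨e, rfl⟩ := Int.eq_ofNat_of_zero_le hn'0.le
  have hzpow : ∀ c : ℚbar, c ≠ 0 → IsFixedBy H c → ∀ i : ℤ,
      A.valuation c ^ D = A.valuation (p : ℚbar) ^ (i * g') →
      A.valuation c = A.valuation π ^ i := fun c hc _ i h => by
    have h2 : A.valuation c ^ D = (A.valuation π ^ i) ^ D := by
      rw [h, ← zpow_natCast (A.valuation π ^ i), ← zpow_mul, mul_comm i g', mul_comm i (D : ℤ),
        zpow_mul, zpow_mul, zpow_natCast, hπv]
    exact (pow_left_inj₀ zero_le zero_le hD.ne').1 h2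
  have hvp : A.valuation (p : ℚbar) = A.valuation π ^ e := by
    rw [← zpow_natCast]
    refine hzpow p hp0 (fun σ _ => map_natCast σ p) e ?_
    rw [hn', zpow_natCast]
  have hπ1 : A.valuation π < 1 := by
    rcases lt_or_ge (A.valuation π) 1 with h | h
    · exact h
    · exact absurd (hvp ▸ one_le_pow_of_one_le' h e) hvp1.not_ge
  refine ⟨⟨π, e, hπ0, hπfix, (A.mem_nonunits_iff).2 hπ1, by omega, hvp, fun c hc hcf => ?_⟩, ?_⟩
  · obtain ⟨i, hi⟩ := hall c hc hcf
    obtain ⟨m, hm⟩ := (hg'mem i).1 ⟨c, hc, hcf, hi⟩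
    exact ⟨m, hzpow c hc hcf m (hm ▸ hi)⟩
  · show e ≤ d
    obtain ⟨S, hcS, hcard, hS⟩ := hd π hπfix
    obtain ⟨j, m, hj0, hj, hjm⟩ := exists_pow_card_valuation hp hA hπ0 S hcS hS
    have hπz : A.valuation π ≠ 0 := by simpa using hπ0
    have h3 : A.valuation π ^ (j : ℤ) = A.valuation π ^ ((e : ℤ) * m) := by
      rw [zpow_natCast, hjm, hvp, ← zpow_natCast (A.valuation π) e, ← zpow_mul]
    have h4 := zpow_right_injective₀ (zero_lt_iff.2 hπz) hπ1.ne h3
    have hm1 : 1 ≤ m := by
      by_contra hm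
      have : (j : ℤ) ≤ 0 := h4 ▸ mul_nonpos_of_nonneg_of_nonpos (by positivity) (by omega)
      omega
    have h5 : (e : ℤ) ≤ j := h4 ▸ le_mul_of_one_le_right (by positivity) hm1
    omega

/-- Residues lift to elements fixed by inertia. -/
theorem exists_fixed_lift (hp : p.Prime) (hA : A.LiesOverPrime p) {a : ℚbar} (ha : a ∈ A) :
    ∃ z : ℚbar, z ∈ A ∧ IsFixedBy (A.inertiaSubgroupIn ℚ) z ∧ a - z ∈ A.nonunits := by
  classical
  by_cases hnu : a ∈ A.nonunits
  · exact ⟨0, A.zero_mem, fun σ _ => map_zero σ, by simpa using hnu⟩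
  haveI := Fact.mk hp
  obtain ⟨b, s, hb, hs, hsu, habs⟩ := Galois.exists_integral_num_den A ha
  have hp0 : (p : (IsLocalRing.ResidueField A)) = 0 := by
    rw [← map_natCast (IsLocalRing.residue A) p, IsLocalRing.residue_eq_zero_iff,
      ← ValuationSubring.coe_mem_nonunits_iff]
    simpa [ValuationSubring.LiesOverPrime] using hA
  haveI : CharP (IsLocalRing.ResidueField A) p := (CharP.charP_iff_prime_eq_zero hp).2 hp0
  letI : Algebra (ZMod p) (IsLocalRing.ResidueField A) := ZMod.algebra (IsLocalRing.ResidueField A) p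
  have htop : ∀ x : IsLocalRing.ResidueField A, IsIntegral ℤ x → IsIntegral (ZMod p) x := by
    rintro x ⟨P, hPm, hPx⟩
    refine ⟨P.map (Int.castRingHom (ZMod p)), hPm.map _, ?_⟩
    rw [Polynomial.eval₂_map]
    rwa [RingHom.ext_int ((algebraMap (ZMod p) (IsLocalRing.ResidueField A)).comp
      (Int.castRingHom (ZMod p))) (algebraMap ℤ (IsLocalRing.ResidueField A))]
  let ab : (IsLocalRing.ResidueField A) := IsLocalRing.residue A ⟨a, ha⟩
  have hresint : ∀ x : ℚbar, IsIntegral ℤ x → ∀ hx : x ∈ A,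
      IsIntegral ℤ (IsLocalRing.residue A ⟨x, hx⟩) := fun x hx hxA => by
    refine map_isIntegral_int (IsLocalRing.residue A) ?_
    exact (isIntegral_algebraMap_iff (R := ℤ) (A := A) (B := ℚbar) Subtype.val_injective).1 hx
  have hsA := Galois.mem_valuationSubring_of_isIntegral A hs
  have hbA := Galois.mem_valuationSubring_of_isIntegral A hb
  have hs0 : IsLocalRing.residue A ⟨s, hsA⟩ ≠ 0 := by
    rw [Ne, IsLocalRing.residue_eq_zero_iff, ← ValuationSubring.coe_mem_nonunits_iff]
    exact hsu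
  have hab0 : ab ≠ 0 := by
    intro h
    refine hnu ?_
    rw [IsLocalRing.residue_eq_zero_iff, ← ValuationSubring.coe_mem_nonunits_iff] at h
    exact h
  have habint : IsIntegral (ZMod p) ab := by
    have h1 : ab = IsLocalRing.residue A ⟨b, hbA⟩ * (IsLocalRing.residue A ⟨s, hsA⟩)⁻¹ := by
      rw [eq_mul_inv_iff_mul_eq₀ hs0, ← map_mul]
      exact congrArg _ (Subtype.ext habs)
    rw [h1]
    exact (isAlgebraic_iff_isIntegral.1
      ((isAlgebraic_iff_isIntegral.2 (htop _ (hresint b hb hbA))).mul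
        (isAlgebraic_iff_isIntegral.2 (htop _ (hresint s hs hsA))).inv))
  let K0 := IntermediateField.adjoin (ZMod p) ({ab} : Set (IsLocalRing.ResidueField A))
  haveI : FiniteDimensional (ZMod p) K0 := IntermediateField.adjoin.finiteDimensional habint
  haveI : Finite K0 := Module.finite_of_finite (ZMod p)
  haveI : Fintype K0 := Fintype.ofFinite K0
  let n : ℕ := Fintype.card K0 - 1
  have hn1 : ab ^ n = 1 := by
    have h := FiniteField.pow_card_sub_one_eq_one
      (⟨ab, IntermediateField.mem_adjoin_simple_self (ZMod p) ab⟩ : K0)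
      (fun h => hab0 (congrArg Subtype.val h))
    exact congrArg Subtype.val h
  haveI : CharP K0 p := charP_of_injective_algebraMap (algebraMap (ZMod p) K0).injective p
  obtain ⟨⟨f, hf⟩, -, hcard⟩ := FiniteField.card K0 p
  have hn0 : 0 < n := by
    have := Fintype.one_lt_card (α := K0)
    omega
  have hpn : ¬ p ∣ n := by
    intro h
    have h1 : p ∣ Fintype.card K0 := hcard ▸ dvd_pow_self p (Nat.pos_iff_ne_zero.1 hf)
    have h2 : p ∣ Fintype.card K0 - n := Nat.dvd_sub h1 h
    rw [show Fintype.card K0 - n = 1 by omega] at h2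
    exact hp.one_lt.ne' (Nat.dvd_one.1 h2)
  obtain ⟨ζ, hζ⟩ : ∃ ζ : ℚbar, IsPrimitiveRoot ζ n := by
    haveI : NeZero (n : ℚbar) := ⟨Nat.cast_ne_zero.2 hn0.ne'⟩
    exact HasEnoughRootsOfUnity.exists_primitiveRoot ℚbar n
  have hfac := congrArg (Polynomial.eval a) (Polynomial.X_pow_sub_one_eq_prod hn0 hζ)
  simp only [Polynomial.eval_sub, Polynomial.eval_pow, Polynomial.eval_X, Polynomial.eval_one,
    Polynomial.eval_prod, Polynomial.eval_C] at hfac
  have han : a ^ n - 1 ∈ A.nonunits := by
    have h : IsLocalRing.residue A (⟨a, ha⟩ ^ n - 1) = 0 := by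
      rw [map_sub, map_pow, map_one]
      exact sub_eq_zero.2 hn1
    rw [IsLocalRing.residue_eq_zero_iff, ← ValuationSubring.coe_mem_nonunits_iff] at h
    exact h
  by_contra hcon
  push Not at hcon
  have hmemA : ∀ z ∈ Polynomial.nthRootsFinset n (1 : ℚbar), z ∈ A := fun z hz => by
    rw [Polynomial.mem_nthRootsFinset hn0] at hz
    exact Mult.mem_of_pow_mem hn0.ne' (hz ▸ A.one_mem)
  have hone : A.valuation (∏ z ∈ Polynomial.nthRootsFinset n (1 : ℚbar), (a - z)) = 1 := by
    rw [map_prod]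
    refine Finset.prod_eq_one fun z hz => AtP.valuation_eq_one (sub_mem ha (hmemA z hz)) ?_
    refine hcon z (hmemA z hz) fun σ hσ => ?_
    rw [Polynomial.mem_nthRootsFinset hn0] at hz
    exact Mult.inertia_apply_of_pow_eq_one hp hA hσ hpn hz
  rw [← hfac] at hone
  exact ((A.mem_nonunits_iff).1 han).ne hone

/-- The wild step: if `σ ∈ I` acts with order dividing `p` on the `H`-fixed elements and moves an
integral fixed element `a`, then `σ π / π ≡ 1` and `v(σ π - π)` dominates `v(σ a - a)`. -/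
theorem valuation_sub_le (hp : p.Prime) (hA : A.LiesOverPrime p) {H : Subgroup Γℚ}
    (hH : H ≤ A.inertiaSubgroupIn ℚ) (U : Uniformiser A p H) {σ : Γℚ}
    (hσ : σ ∈ A.inertiaSubgroupIn ℚ) {a : ℚbar} (ha : a ∈ A) (hafix : IsFixedBy H a)
    (hmoved : σ a ≠ a) :
    A.valuation (σ a - a) ≤ A.valuation (σ U.π - U.π) := by
  set m : ℚbar := σ U.π - U.π with hm
  have hπz : A.valuation U.π ≠ 0 := by simpa using U.ne_zero
  have hπ1 : A.valuation U.π < 1 := (A.mem_nonunits_iff).1 U.mem_nonunits
  -- approximate an integral fixed element by the inertia fixed lifts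
  have key : ∀ (M : ℕ) (x : ℚbar), x ∈ A → IsFixedBy H x →
      A.valuation (σ x - x) ≤ max (A.valuation m) (A.valuation U.π ^ M) := by
    intro M
    induction M with
    | zero =>
      intro x hx _
      refine le_max_of_le_right ?_
      rw [pow_zero]
      exact (A.valuation_le_one_iff _).2
        (sub_mem ((Mult.apply_mem_iff_of_mem_decomposition
          (Mult.mem_decomposition_of_mem_inertia hσ) x).2 hx) hx)
    | succ M ih =>
      intro x hx hxfix
      obtain ⟨z, hzA, hzfix, hxz⟩ := exists_fixed_lift hp hA hx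
      obtain ⟨y, hy⟩ : ∃ y, x - z = U.π * y :=
        ⟨(x - z) / U.π, by rw [mul_div_cancel₀ _ U.ne_zero]⟩
      have hyfix : IsFixedBy H y := by
        have h : y = (x - z) * U.π⁻¹ := by rw [hy]; field_simp [U.ne_zero]
        exact h ▸ (hxfix.sub (hzfix.mono hH)).mul U.fixed.inv
      have hyA : y ∈ A := by
        rcases eq_or_ne y 0 with rfl | hy0
        · exact A.zero_mem
        obtain ⟨i, hi⟩ := U.exists_zpow y hy0 hyfix
        have h1 : A.valuation (x - z) < 1 := (A.mem_nonunits_iff).1 hxz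
        rw [hy, map_mul, hi] at h1
        rw [← A.valuation_le_one_iff, hi]
        have h2 : (1 + i) > 0 := by
          by_contra hcon
          rw [← zpow_one_add₀ hπz] at h1
          exact h1.not_ge (one_le_zpow_of_nonpos₀ (zero_lt_iff.2 hπz) hπ1.le (by omega))
        lift i to ℕ using (by omega) with i'
        rw [zpow_natCast]
        exact pow_le_one₀ zero_le hπ1.le
      have hdec : σ x - x = σ U.π * (σ y - y) + m * y := by
        rw [show x = z + U.π * y by rw [← hy]; ring, map_add, map_mul, hzfix σ hσ, hm]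
        ring
      rw [hdec]
      refine (A.valuation.map_add _ _).trans (max_le ?_ ?_)
      · rw [map_mul, valuation_inertia_apply hσ]
        refine (mul_le_mul_right (ih y hyA hyfix) _).trans ?_
        rw [mul_max]
        exact max_le_max (mul_le_of_le_one_left' hπ1.le) (by rw [pow_succ'])
      · rw [map_mul]
        exact le_max_of_le_left (mul_le_of_le_one_right' ((A.valuation_le_one_iff y).2 hyA))
  have hne : A.valuation (σ a - a) ≠ 0 := by simpa [sub_eq_zero] using hmoved
  have hafix' : IsFixedBy H a := hafix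
  by_contra hlt
  rw [not_le] at hlt
  -- a small enough power of the uniformiser
  obtain ⟨M, hM⟩ : ∃ M : ℕ, A.valuation U.π ^ M < A.valuation (σ a - a) := by
    have hda : σ a - a ∈ A := sub_mem ((Mult.apply_mem_iff_of_mem_decomposition
      (Mult.mem_decomposition_of_mem_inertia hσ) a).2 ha) ha
    have hπA : U.π ∈ A := (A.valuation_le_one_iff _).1 hπ1.le
    obtain ⟨n, w, hw⟩ := Curve.Connected.exists_dvd_pow_of_isAlgebraic_rat A ⟨U.π, hπA⟩ ⟨σ a - a, hda⟩
      ((A.valuation_lt_one_iff _).2 hπ1) (fun h => hmoved (sub_eq_zero.1 (congrArg Subtype.val h)))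
    refine ⟨n + 1, ?_⟩
    have h1 : A.valuation U.π ^ n ≤ A.valuation (σ a - a) := by
      have h2 := congrArg (fun z : A => A.valuation (z : ℚbar)) hw
      simp only [SubmonoidClass.coe_pow, map_pow] at h2
      rw [h2]
      push_cast
      rw [map_mul]
      exact mul_le_of_le_one_right' ((A.valuation_le_one_iff _).2 w.2)
    refine lt_of_lt_of_le ?_ h1
    rw [pow_succ]
    exact mul_lt_of_lt_one_right (pow_pos (zero_lt_iff.2 hπz) n) hπ1
  exact (key M a ha hafix').not_gt (max_lt hlt hM)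

theorem div_sub_one_mem_nonunits (hp : p.Prime) (hA : A.LiesOverPrime p) {H : Subgroup Γℚ}
    (U : Uniformiser A p H) {σ : Γℚ} (hσ : σ ∈ A.inertiaSubgroupIn ℚ) (hσp : σ ^ p ∈ H) :
    σ U.π / U.π - 1 ∈ A.nonunits := by
  haveI := Fact.mk hp
  set u : ℚbar := σ U.π / U.π with hu
  have hdec := Mult.mem_decomposition_of_mem_inertia hσ
  have huA : u ∈ A := by
    rw [← A.valuation_le_one_iff, hu, map_div₀, valuation_inertia_apply hσ,
      div_self (by simpa using U.ne_zero)]
  let k := IsLocalRing.ResidueField A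
  have hp0 : (p : k) = 0 := by
    rw [← map_natCast (IsLocalRing.residue A) p, IsLocalRing.residue_eq_zero_iff,
      ← ValuationSubring.coe_mem_nonunits_iff]
    simpa [ValuationSubring.LiesOverPrime] using hA
  haveI : CharP k p := (CharP.charP_iff_prime_eq_zero hp).2 hp0
  have hiter : ∀ n : ℕ, ∃ w : A, (σ ^ n) U.π = U.π * w ∧
      IsLocalRing.residue A w = IsLocalRing.residue A ⟨u, huA⟩ ^ n := by
    intro n
    induction n with
    | zero => exact ⟨1, by simp, by simp⟩
    | succ n ih =>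
      obtain ⟨w, hw, hwres⟩ := ih
      have hσw : σ (w : ℚbar) ∈ A := (Mult.apply_mem_iff_of_mem_decomposition hdec _).2 w.2
      refine ⟨⟨u, huA⟩ * ⟨σ w, hσw⟩, ?_, ?_⟩
      · rw [pow_succ', AlgEquiv.mul_apply, hw, map_mul]
        push_cast
        rw [hu, ← mul_assoc, mul_div_cancel₀ _ U.ne_zero]
      · rw [map_mul, pow_succ', ← hwres]
        congr 1
        rw [← sub_eq_zero, ← map_sub, IsLocalRing.residue_eq_zero_iff,
          ← ValuationSubring.coe_mem_nonunits_iff]
        exact Mult.sub_mem_nonunits_of_mem_inertia hσ w.2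
  obtain ⟨w, hw, hwres⟩ := hiter p
  have hw1 : w = 1 := by
    have h := U.fixed _ hσp
    rw [hw] at h
    exact Subtype.ext (mul_left_cancel₀ U.ne_zero (h.trans (mul_one _).symm))
  rw [hw1, map_one] at hwres
  have hu1 : IsLocalRing.residue A ⟨u, huA⟩ = 1 :=
    frobenius_inj k p (by rw [frobenius_def, map_one]; exact hwres.symm)
  rw [← sub_eq_zero, ← map_one (IsLocalRing.residue A), ← map_sub,
    IsLocalRing.residue_eq_zero_iff, ← ValuationSubring.coe_mem_nonunits_iff] at hu1
  exact hu1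

end Fermat.Agent.MazurPrinciple
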