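/-
Mazur's principle, local criterion: valuations of the non-integral roots of the `p`-division
polynomial at a prime of good ordinary reduction, and of `ζ - 1`.
-/
import Fermat.Agent.AtP.Main
import Mathlib.RingTheory.Polynomial.Cyclotomic.Eval

set_option autoImplicit false
set_option linter.style.haveILetI false

open Polynomial WeierstrassCurve WeierstrassCurve.Affine
open scoped WeierstrassCurve.Affine

namespace Fermat.Agent.MazurPrinciple

open AtP

local notation "Q̄" => AlgebraicClosure ℚ

variable {W : WeierstrassCurve ℤ} {p : ℕ} {A : ValuationSubring Q̄}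

/-- `v(ζ - 1) ^ (p - 1) = v(p)` for a primitive `p`-th root of unity. -/
theorem valuation_sub_one_pow_eq (hp : p.Prime) {ζ : Q̄} (hζ : IsPrimitiveRoot ζ p) :
    A.valuation (ζ - 1) ^ (p - 1) = A.valuation (p : Q̄) := by
  classical
  haveI := Fact.mk hp
  have hv : ∀ μ : Q̄, μ ^ p = 1 → A.valuation μ = 1 := fun μ hμ =>
    (pow_eq_one_iff_left hp.ne_zero).1 (by rw [← map_pow, hμ, map_one])
  have hle : ∀ (μ : Q̄), μ ^ p = 1 → ∀ i : ℕ, A.valuation (μ ^ i - 1) ≤ A.valuation (μ - 1) := by
    intro μ hμ i
    rw [← geom_sum_mul, map_mul]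
    refine mul_le_of_le_one_left' (Valuation.map_sum_le _ fun j _ => ?_)
    rw [map_pow, hv μ hμ, one_pow]
  have h := Polynomial.eval_one_cyclotomic_prime (R := Q̄) (p := p)
  rw [Polynomial.cyclotomic_eq_prod_X_sub_primitiveRoots hζ, Polynomial.eval_prod] at h
  simp only [Polynomial.eval_sub, Polynomial.eval_X, Polynomial.eval_C] at h
  rw [← h, map_prod, Finset.prod_congr rfl (g := fun _ => A.valuation (ζ - 1))]
  · rw [Finset.prod_const, hζ.card_primitiveRoots, Nat.totient_prime hp]
  · intro μ hμ
    have hμ' := (mem_primitiveRoots hp.pos).1 hμ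
    rw [← Valuation.map_neg, neg_sub]
    obtain ⟨i, -, rfl⟩ := hζ.eq_pow_of_pow_eq_one (ξ := μ) hμ'.pow_eq_one
    obtain ⟨j, -, hj⟩ := hμ'.eq_pow_of_pow_eq_one (ξ := ζ) hζ.pow_eq_one
    refine le_antisymm (hle ζ hζ.pow_eq_one i) ?_
    conv_lhs => rw [← hj]
    exact hle _ hμ'.pow_eq_one j

/-- In a product of linear factors, the large roots dominate the coefficient whose index is the
number of small roots. -/
theorem valuation_coeff_prod_large (H : Q̄[X]) {n : ℕ} (hH : A.valuation (H.coeff n) = 1)
    (hH' : ∀ k, A.valuation (H.coeff k) ≤ 1) (s : Multiset Q̄)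
    (hs : ∀ u ∈ s, 1 < A.valuation u) :
    A.valuation (((s.map fun u => X - C u).prod * H).coeff n) =
        (s.map fun u => A.valuation u).prod ∧
      ∀ k, A.valuation (((s.map fun u => X - C u).prod * H).coeff k) ≤
        (s.map fun u => A.valuation u).prod := by
  induction s using Multiset.induction with
  | empty => simp [hH, hH']
  | cons u t ih =>
    obtain ⟨hn, hk⟩ := ih fun w hw => hs w (Multiset.mem_cons_of_mem hw)
    have hu := hs u (Multiset.mem_cons_self u t)
    simp only [Multiset.map_cons, Multiset.prod_cons]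
    have hpos : 0 < (t.map fun u => A.valuation u).prod := by
      refine zero_lt_iff.2 (Multiset.prod_ne_zero fun h => ?_)
      obtain ⟨w, hw, hw0⟩ := Multiset.mem_map.1 h
      have := hs w (Multiset.mem_cons_of_mem hw)
      rw [hw0] at this
      exact not_lt_zero this
    have hlt : (t.map fun u => A.valuation u).prod <
        A.valuation u * (t.map fun u => A.valuation u).prod := lt_mul_of_one_lt_left hpos hu
    set G := (t.map fun u => X - C u).prod * H with hG
    rw [mul_assoc, ← hG]
    have hshift : ∀ k, A.valuation ((X * G).coeff k) ≤ (t.map fun u => A.valuation u).prod := by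
      intro k
      rcases k with _ | k
      · simp
      · rw [coeff_X_mul]; exact hk k
    refine ⟨?_, fun k => ?_⟩
    · rw [sub_mul, coeff_sub, coeff_C_mul, Valuation.map_sub_eq_of_lt_right, map_mul, hn]
      rw [map_mul, hn]
      exact (hshift n).trans_lt hlt
    · rw [sub_mul, coeff_sub, coeff_C_mul]
      refine (Valuation.map_sub _ _ _).trans (max_le ((hshift k).trans hlt.le) ?_)
      rw [map_mul]
      exact mul_le_mul' le_rfl (hk k)

theorem valuation_nat_coeff (j : ℕ) :
    A.valuation (((curveQbar W).preΨ' p).coeff j) =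
      A.valuation (((W.preΨ' p).coeff j : ℤ) : Q̄) := by
  rw [preΨ'_curveQbar, coeff_map, eq_intCast]

/-- For ordinary good reduction, all non-integral roots of the division polynomial have the same
valuation, fixed by the highest coefficient prime to `p`. -/
theorem exists_valuation_root_eq (hp : p.Prime) (hp2 : p ≠ 2) (hA : A.LiesOverPrime p)
    {k : ℕ} (hk : ¬ (p : ℤ) ∣ (W.preΨ' p).coeff k) :
    ∃ d : ℕ, d < (p ^ 2 - 1) / 2 ∧ ∀ r : Q̄, ((curveQbar W).preΨ' p).eval r = 0 →
      1 < A.valuation r →
        A.valuation (p : Q̄) * A.valuation r ^ ((p ^ 2 - 1) / 2 - d) = 1 := by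
  classical
  have hodd : ¬ Even p := Nat.not_even_iff_odd.2 (hp.odd_of_ne_two hp2)
  set n := (p ^ 2 - 1) / 2 with hn
  have hdeg : (W.preΨ' p).natDegree ≤ n := by
    have := W.natDegree_preΨ'_le p
    rwa [if_neg hodd] at this
  have hlead : (W.preΨ' p).coeff n = (p : ℤ) := by
    have := W.coeff_preΨ' p
    rwa [if_neg hodd, if_neg hodd] at this
  set S := (Finset.range (n + 1)).filter fun j => ¬ (p : ℤ) ∣ (W.preΨ' p).coeff j with hS
  have hkn : k ≤ n := by
    by_contra hkn
    exact hk (by rw [coeff_eq_zero_of_natDegree_lt (by omega)]; exact dvd_zero _)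
  have hSne : S.Nonempty := ⟨k, by simp [hS, hk]; omega⟩
  set d := S.max' hSne with hd
  have hdS : d ∈ S := S.max'_mem hSne
  simp only [hS, Finset.mem_filter, Finset.mem_range] at hdS
  have hdn : d < n := by
    refine lt_of_le_of_ne (by omega) fun h => hdS.2 ?_
    rw [h, hlead]
  refine ⟨d, hdn, fun r hr hr1 => ?_⟩
  set v := A.valuation with hv
  set c : ℕ → Q̄ := fun j => ((W.preΨ' p).coeff j : Q̄) * r ^ j with hc
  have hsum : ∑ j ∈ Finset.range (n + 1), c j = 0 := by
    have hdeg' : ((W.preΨ' p).map (Int.castRingHom Q̄)).natDegree < n + 1 :=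
      Nat.lt_succ_of_le (natDegree_map_le.trans hdeg)
    rw [preΨ'_curveQbar, eval_eq_sum_range' hdeg'] at hr
    simpa only [coeff_map, eq_intCast] using hr
  have hr0 : 0 < v r := zero_lt_one.trans hr1
  have hp0 : 0 < v (p : Q̄) := zero_lt_iff.2 (natCast_valuation_ne_zero hp)
  have hcd : v (c d) = v r ^ d := by
    rw [hc, map_mul, map_pow]
    refine mul_eq_right₀ (pow_ne_zero _ hr0.ne') |>.2 (le_antisymm (intCast_valuation_le_one _) ?_)
    exact not_lt.1 fun h => hdS.2 ((intCast_valuation_lt_one_iff hp hA _).1 h)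
  have hcn : v (c n) = v (p : Q̄) * v r ^ n := by
    simp only [hc, hlead, Int.cast_natCast, map_mul, map_pow]
  -- the other terms are smaller than the larger of the two
  have hother : ∀ j ∈ (Finset.range (n + 1) \ {d}) \ {n},
      v (c j) < max (v (c d)) (v (c n)) := by
    intro j hj
    simp only [Finset.mem_sdiff, Finset.mem_range, Finset.mem_singleton] at hj
    rw [hc, map_mul, map_pow]
    rcases lt_or_gt_of_ne hj.1.2 with h | h
    · refine lt_max_of_lt_left (((mul_le_of_le_one_left' (intCast_valuation_le_one _)).trans_lt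
        (pow_lt_pow_right₀ hr1 h)).trans_le ?_)
      exact hcd.ge
    · have hjS : (p : ℤ) ∣ (W.preΨ' p).coeff j := by
        by_contra hjS
        have := S.le_max' j (by simp [hS, hjS]; omega)
        omega
      refine lt_max_of_lt_right ((mul_le_mul' (intCast_valuation_le_of_dvd hjS) le_rfl).trans_lt
        ((mul_lt_mul_of_pos_left (pow_lt_pow_right₀ hr1 (by omega : j < n)) hp0).trans_le ?_))
      exact hcn.ge
  have heq : v (c d) = v (c n) := by
    by_contra hne
    have hsplit : c d + c n = -∑ j ∈ (Finset.range (n + 1) \ {d}) \ {n}, c j := by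
      rw [← Finset.sum_sdiff (s₁ := {d}) (by simp; omega),
        ← Finset.sum_sdiff (s₁ := {n}) (by simp; omega)] at hsum
      simp only [Finset.sum_singleton] at hsum
      linear_combination hsum
    have hmax := Valuation.map_add_of_distinct_val v hne
    rw [hsplit, Valuation.map_neg] at hmax
    refine (Valuation.map_sum_lt v ?_ hother).ne hmax
    exact (lt_max_of_lt_left (hcd ▸ pow_pos hr0 d)).ne'
  rw [hcd, hcn] at heq
  have h2 : v r ^ n = v r ^ (n - d) * v r ^ d := by rw [← pow_add]; congr 1; omega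
  rw [h2, ← mul_assoc] at heq
  exact (right_eq_mul₀ (pow_ne_zero _ hr0.ne')).1 heq

/-- The `x`-coordinate `r` of a point of order `p` in the kernel of reduction at a good ordinary
prime: `v(p) v(r) ^ ((p-1)/2) ≤ 1`. -/
theorem valuation_root_pow_le [Fact p.Prime] (hp2 : p ≠ 2) (hgood : W.IsGoodPrimeFor p)
    (hA : A.LiesOverPrime p) {k : ℕ} (hk : ¬ (p : ℤ) ∣ (W.preΨ' p).coeff k)
    {Z : Tors W p} {r y : Q̄} {h : (curveQbar W).Nonsingular r y}
    (hZ : (Z : (curveQbar W).Point) = .some r y h) (hr : r ∉ A) :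
    A.valuation (p : Q̄) * A.valuation r ^ ((p - 1) / 2) ≤ 1 := by
  classical
  have hp : p.Prime := Fact.out
  have hZmem : Z ∈ formalPart hA hgood := (mem_formalPart hA hgood Z).2 (Or.inr ⟨r, y, h, hZ, hr⟩)
  have hZ0 : Z ≠ 0 := fun h0 => Point.some_ne_zero h (hZ.symm.trans (congrArg Subtype.val h0))
  set f := (curveQbar W).preΨ' p with hf
  have hf0 : f ≠ 0 := (curveQbar W).preΨ'_ne_zero (Nat.cast_ne_zero.2 hp.ne_zero)
  have hlead : f.leadingCoeff = (p : Q̄) := by
    rw [hf, (curveQbar W).leadingCoeff_preΨ' (Nat.cast_ne_zero.2 hp.ne_zero),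
      if_neg (Nat.not_even_iff_odd.2 (hp.odd_of_ne_two hp2))]
  obtain ⟨d, hdn, hd⟩ := exists_valuation_root_eq hp hp2 hA hk
  -- the multiples of `Z`
  have hmult : ∀ j : ℕ, j ∈ Finset.Icc 1 ((p - 1) / 2) → ∃ a b h',
      ((j • Z : Tors W p) : (curveQbar W).Point) = .some a b h' ∧ a ∉ A ∧ f.eval a = 0 := by
    intro j hj
    have hj' := Finset.mem_Icc.1 hj
    have hne : j • Z ≠ 0 := by
      rw [← Nat.cast_smul_eq_nsmul (ZMod p)]
      refine smul_ne_zero ?_ hZ0
      rw [Ne, ZMod.natCast_eq_zero_iff]
      exact fun hdvd => by have := Nat.le_of_dvd (by omega) hdvd; omega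
    rcases (mem_formalPart hA hgood (j • Z)).1 (nsmul_mem hZmem j) with h0 | ⟨a, b, h', hab, ha⟩
    · exact absurd (Subtype.ext h0) hne
    · refine ⟨a, b, h', hab, ha, (nsmul_some_eq_zero_iff_root hp hp2 h').1 ?_⟩
      rw [← hab, ← natCast_zsmul]
      exact (Submodule.mem_torsionBy_iff _ _).1 (j • Z : Tors W p).2
  choose a b h' hab ha hroot using hmult
  set big := f.roots.filter fun u => u ∉ A with hbig
  have hcard : (p - 1) / 2 ≤ Multiset.card big := by
    let g : {j // j ∈ Finset.Icc 1 ((p - 1) / 2)} → Q̄ := fun j => a j.1 j.2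
    have hg : Function.Injective g := by
      rintro ⟨i, hi⟩ ⟨j, hj⟩ hij
      have hi' := Finset.mem_Icc.1 hi
      have hj' := Finset.mem_Icc.1 hj
      refine Subtype.ext ?_
      rcases (Point.X_eq_iff (h₁ := h' i hi) (h₂ := h' j hj)).1 hij with e | e
      · rw [← hab i hi, ← hab j hj] at e
        have e' : ((i : ZMod p) - (j : ZMod p)) • Z = 0 := by
          rw [sub_smul, Nat.cast_smul_eq_nsmul, Nat.cast_smul_eq_nsmul, Subtype.ext e, sub_self]
        have := (smul_eq_zero.1 e').resolve_right hZ0
        rw [sub_eq_zero, ZMod.natCast_eq_natCast_iff'] at this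
        rwa [Nat.mod_eq_of_lt (by omega), Nat.mod_eq_of_lt (by omega)] at this
      · rw [← hab i hi, ← hab j hj] at e
        have e' : ((i + j : ℕ) : ZMod p) • Z = 0 := by
          rw [Nat.cast_smul_eq_nsmul, add_nsmul]
          exact Subtype.ext (by simpa using eq_neg_iff_add_eq_zero.1 e)
        have := (smul_eq_zero.1 e').resolve_right hZ0
        rw [ZMod.natCast_eq_zero_iff] at this
        have := Nat.le_of_dvd (by omega) this
        omega
    have hle : (Finset.univ.image g).card ≤ big.toFinset.card := Finset.card_le_card fun u hu => by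
      obtain ⟨⟨j, hj⟩, -, rfl⟩ := Finset.mem_image.1 hu
      exact Multiset.mem_toFinset.2 (Multiset.mem_filter.2
        ⟨(mem_roots hf0).2 (hroot j hj), ha j hj⟩)
    rw [Finset.card_image_of_injective _ hg, Finset.card_univ, Fintype.card_coe, Nat.card_Icc] at hle
    exact (by omega : (p - 1) / 2 ≤ big.toFinset.card).trans big.toFinset_card_le
  -- the coefficient indexed by the number of integral roots
  set small := f.roots.filter fun u => u ∈ A with hsmall
  have hprod : f = C (p : Q̄) * ((big.map fun u => X - C u).prod *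
      (small.map fun u => X - C u).prod) := by
    have hsplit := (IsAlgClosed.splits f).eq_prod_roots
    rw [hlead, ← Multiset.filter_add_not (fun u => u ∉ A) f.roots] at hsplit
    simpa [hbig, hsmall, Multiset.map_add, Multiset.prod_add] using hsplit
  have hsmall' : ∀ u ∈ small, A.valuation u ≤ 1 := fun u hu =>
    (A.valuation_le_one_iff u).2 (Multiset.mem_filter.1 hu).2
  have hbig' : ∀ u ∈ big, 1 < A.valuation u := fun u hu =>
    not_le.1 fun h1 => (Multiset.mem_filter.1 hu).2 ((A.valuation_le_one_iff u).1 h1)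
  have htop : A.valuation (((small.map fun u => X - C u).prod).coeff (Multiset.card small)) = 1 := by
    have hm := monic_multiset_prod_of_monic small (fun u => X - C u) fun u _ => monic_X_sub_C u
    have hdeg := natDegree_multiset_prod_X_sub_C_eq_card small
    rw [← hdeg, hm.coeff_natDegree, map_one]
  obtain ⟨hcoeff, -⟩ := valuation_coeff_prod_large (A := A) _ htop
    (valuation_coeff_prod_le_one small hsmall') big hbig'
  have hrv : ∀ u ∈ big, A.valuation u = A.valuation r := fun u hu => by
    have hr' : f.eval r = 0 := (nsmul_some_eq_zero_iff_root hp hp2 h).1 (by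
      rw [← hZ, ← natCast_zsmul]; exact (Submodule.mem_torsionBy_iff _ _).1 Z.2)
    have h1 := hd u ((mem_roots hf0).1 (Multiset.mem_filter.1 hu).1) (hbig' u hu)
    have h2 := hd r hr' (not_le.1 fun h1 => hr ((A.valuation_le_one_iff r).1 h1))
    have h3 := mul_left_cancel₀ (natCast_valuation_ne_zero hp) (h1.trans h2.symm)
    exact (pow_left_inj₀ zero_le zero_le (by omega)).1 h3
  rw [Multiset.map_congr rfl hrv, Multiset.map_const', Multiset.prod_replicate] at hcoeff
  have hle : A.valuation (f.coeff (Multiset.card small)) ≤ 1 := by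
    rw [hf, valuation_nat_coeff]
    exact intCast_valuation_le_one _
  rw [hprod, coeff_C_mul, map_mul, hcoeff] at hle
  refine le_trans (mul_le_mul' le_rfl (pow_le_pow_right₀ ?_ hcard)) hle
  exact (not_le.1 fun h1 => hr ((A.valuation_le_one_iff r).1 h1)).le

end Fermat.Agent.MazurPrinciple
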