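/-
Mazur's principle at `p`: what is used about `E[p]` at a place `A` over `p`.

`H` is a normal finite-index subgroup of inertia fixing the `p`-torsion and the `p`-th roots of
unity, its fixed constants are discretely valued with index `e`; if `p ∣ e` (wild case) then
`p² ∤ e` and some inertia element with `p`-th power in `H` moves a fixed integral element by at
least as much as a primitive `p`-th root of unity differs from `1`.
-/
import Fermat.Agent.MazurPrinciple.Uniformiser
import Fermat.Prelude.Def_EllipticCurve_FrobeniusTrace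

set_option autoImplicit false

noncomputable section

namespace Fermat.Agent.MazurPrinciple

open WeierstrassCurve WeierstrassCurve.Affine WeierstrassCurve.Affine.Point
open scoped WeierstrassCurve.Affine

local notation "ℚbar" => AlgebraicClosure ℚ
local notation "Γℚ" => AlgebraicClosure ℚ ≃ₐ[ℚ] AlgebraicClosure ℚ

/-- The mod `p` representation of an integral Weierstrass equation. -/
abbrev modRep (W : WeierstrassCurve ℤ) (p : ℕ) :
    Γℚ →* Module.End (ZMod p) (Submodule.torsionBy ℤ
      ((W.map (Int.castRingHom ℚ))⁄ℚbar).Point p) :=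
  galoisRepModuleEnd (S := ℚ) (K := ℚbar) (W.map (Int.castRingHom ℚ)) p

/-- An inertia element whose image is not the cyclotomic scalar on any constituent of `E[p]`:
it moves the roots of unity and has eigenvalue `1`, or no eigenvalue in `𝔽_p`. -/
def IsSeparating (W : WeierstrassCurve ℤ) (p : ℕ) (z : Γℚ) : Prop :=
  (∀ ζ : ℚbar, IsPrimitiveRoot ζ p → z ζ ≠ ζ) ∧
    ((∃ v, v ≠ 0 ∧ modRep W p z v = v) ∨ ∀ (a : ZMod p) (v : Submodule.torsionBy ℤ
      ((W.map (Int.castRingHom ℚ))⁄ℚbar).Point p), modRep W p z v = a • v → v = 0)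

/-- The local input of Mazur's principle at the place `A`. -/
structure LocalData (W : WeierstrassCurve ℤ) (p : ℕ) (A : ValuationSubring ℚbar) where
  /-- the subgroup -/
  H : Subgroup Γℚ
  le_inertia : H ≤ A.inertiaSubgroupIn ℚ
  normal : ∀ σ ∈ A.inertiaSubgroupIn ℚ, ∀ τ ∈ H, σ * τ * σ⁻¹ ∈ H
  rep_eq_one : ∀ σ ∈ H, modRep W p σ = 1
  zeta_fixed : ∀ ζ : ℚbar, ζ ^ p = 1 → IsFixedBy H ζ
  /-- the uniformiser of the fixed constants -/
  U : Uniformiser A p H
  sq_not_dvd : ¬ p ^ 2 ∣ U.e
  wild : p ∣ U.e → ∃ σ ∈ A.inertiaSubgroupIn ℚ, σ ^ p ∈ H ∧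
    ∃ a ∈ A, IsFixedBy H a ∧ σ a ≠ a ∧
      ∀ ζ : ℚbar, IsPrimitiveRoot ζ p → A.valuation (ζ - 1) ≤ A.valuation (σ a - a)
  separating : ∃ z ∈ A.inertiaSubgroupIn ℚ, IsSeparating W p z

end Fermat.Agent.MazurPrinciple

end
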