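/-
Mazur's principle at `p`: the field of functions on `X₀(Mq)` fixed by a subgroup `H` of inertia,
with its two discretely valued reductions (a `RedSystem`), and Galois descent of finite
dimensional stable spaces of expansions.
-/
import Fermat.Agent.MazurPrinciple.Uniformiser
import Fermat.Agent.MP.SecondCompare
import Fermat.Agent.BadReduction.X0Model

set_option autoImplicit false
set_option linter.style.haveILetI false
set_option synthInstance.maxHeartbeats 200000

noncomputable section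

namespace Fermat.Agent.MazurPrinciple

open ModularCurve AlgebraicCurve IsLocalRing
open Fermat.Agent.Carayol Fermat.Agent.BadReduction

local notation "ℚbar" => AlgebraicClosure ℚ
local notation "Γℚ" => AlgebraicClosure ℚ ≃ₐ[ℚ] AlgebraicClosure ℚ

/-! ### Expansions fixed by `H` -/

/-- All coefficients of `f` are fixed by `H`. -/
def IsFixedSeries (H : Subgroup Γℚ) (f : LaurentSeries ℚbar) : Prop :=
  ∀ σ ∈ H, coeffMap (σ : ℚbar →+* ℚbar) f = f

variable {H : Subgroup Γℚ}

theorem isFixedSeries_iff {f : LaurentSeries ℚbar} :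
    IsFixedSeries H f ↔ ∀ n, IsFixedBy H (f.coeff n) := by
  constructor
  · intro h n σ hσ
    conv_rhs => rw [← h σ hσ, coeffMap_coeff]
    rfl
  · intro h σ hσ
    ext n
    rw [coeffMap_coeff]
    exact h n σ hσ

theorem IsFixedSeries.mul {f g : LaurentSeries ℚbar} (hf : IsFixedSeries H f)
    (hg : IsFixedSeries H g) : IsFixedSeries H (f * g) := fun σ hσ => by
  rw [map_mul, hf σ hσ, hg σ hσ]

/-- A series with finitely generated coefficients has finitely many conjugates. -/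
theorem finite_orbit_of_isFinCoeff {f : LaurentSeries ℚbar} (hf : IsFinCoeff f) :
    (Set.range fun σ : Γℚ => coeffMap (σ : ℚbar →+* ℚbar) f).Finite := by
  classical
  obtain ⟨M, ⟨T, hT⟩, hfM⟩ := hf
  let conj : ℚbar → Finset ℚbar := fun t => ((minpoly ℚ t).aroots ℚbar).toFinset
  have hconj : ∀ (σ : Γℚ) (t : ℚbar), σ t ∈ conj t := fun σ t => by
    have hint : IsIntegral ℚ t := Algebra.IsIntegral.isIntegral t
    rw [Multiset.mem_toFinset, Polynomial.mem_aroots]
    refine ⟨minpoly.ne_zero hint, ?_⟩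
    have h := Polynomial.aeval_algHom_apply (σ : ℚbar →ₐ[ℚ] ℚbar) t (minpoly ℚ t)
    rw [minpoly.aeval, map_zero] at h
    exact h
  let code : Γℚ → (∀ t : T, conj (t : ℚbar)) := fun σ t => ⟨σ t, hconj σ t⟩
  refine Set.Finite.subset
    (Set.finite_range fun v : Set.range code =>
      coeffMap ((v.2.choose : Γℚ) : ℚbar →+* ℚbar) f) ?_
  rintro _ ⟨σ, rfl⟩
  refine ⟨⟨code σ, σ, rfl⟩, ?_⟩
  have hv := (⟨σ, rfl⟩ : ∃ σ', code σ' = code σ).choose_spec
  set σ' := (⟨σ, rfl⟩ : ∃ σ', code σ' = code σ).choose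
  ext n
  show (coeffMap (σ' : ℚbar →+* ℚbar) f).coeff n = _
  rw [coeffMap_coeff, coeffMap_coeff]
  have hx : f.coeff n ∈ Submodule.span ℤ (T : Set ℚbar) := hT ▸ hfM n
  refine LinearMap.eqOn_span (R := ℤ) (f := (σ' : ℚbar →+* ℚbar).toAddMonoidHom.toIntLinearMap)
    (g := (σ : ℚbar →+* ℚbar).toAddMonoidHom.toIntLinearMap) (fun t ht => ?_) hx
  exact congrArg Subtype.val (congrFun hv ⟨t, ht⟩)

theorem isFinCoeff_coeffMap {f : LaurentSeries ℚbar} (hf : IsFinCoeff f) (σ : Γℚ) :
    IsFinCoeff (coeffMap (σ : ℚbar →+* ℚbar) f) := by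
  obtain ⟨M, hM, hfM⟩ := hf
  exact ⟨M.map (σ : ℚbar →+* ℚbar).toAddMonoidHom.toIntLinearMap, hM.map _,
    fun n => ⟨f.coeff n, hfM n, by rw [coeffMap_coeff]; rfl⟩⟩

/-- A fixed quotient of series with finitely generated coefficients is a quotient of fixed such. -/
theorem exists_fixed_num_den {f : LaurentSeries ℚbar} (hf : IsFixedSeries H f)
    (hmem : f ∈ finFrac ℚbar) : ∃ a b : LaurentSeries ℚbar, IsFinCoeff a ∧ IsFinCoeff b ∧
      IsFixedSeries H a ∧ IsFixedSeries H b ∧ b ≠ 0 ∧ f * b = a := by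
  classical
  obtain ⟨a, ha, b, hb, hb0, e⟩ := exists_eq_div_of_mem_finFrac hmem
  let orb : Finset (LaurentSeries ℚbar) :=
    (finite_orbit_of_isFinCoeff hb).toFinset.filter fun g =>
      ∃ σ ∈ H, coeffMap (σ : ℚbar →+* ℚbar) b = g
  have hmemorb : ∀ g, g ∈ orb ↔ ∃ σ ∈ H, coeffMap (σ : ℚbar →+* ℚbar) b = g := fun g => by
    simp only [orb, Finset.mem_filter, Set.Finite.mem_toFinset, Set.mem_range]
    exact ⟨fun h => h.2, fun h => ⟨⟨h.choose, h.choose_spec.2⟩, h⟩⟩
  have hb1 : b ∈ orb := (hmemorb b).2 ⟨1, one_mem _, by ext n; rw [coeffMap_coeff]; rfl⟩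
  have hfin : ∀ g ∈ orb, g ∈ finCoeff ℚbar := fun g hg => by
    obtain ⟨σ, -, rfl⟩ := (hmemorb g).1 hg
    exact isFinCoeff_coeffMap hb σ
  have hP : IsFixedSeries H (∏ g ∈ orb, g) := fun σ hσ => by
    rw [map_prod]
    have himg : ∀ g ∈ orb, coeffMap (σ : ℚbar →+* ℚbar) g ∈ orb := fun g hg => by
      obtain ⟨τ, hτ, rfl⟩ := (hmemorb g).1 hg
      refine (hmemorb _).2 ⟨σ * τ, mul_mem hσ hτ, ?_⟩
      rw [coeffMap_coeffMap]
      rfl
    have hinj : Function.Injective (coeffMap (σ : ℚbar →+* ℚbar)) := fun x y h => by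
      ext n
      have := congrArg (fun z : LaurentSeries ℚbar => z.coeff n) h
      simp only [coeffMap_coeff] at this
      exact σ.injective this
    have heq : orb.image (coeffMap (σ : ℚbar →+* ℚbar)) = orb :=
      Finset.eq_of_subset_of_card_le (Finset.image_subset_iff.2 himg)
        (le_of_eq (Finset.card_image_of_injective _ hinj).symm)
    conv_rhs => rw [← heq]
    rw [Finset.prod_image fun x _ y _ h => hinj h]
  refine ⟨f * ∏ g ∈ orb, g, ∏ g ∈ orb, g, ?_, (finCoeff ℚbar).prod_mem hfin, hf.mul hP, hP,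
    ?_, rfl⟩
  · rw [← Finset.mul_prod_erase _ _ hb1, ← mul_assoc, e]
    exact (finCoeff ℚbar).mul_mem ha
      ((finCoeff ℚbar).prod_mem fun g hg => hfin g (Finset.mem_of_mem_erase hg))
  · refine Finset.prod_ne_zero_iff.2 fun g hg h0 => hb0 ?_
    obtain ⟨σ, -, rfl⟩ := (hmemorb g).1 hg
    ext n
    have := congrArg (fun z : LaurentSeries ℚbar => z.coeff n) h0
    simpa [coeffMap_coeff] using this

/-- A fixed series with finitely generated coefficients is a fixed constant times a primitive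
series. -/
theorem exists_fixed_primitive (A : ValuationSubring ℚbar) {f : LaurentSeries ℚbar}
    (hf : IsFinCoeff f) (hfix : IsFixedSeries H f) (hf0 : f ≠ 0) :
    ∃ c : ℚbar, c ≠ 0 ∧ IsFixedBy H c ∧ ∃ y : LaurentSeries A,
      coeffMap A.subtype y = HahnSeries.single 0 c * f ∧ coeffMap (residue A) y ≠ 0 := by
  obtain ⟨n₀, hn₀, hmax⟩ := hf.exists_max A hf0
  have hmem : ∀ n, (f.coeff n₀)⁻¹ * f.coeff n ∈ A := fun n => by
    rw [← A.valuation_le_one_iff, map_mul, map_inv₀,
      inv_mul_le_one₀ (zero_lt_iff.2 ((Valuation.ne_zero_iff _).2 hn₀))]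
    exact hmax n
  refine ⟨(f.coeff n₀)⁻¹, inv_ne_zero hn₀, (isFixedSeries_iff.1 hfix n₀).inv,
    ⟨fun n => ⟨_, hmem n⟩, f.isPWO_support.mono fun n hn h0 => hn (Subtype.ext ?_)⟩, ?_, ?_⟩
  · show (f.coeff n₀)⁻¹ * f.coeff n = 0
    rw [h0, mul_zero]
  · ext n
    rw [coeffMap_coeff, HahnSeries.coeff_single_zero_mul]
    rfl
  · intro h0
    have h1 := congrArg (fun z : LaurentSeries (ResidueField A) => z.coeff n₀) h0
    simp only [coeffMap_coeff, HahnSeries.coeff_zero] at h1
    rw [show (⟨(f.coeff n₀)⁻¹ * f.coeff n₀, hmem n₀⟩ : A) = 1 from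
      Subtype.ext (inv_mul_cancel₀ hn₀), map_one] at h1
    exact one_ne_zero h1

/-! ### Descent -/

/-- A finite dimensional stable space of expansions has an echelon basis of fixed expansions. -/
theorem exists_fixed_echelon : ∀ (d : ℕ) (V : Submodule ℚbar (LaurentSeries ℚbar))
    [FiniteDimensional ℚbar V], Module.finrank ℚbar V = d →
    (∀ σ ∈ H, ∀ v ∈ V, coeffMap (σ : ℚbar →+* ℚbar) v ∈ V) →
    ∃ (S : Finset ℤ) (b : ℤ → LaurentSeries ℚbar),
      (∀ s ∈ S, b s ∈ V ∧ IsFixedSeries H (b s) ∧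
        ∀ t ∈ S, (b s).coeff t = if t = s then 1 else 0) ∧
      ∀ v ∈ V, (∀ s ∈ S, v.coeff s = 0) → v = 0 := by
  classical
  intro d
  induction d using Nat.strong_induction_on with
  | _ d ih =>
    intro V _ hd hV
    by_cases h0 : ∀ v ∈ V, v = 0
    · exact ⟨∅, fun _ => 0, by simp, fun v hv _ => h0 v hv⟩
    push Not at h0
    obtain ⟨w, hw, hw0⟩ := h0
    obtain ⟨n, hn⟩ : ∃ n, w.coeff n ≠ 0 := by
      by_contra h
      push Not at h
      exact hw0 (HahnSeries.ext (funext h))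
    let V' : Submodule ℚbar (LaurentSeries ℚbar) :=
      { carrier := {v | v ∈ V ∧ v.coeff n = 0}
        zero_mem' := ⟨V.zero_mem, rfl⟩
        add_mem' := fun {a b} ha hb => ⟨V.add_mem ha.1 hb.1, by
          rw [HahnSeries.coeff_add, ha.2, hb.2, add_zero]⟩
        smul_mem' := fun c v hv => ⟨V.smul_mem c hv.1, by
          rw [HahnSeries.coeff_smul, hv.2, smul_zero]⟩ }
    have hle : V' ≤ V := fun v hv => hv.1
    haveI : FiniteDimensional ℚbar V' := Submodule.finiteDimensional_of_le hle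
    have hlt : Module.finrank ℚbar V' < d := hd ▸ Submodule.finrank_lt_finrank_of_lt
      (lt_of_le_of_ne hle fun h => hn (h.symm ▸ hw : w ∈ V').2)
    obtain ⟨S', b', hb', hsep'⟩ := ih _ hlt V' rfl fun σ hσ v hv =>
      ⟨hV σ hσ v hv.1, by rw [coeffMap_coeff, hv.2, map_zero]⟩
    have hns : n ∉ S' := fun hns => by
      have h1 := (hb' n hns).2.2 n hns
      rw [if_pos rfl, (hb' n hns).1.2] at h1
      exact zero_ne_one h1
    let v0 : LaurentSeries ℚbar := (w.coeff n)⁻¹ • w
    let v1 : LaurentSeries ℚbar := v0 - ∑ s ∈ S', v0.coeff s • b' s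
    have hv1V : v1 ∈ V := V.sub_mem (V.smul_mem _ hw)
      (V.sum_mem fun s hs => V.smul_mem _ (hle (hb' s hs).1))
    have hcoeff : ∀ (c : ℚbar) (x : LaurentSeries ℚbar) (m : ℤ),
        (c • x).coeff m = c * x.coeff m := fun c x m => by
      rw [HahnSeries.coeff_smul, smul_eq_mul]
    have hv1n : v1.coeff n = 1 := by
      simp only [v1, v0, HahnSeries.coeff_sub, HahnSeries.coeff_sum, hcoeff]
      rw [inv_mul_cancel₀ hn, Finset.sum_eq_zero, sub_zero]
      intro s hs
      rw [(hb' s hs).1.2, mul_zero]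
    have hv1S : ∀ t ∈ S', v1.coeff t = 0 := fun t ht => by
      simp only [v1, HahnSeries.coeff_sub, HahnSeries.coeff_sum, hcoeff]
      rw [Finset.sum_eq_single t (fun s hs hst => by
        rw [(hb' s hs).2.2 t ht, if_neg (Ne.symm hst), mul_zero]) (fun h => absurd ht h),
        (hb' t ht).2.2 t ht, if_pos rfl, mul_one, sub_self]
    have hv1fix : IsFixedSeries H v1 := fun σ hσ => by
      rw [← sub_eq_zero]
      refine hsep' _ ⟨V.sub_mem (hV σ hσ v1 hv1V) hv1V, ?_⟩ fun s hs => ?_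
      · rw [HahnSeries.coeff_sub, coeffMap_coeff, hv1n, map_one, sub_self]
      · rw [HahnSeries.coeff_sub, coeffMap_coeff, hv1S s hs, map_zero, sub_self]
    refine ⟨insert n S', Function.update b' n v1, ?_, fun v hv hvS => hsep' v
      ⟨hv, hvS n (Finset.mem_insert_self _ _)⟩ fun s hs => hvS s (Finset.mem_insert_of_mem hs)⟩
    intro s hs0
    by_cases hsn : s = n
    · subst hsn
      rw [Function.update_self]
      refine ⟨hv1V, hv1fix, fun t ht => ?_⟩
      by_cases hts : t = s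
      · rw [if_pos hts, hts, hv1n]
      · rw [if_neg hts, hv1S t ((Finset.mem_insert.1 ht).resolve_left hts)]
    · have hs : s ∈ S' := (Finset.mem_insert.1 hs0).resolve_left hsn
      rw [Function.update_of_ne hsn]
      refine ⟨hle (hb' s hs).1, (hb' s hs).2.1, fun t ht => ?_⟩
      by_cases htn : t = n
      · rw [htn, if_neg (fun h : n = s => hsn h.symm), (hb' s hs).1.2]
      · exact (hb' s hs).2.2 t ((Finset.mem_insert.1 ht).resolve_left htn)

/-! ### The fixed field of `X₀(Mq)` and its reductions -/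

variable {M q : ℕ} [NeZero M] [hq : Fact q.Prime]

local instance neZero_prime_fixed : NeZero q := ⟨hq.out.ne_zero⟩

variable (M q H) in
/-- The functions on `X₀(Mq)` fixed by `H`. -/
def fixedFun : Subfield (X0F M q) :=
  ⨅ σ : H, RingHom.eqLocusField
    (arithmeticRingAut (L := ℚbar) (modularFunctionFieldFull (M * q)) (σ : Γℚ) : X0F M q →+* X0F M q)
    (RingHom.id _)

omit [NeZero M] hq in
theorem mem_fixedFun {f : X0F M q} : f ∈ fixedFun H M q ↔
    ∀ σ ∈ H, arithmeticGalois (modularFunctionFieldFull (M * q)) σ • f = f := by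
  simp only [fixedFun, Subfield.mem_iInf, Subtype.forall]
  exact forall₂_congr fun σ _ => Iff.rfl

omit [NeZero M] hq in
theorem mem_fixedFun_iff_series {f : X0F M q} :
    f ∈ fixedFun H M q ↔ IsFixedSeries H (f : LaurentSeries ℚbar) := by
  rw [mem_fixedFun]
  refine forall₂_congr fun σ _ => ?_
  rw [← Subtype.coe_inj, coe_galois_smul]

theorem algebraMap_mem_fixedFun {c : ℚbar} (hc : IsFixedBy H c) :
    algebraMap ℚbar (X0F M q) c ∈ fixedFun H M q := by
  rw [mem_fixedFun_iff_series]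
  intro σ hσ
  show coeffMap _ (algebraMap ℚbar (LaurentSeries ℚbar) c) = algebraMap ℚbar _ c
  rw [algebraMap_laurentSeries_eq_single, coeffMap_single]
  exact congrArg _ (hc σ hσ)

/-- A finite dimensional stable space of functions is spanned by its fixed functions. -/
theorem le_span_fixedFun (V : Submodule ℚbar (X0F M q)) [FiniteDimensional ℚbar V]
    (hV : ∀ σ ∈ H, ∀ v ∈ V, arithmeticGalois (modularFunctionFieldFull (M * q)) σ • v ∈ V) :
    V ≤ Submodule.span ℚbar ((V : Set (X0F M q)) ∩ fixedFun H M q) := by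
  classical
  let ι : X0F M q →ₗ[ℚbar] LaurentSeries ℚbar :=
    { toFun := fun x => (x : LaurentSeries ℚbar)
      map_add' := fun _ _ => rfl
      map_smul' := fun c x => by
        show ((c • x : X0F M q) : LaurentSeries ℚbar) = c • (x : LaurentSeries ℚbar)
        rw [IntermediateField.coe_smul]
        first
          | rfl
          | (rw [Algebra.smul_def, algebraMap_laurentSeries_eq_single]
             ext n
             rw [HahnSeries.coeff_single_zero_mul, HahnSeries.coeff_smul, smul_eq_mul]) }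
  obtain ⟨S, b, hb, hsep⟩ := exists_fixed_echelon (H := H) _ (V.map ι) rfl
    (by
      rintro σ hσ _ ⟨v, hv, rfl⟩
      exact ⟨_, hV σ hσ v hv, coe_galois_smul σ v⟩)
  intro v hv
  have hmem : ∀ s : S, ∃ w : X0F M q, w ∈ V ∧ w ∈ fixedFun H M q ∧ ι w = b s := fun s => by
    obtain ⟨⟨w, hw, hwb⟩, hfix, -⟩ := hb s s.2
    refine ⟨w, hw, mem_fixedFun_iff_series.2 ?_, hwb⟩
    show IsFixedSeries H (ι w)
    rw [hwb]
    exact hfix
  choose w hwV hwF hwb using hmem
  let u : X0F M q := v - ∑ s : S, ((ι v).coeff (s : ℤ)) • w s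
  have hu : u ∈ V := V.sub_mem hv (V.sum_mem fun s _ => V.smul_mem _ (hwV s))
  have hu0 : ι u = 0 := hsep _ ⟨u, hu, rfl⟩ fun t ht => by
    simp only [u, map_sub, map_sum, map_smul]
    rw [HahnSeries.coeff_sub, HahnSeries.coeff_sum, Finset.sum_eq_single (⟨t, ht⟩ : S)]
    · rw [HahnSeries.coeff_smul, hwb, (hb t ht).2.2 t ht, if_pos rfl, smul_eq_mul, mul_one,
        sub_self]
    · intro s _ hst
      rw [HahnSeries.coeff_smul, hwb, (hb s s.2).2.2 t ht,
        if_neg (fun h => hst (Subtype.ext h.symm)), smul_zero]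
    · exact fun h => absurd (Finset.mem_univ _) h
  have huv : u = 0 := Subtype.ext hu0
  rw [sub_eq_zero.1 huv]
  exact Submodule.sum_mem _ fun s _ =>
    Submodule.smul_mem _ _ (Submodule.subset_span ⟨hwV s, hwF s⟩)

variable (hqM : ¬ q ∣ M) (A : ValuationSubring ℚbar) (hA : A.LiesOverPrime q)

/-- A fixed function is scaled by a fixed constant to have non-zero reduction. -/
theorem exists_fixed_scale (i : Fin 2) {f : X0F M q} (hf : f ∈ fixedFun H M q) (hf0 : f ≠ 0) :
    ∃ c : ℚbar, IsFixedBy H c ∧ ∃ h : c • f ∈ compV hqM A i,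
      compPhi hqM A hA i ⟨c • f, h⟩ ≠ 0 := by
  have main : ∀ g : X0F M q, g ∈ fixedFun H M q → g ≠ 0 → ∃ c : ℚbar, IsFixedBy H c ∧
      ∃ h : c • g ∈ infV M q A, infRed M q A ⟨c • g, h⟩ ≠ 0 := by
    intro g hg hg0
    have hmem := modularFunctionFieldBar_le_finFrac (M * q) g.2
    obtain ⟨a, b, ha, hb, hafix, hbfix, hb0, e⟩ :=
      exists_fixed_num_den (mem_fixedFun_iff_series.1 hg) hmem
    have hg0' : (g : LaurentSeries ℚbar) ≠ 0 := fun h => hg0 (Subtype.ext h)
    have ha0 : a ≠ 0 := e ▸ mul_ne_zero hg0' hb0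
    obtain ⟨c, hc, hcfix, y, hy, hy0⟩ := exists_fixed_primitive A ha hafix ha0
    obtain ⟨d, hd, hdfix, z, hz, hz0⟩ := exists_fixed_primitive A hb hbfix hb0
    have key : ((c / d) • g : X0F M q).1 * coeffMap A.subtype z = coeffMap A.subtype y := by
      rw [hy, hz, IntermediateField.coe_smul, Algebra.smul_def,
        algebraMap_laurentSeries_eq_single, ← e]
      have h1 : HahnSeries.single (0 : ℤ) (c / d) * HahnSeries.single (0 : ℤ) d
          = HahnSeries.single (0 : ℤ) c := by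
        rw [HahnSeries.single_mul_single, add_zero, div_mul_cancel₀ c hd]
      rw [← h1]
      ring
    have hmemV : (c / d) • g ∈ infV M q A := ⟨y, z, hz0, key⟩
    refine ⟨c / d, by rw [div_eq_mul_inv]; exact hcfix.mul hdfix.inv, hmemV, ?_⟩
    rw [infRed_eq A ⟨_, hmemV⟩ hz0 key]
    exact div_ne_zero hy0 hz0
  fin_cases i
  · obtain ⟨c, hc, h, hne⟩ := main f hf hf0
    exact ⟨c, hc, h, fun h0 => hne (congrArg Subtype.val h0)⟩
  · have hw : atkinLehner hqM f ∈ fixedFun H M q := mem_fixedFun.2 fun σ hσ => by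
      rw [← atkinLehner_galois, mem_fixedFun.1 hf σ hσ]
    obtain ⟨c, hc, h, hne⟩ := main _ hw ((map_ne_zero (atkinLehner hqM)).2 hf0)
    have hmem : c • f ∈ compV hqM A 1 := by
      rw [mem_compV_one, atkinLehner_smul]; exact h
    refine ⟨c, hc, hmem, fun h0 => hne ?_⟩
    have h1 := congrArg Subtype.val h0
    erw [coe_compPhi_one] at h1
    refine Eq.trans ?_ h1
    congr 1
    exact Subtype.ext (atkinLehner_smul hqM c f).symm

variable {A} (U : Uniformiser A q H)

/-- The uniformiser as a fixed function. -/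
def fixedπ : fixedFun H M q := ⟨algebraMap ℚbar _ U.π, algebraMap_mem_fixedFun U.fixed⟩

omit hq in
theorem Uniformiser.exists_zpow_mul {c : ℚbar} (hc : c ≠ 0) (hcfix : IsFixedBy H c) :
    ∃ (i : ℤ) (u : A), c = U.π ^ i * u ∧ A.valuation (u : ℚbar) = 1 := by
  obtain ⟨i, hi⟩ := U.exists_zpow c hc hcfix
  have h1 : A.valuation (c / U.π ^ i) = 1 := by
    rw [map_div₀, map_zpow₀, hi, div_self]
    exact zpow_ne_zero _ ((Valuation.ne_zero_iff _).2 U.ne_zero)
  exact ⟨i, ⟨c / U.π ^ i, (A.valuation_le_one_iff _).1 h1.le⟩,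
    (mul_div_cancel₀ c (zpow_ne_zero _ U.ne_zero)).symm, h1⟩

theorem compPhi_smul (i : Fin 2) (a : A) {f : X0F M q} (hf : f ∈ compV hqM A i) :
    ∃ h : (a : ℚbar) • f ∈ compV hqM A i,
      compPhi hqM A hA i ⟨_, h⟩ =
        algebraMap (ResidueField A) (X0Res M A) (residue A a) * compPhi hqM A hA i ⟨f, hf⟩ := by
  have hmem : (a : ℚbar) • f ∈ compV hqM A i := by
    rw [Algebra.smul_def]
    exact mul_mem ((algebraMap_mem_compV_iff hqM A i _).2 a.2) hf
  refine ⟨hmem, ?_⟩
  rw [← compPhi_algebraMap hqM A hA i a, ← map_mul]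
  exact congrArg _ (Subtype.ext (Algebra.smul_def _ _))

/-- The discretely valued reduction of the fixed field on the component `i`. -/
def fixedRed (i : Fin 2) : UnifRed (fixedFun H M q) (fixedπ U) (X0Res M A) where
  V := (compV hqM A i).toSubring.comap (fixedFun H M q).subtype
  π_mem := (algebraMap_mem_compV_iff hqM A i _).2
    ((A.valuation_le_one_iff _).1 ((A.mem_nonunits_iff).1 U.mem_nonunits).le)
  φ := (compPhi hqM A hA i).comp
    (((fixedFun H M q).subtype.comp
      ((compV hqM A i).toSubring.comap (fixedFun H M q).subtype).subtype).codRestrict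
        (compV hqM A i) fun x => x.2)
  π_ne_zero := fun h => U.ne_zero ((algebraMap ℚbar (X0F M q)).injective
    ((congrArg Subtype.val h).trans (map_zero _).symm))
  φ_π := by
    have hπA : U.π ∈ A := (A.valuation_le_one_iff _).1 ((A.mem_nonunits_iff).1 U.mem_nonunits).le
    refine (compPhi_algebraMap hqM A hA i ⟨U.π, hπA⟩).trans ?_
    rw [(residue_eq_zero_iff _).2 ((ValuationSubring.coe_mem_nonunits_iff (A := A)).1
      U.mem_nonunits), map_zero]
  exists_eq_π_mul := by
    rintro ⟨⟨x, hx⟩, hxV⟩ h0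
    change x ∈ compV hqM A i at hxV
    change compPhi hqM A hA i ⟨x, hxV⟩ = 0 at h0
    rcases eq_or_ne x 0 with rfl | hx0
    · exact ⟨0, Subtype.ext (by simp)⟩
    obtain ⟨c, hcfix, hcV, hc⟩ := exists_fixed_scale hqM A hA i hx hx0
    have hc0 : c ≠ 0 := by
      rintro rfl
      refine hc ?_
      rw [show (⟨(0 : ℚbar) • x, hcV⟩ : compV hqM A i) = 0 from Subtype.ext (zero_smul _ x),
        map_zero]
    obtain ⟨j, u, hcu, huv⟩ := U.exists_zpow_mul hc0 hcfix
    -- if `j ≥ 0` then `c` is integral and the reduction of `c • x` vanishes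
    have hj : j < 0 := by
      by_contra hj
      refine hc ?_
      have hcA : c ∈ A := by
        rw [hcu, ← A.valuation_le_one_iff, map_mul, huv, mul_one, map_zpow₀]
        lift j to ℕ using (by omega) with j'
        rw [zpow_natCast]
        exact pow_le_one₀ zero_le ((A.mem_nonunits_iff).1 U.mem_nonunits).le
      obtain ⟨h, he⟩ := compPhi_smul hqM hA i ⟨c, hcA⟩ hxV
      rw [he, h0, mul_zero]
    obtain ⟨m, rfl⟩ : ∃ m : ℕ, j = -((m : ℤ) + 1) :=
      ⟨(-j - 1).toNat, by rw [Int.toNat_of_nonneg (by omega)]; ring⟩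
    have huA : (U.π ^ m * (u : ℚbar)⁻¹) ∈ A := by
      rw [← A.valuation_le_one_iff, map_mul, map_inv₀, huv, inv_one, mul_one, map_pow]
      exact pow_le_one₀ zero_le ((A.mem_nonunits_iff).1 U.mem_nonunits).le
    obtain ⟨hmem, -⟩ := compPhi_smul hqM hA i ⟨_, huA⟩ hcV
    have hfix : IsFixedBy H (U.π⁻¹) := U.fixed.inv
    refine ⟨⟨⟨U.π⁻¹ • x, ?_⟩, ?_⟩, ?_⟩
    · rw [Algebra.smul_def]
      exact mul_mem (algebraMap_mem_fixedFun hfix) hx
    · show U.π⁻¹ • x ∈ compV hqM A i
      convert hmem using 1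
      rw [smul_smul, hcu]
      congr 1
      have hu0 : (u : ℚbar) ≠ 0 := fun h => by simp [h] at huv
      rw [zpow_neg, ← Nat.cast_add_one, zpow_natCast]
      field_simp [U.ne_zero, hu0]
      ring
    · refine Subtype.ext ?_
      show x = algebraMap ℚbar (X0F M q) U.π * (U.π⁻¹ • x)
      rw [← Algebra.smul_def, smul_smul, mul_inv_cancel₀ U.ne_zero, one_smul]
  inv_mem := by
    rintro ⟨⟨x, hx⟩, hxV⟩ h0
    change x ∈ compV hqM A i at hxV
    change compPhi hqM A hA i ⟨x, hxV⟩ ≠ 0 at h0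
    show x⁻¹ ∈ compV hqM A i
    have hx0 : x ≠ 0 := fun h => h0 (by subst h; exact map_zero _)
    obtain ⟨c, -, hcV, hc⟩ := exists_fixed_scale hqM A hA i (inv_mem hx) (inv_ne_zero hx0)
    have hcA : c ∈ A := by
      rw [← algebraMap_mem_compV_iff hqM A i, ← mul_one (algebraMap _ _ c),
        ← inv_mul_cancel₀ hx0, ← mul_assoc, ← Algebra.smul_def]
      exact mul_mem hcV hxV
    have hne : residue A ⟨c, hcA⟩ ≠ 0 := fun h => by
      have h1 : compPhi hqM A hA i ⟨c • x⁻¹, hcV⟩ * compPhi hqM A hA i ⟨x, hxV⟩ ≠ 0 :=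
        mul_ne_zero hc h0
      refine h1 ?_
      rw [← map_mul]
      have e : (⟨c • x⁻¹, hcV⟩ * ⟨x, hxV⟩ : compV hqM A i) =
          ⟨algebraMap ℚbar _ c, (algebraMap_mem_compV_iff hqM A i c).2 hcA⟩ := Subtype.ext (by
        show c • x⁻¹ * x = _
        rw [Algebra.smul_def, mul_assoc, inv_mul_cancel₀ hx0, mul_one])
      rw [e]
      exact (compPhi_algebraMap hqM A hA i ⟨c, hcA⟩).trans (by rw [h, map_zero])
    have hc0 : c ≠ 0 := fun h => hne (by subst h; exact map_zero _)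
    have hcinv : c⁻¹ ∈ A := by
      rw [← A.valuation_le_one_iff, map_inv₀, AtP.valuation_eq_one hcA, inv_one]
      exact fun h => hne ((residue_eq_zero_iff _).2 ((ValuationSubring.coe_mem_nonunits_iff).1 h))
    obtain ⟨h, -⟩ := compPhi_smul hqM hA i ⟨_, hcinv⟩ hcV
    rwa [smul_smul, inv_mul_cancel₀ hc0, one_smul] at h

/-- Integral fixed constants lead with their residue. -/
theorem lead_fixedConst (i : Fin 2) {c : ℚbar} (hc : IsFixedBy H c) (hcA : c ∈ A) :
    (fixedRed hqM hA U i).Lead 0 ⟨algebraMap ℚbar (X0F M q) c, algebraMap_mem_fixedFun hc⟩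
      (algebraMap (ResidueField A) (X0Res M A) (residue A ⟨c, hcA⟩)) := by
  refine ⟨⟨⟨algebraMap ℚbar (X0F M q) c, algebraMap_mem_fixedFun hc⟩,
    (algebraMap_mem_compV_iff hqM A i c).2 hcA⟩, ?_, compPhi_algebraMap hqM A hA i ⟨c, hcA⟩⟩
  rw [pow_zero, one_mul]

/-- The constants fixed by `H`, inside the fixed field. -/
def fixedConst : Subfield (fixedFun H M q) where
  carrier := {x | ∃ c : ℚbar, IsFixedBy H c ∧ (x : X0F M q) = algebraMap ℚbar _ c}
  one_mem' := ⟨1, fun σ _ => map_one σ, (map_one _).symm⟩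
  zero_mem' := ⟨0, fun σ _ => map_zero σ, (map_zero _).symm⟩
  add_mem' := by
    rintro a b ⟨c, hc, ha⟩ ⟨d, hd, hb⟩
    exact ⟨c + d, fun σ hσ => by rw [map_add, hc σ hσ, hd σ hσ],
      by rw [map_add, ← ha, ← hb]; rfl⟩
  mul_mem' := by
    rintro a b ⟨c, hc, ha⟩ ⟨d, hd, hb⟩
    exact ⟨c * d, hc.mul hd, by rw [map_mul, ← ha, ← hb]; rfl⟩
  neg_mem' := by
    rintro a ⟨c, hc, ha⟩
    exact ⟨-c, fun σ hσ => by rw [map_neg, hc σ hσ], by rw [map_neg, ← ha]; rfl⟩
  inv_mem' := by
    rintro a ⟨c, hc, ha⟩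
    exact ⟨c⁻¹, hc.inv, by rw [map_inv₀, ← ha]; rfl⟩

include hA in
/-- The two reductions of the fixed field. -/
def fixedSystem (hq2 : q.Prime) (hH : H ≤ A.inertiaSubgroupIn ℚ) :
    RedSystem (fixedFun H M q) (fixedπ U) (ResidueField A) (fun _ : Fin 2 => X0Res M A) where
  R := fixedRed hqM hA U
  Kc := fixedConst
  π_mem_Kc := ⟨U.π, U.fixed, rfl⟩
  exists_const c := by
    obtain ⟨⟨a, ha⟩, rfl⟩ := residue_surjective c
    obtain ⟨z, hzA, hzfix, haz⟩ := exists_fixed_lift hq2 hA ha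
    refine ⟨⟨algebraMap ℚbar _ z, algebraMap_mem_fixedFun (hzfix.mono hH)⟩,
      ⟨z, hzfix.mono hH, rfl⟩, fun b => ?_⟩
    have h : residue A ⟨a, ha⟩ = residue A ⟨z, hzA⟩ := by
      rw [← sub_eq_zero, ← map_sub, residue_eq_zero_iff, ← ValuationSubring.coe_mem_nonunits_iff]
      exact haz
    rw [h]
    exact lead_fixedConst hqM hA U b (hzfix.mono hH) hzA
  const_residue := by
    rintro ⟨x, hx⟩ ⟨c, hcfix, hxc⟩ b ⟨y, hy⟩
    change x = algebraMap ℚbar (X0F M q) c at hxc
    subst hxc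
    have hy' : algebraMap ℚbar (X0F M q) c ∈ compV hqM A b := by
      have h1 := congrArg Subtype.val hy
      simp only [pow_zero, one_mul] at h1
      exact h1 ▸ y.2
    have hcA : c ∈ A := (algebraMap_mem_compV_iff hqM A b c).1 hy'
    exact ⟨residue A ⟨c, hcA⟩, fun b' => lead_fixedConst hqM hA U b' hcfix hcA⟩

end Fermat.Agent.MazurPrinciple

end
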