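/-
Mazur's principle at `p`: the `Descent` of the reduction of `X₀(Mq)` to the functions fixed by a
subgroup `H` of inertia.
-/
import Fermat.Agent.MazurPrinciple.FixedField
import Fermat.Agent.MP.SecondDescent
import Fermat.Agent.BadReduction.X0Reduction

set_option autoImplicit false
set_option linter.style.haveILetI false
set_option synthInstance.maxHeartbeats 200000

noncomputable section

namespace Fermat.Agent.MazurPrinciple

open ModularCurve AlgebraicCurve IsLocalRing
open Fermat.Agent.BadReduction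

local notation "ℚbar" => AlgebraicClosure ℚ
local notation "Γℚ" => AlgebraicClosure ℚ ≃ₐ[ℚ] AlgebraicClosure ℚ

/-- The constants fixed by `H`. -/
def fixedK (H : Subgroup Γℚ) : Subfield ℚbar where
  carrier := {c | IsFixedBy H c}
  one_mem' σ _ := map_one σ
  zero_mem' σ _ := map_zero σ
  add_mem' {a b} ha hb σ hσ := by rw [map_add, ha σ hσ, hb σ hσ]
  mul_mem' ha hb := ha.mul hb
  neg_mem' {a} ha σ hσ := by rw [map_neg, ha σ hσ]
  inv_mem' _ ha := ha.inv

theorem mem_fixedK {H : Subgroup Γℚ} {c : ℚbar} : c ∈ fixedK H ↔ IsFixedBy H c := Iff.rfl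

variable {M q : ℕ} [NeZero M] [hq : Fact q.Prime]

local instance neZero_prime_descent : NeZero q := ⟨hq.out.ne_zero⟩

variable (hqM : ¬ q ∣ M) {A : ValuationSubring ℚbar} (hA : A.LiesOverPrime q) {H : Subgroup Γℚ}

/-- The fixed constants and fixed functions of `X₀(Mq)`, with the uniformiser `U`. -/
def x0Descent (hH : H ≤ A.inertiaSubgroupIn ℚ) (U : Uniformiser A q H) :
    Move.Descent (x0Reduction hqM A hA) where
  K0 := fixedK H
  F0 := fixedFun H M q
  algebraMap_mem _ ha := algebraMap_mem_fixedFun ha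
  ϖ := U.π
  ϖ_mem := U.fixed
  ϖ_ne_zero := U.ne_zero
  ϖ_nonunit := U.mem_nonunits
  div_ϖ := by
    intro a ha hanu
    rcases eq_or_ne a 0 with rfl | ha0
    · simp
    obtain ⟨i, u, hiu, hu⟩ := U.exists_zpow_mul ha0 ha
    have hπz : A.valuation U.π ≠ 0 := (Valuation.ne_zero_iff _).2 U.ne_zero
    have hπ1 : A.valuation U.π < 1 := (A.mem_nonunits_iff).1 U.mem_nonunits
    have h1 : A.valuation a < 1 := (A.mem_nonunits_iff).1 hanu
    rw [hiu, map_mul, hu, mul_one, map_zpow₀] at h1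
    have hi : 1 ≤ i := by
      by_contra hcon
      exact h1.not_ge (one_le_zpow_of_nonpos₀ (zero_lt_iff.2 hπz) hπ1.le (by omega))
    obtain ⟨m, rfl⟩ : ∃ m : ℕ, i = (m : ℤ) + 1 := ⟨(i - 1).toNat, by omega⟩
    rw [← A.valuation_le_one_iff, map_div₀, hiu, map_mul, hu, mul_one, map_zpow₀,
      zpow_add_one₀ hπz, zpow_natCast, mul_div_cancel_right₀ _ hπz]
    exact pow_le_one₀ zero_le hπ1.le
  exists_lift := by
    intro c
    obtain ⟨⟨a, ha⟩, rfl⟩ := residue_surjective c
    obtain ⟨z, hzA, hzfix, haz⟩ := exists_fixed_lift hq.out hA ha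
    refine ⟨⟨z, hzA⟩, hzfix.mono hH, ?_⟩
    show residue A ⟨z, hzA⟩ = residue A ⟨a, ha⟩
    symm
    rw [← sub_eq_zero, ← map_sub, residue_eq_zero_iff, ← ValuationSubring.coe_mem_nonunits_iff]
    exact haz
  exists_pow_mul_mem := by
    intro a ha
    rcases eq_or_ne a 0 with rfl | ha0
    · exact ⟨0, by simp⟩
    obtain ⟨i, u, hiu, hu⟩ := U.exists_zpow_mul ha0 ha
    refine ⟨(-i).toNat, ?_⟩
    have hπz : A.valuation U.π ≠ 0 := (Valuation.ne_zero_iff _).2 U.ne_zero
    have hπ1 : A.valuation U.π < 1 := (A.mem_nonunits_iff).1 U.mem_nonunits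
    rw [← A.valuation_le_one_iff, map_mul, map_pow, hiu, map_mul, hu, mul_one, map_zpow₀,
      ← zpow_natCast, ← zpow_add₀ hπz]
    obtain ⟨m, hm⟩ : ∃ m : ℕ, ((-i).toNat : ℤ) + i = m := ⟨(((-i).toNat : ℤ) + i).toNat, by omega⟩
    rw [hm, zpow_natCast]
    exact pow_le_one₀ zero_le hπ1.le
  exists_scale := by
    intro i f hf hf0
    obtain ⟨c, hc, h⟩ := exists_fixed_scale hqM A hA i hf hf0
    exact ⟨c, hc, h⟩
  indep := by
    intro n v hv hli
    refine Move.indep_of_fixed (K₀ := fixedK H) (F₀ := fixedFun H M q)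
      (fun σ : H => ((σ : Γℚ) : ℚbar →+* ℚbar))
      (fun σ : H => (arithmeticRingAut (L := ℚbar) (modularFunctionFieldFull (M * q)) (σ : Γℚ) :
        X0F M q →+* X0F M q)) (fun σ c => ?_) (fun c hc σ hσ => hc ⟨σ, hσ⟩) (fun f hf σ => ?_)
      v hv hli
    · exact arithmeticRingAut_algebraMap _ _ _
    · exact mem_fixedFun.1 hf σ σ.2

end Fermat.Agent.MazurPrinciple

end
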