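/-
Mazur's principle at `p`: Galois on the fixed functions of `X₀(Mq)`, and the representatives
`(D, f)` of `H`-fixed `q`-torsion classes.
-/
import Fermat.Agent.MazurPrinciple.X0Descent
import Fermat.Agent.MP.SecondBridgeMain
import Fermat.Agent.Residual.FixPlacesInj
import Fermat.Prelude.Def_ModularCurve_ArithmeticGalois
import Fermat.Agent.BadReduction.X0FrobeniusAction
import Fermat.Agent.BadReduction.X0DegreeBound

set_option autoImplicit false
set_option linter.style.haveILetI false
set_option synthInstance.maxHeartbeats 200000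

noncomputable section

namespace Fermat.Agent.MazurPrinciple

open ModularCurve AlgebraicCurve IsLocalRing
open Fermat.Agent.BadReduction Fermat.Agent.Curve Fermat.Agent.Curve.RedAux
open Fermat.Agent.Bad

local notation "ℚbar" => AlgebraicClosure ℚ
local notation "Γℚ" => AlgebraicClosure ℚ ≃ₐ[ℚ] AlgebraicClosure ℚ

variable {M q : ℕ} [NeZero M] [hq : Fact q.Prime]

local instance neZero_prime_reps : NeZero q := ⟨hq.out.ne_zero⟩

omit hq in
theorem galois_smul_ne_zero (σ : Γℚ) {f : X0F M q} (hf : f ≠ 0) :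
    arithmeticGalois (modularFunctionFieldFull (M * q)) σ • f ≠ 0 := by
  rw [SemilinearAut.smul_def]
  exact (map_ne_zero _).2 hf

omit hq in
theorem ord_galois_smul (σ : Γℚ) (f : X0F M q) (v : Place ℚbar (X0F M q)) :
    v.ord (arithmeticGalois (modularFunctionFieldFull (M * q)) σ • f) =
      ((arithmeticGalois (modularFunctionFieldFull (M * q)) σ)⁻¹ • v).ord f := by
  conv_lhs => rw [← smul_inv_smul (arithmeticGalois (modularFunctionFieldFull (M * q)) σ) v]
  exact SemilinearAut.ord_smul _ _ f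

theorem smul_poleDivisor_of_fixed (σ : Γℚ) {g : X0F M q}
    (hg : arithmeticGalois (modularFunctionFieldFull (M * q)) σ • g = g) :
    arithmeticGalois (modularFunctionFieldFull (M * q)) σ • poleDivisor ℚbar g =
      poleDivisor ℚbar g := by
  refine Finsupp.ext fun v => ?_
  rw [SemilinearAut.divisor_smul_apply, poleDivisor_apply, poleDivisor_apply, ← ord_galois_smul,
    hg]

/-- Galois maps the Riemann–Roch space of `D` into that of `σ • D`. -/
theorem galois_smul_mem_L (σ : Γℚ) {D : Divisor ℚbar (X0F M q)} {f : X0F M q}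
    (hf : f ∈ riemannRochSpace D) :
    arithmeticGalois (modularFunctionFieldFull (M * q)) σ • f ∈
      riemannRochSpace (arithmeticGalois (modularFunctionFieldFull (M * q)) σ • D) := by
  rcases eq_or_ne f 0 with rfl | h0
  · rw [smul_zero]; exact zero_mem _
  rw [mem_L_iff (galois_smul_ne_zero σ h0)]
  intro v
  rw [SemilinearAut.divisor_smul_apply, ord_galois_smul]
  exact (mem_L_iff h0).1 hf _

/-! ### Orders and leading coefficients of expansions -/

omit [NeZero M] hq in
theorem coeffMap_order_leadingCoeff (σ : Γℚ) {x : LaurentSeries ℚbar} (hx : x ≠ 0) :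
    (coeffMap (σ : ℚbar →+* ℚbar) x).order = x.order ∧
      (coeffMap (σ : ℚbar →+* ℚbar) x).leadingCoeff = σ x.leadingCoeff := by
  have hne : (coeffMap (σ : ℚbar →+* ℚbar) x).coeff x.order ≠ 0 := by
    rw [coeffMap_coeff]
    exact (map_ne_zero _).2 ((mt HahnSeries.coeff_order_eq_zero.1 hx))
  have hσx : coeffMap (σ : ℚbar →+* ℚbar) x ≠ 0 := fun h => hne (by rw [h]; rfl)
  have ho : (coeffMap (σ : ℚbar →+* ℚbar) x).order = x.order := by
    refine le_antisymm (HahnSeries.order_le_of_coeff_ne_zero hne)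
      (HahnSeries.order_le_of_coeff_ne_zero ?_)
    have h := (mt HahnSeries.coeff_order_eq_zero.1 hσx)
    rw [coeffMap_coeff] at h
    exact fun h0 => h (by rw [h0, map_zero])
  exact ⟨ho, by rw [HahnSeries.leadingCoeff_eq, HahnSeries.leadingCoeff_eq, ho, coeffMap_coeff]; rfl⟩

omit [NeZero M] hq in
/-- A finite dimensional space of expansions has, up to a scalar, one element of largest order. -/
theorem exists_max_order (V : Submodule ℚbar (LaurentSeries ℚbar)) [FiniteDimensional ℚbar V]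
    (hV : ∃ v ∈ V, v ≠ 0) :
    ∃ g ∈ V, g ≠ 0 ∧ (∀ v ∈ V, v ≠ 0 → v.order ≤ g.order) ∧
      ∀ v ∈ V, v ≠ 0 → v.order = g.order → ∃ a : ℚbar, v = a • g := by
  classical
  obtain ⟨S, b, -, hsep⟩ := exists_fixed_echelon (H := (⊥ : Subgroup Γℚ)) _ V rfl
    (fun σ hσ v hv => by
      rw [Subgroup.mem_bot.1 hσ]
      exact (show coeffMap ((1 : Γℚ) : ℚbar →+* ℚbar) v = v by
        ext n; rw [coeffMap_coeff]; rfl) ▸ hv)
  obtain ⟨m, ⟨g, hgV, hg0, rfl⟩, hmax⟩ := Int.exists_greatest_of_bdd
    (P := fun z => ∃ v ∈ V, v ≠ 0 ∧ v.order = z)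
    ⟨∑ s ∈ S, |s|, by
      rintro z ⟨v, hv, hv0, rfl⟩
      obtain ⟨s, hs, hsv⟩ : ∃ s ∈ S, v.coeff s ≠ 0 := by
        by_contra h
        push Not at h
        exact hv0 (hsep v hv h)
      exact (HahnSeries.order_le_of_coeff_ne_zero hsv).trans ((le_abs_self s).trans
        (Finset.single_le_sum (f := fun s : ℤ => |s|) (fun i _ => abs_nonneg i) hs))⟩
    (by obtain ⟨v, hv, hv0⟩ := hV; exact ⟨_, v, hv, hv0, rfl⟩)
  refine ⟨g, hgV, hg0, fun v hv hv0 => hmax _ ⟨v, hv, hv0, rfl⟩, fun v hv hv0 he => ?_⟩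
  refine ⟨v.leadingCoeff / g.leadingCoeff, ?_⟩
  by_contra hne
  set c := v.leadingCoeff / g.leadingCoeff with hc
  set w := v - c • g with hwdef
  have hw : w ≠ 0 := sub_ne_zero.2 hne
  have h1 := hmax _ ⟨w, V.sub_mem hv (V.smul_mem _ hgV), hw, rfl⟩
  have hcoef : ∀ n, w.coeff n = v.coeff n - c * g.coeff n := fun n => by
    rw [hwdef, HahnSeries.coeff_sub, HahnSeries.coeff_smul, smul_eq_mul]
  have h2 : w.coeff g.order = 0 := by
    rw [hcoef, hc, HahnSeries.leadingCoeff_eq, HahnSeries.leadingCoeff_eq, he,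
      div_mul_cancel₀ _ ((mt HahnSeries.coeff_order_eq_zero.1 hg0)), sub_self]
  have h3 := (mt HahnSeries.coeff_order_eq_zero.1 hw)
  rcases lt_or_eq_of_le h1 with h4 | h4
  · rw [hcoef, HahnSeries.coeff_eq_zero_of_lt_order (he.symm ▸ h4),
      HahnSeries.coeff_eq_zero_of_lt_order h4, mul_zero, sub_zero] at h3
    exact h3 rfl
  · exact h3 (h4 ▸ h2)

/-- An `H`-fixed `q`-torsion class is given by a divisor `D` and an `H`-fixed function `f` with
`div f = q D` and leading coefficient `1` at `∞`. -/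
theorem exists_fixed_rep {H : Subgroup Γℚ} (x : JZero (M * q)) (hx : q • x = 0)
    (hfix : ∀ σ ∈ H, σ • x = x) :
    ∃ (Dv : Divisor.degZero (K := ℚbar) (F := X0F M q)) (f : X0F M q),
      Pic0.mk Dv = x ∧ f ∈ fixedFun H M q ∧ f ≠ 0 ∧
      (∀ v : Place ℚbar (X0F M q), (q : ℤ) * (Dv : Divisor ℚbar (X0F M q)) v = v.ord f) ∧
      (f : LaurentSeries ℚbar).leadingCoeff = 1 := by
  classical
  obtain ⟨D₀, rfl⟩ := Pic0.mk_surjective x
  -- `q D₀ = div f₀`
  obtain ⟨f₀, hf₀, hD₀⟩ : Divisor.IsPrincipal (q • (D₀ : Divisor ℚbar (X0F M q))) := by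
    have h : (QuotientAddGroup.mk (q • D₀) : Pic0 ℚbar (X0F M q)) = 0 := hx
    have := AddSubgroup.mem_addSubgroupOf.1 ((QuotientAddGroup.eq_zero_iff _).1 h)
    rwa [AddSubgroup.coe_nsmul] at this
  set P : Divisor ℚbar (X0F M q) := poleDivisor ℚbar (Igusa.jBar (M * q)) with hP
  have hPfix : ∀ σ : Γℚ, arithmeticGalois (modularFunctionFieldFull (M * q)) σ • P = P :=
    fun σ => smul_poleDivisor_of_fixed σ (galois_smul_jBar σ)
  have hPdeg : 0 < Divisor.degree P := by
    rw [hP, degree_poleDivisor (transcendental_jBar (M * q))]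
    exact_mod_cast finrank_adjoin_pos (transcendental_jBar (M * q))
  set n : ℕ := genusFF ℚbar (X0F M q) with hn
  set E₀ : Divisor ℚbar (X0F M q) := (D₀ : Divisor ℚbar (X0F M q)) + n • P with hE₀
  have hpos : 0 < ellDim E₀ := ellDim_pos_of_degree_ge (by
    rw [hE₀, map_add, map_nsmul, Divisor.mem_degZero.1 D₀.2, zero_add, nsmul_eq_mul, ← hn]
    nlinarith [hPdeg, Int.natCast_nonneg n])
  haveI : FiniteDimensional ℚbar (riemannRochSpace E₀) := finite_L _
  set L : X0F M q →ₗ[ℚbar] LaurentSeries ℚbar :=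
    { toFun := fun x => (x : LaurentSeries ℚbar)
      map_add' := fun _ _ => rfl
      map_smul' := fun c x => by
        show ((c • x : X0F M q) : LaurentSeries ℚbar) = c • (x : LaurentSeries ℚbar)
        rw [IntermediateField.coe_smul]
        first
          | rfl
          | (rw [Algebra.smul_def, algebraMap_laurentSeries_eq_single]
             ext n
             rw [HahnSeries.coeff_single_zero_mul, HahnSeries.coeff_smul, smul_eq_mul]) } with hL
  have hLinj : Function.Injective L := fun a b h => Subtype.ext h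
  obtain ⟨v₀, hv₀, hv₀0⟩ : ∃ v ∈ riemannRochSpace E₀, v ≠ 0 := by
    have hne : riemannRochSpace E₀ ≠ ⊥ := fun hb => by
      have h : ellDim E₀ = 0 := by
        show Module.finrank ℚbar (riemannRochSpace E₀) = 0
        rw [hb]; exact finrank_bot _ _
      omega
    exact Submodule.exists_mem_ne_zero_of_ne_bot hne
  obtain ⟨_, ⟨g, hg, rfl⟩, hLg0, hmax, huniq⟩ := exists_max_order ((riemannRochSpace E₀).map L)
    ⟨L v₀, Submodule.mem_map_of_mem hv₀, fun h => hv₀0 (hLinj (h.trans (map_zero L).symm))⟩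
  have hg0 : g ≠ 0 := fun h => hLg0 (by rw [h, map_zero])
  set D₁ : Divisor ℚbar (X0F M q) := (D₀ : Divisor ℚbar (X0F M q)) + divisorOf ℚbar g with hD₁
  have hD₁deg : D₁ ∈ Divisor.degZero (K := ℚbar) (F := X0F M q) := by
    rw [Divisor.mem_degZero, hD₁, map_add, degree_divisorOf, Divisor.mem_degZero.1 D₀.2, add_zero]
  -- `D₁` is fixed
  have hDfix : ∀ σ ∈ H, arithmeticGalois (modularFunctionFieldFull (M * q)) σ • D₁ = D₁ := by
    intro σ hσ
    set G := arithmeticGalois (modularFunctionFieldFull (M * q)) σ with hG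
    obtain ⟨c, hc0, hc⟩ : Divisor.IsPrincipal
        (G • (D₀ : Divisor ℚbar (X0F M q)) - (D₀ : Divisor ℚbar (X0F M q))) := by
      have h : (QuotientAddGroup.mk (SemilinearAut.degZeroSMulHom G D₀ - D₀) :
          Pic0 ℚbar (X0F M q)) = 0 := sub_eq_zero.2 (hfix σ hσ)
      have := AddSubgroup.mem_addSubgroupOf.1 ((QuotientAddGroup.eq_zero_iff _).1 h)
      rwa [AddSubgroupClass.coe_sub, SemilinearAut.coe_degZeroSMulHom] at this
    have hE : G • E₀ = E₀ + divisorOf ℚbar c := by
      refine Finsupp.ext fun v => ?_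
      have h := hc v
      rw [hE₀, smul_add, smul_comm G n P, hPfix]
      simp only [Finsupp.add_apply, Finsupp.sub_apply, divisorOf_apply] at h ⊢
      omega
    -- `u ↦ σ u * c` maps `L(E₀)` onto itself, shifting orders
    have hmap : ∀ u ∈ riemannRochSpace E₀, (G • u) * c ∈ riemannRochSpace E₀ := by
      intro u hu
      rcases eq_or_ne u 0 with rfl | hu0
      · simp
      have h := galois_smul_mem_L σ hu
      rw [← hG, hE, mem_L_iff (galois_smul_ne_zero σ hu0)] at h
      rw [mem_L_iff (mul_ne_zero (galois_smul_ne_zero σ hu0) hc0)]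
      intro v
      have := h v
      rw [v.ord_mul (galois_smul_ne_zero σ hu0) hc0]
      simp only [Finsupp.add_apply, divisorOf_apply] at this
      omega
    have hord : ∀ u : X0F M q, u ≠ 0 → (L ((G • u) * c)).order = (L u).order + (L c).order := by
      intro u hu0
      have hLu : L u ≠ 0 := fun h => hu0 (hLinj (h.trans (map_zero L).symm))
      have hLc : L c ≠ 0 := fun h => hc0 (hLinj (h.trans (map_zero L).symm))
      have hGu : L (G • u) = coeffMap (σ : ℚbar →+* ℚbar) (L u) := coe_galois_smul σ u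
      have hGu0 : L (G • u) ≠ 0 :=
        fun h => galois_smul_ne_zero σ hu0 (hLinj (h.trans (map_zero L).symm))
      rw [show L ((G • u) * c) = L (G • u) * L c from rfl, HahnSeries.order_mul_of_ne_zero (mul_ne_zero (HahnSeries.leadingCoeff_ne_zero.2 hGu0) (HahnSeries.leadingCoeff_ne_zero.2 hLc)), hGu,
        (coeffMap_order_leadingCoeff σ hLu).1]
    have hGg0 : (G • g) * c ≠ 0 := mul_ne_zero (galois_smul_ne_zero σ hg0) hc0
    have hLGg0 : L ((G • g) * c) ≠ 0 := fun h => hGg0 (hLinj (h.trans (map_zero L).symm))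
    -- `g` is the image of some `u`
    obtain ⟨u, hu, hu0, hug⟩ : ∃ u ∈ riemannRochSpace E₀, u ≠ 0 ∧ (G • u) * c = g := by
      refine ⟨G⁻¹ • (g * c⁻¹), ?_, ?_, by rw [smul_inv_smul, inv_mul_cancel_right₀ hc0]⟩
      · have hgc : g * c⁻¹ ≠ 0 := mul_ne_zero hg0 (inv_ne_zero hc0)
        have h : g * c⁻¹ ∈ riemannRochSpace (G • E₀) := by
          rw [hE, mem_L_iff hgc]
          intro v
          have := (mem_L_iff hg0).1 hg v
          rw [v.ord_mul hg0 (inv_ne_zero hc0), v.ord_inv]
          simp only [Finsupp.add_apply, divisorOf_apply]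
          omega
        have h1 := galois_smul_mem_L σ⁻¹ h
        rwa [map_inv, ← hG, inv_smul_smul] at h1
      · rw [ne_eq, smul_eq_zero_iff_eq]
        exact mul_ne_zero hg0 (inv_ne_zero hc0)
    have hLu0 : L u ≠ 0 := fun h => hu0 (hLinj (h.trans (map_zero L).symm))
    have h1 := hmax _ (Submodule.mem_map_of_mem hu) hLu0
    have h2 := hmax _ (Submodule.mem_map_of_mem (hmap g hg)) hLGg0
    have h3 : (L g).order = (L u).order + (L c).order := hug ▸ hord u hu0
    rw [hord g hg0] at h2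
    obtain ⟨a, ha⟩ := huniq _ (Submodule.mem_map_of_mem (hmap g hg)) hLGg0
      (by rw [hord g hg0]; omega)
    have hga : (G • g) * c = a • g := hLinj (ha.trans (map_smul L a g).symm)
    have ha0 : a ≠ 0 := fun h => hGg0 (by rw [hga, h, zero_smul])
    refine Finsupp.ext fun v => ?_
    have h4 := congrArg v.ord hga
    rw [v.ord_mul (galois_smul_ne_zero σ hg0) hc0, ord_const_smul v ha0, ord_galois_smul, ← hG] at h4
    have h5 := hc v
    rw [hD₁, smul_add]
    simp only [Finsupp.add_apply, Finsupp.sub_apply, SemilinearAut.divisor_smul_apply,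
      divisorOf_apply] at h5 ⊢
    omega
  -- the normalised function
  set f₁ : X0F M q := g ^ q * f₀ with hf₁
  have hf₁0 : f₁ ≠ 0 := mul_ne_zero (pow_ne_zero _ hg0) hf₀
  have hLf₁ : L f₁ ≠ 0 := fun h => hf₁0 (hLinj (h.trans (map_zero L).symm))
  set a : ℚbar := (L f₁).leadingCoeff⁻¹ with ha
  have ha0 : a ≠ 0 := inv_ne_zero (HahnSeries.leadingCoeff_ne_zero.2 hLf₁)
  have hdiv : ∀ v : Place ℚbar (X0F M q), (q : ℤ) * D₁ v = v.ord (a • f₁) := by
    intro v
    have h := hD₀ v
    rw [ord_const_smul v ha0, hf₁, v.ord_mul (pow_ne_zero _ hg0) hf₀, ← h, hD₁, ← zpow_natCast,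
      v.ord_zpow]
    simp only [Finsupp.add_apply, Finsupp.smul_apply, divisorOf_apply, nsmul_eq_mul]
    ring
  have hlead : (L (a • f₁)).leadingCoeff = 1 := by
    rw [map_smul, ← HahnSeries.single_zero_mul_eq_smul, HahnSeries.leadingCoeff_mul,
      HahnSeries.leadingCoeff_of_single, ha]
    exact inv_mul_cancel₀ (HahnSeries.leadingCoeff_ne_zero.2 hLf₁)
  have hfne : a • f₁ ≠ 0 := smul_ne_zero ha0 hf₁0
  refine ⟨⟨D₁, hD₁deg⟩, a • f₁, ?_, mem_fixedFun.2 fun σ hσ => ?_, hfne, hdiv, hlead⟩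
  · refine QuotientAddGroup.eq.2 (AddSubgroup.mem_addSubgroupOf.2 ?_)
    refine ⟨g⁻¹, inv_ne_zero hg0, fun v => ?_⟩
    show (-D₁ + (D₀ : Divisor ℚbar (X0F M q))) v = _
    rw [hD₁, v.ord_inv]
    simp only [Finsupp.add_apply, Finsupp.neg_apply, divisorOf_apply]
    ring
  · set F₁ := a • f₁ with hF₁
    have hGf0 := galois_smul_ne_zero σ hfne
    obtain ⟨b, hb⟩ := Residual.exists_eq_algebraMap_of_ord_eq_zero (K := ℚbar)
      (h := arithmeticGalois (modularFunctionFieldFull (M * q)) σ • F₁ * F₁⁻¹) fun v => by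
        rw [v.ord_mul hGf0 (inv_ne_zero hfne), v.ord_inv, ord_galois_smul, ← hdiv, ← hdiv,
          ← SemilinearAut.divisor_smul_apply, hDfix σ hσ]
        ring
    have h2 : arithmeticGalois (modularFunctionFieldFull (M * q)) σ • F₁ = b • F₁ := by
      rw [Algebra.smul_def, ← hb, inv_mul_cancel_right₀ hfne]
    have hLF : L F₁ ≠ 0 := fun h => hfne (hLinj (h.trans (map_zero L).symm))
    have h3 : coeffMap (σ : ℚbar →+* ℚbar) (L F₁) = b • L F₁ :=
      ((coe_galois_smul σ F₁).symm.trans (congrArg L h2)).trans (map_smul L b F₁)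
    have h4 := congrArg HahnSeries.leadingCoeff h3
    rw [(coeffMap_order_leadingCoeff σ hLF).2, hlead, map_one,
      ← HahnSeries.single_zero_mul_eq_smul, HahnSeries.leadingCoeff_mul,
      HahnSeries.leadingCoeff_of_single, hlead, mul_one] at h4
    rw [h2, ← h4, one_smul]

variable (hqM : ¬ q ∣ M) {A : ValuationSubring ℚbar} (hA : A.LiesOverPrime q) {H : Subgroup Γℚ}
  (hH : H ≤ A.inertiaSubgroupIn ℚ) (U : Uniformiser A q H)

/-- The root spaces of fixed functions are spanned by fixed functions. -/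
theorem spannedByFixed (f : (x0Descent hqM hA hH U).F0) :
    Move.SpannedByFixed (x0Descent hqM hA hH U) q f := by
  intro N
  haveI : FiniteDimensional ℚbar (Move.rootSp q (N • (x0Reduction hqM A hA).poleX) (f : X0F M q)) :=
    finite_L _
  refine le_span_fixedFun _ fun σ hσ v hv => ?_
  refine Eq.mp ?_ (galois_smul_mem_L σ hv)
  have hf : arithmeticGalois (modularFunctionFieldFull (M * q)) σ • (f : X0F M q) = f :=
    mem_fixedFun.1 f.2 σ hσ
  congr 1
  unfold Move.rootSp
  congr 1
  refine Finsupp.ext fun w => ?_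
  rw [smul_add, smul_comm _ N, MultiReduction.poleX,
    smul_poleDivisor_of_fixed σ (g := (x0Reduction hqM A hA).x) (galois_smul_x0Fun hqM σ),
    Finsupp.add_apply, Finsupp.add_apply, SemilinearAut.divisor_smul_apply, Move.floorDiv_apply,
    Move.floorDiv_apply, divisorOf_apply, divisorOf_apply, ← ord_galois_smul, hf]

/-- The function `x` is fixed. -/
theorem x_mem_F0 : (x0Reduction hqM A hA).x ∈ (x0Descent hqM hA hH U).F0 := by
  exact mem_fixedFun.2 fun σ _ => galois_smul_x0Fun hqM σ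

/-- An inertia element normalising `H` acts on the fixed functions. -/
theorem exists_inertialMap {σ : Γℚ} (hσ : σ ∈ A.inertiaSubgroupIn ℚ)
    (hnorm : ∀ τ ∈ H, σ⁻¹ * τ * σ ∈ H) :
    ∃ s : Move.InertialMap (x0Descent hqM hA hH U),
      (∀ a, ((s.σK a : (x0Descent hqM hA hH U).K0) : ℚbar) = σ (a : ℚbar)) ∧
      ∀ f, ((s.σ f : (x0Descent hqM hA hH U).F0) : X0F M q) =
        arithmeticGalois (modularFunctionFieldFull (M * q)) σ • (f : X0F M q) := by
  have hK : ∀ a ∈ fixedK H, σ a ∈ fixedK H := fun a ha τ hτ => by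
    have h1 : (σ⁻¹ * τ * σ) a = a := ha _ (hnorm τ hτ)
    calc τ (σ a) = σ ((σ⁻¹ * τ * σ) a) := by
          show τ (σ a) = σ (σ.symm (τ (σ a)))
          rw [AlgEquiv.apply_symm_apply]
      _ = σ a := by rw [h1]
  have hF : ∀ f ∈ fixedFun H M q,
      arithmeticRingAut (L := ℚbar) (modularFunctionFieldFull (M * q)) σ f ∈ fixedFun H M q := by
    intro f hf
    refine mem_fixedFun.2 fun τ hτ => ?_
    show arithmeticGalois (modularFunctionFieldFull (M * q)) τ •
        (arithmeticGalois (modularFunctionFieldFull (M * q)) σ • f) =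
      arithmeticGalois (modularFunctionFieldFull (M * q)) σ • f
    rw [← mul_smul, ← map_mul, show τ * σ = σ * (σ⁻¹ * τ * σ) by group, map_mul, mul_smul,
      mem_fixedFun.1 hf _ (hnorm τ hτ)]
  refine ⟨
    { σ := ((arithmeticRingAut (L := ℚbar) (modularFunctionFieldFull (M * q)) σ).toRingHom.comp
        (fixedFun H M q).subtype).codRestrict (fixedFun H M q) fun f => hF f f.2
      σK := ((σ : ℚbar →+* ℚbar).comp (fixedK H).subtype).codRestrict (fixedK H)
        fun a => hK a a.2
      map_const := fun a => Subtype.ext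
        (arithmeticRingAut_algebraMap (modularFunctionFieldFull (M * q)) σ (a : ℚbar))
      lead := ?_
      map_polar := ?_
      map_x := fun hx => Subtype.ext (galois_smul_x0Fun hqM σ)
      exists_lift_fixed := ?_ }, fun a => rfl, fun f => rfl⟩
  · intro b a B h
    obtain ⟨hV, hB⟩ := (x0Descent hqM hA hH U).lead_zero_iff.1 h
    obtain ⟨h', he⟩ := compPhi_galois hqM A hA hσ b ⟨_, hV⟩
    exact (x0Descent hqM hA hH U).lead_zero_iff.2 ⟨h', he.trans hB⟩
  · intro n z hz
    have h1 : arithmeticGalois (modularFunctionFieldFull (M * q)) σ •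
        (n • (x0Reduction hqM A hA).poleX) = n • (x0Reduction hqM A hA).poleX := by
      rw [smul_comm _ n, MultiReduction.poleX,
        smul_poleDivisor_of_fixed σ (g := (x0Reduction hqM A hA).x) (galois_smul_x0Fun hqM σ)]
    have h2 := galois_smul_mem_L σ (D := n • (x0Reduction hqM A hA).poleX) hz
    rw [h1] at h2
    exact h2
  · intro c
    obtain ⟨⟨a, ha⟩, rfl⟩ := residue_surjective c
    obtain ⟨z, hzA, hzfix, haz⟩ := exists_fixed_lift hq.out hA ha
    refine ⟨⟨z, hzA⟩, hzfix.mono hH, ?_, Subtype.ext (hzfix σ hσ)⟩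
    show residue A ⟨z, hzA⟩ = residue A ⟨a, ha⟩
    symm
    rw [← sub_eq_zero, ← map_sub, IsLocalRing.residue_eq_zero_iff, ← ValuationSubring.coe_mem_nonunits_iff]
    exact haz

/-- Galois preserves divisibility of all orders. -/
theorem dvd_ord_galois_smul (σ : Γℚ) {f : X0F M q}
    (h : ∀ v : Place ℚbar (X0F M q), (q : ℤ) ∣ v.ord f) (v : Place ℚbar (X0F M q)) :
    (q : ℤ) ∣ v.ord (arithmeticGalois (modularFunctionFieldFull (M * q)) σ • f) := by
  rw [ord_galois_smul]
  exact h _

end Fermat.Agent.MazurPrinciple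

end
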