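/-
Mazur's principle at `p`: the cusps `∞` and `w_q ∞` as smooth branches with leading coefficients.
-/
import Fermat.Agent.MazurPrinciple.X0Descent
import Fermat.Agent.MP.SecondComponentBridge
import Fermat.Agent.MW.BMarked
import Fermat.Agent.Mazur.LocalRank
import Fermat.Agent.OrdinaryDatum.BoundedExpansion

set_option autoImplicit false
set_option linter.style.haveILetI false
set_option synthInstance.maxHeartbeats 200000
set_option maxHeartbeats 1000000

noncomputable section

namespace Fermat.Agent.MazurPrinciple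

open ModularCurve AlgebraicCurve IsLocalRing
open Fermat.Agent.BadReduction Fermat.Agent.Bad Fermat.Agent.Bad.MultiReduction
open Fermat.Agent.Curve (IsFunctionFieldOne)

local notation "ℚbar" => AlgebraicClosure ℚ
local notation "Γℚ" => AlgebraicClosure ℚ ≃ₐ[ℚ] AlgebraicClosure ℚ

variable {M q : ℕ} [NeZero M] [hq : Fact q.Prime]

local instance neZero_prime_cusps : NeZero q := ⟨hq.out.ne_zero⟩

variable (hqM : ¬ q ∣ M) {A : ValuationSubring ℚbar} (hA : A.LiesOverPrime q) {H : Subgroup Γℚ}
  (hH : H ≤ A.inertiaSubgroupIn ℚ) (U : Uniformiser A q H)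

/-- The function whose expansion at the cusp of the component `i` is read. -/
def atCusp (i : Fin 2) (f : X0F M q) : LaurentSeries ℚbar :=
  if i = 0 then (f : LaurentSeries ℚbar) else (atkinLehner hqM f : X0F M q)

theorem atCusp_zero (f : X0F M q) : atCusp hqM 0 f = (f : LaurentSeries ℚbar) := if_pos rfl

theorem atCusp_one (f : X0F M q) : atCusp hqM 1 f = (atkinLehner hqM f : X0F M q) :=
  if_neg (by decide)

/-! ### Orders and values at a cusp -/

/-- The order of the `j`-series. -/
theorem order_jqModC (R : Type*) [Field R] : (jqModC R).order = -1 := by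
  refine le_antisymm (HahnSeries.order_le_of_coeff_ne_zero
    (by rw [coeff_jqModC_neg_one]; exact one_ne_zero)) ?_
  by_contra h
  exact HahnSeries.coeff_order_eq_zero.not.2 (jqModC_ne_zero_of_nontrivial R)
    (coeff_jqModC_of_lt R (not_le.1 h))

/-- The value at the place of order is the constant coefficient. -/
theorem placeValue_placeInf {L : Type*} [Field L] [IsAlgClosed L]
    {E : IntermediateField L (LaurentSeries L)} [IsFunctionFieldOne L E] {t : E}
    (ht : (t : LaurentSeries L).order = -1) {z : E}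
    (hz : ∀ m : ℤ, m < 0 → (z : LaurentSeries L).coeff m = 0) :
    placeValue (MW.BMarked.placeInf ht) z = (z : LaurentSeries L).coeff 0 := by
  have hzv : z ∈ (MW.BMarked.placeInf ht).toValuationSubring := hz
  set c := (z : LaurentSeries L).coeff 0 with hc
  have hcv := (MW.BMarked.placeInf ht).algebraMap_mem' c
  rcases eq_or_ne (z - algebraMap L E c) 0 with h0 | h0
  · rw [sub_eq_zero.1 h0, placeValue_algebraMap]
  have hpos : 0 < (MW.BMarked.placeInf ht).ord (z - algebraMap L E c) := by
    rw [← MW.BMarked.order_eq_ord ht]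
    have hne : ((z - algebraMap L E c : E) : LaurentSeries L) ≠ 0 := fun h => h0 (Subtype.ext h)
    by_contra hle
    refine HahnSeries.coeff_order_eq_zero.not.2 hne ?_
    rcases lt_or_eq_of_le (not_lt.1 hle) with h | h
    · exact (sub_mem hzv hcv : z - algebraMap L E c ∈ (MW.BMarked.placeInf ht).toValuationSubring)
        _ h
    · rw [h]
      show ((z : LaurentSeries L) - algebraMap L (LaurentSeries L) c).coeff 0 = 0
      rw [HahnSeries.coeff_sub, algebraMap_laurentSeries_eq_single, HahnSeries.coeff_single_same,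
        ← hc, sub_self]
  have h := (placeValue_eq_zero_iff (MW.BMarked.placeInf ht) (sub_mem hzv hcv)).2
    (Or.inr (by omega))
  rw [placeValue_sub _ hzv hcv, placeValue_algebraMap] at h
  exact sub_eq_zero.1 h

/-! ### The expansions of `x` and of the functions with poles at those of `x` -/

theorem coe_eval₂_jBar (N : ℕ) [NeZero N] (p : Polynomial ℤ) :
    ((Polynomial.eval₂ (Int.castRingHom _) (Igusa.jBar N) p : modularFunctionFieldBar N) :
      LaurentSeries ℚbar) = coeffMap (Int.castRingHom ℚbar)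
        (Polynomial.eval₂ (Int.castRingHom _) (jqModC ℤ) p) := by
  rw [Polynomial.hom_eval₂, RingHom.ext_int (RingHom.comp _ _) (Int.castRingHom _)]
  show (modularFunctionFieldBar N).val.toRingHom _ = _
  rw [Polynomial.hom_eval₂, RingHom.ext_int (RingHom.comp _ _) (Int.castRingHom _)]
  congr 1
  show (Igusa.jBar N : LaurentSeries ℚbar) = coeffMap (Int.castRingHom ℚbar) (jqModC ℤ)
  rw [Igusa.coe_jBar, coeffMap_jqModC, coeffEmb, ← jqModC_rat, coeffMap_jqModC]

/-- A monic integral polynomial in the `j`-series is invertible, with inverse without pole. -/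
theorem exists_inv_eval₂_jqModC {p : Polynomial ℤ} (hp : p.Monic) :
    ∃ ζ : LaurentSeries ℤ, Polynomial.eval₂ (Int.castRingHom _) (jqModC ℤ) p * ζ = 1 ∧
      ∀ m < 0, ζ.coeff m = 0 := by
  set P := Polynomial.eval₂ (Int.castRingHom (LaurentSeries ℤ)) (jqModC ℤ) p with hP
  have hterm : ∀ (i : ℕ) (m : ℤ), m < -(i : ℤ) →
      (Int.castRingHom (LaurentSeries ℤ) (p.coeff i) * jqModC ℤ ^ i).coeff m = 0 := fun i m hm => by
    rw [eq_intCast, ← zsmul_eq_mul, HahnSeries.coeff_smul, coeff_jqModC_pow_of_lt ℤ hm, smul_zero]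
  have hlead : P.coeff (-(p.natDegree : ℤ)) = 1 := by
    rw [hP, Polynomial.eval₂_eq_sum_range, HahnSeries.coeff_sum, Finset.sum_range_succ,
      Finset.sum_eq_zero fun i hi => hterm i _ (by have := Finset.mem_range.1 hi; omega),
      zero_add, hp.coeff_natDegree, map_one, one_mul, coeff_jqModC_pow_self]
  have hP0 : P ≠ 0 := fun h => by simp [h] at hlead
  have hord : P.order = -(p.natDegree : ℤ) := by
    refine le_antisymm (HahnSeries.order_le_of_coeff_ne_zero (by rw [hlead]; exact one_ne_zero)) ?_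
    by_contra hlt
    refine HahnSeries.coeff_order_eq_zero.not.2 hP0 ?_
    generalize P.order = m at hlt ⊢
    rw [hP, Polynomial.eval₂_eq_sum_range, HahnSeries.coeff_sum]
    exact Finset.sum_eq_zero fun i hi => hterm i _ (by have := Finset.mem_range.1 hi; omega)
  have hu : IsUnit P := HahnSeries.isUnit_iff.2
    (by rw [HahnSeries.leadingCoeff_eq, hord, hlead]; exact isUnit_one)
  obtain ⟨ζ, hζ⟩ := hu.exists_right_inv
  refine ⟨ζ, hζ, fun m hm => ?_⟩
  have hζ0 : ζ ≠ 0 := fun h => by rw [h, mul_zero] at hζ; exact zero_ne_one hζ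
  have h1 := congrArg HahnSeries.order hζ
  rw [HahnSeries.order_mul hP0 hζ0, hord, HahnSeries.order_one] at h1
  exact HahnSeries.coeff_eq_zero_of_lt_order (by omega)

/-- The expansion of `x` at `∞` is integral and without pole. -/
theorem exists_series_x0Fun :
    ∃ ξ : LaurentSeries ℤ, (∀ m < 0, ξ.coeff m = 0) ∧
      (x0Fun (M := M) hqM : LaurentSeries ℚbar) = coeffMap (Int.castRingHom ℚbar) ξ := by
  obtain ⟨ζ, hζ, hneg⟩ := exists_inv_eval₂_jqModC (cubic_monic (q := q))
  have h1 : (cubicJ M q : LaurentSeries ℚbar) = coeffMap (Int.castRingHom ℚbar)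
      (Polynomial.eval₂ (Int.castRingHom _) (jqModC ℤ) (cubic q)) := by
    rw [cubicJ, aeval_int_eq]
    exact coe_eval₂_jBar _ _
  have h2 : (atkinLehner hqM (cubicJ M q) : X0F M q).1 = coeffMap (Int.castRingHom ℚbar)
      (qExpand ℤ q (Polynomial.eval₂ (Int.castRingHom _) (jqModC ℤ) (cubic q))) := by
    rw [show cubicJ M q = heckeAlphaBar ℚbar M q
        (Polynomial.eval₂ (Int.castRingHom _) (Igusa.jBar M) (cubic q)) by
      rw [cubicJ, aeval_int_eq]
      show _ = (heckeAlphaBar ℚbar M q).toRingHom _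
      rw [Polynomial.hom_eval₂, RingHom.ext_int (RingHom.comp _ _) (Int.castRingHom _)]
      congr 1, atkinLehner_alpha,
      coeffMap_qExpand, ← coe_eval₂_jBar M]
    rfl
  refine ⟨ζ * qExpand ℤ q ζ, fun m hm => ?_, ?_⟩
  · rw [HahnSeries.coeff_mul]
    refine Finset.sum_eq_zero fun ij hij => ?_
    obtain ⟨-, -, hadd⟩ := Finset.mem_antidiagonal.1 hij
    rcases lt_or_ge ij.1 0 with h | h
    · rw [hneg _ h, zero_mul]
    · by_cases hd : (q : ℤ) ∣ ij.2
      · obtain ⟨c, hc⟩ := hd
        rw [hc, qExpand_coeff_mul, hneg c (by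
          have : (q : ℤ) * c < 0 := by omega
          exact neg_of_mul_neg_right this (Int.natCast_nonneg q)), mul_zero]
      · rw [qExpand_coeff_of_not_dvd q _ hd, mul_zero]
  · rw [x0Fun, IntermediateField.coe_inv, MulMemClass.coe_mul, h1, h2, ← map_mul]
    refine inv_eq_of_mul_eq_one_right ?_
    rw [← map_mul, mul_mul_mul_comm, hζ, ← map_mul, hζ, map_one, one_mul, map_one]

variable {hqM} in
theorem isFinCoeff_x0Fun : (x0Fun (M := M) hqM : LaurentSeries ℚbar) ∈ Carayol.finCoeff ℚbar := by
  obtain ⟨ξ, -, e⟩ := exists_series_x0Fun (M := M) hqM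
  rw [e]
  exact isFinCoeff_coeffMap_int ξ

theorem atkinLehner_intOver {f : X0F M q} (hf : Curve.ModelAux.IntOver ℚbar (x0Fun hqM) f) :
    Curve.ModelAux.IntOver ℚbar (x0Fun hqM) (atkinLehner hqM f) := by
  have hfix : Algebra.adjoin ℚbar ({x0Fun hqM} : Set (X0F M q)) ≤
      AlgHom.equalizer (atkinLehner hqM).toAlgHom (AlgHom.id ℚbar (X0F M q)) :=
    Algebra.adjoin_le (Set.singleton_subset_iff.2 (atkinLehner_x0Fun hqM))
  exact IsIntegral.map (B := X0F M q)
    ({ (atkinLehner hqM).toAlgHom.toRingHom with commutes' := fun r => hfix r.2 } :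
      X0F M q →ₐ[Algebra.adjoin ℚbar ({x0Fun hqM} : Set (X0F M q))] X0F M q) hf

/-- A function with poles only at those of `x` has an expansion without pole. -/
theorem coeff_eq_zero_of_intOver {f : X0F M q}
    (hf : Curve.ModelAux.IntOver ℚbar (x0Fun hqM) f) :
    ∀ m : ℤ, m < 0 → (f : LaurentSeries ℚbar).coeff m = 0 := by
  obtain ⟨ξ, hξ, e⟩ := exists_series_x0Fun (M := M) hqM
  set v := MW.BMarked.placeInf (MW.order_jElt (M * q))
  have hx : x0Fun hqM ∈ v.toValuationSubring := fun m hm => by
    rw [e, coeffMap_coeff, hξ m hm, map_zero]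
  exact Curve.mem_of_ord_nonneg v
    (Curve.ModelAux.intOver_iff.1 hf v (Curve.ord_nonneg_of_mem v hx))

include hA in
/-- A Gauss integral function with poles only at those of `x` has an integral expansion; the value
of its reduction at the cusp is the reduced constant coefficient. -/
theorem infRed_coeff {f : X0F M q} (hf : Curve.ModelAux.IntOver ℚbar (x0Fun hqM) f)
    (hV : f ∈ infV M q A) :
    (∀ m : ℤ, m < 0 → (infRed M q A ⟨f, hV⟩).coeff m = 0) ∧
      ∃ h : (f : LaurentSeries ℚbar).coeff 0 ∈ A,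
        residue A ⟨_, h⟩ = (infRed M q A ⟨f, hV⟩).coeff 0 := by
  obtain ⟨y, hy⟩ := OrdinaryDatum.mem_intSeries_of_isIntegral
    (Mazur.rankLeOne_of_liesOverPrime hq.out hA)
    (modularFunctionFieldBar_le_finFrac (M * q) f.2) hV
    (OrdinaryDatum.isIntegral_finCoeff_of_intOver (modularFunctionFieldBar (M * q)).val
      (isFinCoeff_x0Fun (hqM := hqM)) hf)
  have hr : infRed M q A ⟨f, hV⟩ = coeffMap (residue A) y :=
    gaussValRed_coeffMap _ (modularFunctionFieldBar_le_finFrac (M * q)) A y hy.symm
  have hc : ∀ m, (f : LaurentSeries ℚbar).coeff m = (y.coeff m : ℚbar) := fun m => by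
    rw [← hy, coeffMap_coeff]; rfl
  refine ⟨fun m hm => ?_, by rw [hc]; exact (y.coeff 0).2, ?_⟩
  · rw [hr, coeffMap_coeff, show y.coeff m = 0 from Subtype.ext
      ((hc m).symm.trans (coeff_eq_zero_of_intOver hqM hf m hm)), map_zero]
  · rw [hr, coeffMap_coeff]
    exact congrArg _ (Subtype.ext (hc 0))

include hA in
/-- Reductions of functions with poles only at those of `x`, at either cusp. -/
theorem compPhi_coeff (i : Fin 2) {f : X0F M q}
    (hf : Curve.ModelAux.IntOver ℚbar (x0Fun hqM) f) (hV : f ∈ compV hqM A i) :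
    (∀ m : ℤ, m < 0 →
      (compPhi hqM A hA i ⟨f, hV⟩ : LaurentSeries (ResidueField A)).coeff m = 0) ∧
      ∃ h : (atCusp hqM i f).coeff 0 ∈ A, residue A ⟨_, h⟩ =
        (compPhi hqM A hA i ⟨f, hV⟩ : LaurentSeries (ResidueField A)).coeff 0 := by
  fin_cases i
  · exact infRed_coeff hqM hA hf hV
  · exact infRed_coeff hqM hA (atkinLehner_intOver hqM hf) hV

/-- Each component has a cusp: the place of order of the expansion; off the nodes it gives the
leading coefficient datum of the component step. -/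
theorem exists_cuspLead (i : Fin 2) :
    ∃ v : Place (ResidueField A) (X0Res M A),
      (∀ z : X0Res M A, v.ord z = (z : LaurentSeries (ResidueField A)).order) ∧
      ∀ {S : Type} [Fintype S] (P : Move.NodePairs (x0Reduction hqM A hA) S),
        (∀ s j, P.br s j ≠ ⟨i, v⟩) →
        ∃ C : Move.CuspLead (x0Descent hqM hA hH U) P,
          C.b = i ∧ ∀ f : X0F M q, C.ℓ f = (atCusp hqM i f).leadingCoeff := by
  have ht : ((jRes M A : X0Res M A) : LaurentSeries (ResidueField A)).order = -1 :=
    order_jqModC _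
  refine ⟨MW.BMarked.placeInf ht, fun z => (MW.BMarked.order_eq_ord ht z).symm,
    fun {S} _ P hP => ?_⟩
  haveI : IsAlgClosed (ResidueField A) := (x0Reduction hqM A hA).isAlgClosed_residue
  have hint : ∀ (n : ℕ) {g : X0F M q}, g ∈ (x0Reduction hqM A hA).polarSp n →
      Curve.ModelAux.IntOver ℚbar (x0Fun hqM) g := fun n g hg =>
    ((Curve.ModelAux.mem_L_poleDivisor_iff
      (fun h => transcendental_x0Fun hqM A hA (by rw [show x0Fun hqM = 0 from h]; exact isAlgebraic_zero)) n).1 hg).1
  let w : X0F M q →ₐ[ℚbar] LaurentSeries ℚbar :=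
    if i = 0 then (modularFunctionFieldBar (M * q)).val
    else (modularFunctionFieldBar (M * q)).val.comp (atkinLehner hqM).toAlgHom
  have hw : ∀ g, atCusp hqM i g = w g := fun g => by
    rw [atCusp]; simp only [w]; split_ifs <;> rfl
  have hnn : ∀ (n : ℕ) {g : X0F M q}, g ∈ (x0Reduction hqM A hA).polarSp n →
      ∀ m : ℤ, m < 0 → (w g).coeff m = 0 := fun n g hg => by
    simp only [w]
    split_ifs
    · exact coeff_eq_zero_of_intOver hqM (hint n hg)
    · exact coeff_eq_zero_of_intOver hqM (atkinLehner_intOver hqM (hint n hg))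
  refine ⟨⟨i, MW.BMarked.placeInf ht, hP,
    Curve.ord_nonneg_of_mem _ (compPhi_coeff hqM hA i (Curve.ModelAux.intOver_self _)
      (x0Fun_mem hqM A hA i)).1,
    fun g => (atCusp hqM i g).leadingCoeff, fun g => (atCusp hqM i g).coeff 0,
    ?_, ?_, ?_, ?_, ?_, ?_, ?_⟩, rfl, fun _ => rfl⟩
  · intro g g' _ _
    simp only [hw, map_mul, HahnSeries.leadingCoeff_mul]
  · intro a ha
    simp only [hw, AlgHom.commutes, algebraMap_laurentSeries_eq_single]
    exact HahnSeries.leadingCoeff_of_single
  · intro g hg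
    have hfix : IsFixedSeries H (atCusp hqM i g) := by
      have hg' : g ∈ fixedFun H M q := hg
      rw [atCusp]
      split_ifs
      · exact mem_fixedFun_iff_series.1 hg'
      · refine mem_fixedFun_iff_series.1 (mem_fixedFun.2 fun σ hσ => ?_)
        rw [← atkinLehner_galois, mem_fixedFun.1 hg' σ hσ]
    show IsFixedBy H (atCusp hqM i g).leadingCoeff
    rw [HahnSeries.leadingCoeff_eq]
    exact isFixedSeries_iff.1 hfix _
  · intro n g g' _ _
    simp only [hw, map_sub, HahnSeries.coeff_sub]
  · intro n a g _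
    simp only [hw]
    rw [Algebra.smul_def, map_mul, AlgHom.commutes, algebraMap_laurentSeries_eq_single,
      HahnSeries.coeff_single_zero_mul]
  · intro n g hg hV
    obtain ⟨hneg, h0, he⟩ := compPhi_coeff hqM hA i (hint n hg) hV
    exact ⟨h0, he.trans (placeValue_placeInf ht hneg).symm⟩
  · intro n g hg hne
    simp only [hw] at hne ⊢
    have hord : (w g).order = 0 := by
      refine le_antisymm (HahnSeries.order_le_of_coeff_ne_zero hne) ?_
      by_contra h
      exact HahnSeries.coeff_order_eq_zero.not.2 (fun h0 => hne (by rw [h0]; rfl))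
        (hnn n hg _ (not_le.1 h))
    rw [HahnSeries.leadingCoeff_eq, hord]

end Fermat.Agent.MazurPrinciple

end
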