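/-
Mazur's principle: the irreducible two-dimensional representation embeds in every representation
satisfying its quadratic relations.

If `ρ` is irreducible of dimension 2 with an element of trace 0, and `u` satisfies
`u g + det (ρ g) • u g⁻¹ = trace (ρ g)` for all `g`, then every irreducible subrepresentation of
`u` is isomorphic to `ρ`.  No semisimplicity, Brauer-Nesbitt or absolute irreducibility is used.
-/
import Fermat.Agent.MazurPrinciple.Group
import Mathlib.LinearAlgebra.Trace
import Mathlib.LinearAlgebra.Charpoly.Basic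
import Mathlib.LinearAlgebra.Matrix.Charpoly.Coeff

set_option autoImplicit false

namespace Fermat.Agent.MazurPrinciple

variable {k : Type*} [Field k] {G : Type*} [Group G]
  {V : Type*} [AddCommGroup V] [Module k V] [FiniteDimensional k V]
  {U : Type*} [AddCommGroup U] [Module k U] [FiniteDimensional k U]

/-- Cayley–Hamilton in dimension two. -/
theorem sq_sub_trace_smul_add_det (hV : Module.finrank k V = 2) (A : Module.End k V) :
    A * A - LinearMap.trace k V A • A + LinearMap.det A • 1 = 0 := by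
  classical
  let b := Module.finBasisOfFinrankEq k V hV
  apply (LinearMap.toMatrixAlgEquiv b).injective
  simp only [map_add, map_sub, map_mul, map_smul, map_one, map_zero]
  rw [LinearMap.trace_eq_matrix_trace k b, ← LinearMap.det_toMatrix b]
  have h := Matrix.aeval_self_charpoly (LinearMap.toMatrix b b A)
  rw [Matrix.charpoly_fin_two] at h
  simpa [LinearMap.toMatrixAlgEquiv, pow_two, Algebra.smul_def] using h

/-- `ρ g + det (ρ g) • ρ g⁻¹ = trace (ρ g)`. -/
theorem add_det_smul_inv (hV : Module.finrank k V = 2) (ρ : G →* Module.End k V) (g : G) :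
    ρ g + LinearMap.det (ρ g) • ρ g⁻¹ = LinearMap.trace k V (ρ g) • 1 := by
  have h1 := congrArg (fun A => ρ g⁻¹ * A) (sq_sub_trace_smul_add_det hV (ρ g))
  have h2 : ρ g⁻¹ * ρ g = 1 := by rw [← map_mul, inv_mul_cancel, map_one]
  simp only [mul_add, mul_sub, mul_smul_comm, ← mul_assoc, h2, one_mul, mul_one, mul_zero] at h1
  rw [← sub_eq_zero, ← h1]
  abel

/-- The relation passes to powers. -/
theorem add_det_smul_inv_pow (hV : Module.finrank k V = 2) (ρ : G →* Module.End k V)
    (u : G →* Module.End k U) {g : G}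
    (h : u g + LinearMap.det (ρ g) • u g⁻¹ = LinearMap.trace k V (ρ g) • 1) (m : ℕ) :
    u (g ^ m) + LinearMap.det (ρ (g ^ m)) • u (g ^ m)⁻¹ = LinearMap.trace k V (ρ (g ^ m)) • 1 := by
  set d := LinearMap.det (ρ g)
  set t := LinearMap.trace k V (ρ g)
  have h1 : u g * u g⁻¹ = 1 := by rw [← map_mul, mul_inv_cancel, map_one]
  have h2 : u g⁻¹ * u g = 1 := by rw [← map_mul, inv_mul_cancel, map_one]
  suffices ∀ n, u g ^ n + d ^ n • u g⁻¹ ^ n = LinearMap.trace k V (ρ g ^ n) • 1 by
    have := this m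
    rwa [← map_pow, ← map_pow u g⁻¹, inv_pow, ← map_pow ρ,
      show d ^ m = LinearMap.det (ρ (g ^ m)) by rw [map_pow, map_pow]] at this
  intro n
  induction n using Nat.twoStepInduction with
  | zero =>
    rw [pow_zero, pow_zero, pow_zero, pow_zero, one_smul, LinearMap.trace_one, hV, Nat.cast_ofNat,
      two_smul]
  | one => simpa using h
  | more n h0 h0' =>
    have hρ : LinearMap.trace k V (ρ g ^ (n + 2)) =
        t * LinearMap.trace k V (ρ g ^ (n + 1)) - d * LinearMap.trace k V (ρ g ^ n) := by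
      have h3 := congrArg (fun A => LinearMap.trace k V (A * ρ g ^ n))
        (sq_sub_trace_smul_add_det hV (ρ g))
      simp only [add_mul, sub_mul, smul_mul_assoc, one_mul, zero_mul, map_add, map_sub, map_smul,
        map_zero, smul_eq_mul, ← pow_succ'] at h3
      rw [mul_assoc, ← pow_succ', ← pow_succ'] at h3
      linear_combination h3
    have key : (u g + d • u g⁻¹) * (u g ^ (n + 1) + d ^ (n + 1) • u g⁻¹ ^ (n + 1)) =
        (u g ^ (n + 2) + d ^ (n + 2) • u g⁻¹ ^ (n + 2)) + d • (u g ^ n + d ^ n • u g⁻¹ ^ n) := by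
      rw [add_mul, mul_add, mul_add, smul_mul_smul_comm, ← pow_succ', ← pow_succ', ← pow_succ',
        smul_mul_assoc, mul_smul_comm,
        show u g * u g⁻¹ ^ (n + 1) = u g⁻¹ ^ n by rw [pow_succ', ← mul_assoc, h1, one_mul],
        show u g⁻¹ * u g ^ (n + 1) = u g ^ n by rw [pow_succ', ← mul_assoc, h2, one_mul],
        pow_succ' d n, mul_smul, smul_add]
      abel
    rw [h, h0, h0', smul_one_mul, smul_smul, smul_smul] at key
    rw [hρ, sub_smul, eq_sub_iff_add_eq]
    exact key.symm

/-- The involution `z ↦ trace z₁ - z` of `End V × End U`. -/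
noncomputable def pairInvolution : (Module.End k V × Module.End k U) →ₗ[k] (Module.End k V × Module.End k U) :=
  ((LinearMap.trace k V).comp (LinearMap.fst k (Module.End k V) (Module.End k U))).smulRight
      ((1 : Module.End k V), (1 : Module.End k U))
    - LinearMap.id

omit [FiniteDimensional k U] in
theorem pairInvolution_apply (z : Module.End k V × Module.End k U) :
    pairInvolution z =
      (LinearMap.trace k V z.1 • (1 : Module.End k V) - z.1, LinearMap.trace k V z.1 • 1 - z.2) := by
  rfl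

omit [FiniteDimensional k U] in
theorem pairInvolution_gen (hV : Module.finrank k V = 2) (ρ : G →* Module.End k V)
    (u : G →* Module.End k U)
    (hu : ∀ g, u g + LinearMap.det (ρ g) • u g⁻¹ = LinearMap.trace k V (ρ g) • 1) (g : G) :
    pairInvolution (ρ g, u g) =
      (LinearMap.det (ρ g) • ρ g⁻¹, LinearMap.det (ρ g) • u g⁻¹) := by
  rw [pairInvolution_apply]
  exact Prod.ext (by show _ - ρ g = _; rw [← add_det_smul_inv hV ρ g]; exact add_sub_cancel_left _ _)
    (by show _ - u g = _; rw [← hu g]; exact add_sub_cancel_left _ _)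

omit [FiniteDimensional k U] in
theorem det_rep_ne_zero (ρ : G →* Module.End k V) (g : G) : LinearMap.det (ρ g) ≠ 0 := fun h => by
  have h1 := congrArg LinearMap.det (show ρ g * ρ g⁻¹ = 1 by
    rw [← map_mul, mul_inv_cancel, map_one])
  rw [map_mul, h, zero_mul, map_one] at h1
  exact zero_ne_one h1

omit [FiniteDimensional k U] in
/-- An element of the span of the graph vanishing on `V` is swapped by the involution. -/
theorem swap_of_fst_eq_zero (hV : Module.finrank k V = 2) (ρ : G →* Module.End k V)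
    (u : G →* Module.End k U)
    (hu : ∀ g, u g + LinearMap.det (ρ g) • u g⁻¹ = LinearMap.trace k V (ρ g) • 1)
    {b : Module.End k U}
    (hb : ((0 : Module.End k V), b) ∈ Submodule.span k (Set.range fun g => (ρ g, u g))) (g : G) :
    u g * b = b * (LinearMap.det (ρ g) • u g⁻¹) := by
  suffices hanti : ∀ z ∈ Submodule.span k (Set.range fun g => (ρ g, u g)),
      pairInvolution ((ρ g, u g) * z) = pairInvolution z * pairInvolution (ρ g, u g) by
    have h1 := congrArg Prod.snd (hanti _ hb)
    rw [pairInvolution_gen hV ρ u hu, Prod.mk_mul_mk, mul_zero, pairInvolution_apply,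
      pairInvolution_apply, Prod.snd_mul] at h1
    simp only [map_zero, zero_smul, zero_sub, neg_mul, neg_inj] at h1
    exact h1
  intro z hz
  induction hz using Submodule.span_induction with
  | mem z hz =>
    obtain ⟨h, rfl⟩ := hz
    show pairInvolution ((ρ g, u g) * (ρ h, u h)) =
      pairInvolution (ρ h, u h) * pairInvolution (ρ g, u g)
    rw [Prod.mk_mul_mk, ← map_mul ρ, ← map_mul u, pairInvolution_gen hV ρ u hu,
      pairInvolution_gen hV ρ u hu, pairInvolution_gen hV ρ u hu, Prod.mk_mul_mk,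
      smul_mul_smul_comm, smul_mul_smul_comm, mul_inv_rev, map_mul ρ h⁻¹, map_mul u, map_mul ρ g,
      map_mul, mul_comm (LinearMap.det (ρ g))]
  | zero => rw [mul_zero, map_zero, zero_mul]
  | add a a' _ _ ha hb => rw [mul_add, map_add, map_add, add_mul, ha, hb]
  | smul r a _ ha => rw [mul_smul_comm, map_smul, map_smul, smul_mul_assoc, ha]

omit [FiniteDimensional k U] in
/-- For an irreducible `u`, the span of the graph does not meet `0 × End U`. -/
theorem eq_zero_of_fst_eq_zero [Nontrivial U] (h2 : (2 : k) ≠ 0)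
    (hV : Module.finrank k V = 2) (ρ : G →* Module.End k V) (u : G →* Module.End k U)
    (huirr : ∀ W : Submodule k U, (∀ g, ∀ x ∈ W, u g x ∈ W) → W = ⊥ ∨ W = ⊤)
    (hu : ∀ g, u g + LinearMap.det (ρ g) • u g⁻¹ = LinearMap.trace k V (ρ g) • 1)
    {c : G} (hc : LinearMap.trace k V (ρ c) = 0) {b : Module.End k U}
    (hb : ((0 : Module.End k V), b) ∈ Submodule.span k (Set.range fun g => (ρ g, u g))) :
    b = 0 := by
  have hswap := swap_of_fst_eq_zero hV ρ u hu hb
  have hswap' : ∀ g, b * u g = LinearMap.det (ρ g) • (u g⁻¹ * b) := fun g => by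
    rw [hswap g⁻¹, inv_inv, mul_smul_comm, smul_smul, ← map_mul, ← map_mul, mul_inv_cancel,
      map_one, map_one, one_smul]
  rcases huirr (LinearMap.ker b) (fun g y hy => by
      rw [LinearMap.mem_ker] at hy ⊢
      rw [← Module.End.mul_apply, hswap', LinearMap.smul_apply, Module.End.mul_apply, hy,
        map_zero, smul_zero]) with hker | hker
  swap
  · exact LinearMap.ker_eq_top.1 hker
  exfalso
  have hbinj : Function.Injective b := LinearMap.ker_eq_bot.1 hker
  have hcancel : ∀ a a' : Module.End k U, b * a = b * a' → a = a' := fun a a' h =>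
    LinearMap.ext fun y => hbinj (LinearMap.congr_fun h y)
  have hcomm : ∀ g h, u g * u h = u h * u g := by
    intro g h
    have e1 := hswap (g⁻¹ * h⁻¹)
    rw [map_mul u, mul_assoc, hswap h⁻¹, ← mul_assoc, hswap g⁻¹, inv_inv, inv_inv, mul_inv_rev,
      inv_inv, inv_inv, mul_assoc, smul_mul_smul_comm] at e1
    have e2 := hcancel _ _ e1
    rw [map_mul ρ, map_mul LinearMap.det] at e2
    have e3 := smul_right_injective _
      (mul_ne_zero (det_rep_ne_zero ρ g⁻¹) (det_rep_ne_zero ρ h⁻¹)) e2
    rw [map_mul] at e3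
    exact e3
  have hbc : ∀ g, b * u g = u g * b := fun g => by
    suffices ∀ z ∈ Submodule.span k (Set.range fun g => (ρ g, u g)), z.2 * u g = u g * z.2 from
      this _ hb
    intro z hz
    induction hz using Submodule.span_induction with
    | mem z hz => obtain ⟨h, rfl⟩ := hz; exact hcomm h g
    | zero => simp
    | add a a' _ _ ha ha' => simp only [Prod.snd_add, add_mul, mul_add, ha, ha']
    | smul r a _ ha => simp only [Prod.smul_snd, smul_mul_assoc, mul_smul_comm, ha]
  have hself : LinearMap.det (ρ c) • u c⁻¹ = u c :=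
    hcancel _ _ (by rw [← hswap c]; exact (hbc c).symm)
  have h0 := hu c
  rw [hself, hc, zero_smul, ← two_smul k, smul_eq_zero, or_iff_right h2] at h0
  have h1 : u c⁻¹ * u c = 1 := by rw [← map_mul, inv_mul_cancel, map_one]
  rw [h0, mul_zero] at h1
  exact zero_ne_one h1

/-- An irreducible representation satisfying the quadratic relations of an irreducible
two-dimensional `ρ` with an element of trace zero receives `ρ` injectively. -/
theorem exists_injective_intertwiner_of_irreducible [Nontrivial U] (h2 : (2 : k) ≠ 0)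
    (hV : Module.finrank k V = 2) (ρ : G →* Module.End k V) (u : G →* Module.End k U)
    (hirr : ∀ W : Submodule k V, (∀ g, ∀ x ∈ W, ρ g x ∈ W) → W = ⊥ ∨ W = ⊤)
    (huirr : ∀ W : Submodule k U, (∀ g, ∀ x ∈ W, u g x ∈ W) → W = ⊥ ∨ W = ⊤)
    (hu : ∀ g, u g + LinearMap.det (ρ g) • u g⁻¹ = LinearMap.trace k V (ρ g) • 1)
    {c : G} (hc : LinearMap.trace k V (ρ c) = 0) :
    ∃ f : V →ₗ[k] U, Function.Injective f ∧ ∀ g v, f (ρ g v) = u g (f v) := by
  classical
  obtain ⟨x, hx⟩ := exists_ne (0 : U)
  let Γ : Submodule k (Module.End k V × Module.End k U) :=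
    Submodule.span k (Set.range fun g => (ρ g, u g))
  let ev : (Module.End k V × Module.End k U) →ₗ[k] U :=
    (LinearMap.applyₗ x).comp (LinearMap.snd k _ _)
  let S : Set (Submodule k (Module.End k V × Module.End k U)) :=
    {J | J ≤ Γ ∧ (∀ g, ∀ z ∈ J, (ρ g, u g) * z ∈ J) ∧ ∃ z ∈ J, ev z ≠ 0}
  have hΓst : ∀ g, ∀ z ∈ Γ, (ρ g, u g) * z ∈ Γ := fun g z hz => by
    induction hz using Submodule.span_induction with
    | mem z hz =>
      obtain ⟨h, rfl⟩ := hz
      exact Submodule.subset_span ⟨g * h, by simp⟩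
    | zero => rw [mul_zero]; exact zero_mem _
    | add a b _ _ ha hb => rw [mul_add]; exact add_mem ha hb
    | smul r a _ ha => rw [mul_smul_comm]; exact Submodule.smul_mem _ _ ha
  obtain ⟨J, ⟨hJΓ, hJst, z₀, hz₀, hz₀x⟩, hJmin⟩ := wellFounded_lt.has_min S
    ⟨Γ, le_rfl, hΓst, (ρ 1, u 1), Submodule.subset_span ⟨1, rfl⟩, by simpa [ev] using hx⟩
  obtain ⟨v₀, hv₀⟩ : ∃ v₀, z₀.1 v₀ ≠ 0 := by
    by_contra hcon
    push Not at hcon
    have h1 : z₀ = (0, z₀.2) := Prod.ext (LinearMap.ext hcon) rfl
    refine hz₀x ?_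
    show z₀.2 x = 0
    rw [eq_zero_of_fst_eq_zero h2 hV ρ u huirr hu hc (b := z₀.2) (h1 ▸ hJΓ hz₀), LinearMap.zero_apply]
  let π : J →ₗ[k] V :=
    ((LinearMap.applyₗ v₀).comp (LinearMap.fst k (Module.End k V) (Module.End k U))).comp J.subtype
  let q : J →ₗ[k] U := ev.comp J.subtype
  have hker : LinearMap.ker π ≤ LinearMap.ker q := by
    intro z hz
    by_contra hq
    refine hJmin ((LinearMap.ker π).map J.subtype) ⟨(Submodule.map_subtype_le _ _).trans hJΓ,
      fun g y hy => ?_, z.1, Submodule.mem_map.2 ⟨z, hz, rfl⟩, hq⟩ ?_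
    · obtain ⟨y', hy', rfl⟩ := Submodule.mem_map.1 hy
      refine Submodule.mem_map.2 ⟨⟨_, hJst g _ y'.2⟩, ?_, rfl⟩
      rw [LinearMap.mem_ker] at hy' ⊢
      show ρ g (y'.1.1 v₀) = 0
      rw [show y'.1.1 v₀ = 0 from hy', map_zero]
    · refine lt_of_le_of_ne (Submodule.map_subtype_le _ _) fun h => hv₀ ?_
      obtain ⟨y, hy, hy'⟩ := Submodule.mem_map.1 (h.ge hz₀)
      rw [← hy']
      exact hy
  have hπ : LinearMap.range π = ⊤ := by
    refine (hirr _ ?_).resolve_left fun h => hv₀ ?_
    · rintro g _ ⟨y, rfl⟩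
      exact ⟨⟨_, hJst g _ y.2⟩, rfl⟩
    · exact (Submodule.eq_bot_iff _).1 h _ ⟨⟨z₀, hz₀⟩, rfl⟩
  have hsur : Function.Surjective π := LinearMap.range_eq_top.1 hπ
  let f : V →ₗ[k] U := ((LinearMap.ker π).liftQ q hker).comp
    (π.quotKerEquivOfSurjective hsur).symm.toLinearMap
  have hf : ∀ y, f (π y) = q y := fun y => by
    show (LinearMap.ker π).liftQ q hker ((π.quotKerEquivOfSurjective hsur).symm (π y)) = q y
    rw [show (π.quotKerEquivOfSurjective hsur).symm (π y) = Submodule.Quotient.mk y from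
      (π.quotKerEquivOfSurjective hsur).symm_apply_eq.2 rfl, Submodule.liftQ_apply]
  have hfeq : ∀ g v, f (ρ g v) = u g (f v) := fun g v => by
    obtain ⟨y, rfl⟩ := hsur v
    rw [show ρ g (π y) = π ⟨_, hJst g _ y.2⟩ from rfl, hf, hf]
    rfl
  refine ⟨f, LinearMap.ker_eq_bot.1 ((hirr _ fun g v hv => ?_).resolve_right fun h => hz₀x ?_), hfeq⟩
  · rw [LinearMap.mem_ker] at hv ⊢
    rw [hfeq, hv, map_zero]
  · have := hf ⟨z₀, hz₀⟩
    rw [LinearMap.ker_eq_top.1 h, LinearMap.zero_apply] at this
    exact this.symm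

/-- A representation satisfying the quadratic relations of an irreducible two-dimensional `ρ`
with an element of trace zero contains a copy of `ρ`. -/
theorem exists_injective_intertwiner [Nontrivial U] (h2 : (2 : k) ≠ 0)
    (hV : Module.finrank k V = 2) (ρ : G →* Module.End k V) (u : G →* Module.End k U)
    (hirr : ∀ W : Submodule k V, (∀ g, ∀ x ∈ W, ρ g x ∈ W) → W = ⊥ ∨ W = ⊤)
    (hu : ∀ g, u g + LinearMap.det (ρ g) • u g⁻¹ = LinearMap.trace k V (ρ g) • 1)
    {c : G} (hc : LinearMap.trace k V (ρ c) = 0) :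
    ∃ f : V →ₗ[k] U, Function.Injective f ∧ ∀ g v, f (ρ g v) = u g (f v) := by
  classical
  let S : Set (Submodule k U) := {X | X ≠ ⊥ ∧ ∀ g, ∀ x ∈ X, u g x ∈ X}
  obtain ⟨W, ⟨hW0, hWst⟩, hWmin⟩ :=
    wellFounded_lt.has_min S ⟨⊤, top_ne_bot, fun _ _ _ => Submodule.mem_top⟩
  let u' : G →* Module.End k W :=
    { toFun := fun g => (u g).restrict (hWst g)
      map_one' := by ext x; simp
      map_mul' := fun g h => by ext x; simp [Module.End.mul_apply] }
  have hu' : ∀ g, u' g + LinearMap.det (ρ g) • u' g⁻¹ = LinearMap.trace k V (ρ g) • 1 := fun g => by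
    ext x
    simpa [u'] using LinearMap.congr_fun (hu g) x.1
  have : Nontrivial W := Submodule.nontrivial_iff_ne_bot.2 hW0
  have hWirr : ∀ X : Submodule k W, (∀ g, ∀ x ∈ X, u' g x ∈ X) → X = ⊥ ∨ X = ⊤ := fun X hX => by
    have inj := Submodule.map_injective_of_injective (f := W.subtype) W.subtype_injective
    by_cases hXW : X.map W.subtype = W
    · exact Or.inr (inj (hXW.trans (Submodule.map_subtype_top _).symm))
    · refine Or.inl (inj ?_)
      rw [Submodule.map_bot]
      by_contra hne
      exact hWmin _ ⟨hne, fun g x hx => by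
        obtain ⟨y, hy, rfl⟩ := Submodule.mem_map.1 hx
        exact Submodule.mem_map.2 ⟨u' g y, hX g y hy, rfl⟩⟩
        (lt_of_le_of_ne (Submodule.map_subtype_le _ _) hXW)
  obtain ⟨f, hf, hfeq⟩ :=
    exists_injective_intertwiner_of_irreducible h2 hV ρ u' hirr hWirr hu' hc
  refine ⟨W.subtype.comp f, W.subtype_injective.comp hf, fun g v => ?_⟩
  show ((f (ρ g v) : W) : U) = u g ((f v : W) : U)
  rw [hfeq]
  rfl

end Fermat.Agent.MazurPrinciple
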