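/-
Mazur's principle, local criterion at `p`: the vocabulary.

`PeuLine W p A L` says: `L` is a line of `E[p]` stable under inertia at `A`, with trivial quotient
and the cyclotomic character on it, and whenever an element `σ` of inertia which fixes `μ_p` moves
a point outside `L`, some integral element of the field cut out by `E[p]` and inertia is moved by
`σ` by at most `|p| ^ (1/(p-1))`.
-/
import Fermat.Agent.AtP.Basic
import Fermat.Agent.MazurPrinciple.Uniformiser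

set_option autoImplicit false

namespace Fermat.Agent.MazurPrinciple

local notation "Q̄" => AlgebraicClosure ℚ
local notation "Γℚ" => Q̄ ≃ₐ[ℚ] Q̄

/-- The elements of inertia at `A` fixing `μ_p` and `E[p]`. -/
noncomputable def torsInertia (W : WeierstrassCurve ℤ) (p : ℕ) (A : ValuationSubring Q̄) :
    Subgroup Γℚ where
  carrier := {σ | σ ∈ A.inertiaSubgroupIn ℚ ∧ (∀ μ : Q̄, μ ^ p = 1 → σ μ = μ) ∧
    ∀ x : AtP.Tors W p, σ • x = x}
  one_mem' := ⟨one_mem _, fun _ _ => rfl, fun x => one_smul _ x⟩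
  mul_mem' := fun {σ τ} hσ hτ => ⟨mul_mem hσ.1 hτ.1,
    fun μ hμ => by rw [AlgEquiv.mul_apply, hτ.2.1 μ hμ, hσ.2.1 μ hμ],
    fun x => by rw [mul_smul, hτ.2.2, hσ.2.2]⟩
  inv_mem' := fun {σ} hσ => ⟨inv_mem hσ.1,
    fun μ hμ => by
      conv_lhs => rw [← hσ.2.1 μ hμ]
      exact σ.symm_apply_apply μ,
    fun x => inv_smul_eq_iff.2 (hσ.2.2 x).symm⟩

theorem mem_torsInertia {W : WeierstrassCurve ℤ} {p : ℕ} {A : ValuationSubring Q̄} {σ : Γℚ} :
    σ ∈ torsInertia W p A ↔ σ ∈ A.inertiaSubgroupIn ℚ ∧ (∀ μ : Q̄, μ ^ p = 1 → σ μ = μ) ∧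
      ∀ x : AtP.Tors W p, σ • x = x :=
  Iff.rfl

theorem torsInertia_le (W : WeierstrassCurve ℤ) (p : ℕ) (A : ValuationSubring Q̄) :
    torsInertia W p A ≤ A.inertiaSubgroupIn ℚ := fun _ h => h.1

/-- The line of `E[p]` at `A` in the peu ramifiée case. -/
structure PeuLine (W : WeierstrassCurve ℤ) (p : ℕ) [Fact p.Prime] (A : ValuationSubring Q̄)
    (L : Submodule (ZMod p) (AtP.Tors W p)) : Prop where
  finrank_eq : Module.finrank (ZMod p) L = 1
  inertia_sub_mem : ∀ σ ∈ A.inertiaSubgroupIn ℚ, ∀ x : AtP.Tors W p, σ • x - x ∈ L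
  inertia_cyclotomic : ∀ σ ∈ A.inertiaSubgroupIn ℚ, ∀ a : ℕ,
    (∀ μ : Q̄, μ ^ p = 1 → σ μ = μ ^ a) → ∀ x ∈ L, σ • x = a • x
  exists_moved : ∀ σ ∈ A.inertiaSubgroupIn ℚ, (∀ μ : Q̄, μ ^ p = 1 → σ μ = μ) →
    ∀ x : AtP.Tors W p, σ • x ≠ x → ∃ a ∈ A, IsFixedBy (torsInertia W p A) a ∧ σ a ≠ a ∧
      A.valuation (p : Q̄) ≤ A.valuation (σ a - a) ^ (p - 1)

end Fermat.Agent.MazurPrinciple
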