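/-
Mazur's principle, local criterion: good ordinary reduction at `p`.

If `σ` in inertia moves a point `P` which does not reduce to the origin by `Z`, then
`x(Z) (σ x(P) - x(P)) ^ 2` is a unit, and `|x(Z)| ^ ((p-1)/2) |p| ≤ 1`.
-/
import Fermat.Agent.MazurPrinciple.CriterionRoots
import Fermat.Agent.MazurPrinciple.CriterionDefs

set_option autoImplicit false
set_option linter.style.haveILetI false

open WeierstrassCurve WeierstrassCurve.Affine
open scoped WeierstrassCurve.Affine

namespace Fermat.Agent.MazurPrinciple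

open AtP

local notation "Q̄" => AlgebraicClosure ℚ

variable {W : WeierstrassCurve ℤ} {p : ℕ} {A : ValuationSubring Q̄}

theorem curveQbar_coeff_mem (W : WeierstrassCurve ℤ) :
    (curveQbar W).a₁ ∈ A ∧ (curveQbar W).a₂ ∈ A ∧ (curveQbar W).a₃ ∈ A ∧ (curveQbar W).a₄ ∈ A ∧
      (curveQbar W).a₆ ∈ A := by
  rw [curveQbar_eq]
  simp only [WeierstrassCurve.map_a₁, WeierstrassCurve.map_a₂, WeierstrassCurve.map_a₃,
    WeierstrassCurve.map_a₄, WeierstrassCurve.map_a₆, eq_intCast]
  exact ⟨intCast_mem A _, intCast_mem A _, intCast_mem A _, intCast_mem A _, intCast_mem A _⟩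

/-- An integral point of order `p` which does not reduce to the origin does not reduce to a point of
order two: `2 b + a₁ a + a₃` is a unit. -/
theorem valuation_twice_eq_one [Fact p.Prime] (hp2 : p ≠ 2) (hgood : W.IsGoodPrimeFor p)
    (hA : A.LiesOverPrime p) {x : Tors W p} {a b : Q̄} {h : (curveQbar W).Nonsingular a b}
    (hx : (x : (curveQbar W).Point) = .some a b h) (ha : a ∈ A) (hb : b ∈ A) :
    A.valuation (b - (curveQbar W).toAffine.negY a b) = 1 := by
  classical
  have hp : p.Prime := Fact.out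
  obtain ⟨h1, -, h3, -, -⟩ := curveQbar_coeff_mem (A := A) W
  have hnY : (curveQbar W).toAffine.negY a b ∈ A :=
    sub_mem (sub_mem (neg_mem hb) (mul_mem h1 ha)) h3
  refine le_antisymm ((A.valuation_le_one_iff _).2 (sub_mem hb hnY)) (not_lt.1 fun hlt => ?_)
  set R := ECRed.redHom hp hA hgood with hR
  have hne : R x.1 ≠ 0 := by
    rw [hR, Ne, ECRed.redHom_eq_zero_iff, hx]
    rintro (h0 | ⟨a', b', h', he, ha'⟩)
    · exact Point.some_ne_zero h h0
    · cases he; exact ha' ha
  have hred : ECRed.red A ((curveQbar W).toAffine.negY a b) = ECRed.red A b := by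
    rw [ECRed.red_of_mem hnY, ECRed.red_of_mem hb, eq_comm, ← sub_eq_zero, ← map_sub,
      IsLocalRing.residue_eq_zero_iff, ← ValuationSubring.coe_mem_nonunits_iff]
    exact (ValuationSubring.mem_nonunits_iff A).2 hlt
  have hneg : R (-x.1) = R x.1 := by
    rw [hR, ECRed.redHom_apply, ECRed.redHom_apply, hx, Point.neg_some]
    simp only [ECRed.reduce, hred]
  have htwo : (2 : ℕ) • R x.1 = 0 := by
    rw [two_nsmul]
    nth_rewrite 1 [← hneg]
    rw [← map_add, neg_add_cancel, map_zero]
  have hpR : p • R x.1 = 0 := by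
    rw [← map_nsmul, ← natCast_zsmul, (Submodule.mem_torsionBy_iff _ _).1 x.2, map_zero]
  obtain ⟨m, hm⟩ := hp.odd_of_ne_two hp2
  replace hpR : (2 * m + 1) • R x.1 = 0 := (congrArg (fun n : ℕ => n • R x.1) hm).symm.trans hpR
  rw [add_nsmul, one_nsmul, mul_nsmul, htwo, nsmul_zero, zero_add] at hpR
  exact hne hpR

theorem mem_of_equation {a b : Q̄} (h : (curveQbar W).toAffine.Equation a b) (ha : a ∈ A) :
    b ∈ A := by
  obtain ⟨h1, h2, h3, h4, h6⟩ := curveQbar_coeff_mem (A := A) W
  rw [equation_iff] at h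
  set c := (curveQbar W).a₁ * a + (curveQbar W).a₃
  set e := a ^ 3 + (curveQbar W).a₂ * a ^ 2 + (curveQbar W).a₄ * a + (curveQbar W).a₆
  have hcA : A.valuation c ≤ 1 := (A.valuation_le_one_iff _).2 (add_mem (mul_mem h1 ha) h3)
  have heA : A.valuation e ≤ 1 := (A.valuation_le_one_iff _).2
    (add_mem (add_mem (add_mem (pow_mem ha 3) (mul_mem h2 (pow_mem ha 2))) (mul_mem h4 ha)) h6)
  rw [← A.valuation_le_one_iff]
  by_contra! hb
  have heq : b ^ 2 = e - c * b := by linear_combination h
  have hle : A.valuation (b ^ 2) ≤ A.valuation b := by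
    rw [heq]
    refine (Valuation.map_sub _ _ _).trans (max_le (heA.trans hb.le) ?_)
    rw [map_mul]
    exact mul_le_of_le_one_left' hcA
  rw [map_pow, pow_two] at hle
  exact hle.not_gt (lt_mul_of_one_lt_left (zero_lt_one.trans hb) hb)

/-- The kernel of reduction is a peu ramifiée line at a good ordinary prime. -/
theorem peuLine_formalPart [Fact p.Prime] (hp2 : p ≠ 2) (hgood : W.IsGoodPrimeFor p)
    (hA : A.LiesOverPrime p) {k : ℕ} (hk : k ≠ 0)
    (hdvd : ¬ (p : ℤ) ∣ (W.preΨ' p).coeff k) : PeuLine W p A (formalPart hA hgood) := by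
  classical
  have hp : p.Prime := Fact.out
  have hord := isOrdinaryLine_formalPart hp2 hA hgood hk hdvd
  refine ⟨hord.finrank_eq, hord.inertia_sub_mem, hord.inertia_cyclotomic,
    fun σ hσ hμ x hmoved => ?_⟩
  have hxnot : x ∉ formalPart hA hgood := fun hmem =>
    hmoved (by rw [hord.inertia_cyclotomic σ hσ 1 (fun μ h => by rw [pow_one, hμ μ h]) x hmem,
      one_nsmul])
  have hZmem : σ • x - x ∈ formalPart hA hgood := hord.inertia_sub_mem σ hσ x
  rcases (mem_formalPart hA hgood _).1 hZmem with h0 | ⟨c, d, hc, hcd, hcA⟩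
  · exact absurd (sub_eq_zero.1 (Subtype.ext h0)) hmoved
  rcases hxe : (x : (curveQbar W).Point) with _ | ⟨a, b, h⟩
  · exact absurd ((mem_formalPart hA hgood x).2 (Or.inl hxe)) hxnot
  have ha : a ∈ A := by
    by_contra ha
    exact hxnot ((mem_formalPart hA hgood x).2 (Or.inr ⟨a, b, h, hxe, ha⟩))
  have hb : b ∈ A := mem_of_equation h.1 ha
  have hdec := Mult.mem_decomposition_of_mem_inertia hσ
  have hσa : σ a ∈ A := (Mult.apply_mem_iff_of_mem_decomposition hdec a).2 ha
  have hσb : σ b ∈ A := (Mult.apply_mem_iff_of_mem_decomposition hdec b).2 hb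
  obtain ⟨h'', hσx⟩ : ∃ h'', ((σ • x : Tors W p) : (curveQbar W).Point) =
      .some (σ a) (σ b) h'' := ⟨_, congrArg (σ • ·) hxe⟩
  have hne : σ a ≠ a := by
    intro he
    rcases (Point.X_eq_iff (h₁ := h'') (h₂ := h)).1 he with e | e
    · exact hmoved (Subtype.ext ((hσx.trans e).trans hxe.symm))
    · refine hxnot ?_
      have e' : σ • x = -x := Subtype.ext ((hσx.trans e).trans (by rw [← hxe]; rfl))
      have h2 : (2 : ZMod p) • x ∈ formalPart hA hgood := by
        have := (formalPart hA hgood).neg_mem hZmem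
        rw [e', neg_sub, sub_neg_eq_add] at this
        rwa [two_smul]
      refine (Submodule.smul_mem_iff (formalPart hA hgood) ?_).1 h2
      intro h0
      have h0' : ((2 : ℕ) : ZMod p) = 0 := by exact_mod_cast h0
      exact hp2 ((Nat.prime_dvd_prime_iff_eq hp Nat.prime_two).1
        ((ZMod.natCast_eq_zero_iff _ _).1 h0'))
  refine ⟨a, ha, fun τ hτ => ?_, hne, ?_⟩
  · have h1 : ((τ • x : Tors W p) : (curveQbar W).Point) = x := congrArg Subtype.val (hτ.2.2 x)
    obtain ⟨h₃, hτx⟩ : ∃ h₃, ((τ • x : Tors W p) : (curveQbar W).Point) =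
      .some (τ a) (τ b) h₃ := ⟨_, congrArg (τ • ·) hxe⟩
    rw [hτx, hxe, Point.some.injEq] at h1
    exact h1.1
  -- the secant through `σ P` and `-P` meets the curve at `Z`
  set nb := (curveQbar W).toAffine.negY a b with hnb
  set m := (σ b - nb) / (σ a - a) with hm
  have hcX : c = (curveQbar W).toAffine.addX (σ a) a m := by
    have hsum : (Point.some c d hc : (curveQbar W).Point) =
        Point.some (σ a) (σ b) h'' + -Point.some a b h := by
      rw [← hcd, ← hxe, ← hσx, ← sub_eq_add_neg]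
      rfl
    rw [Point.neg_some, Point.add_of_X_ne hne, Point.some.injEq, slope_of_X_ne hne] at hsum
    exact hsum.1
  have hunit : A.valuation (σ b - nb) = 1 := by
    have hbn := valuation_twice_eq_one hp2 hgood hA hxe ha hb
    have hsub : A.valuation (σ b - b) < 1 :=
      (ValuationSubring.mem_nonunits_iff A).1 (Mult.sub_mem_nonunits_of_mem_inertia hσ hb)
    rw [show σ b - nb = (σ b - b) + (b - nb) by ring, ← hbn]
    exact Valuation.map_add_eq_of_lt_right _ (by rw [hbn]; exact hsub)
  have hlt : A.valuation (σ a - a) < 1 :=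
    (ValuationSubring.mem_nonunits_iff A).1 (Mult.sub_mem_nonunits_of_mem_inertia hσ ha)
  have hpos : 0 < A.valuation (σ a - a) :=
    zero_lt_iff.2 ((Valuation.ne_zero_iff _).2 (sub_ne_zero.2 hne))
  have hvm : A.valuation m = (A.valuation (σ a - a))⁻¹ := by
    rw [hm, map_div₀, hunit, one_div]
  have hm1 : 1 < A.valuation m := by rw [hvm]; exact (one_lt_inv₀ hpos).2 hlt
  have hvc : A.valuation c = A.valuation m ^ 2 := by
    obtain ⟨h1, h2, -, -, -⟩ := curveQbar_coeff_mem (A := A) W
    rw [hcX, addX, show m ^ 2 + (curveQbar W).a₁ * m - (curveQbar W).a₂ - σ a - a =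
      m ^ 2 + ((curveQbar W).a₁ * m - ((curveQbar W).a₂ + σ a + a)) by ring,
      Valuation.map_add_eq_of_lt_left, map_pow]
    rw [map_pow]
    refine (Valuation.map_sub _ _ _).trans_lt (max_lt ?_ ?_)
    · rw [map_mul, pow_two]
      exact (mul_le_of_le_one_left' ((A.valuation_le_one_iff _).2 h1)).trans_lt
        (lt_mul_of_one_lt_left (zero_lt_one.trans hm1) hm1)
    · exact ((A.valuation_le_one_iff _).2 (add_mem (add_mem h2 hσa) ha)).trans_lt
        (one_lt_pow₀ hm1 two_ne_zero)
  have hbound := valuation_root_pow_le hp2 hgood hA hdvd hcd hcA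
  have heven : p - 1 = 2 * ((p - 1) / 2) := by
    obtain ⟨k, hk⟩ := hp.odd_of_ne_two hp2
    omega
  rw [hvc, hvm, inv_pow, inv_pow, mul_inv_le_iff₀ (pow_pos (pow_pos hpos 2) _), one_mul,
    ← pow_mul, ← heven] at hbound
  exact hbound

end Fermat.Agent.MazurPrinciple
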