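/-
Mazur's principle: `LocalData` from a peu ramifiée line of `E[p]`.
-/
import Fermat.Agent.MazurPrinciple.CriterionDefs
import Fermat.Agent.MazurPrinciple.CriterionRoots
import Fermat.Agent.MazurPrinciple.LocalData

set_option autoImplicit false
set_option linter.style.haveILetI false

noncomputable section

open WeierstrassCurve WeierstrassCurve.Affine WeierstrassCurve.Affine.Point
open scoped WeierstrassCurve.Affine

namespace Fermat.Agent.MazurPrinciple

local notation "Q̄" => AlgebraicClosure ℚ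
local notation "Γℚ" => AlgebraicClosure ℚ ≃ₐ[ℚ] AlgebraicClosure ℚ

variable {W : WeierstrassCurve ℤ} {p : ℕ} {A : ValuationSubring Q̄}

theorem torsInertia_normal {σ : Γℚ} (hσ : σ ∈ A.inertiaSubgroupIn ℚ) {τ : Γℚ}
    (hτ : τ ∈ torsInertia W p A) : σ * τ * σ⁻¹ ∈ torsInertia W p A := by
  refine ⟨mul_mem (mul_mem hσ hτ.1) (inv_mem hσ), fun μ hμ => ?_, fun x => ?_⟩
  · have h : τ (σ⁻¹ μ) = σ⁻¹ μ := hτ.2.1 _ (by rw [← map_pow, hμ, map_one])
    rw [AlgEquiv.mul_apply, AlgEquiv.mul_apply, h]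
    exact σ.apply_symm_apply μ
  · rw [mul_smul, mul_smul, hτ.2.2, smul_inv_smul]

theorem modRep_eq_one_of_mem {σ : Γℚ} (hσ : σ ∈ torsInertia W p A) : modRep W p σ = 1 :=
  LinearMap.ext fun x => hσ.2.2 x

theorem isFixedBy_torsInertia_root {ζ : Q̄} (hζ : ζ ^ p = 1) :
    IsFixedBy (torsInertia W p A) ζ := fun _ hσ => hσ.2.1 ζ hζ

/-- Orbits of fixed elements are controlled by any set of invariants separating inertia modulo
`torsInertia`. -/
theorem exists_finset_conjugates {α : Type*} [DecidableEq α] (T : Finset α) (f : Γℚ → α)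
    (hf : ∀ σ ∈ A.inertiaSubgroupIn ℚ, f σ ∈ T)
    (hinj : ∀ σ ∈ A.inertiaSubgroupIn ℚ, ∀ τ ∈ A.inertiaSubgroupIn ℚ, f σ = f τ →
      σ⁻¹ * τ ∈ torsInertia W p A)
    (c : Q̄) (hc : IsFixedBy (torsInertia W p A) c) :
    ∃ S : Finset Q̄, c ∈ S ∧ S.card ≤ T.card ∧ ∀ σ ∈ A.inertiaSubgroupIn ℚ, σ c ∈ S := by
  classical
  let g : α → Q̄ := fun a =>
    if h : ∃ σ ∈ A.inertiaSubgroupIn ℚ, f σ = a then h.choose c else c
  have hmem : ∀ σ ∈ A.inertiaSubgroupIn ℚ, σ c ∈ T.image g := by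
    intro σ hσ
    refine Finset.mem_image.2 ⟨f σ, hf σ hσ, ?_⟩
    have h : ∃ τ ∈ A.inertiaSubgroupIn ℚ, f τ = f σ := ⟨σ, hσ, rfl⟩
    simp only [g, dif_pos h]
    have h2 := hc _ (hinj σ hσ h.choose h.choose_spec.1 h.choose_spec.2.symm)
    have h3 := congrArg σ h2
    rw [← AlgEquiv.mul_apply, mul_inv_cancel_left] at h3
    exact h3
  exact ⟨T.image g, by simpa using hmem 1 (one_mem _), Finset.card_image_le, hmem⟩

/-- Some element of inertia moves the `p`-th roots of unity. -/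
theorem exists_inertia_move_zeta (hp : p.Prime) (hp2 : p ≠ 2) (hA : A.LiesOverPrime p) :
    ∃ z ∈ A.inertiaSubgroupIn ℚ, ∀ ζ : Q̄, IsPrimitiveRoot ζ p → z ζ ≠ ζ := by
  haveI := Fact.mk hp
  haveI : NeZero p := ⟨hp.ne_zero⟩
  obtain ⟨ζ₀, hζ₀⟩ := HasEnoughRootsOfUnity.exists_primitiveRoot Q̄ p
  suffices h : ∃ z ∈ A.inertiaSubgroupIn ℚ, z ζ₀ ≠ ζ₀ by
    obtain ⟨z, hz, hne⟩ := h
    refine ⟨z, hz, fun ζ hζ hfix => hne ?_⟩
    obtain ⟨i, -, rfl⟩ := hζ.eq_pow_of_pow_eq_one (ξ := ζ₀) hζ₀.pow_eq_one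
    rw [map_pow, hfix]
  by_contra! hall
  obtain ⟨m, hm⟩ := AtP.exists_zpow_valuation_eq hp hA (c := ζ₀ - 1)
    (sub_ne_zero.2 (hζ₀.ne_one hp.one_lt)) fun σ hσ => by rw [map_sub, map_one, hall σ hσ]
  have hpow := valuation_sub_one_pow_eq (A := A) hp hζ₀
  rw [hm, ← zpow_natCast, ← zpow_mul] at hpow
  have h0 : 0 < A.valuation (p : Q̄) := zero_lt_iff.2 (AtP.natCast_valuation_ne_zero hp)
  have h1 : m * ((p - 1 : ℕ) : ℤ) = 1 :=
    zpow_right_injective₀ h0 (AtP.natCast_valuation_lt_one hA).ne (hpow.trans (zpow_one _).symm)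
  have h3 : ((p - 1 : ℕ) : ℤ) ∣ 1 := Dvd.intro_left m h1
  have h4 := Nat.le_of_dvd one_pos (Int.natCast_dvd_natCast.1 (by exact_mod_cast h3 : ((p - 1 : ℕ) : ℤ) ∣ ((1 : ℕ) : ℤ)))
  have := hp.two_le
  omega

variable [Fact p.Prime] {L : Submodule (ZMod p) (AtP.Tors W p)}

/-- An element of inertia fixing `μ_p` fixes the line and is unipotent. -/
theorem PeuLine.pow_mem_torsInertia (hL : PeuLine W p A L) {σ : Γℚ}
    (hσ : σ ∈ A.inertiaSubgroupIn ℚ) (hμ : ∀ μ : Q̄, μ ^ p = 1 → σ μ = μ) :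
    σ ^ p ∈ torsInertia W p A := by
  have hiter : ∀ (n : ℕ) (x : AtP.Tors W p), (σ ^ n) • x = x + n • (σ • x - x) := by
    intro n
    induction n with
    | zero => simp
    | succ n ih =>
      intro x
      have hfix : σ • (σ • x - x) = σ • x - x := by
        have h := hL.inertia_cyclotomic σ hσ 1 (fun μ h => by rw [pow_one, hμ μ h]) _
          (hL.inertia_sub_mem σ hσ x)
        rwa [one_nsmul] at h
      rw [pow_succ', mul_smul, ih, smul_add, smul_comm σ n, hfix, succ_nsmul]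
      abel
  refine ⟨pow_mem hσ p, fun μ hμ' => ?_, fun x => ?_⟩
  · have : ∀ n : ℕ, (σ ^ n) μ = μ := by
      intro n
      induction n with
      | zero => rfl
      | succ n ih => rw [pow_succ', AlgEquiv.mul_apply, ih, hμ μ hμ']
    exact this p
  · rw [hiter, ← Nat.cast_smul_eq_nsmul (ZMod p), ZMod.natCast_self, zero_smul, add_zero]

/-- The local data of Mazur's principle from a peu ramifiée line. -/
theorem PeuLine.nonempty_localData (hL : PeuLine W p A L) (hp2 : p ≠ 2) (hΔ : W.Δ ≠ 0)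
    (hA : A.LiesOverPrime p) : Nonempty (LocalData W p A) := by
  classical
  have hp : p.Prime := Fact.out
  haveI : NeZero p := ⟨hp.ne_zero⟩
  have h2 := AtP.finrank_tors (p := p) hΔ
  haveI : Module.Finite (ZMod p) (AtP.Tors W p) := Module.finite_of_finrank_eq_succ h2
  haveI : Finite (AtP.Tors W p) := Module.finite_of_finite (ZMod p)
  haveI := Fintype.ofFinite L
  obtain ⟨ζ₀, hζ₀⟩ := HasEnoughRootsOfUnity.exists_primitiveRoot Q̄ p
  obtain ⟨x₀, hx₀⟩ : ∃ x : AtP.Tors W p, x ∉ L := by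
    by_contra! hall
    have := hL.finrank_eq
    rw [Submodule.eq_top_iff'.2 hall, finrank_top, h2] at this
    omega
  have hsup : L ⊔ Submodule.span (ZMod p) {x₀} = ⊤ := by
    apply Submodule.eq_top_of_finrank_eq
    have hlt : L < L ⊔ Submodule.span (ZMod p) {x₀} :=
      left_lt_sup.2 fun hle => hx₀ (hle (Submodule.mem_span_singleton_self x₀))
    have h1 := Submodule.finrank_lt_finrank_of_lt hlt
    have h3 := Submodule.finrank_le (L ⊔ Submodule.span (ZMod p) {x₀})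
    have := hL.finrank_eq
    omega
  -- inertia modulo `torsInertia` is determined by `σ ζ` and `σ x₀`
  have hdet : ∀ σ ∈ A.inertiaSubgroupIn ℚ, (∀ μ : Q̄, μ ^ p = 1 → σ μ = μ) → σ • x₀ = x₀ →
      σ ∈ torsInertia W p A := by
    intro σ hσ hμ hx
    refine ⟨hσ, hμ, fun x => ?_⟩
    obtain ⟨l, hl, y, hy, rfl⟩ := Submodule.mem_sup.1 (hsup ▸ Submodule.mem_top : x ∈ _)
    obtain ⟨c, rfl⟩ := Submodule.mem_span_singleton.1 hy
    have hlfix : σ • l = l := by
      rw [hL.inertia_cyclotomic σ hσ 1 (fun μ h => by rw [pow_one, hμ μ h]) l hl, one_nsmul]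
    rw [smul_add σ l, hlfix]
    obtain ⟨n, rfl⟩ := ZMod.intCast_surjective c
    rw [Int.cast_smul_eq_zsmul]
    exact congrArg (l + ·) ((smul_comm σ n x₀).trans (congrArg (n • ·) hx))
  let f : Γℚ → Q̄ × AtP.Tors W p := fun σ => (σ ζ₀, σ • x₀ - x₀)
  have hinj : ∀ σ ∈ A.inertiaSubgroupIn ℚ, ∀ τ ∈ A.inertiaSubgroupIn ℚ, f σ = f τ →
      σ⁻¹ * τ ∈ torsInertia W p A := by
    intro σ hσ τ hτ h
    simp only [f, Prod.mk.injEq, sub_left_inj] at h
    refine hdet _ (mul_mem (inv_mem hσ) hτ) (fun μ hμ => ?_) ?_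
    · obtain ⟨i, -, rfl⟩ := hζ₀.eq_pow_of_pow_eq_one hμ
      rw [map_pow, AlgEquiv.mul_apply, ← h.1]
      congr 1
      exact σ.symm_apply_apply ζ₀
    · rw [mul_smul, ← h.2, inv_smul_smul]
  have hline : ∀ σ ∈ A.inertiaSubgroupIn ℚ, σ • x₀ - x₀ ∈ L := fun σ hσ =>
    hL.inertia_sub_mem σ hσ x₀
  have hroot : ∀ σ : Γℚ, σ ζ₀ ∈ primitiveRoots p Q̄ := fun σ =>
    (mem_primitiveRoots hp.pos).2 (hζ₀.map_of_injective σ.injective)
  have hprim : (primitiveRoots p Q̄).card = p - 1 := by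
    rw [hζ₀.card_primitiveRoots, Nat.totient_prime hp]
  have hcardL : (Finset.univ.image (Subtype.val : L → AtP.Tors W p)).card ≤ p := by
    refine Finset.card_image_le.trans ?_
    rw [Finset.card_univ, ← Nat.card_eq_fintype_card, Module.natCard_eq_pow_finrank (K := ZMod p),
      Nat.card_zmod, hL.finrank_eq, pow_one]
  by_cases hwild : ∀ σ ∈ A.inertiaSubgroupIn ℚ, (∀ μ : Q̄, μ ^ p = 1 → σ μ = μ) → σ • x₀ = x₀
  · -- tame
    obtain ⟨U, hU⟩ := exists_uniformiser hp hA (torsInertia W p A) (p - 1) fun c hc => by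
      obtain ⟨S, h1, h2, h3⟩ := exists_finset_conjugates (primitiveRoots p Q̄) (fun σ => σ ζ₀)
        (fun σ _ => hroot σ) (fun σ hσ τ hτ h => by
          refine hinj σ hσ τ hτ ?_
          have hfix : ∀ μ : Q̄, μ ^ p = 1 → (σ⁻¹ * τ) μ = μ := by
            intro μ hμ
            obtain ⟨i, -, rfl⟩ := hζ₀.eq_pow_of_pow_eq_one hμ
            rw [map_pow, AlgEquiv.mul_apply, ← h]
            congr 1
            exact σ.symm_apply_apply ζ₀
          have := hwild _ (mul_mem (inv_mem hσ) hτ) hfix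
          rw [mul_smul, inv_smul_eq_iff] at this
          simp only [f, h, this]) c hc
      exact ⟨S, h1, h2.trans hprim.le, h3⟩
    have hlt : ¬ p ∣ U.e := fun hd => by
      have := Nat.le_of_dvd U.e_pos hd
      have := hp.pos
      omega
    obtain ⟨z, hz, hzζ⟩ := exists_inertia_move_zeta hp hp2 hA
    exact ⟨{
      H := torsInertia W p A
      le_inertia := torsInertia_le W p A
      normal := fun σ hσ τ hτ => torsInertia_normal hσ hτ
      rep_eq_one := fun σ hσ => modRep_eq_one_of_mem hσ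
      zeta_fixed := fun ζ hζ => isFixedBy_torsInertia_root hζ
      U := U
      sq_not_dvd := fun hd => hlt ((dvd_pow_self p two_ne_zero).trans hd)
      wild := fun hd => absurd hd hlt
      separating := ⟨z, hz, hzζ, Or.inl (exists_fixed_of_line hL h2 z hz)⟩ }⟩
  · -- wild
    push Not at hwild
    obtain ⟨σ, hσ, hμ, hmoved⟩ := hwild
    obtain ⟨U, hU⟩ := exists_uniformiser hp hA (torsInertia W p A) ((p - 1) * p) fun c hc => by
      obtain ⟨S, h1, h2, h3⟩ := exists_finset_conjugates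
        (primitiveRoots p Q̄ ×ˢ Finset.univ.image (Subtype.val : L → AtP.Tors W p)) f
        (fun τ hτ => Finset.mem_product.2 ⟨hroot τ, Finset.mem_image.2
          ⟨⟨_, hline τ hτ⟩, Finset.mem_univ _, rfl⟩⟩) hinj c hc
      refine ⟨S, h1, h2.trans ?_, h3⟩
      rw [Finset.card_product, hprim]
      exact Nat.mul_le_mul_left _ hcardL
    have hlt : ¬ p ^ 2 ∣ U.e := fun hd => by
      have h4 := (Nat.le_of_dvd U.e_pos hd).trans hU
      rw [pow_two] at h4
      have := Nat.le_of_mul_le_mul_right h4 hp.pos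
      have := hp.pos
      omega
    obtain ⟨a, ha, hafix, hane, hval⟩ := hL.exists_moved σ hσ hμ x₀ hmoved
    obtain ⟨z, hz, hzζ⟩ := exists_inertia_move_zeta hp hp2 hA
    exact ⟨{
      H := torsInertia W p A
      le_inertia := torsInertia_le W p A
      normal := fun σ hσ τ hτ => torsInertia_normal hσ hτ
      rep_eq_one := fun σ hσ => modRep_eq_one_of_mem hσ
      zeta_fixed := fun ζ hζ => isFixedBy_torsInertia_root hζ
      U := U
      sq_not_dvd := hlt
      wild := fun _ => ⟨σ, hσ, hL.pow_mem_torsInertia hσ hμ, a, ha, hafix, hane, fun ζ hζ => by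
        refine (pow_le_pow_iff_left₀ zero_le zero_le
          (by have := hp.two_le; omega : p - 1 ≠ 0)).1 ?_
        rw [valuation_sub_one_pow_eq hp hζ]
        exact hval⟩
      separating := ⟨z, hz, hzζ, Or.inl (exists_fixed_of_line hL h2 z hz)⟩ }⟩
where
  /-- An element preserving the line with trivial quotient and moving `μ_p` fixes a non-zero
  vector. -/
  exists_fixed_of_line (hL : PeuLine W p A L) (h2 : Module.finrank (ZMod p) (AtP.Tors W p) = 2)
      (z : Γℚ) (hz : z ∈ A.inertiaSubgroupIn ℚ) : ∃ v, v ≠ 0 ∧ modRep W p z v = v := by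
    haveI : Module.Finite (ZMod p) (AtP.Tors W p) := Module.finite_of_finrank_eq_succ h2
    let g : AtP.Tors W p →ₗ[ZMod p] AtP.Tors W p := modRep W p z - 1
    have hrange : LinearMap.range g ≤ L := by
      rintro _ ⟨x, rfl⟩
      exact hL.inertia_sub_mem z hz x
    have h1 := Submodule.finrank_mono hrange
    have h3 := g.finrank_range_add_finrank_ker
    have h4 := hL.finrank_eq
    have hker : LinearMap.ker g ≠ ⊥ := fun h => by
      rw [h, finrank_bot] at h3
      omega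
    obtain ⟨v, hv, hv0⟩ := Submodule.exists_mem_ne_zero_of_ne_bot hker
    exact ⟨v, hv0, sub_eq_zero.1 (LinearMap.mem_ker.1 hv)⟩

end Fermat.Agent.MazurPrinciple
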