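/-
Mazur's principle, local criterion: multiplicative reduction at `p` with `p ∣ v_p(Δ)`.
-/
import Fermat.Agent.MazurPrinciple.CriterionRoots
import Fermat.Agent.MazurPrinciple.CriterionDefs
import Fermat.Agent.Mult.Main

set_option autoImplicit false
set_option linter.style.haveILetI false

open WeierstrassCurve WeierstrassCurve.Affine
open scoped WeierstrassCurve.Affine

namespace Fermat.Agent.MazurPrinciple

local notation "Q̄" => AlgebraicClosure ℚ

variable {W : WeierstrassCurve ℤ} {p : ℕ} {A : ValuationSubring Q̄}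

/-- The Tate line is a peu ramifiée line when `p ∣ v_p(Δ)`. -/
theorem peuLine_tateLine [Fact p.Prime] (h : Mult.IsMultPlace W p A)
    (hpeu : p ∣ padicValInt p W.Δ) : PeuLine W p A (Mult.tateLine W A p) := by
  classical
  have hp : p.Prime := Fact.out
  have hA := h.liesOver
  have hn : p ≠ 0 := hp.ne_zero
  let T := h.basis hn
  have hcard := Mult.natCard_tateLine h hn
  have hfin : Finite (Mult.tateLine W A p) := Nat.finite_of_card_ne_zero (by rw [hcard]; exact hn)
  refine ⟨?_, fun σ hσ x => Mult.inertia_smul_sub_mem h hn hσ x, fun σ hσ a ha x hx => ?_,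
    fun σ hσ hμ x hmoved => ?_⟩
  · have := Module.natCard_eq_pow_finrank (K := ZMod p) (V := Mult.tateLine W A p)
    rw [hcard, Nat.card_zmod] at this
    exact ((Nat.pow_eq_self_iff hp.one_lt).1 this.symm)
  · rw [Mult.smul_tateLine h hn (Mult.mem_decomposition_of_mem_inertia hσ) ha hx,
      Mult.tateSign_eq_one_of_mem_inertia h hσ, one_mul, natCast_zsmul]
  -- the Kummer generator, normalised to be a unit
  obtain ⟨m, hm⟩ := hpeu
  have hr : T.q₀ / (p : ℚ) ^ (p * m) ≠ 0 :=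
    div_ne_zero T.q₀_ne_zero (pow_ne_zero _ (Nat.cast_ne_zero.2 hn))
  set r : ℚ := T.q₀ / (p : ℚ) ^ (p * m) with hrdef
  have hval : padicValRat p r = 0 := by
    rw [hrdef, padicValRat.div T.q₀_ne_zero (pow_ne_zero _ (Nat.cast_ne_zero.2 hn)), T.val_q₀,
      padicValRat.pow, padicValRat.self hp.one_lt, hm]
    simp
  have hrA : A.valuation (r : Q̄) = 1 := by
    refine le_antisymm ((A.valuation_le_one_iff _).2
      (Mult.ratCast_mem_of_padicValRat_nonneg hp hA hval.ge)) ?_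
    have h1 := (A.valuation_le_one_iff _).2
      (Mult.ratCast_mem_of_padicValRat_nonneg hp hA (r := r⁻¹) (by
        rw [padicValRat.inv, hval, neg_zero]))
    rw [Rat.cast_inv, map_inv₀] at h1
    exact (inv_le_one₀ (zero_lt_iff.2 ((Valuation.ne_zero_iff _).2 (Rat.cast_ne_zero.2 hr)))).1 h1
  set a : Q̄ := T.t / (p : Q̄) ^ m with ha
  have hap : a ^ p = (r : Q̄) := by
    rw [ha, div_pow, T.t_pow, ← pow_mul, mul_comm m p, hrdef]
    push_cast
    rfl
  have hva : A.valuation a = 1 := (pow_eq_one_iff_left hn).1 (by rw [← map_pow, hap, hrA])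
  have hσt : ∀ τ : Q̄ ≃ₐ[ℚ] Q̄, ∃ i : ℕ, i < p ∧ τ T.t = T.ζ ^ i * T.t := by
    intro τ
    have ht0 : T.t ≠ 0 := by
      intro h0
      have := T.t_pow
      rw [h0, zero_pow hn] at this
      exact T.q₀_ne_zero (Rat.cast_eq_zero.1 this.symm)
    have : NeZero p := ⟨hn⟩
    obtain ⟨i, hi, hie⟩ := T.ζ_primitive.eq_pow_of_pow_eq_one (ξ := τ T.t / T.t) (by
      rw [div_pow, ← map_pow, T.t_pow, map_ratCast, div_self (Rat.cast_ne_zero.2 T.q₀_ne_zero)])
    exact ⟨i, hi, by rw [hie, div_mul_cancel₀ _ ht0]⟩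
  have hσa : ∀ (τ : Q̄ ≃ₐ[ℚ] Q̄) (i : ℕ), τ T.t = T.ζ ^ i * T.t → τ a = T.ζ ^ i * a := by
    intro τ i hi
    rw [ha, map_div₀, map_pow, map_natCast, hi, mul_div_assoc]
  -- the action on the second basis vector records the exponent
  have hbasis : ∀ τ ∈ A.inertiaSubgroupIn ℚ, ∀ i : ℕ, τ T.t = T.ζ ^ i * T.t →
      τ • Mult.tors₂ T = (i : ℤ) • Mult.tors₁ T + Mult.tors₂ T := by
    intro τ hτ i hi
    rw [Mult.smul_tors₂ T (Mult.mem_decomposition_of_mem_inertia hτ) hi,
      h.isTateTwist_and_basis.1.twistSign_eq_one hτ, one_smul]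
  have hzero : ∀ i : ℕ, i < p → (i : ℤ) • Mult.tors₁ T = 0 → i = 0 := by
    intro i hi h0
    have := (Mult.dvd_of_comb_tors_eq_zero T (a := (i : ℤ)) (b := 0) (by
      rw [h0, zero_smul, add_zero])).1
    exact Nat.eq_zero_of_dvd_of_lt (Int.natCast_dvd_natCast.1 this) hi
  obtain ⟨i, hi, hit⟩ := hσt σ
  have hi0 : i ≠ 0 := by
    rintro rfl
    refine hmoved ?_
    obtain ⟨u, w, rfl⟩ := Mult.exists_eq_comb T x
    rw [smul_add, Mult.smul_zsmul_tors, Mult.smul_zsmul_tors, hbasis σ hσ 0 hit,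
      Mult.smul_tors₁ T (Mult.mem_decomposition_of_mem_inertia hσ) (a := 1)
        (by rw [pow_one, hμ _ T.ζ_primitive.pow_eq_one]),
      h.isTateTwist_and_basis.1.twistSign_eq_one hσ]
    simp
  refine ⟨a, (A.valuation_le_one_iff a).1 hva.le, fun τ hτ => ?_, ?_, ?_⟩
  · obtain ⟨j, hj, hjt⟩ := hσt τ
    have hfix : τ • Mult.tors₂ T = Mult.tors₂ T := hτ.2.2 _
    rw [hbasis τ hτ.1 j hjt, add_eq_right] at hfix
    obtain rfl := hzero j hj hfix
    rw [hσa τ 0 hjt, pow_zero, one_mul]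
  · rw [hσa σ i hit]
    intro he
    have hζ : T.ζ ^ i = 1 := by
      refine mul_right_cancel₀ (fun h0 : a = 0 => ?_) (he.trans (one_mul a).symm)
      rw [h0, map_zero] at hva
      exact zero_ne_one hva
    exact hi0 (Nat.eq_zero_of_dvd_of_lt (T.ζ_primitive.dvd_of_pow_eq_one i hζ) hi)
  · rw [hσa σ i hit, ← sub_one_mul, map_mul, hva, mul_one, valuation_sub_one_pow_eq hp]
    refine T.ζ_primitive.pow_of_coprime i ((Nat.Prime.coprime_iff_not_dvd hp).2 ?_).symm
    exact fun hd => hi0 (Nat.eq_zero_of_dvd_of_lt hd hi)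

end Fermat.Agent.MazurPrinciple
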