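/-
Mazur's principle: the local data at multiplicative peu ramifiée and good ordinary places.
-/
import Fermat.Agent.MazurPrinciple.CriterionLine
import Fermat.Agent.MazurPrinciple.CriterionGood
import Fermat.Agent.MazurPrinciple.CriterionMult

set_option autoImplicit false

noncomputable section

namespace Fermat.Agent.MazurPrinciple

variable {W : WeierstrassCurve ℤ} {p : ℕ} [Fact p.Prime]
  {A : ValuationSubring (AlgebraicClosure ℚ)}

/-- Multiplicative reduction at `p` with `p ∣ v_p(Δ)`. -/
theorem nonempty_localData_mult (hp2 : p ≠ 2) (h : Mult.IsMultPlace W p A)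
    (hpeu : p ∣ padicValInt p W.Δ) : Nonempty (LocalData W p A) :=
  (peuLine_tateLine h hpeu).nonempty_localData hp2 h.Δ_ne_zero h.liesOver

/-- Good ordinary reduction at `p`. -/
theorem nonempty_localData_ordinary (hp2 : p ≠ 2) (hgood : W.IsGoodPrimeFor p)
    (hA : A.LiesOverPrime p) {k : ℕ} (hk : k ≠ 0)
    (hdvd : ¬ (p : ℤ) ∣ (W.preΨ' p).coeff k) : Nonempty (LocalData W p A) :=
  (peuLine_formalPart hp2 hgood hA hk hdvd).nonempty_localData hp2
    (AtP.Δ_ne_zero_of_isGoodPrimeFor hgood) hA

end Fermat.Agent.MazurPrinciple
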