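/-
Mazur's principle, local criterion: good supersingular reduction at `p` (odd).

The parameters `x / y` of two points of `E[p]` which agree modulo terms of higher order are equal;
hence inertia acts through an abelian group acting simply transitively on the non-zero points, the
index of the fixed field is `p² - 1`, and some element has no eigenvalue and moves `μ_p`.
-/
import Fermat.Agent.MazurPrinciple.CriterionLine
import Fermat.Agent.MazurPrinciple.CriterionInst
import Fermat.Agent.ECRed.Rat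
import Fermat.Agent.Weil.DetCyclotomic

set_option autoImplicit false
set_option linter.style.haveILetI false

noncomputable section

open WeierstrassCurve WeierstrassCurve.Affine WeierstrassCurve.Affine.Point
open scoped WeierstrassCurve.Affine

namespace Fermat.Agent.MazurPrinciple

open AtP

local notation "Q̄" => AlgebraicClosure ℚ
local notation "Γℚ" => AlgebraicClosure ℚ ≃ₐ[ℚ] AlgebraicClosure ℚ

variable {W : WeierstrassCurve ℤ} {p : ℕ} {A : ValuationSubring Q̄}

theorem natCard_sq_sub_one_pos (hp : p.Prime) : 0 < p ^ 2 - 1 := by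
  have := Nat.one_lt_pow two_ne_zero hp.one_lt
  omega

/-- A non-zero supersingular `p`-torsion point is not integral. -/
theorem exists_coords_of_const [Fact p.Prime] (hp2 : p ≠ 2) (hgood : W.IsGoodPrimeFor p)
    (hA : A.LiesOverPrime p) (hconst : ∀ k, k ≠ 0 → (p : ℤ) ∣ (W.preΨ' p).coeff k)
    {y : Tors W p} (hy : y ≠ 0) :
    ∃ a b h, (y : (curveQbar W).Point) = .some a b h ∧ a ∉ A := by
  rcases hye : (y : (curveQbar W).Point) with _ | ⟨a, b, h⟩
  · exact absurd (Subtype.ext hye) hy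
  · refine ⟨a, b, h, rfl, fun ha => ?_⟩
    have hroot := (nsmul_some_eq_zero_iff_root (Fact.out : p.Prime) hp2 h).1 (by
      rw [← hye, ← natCast_zsmul]; exact (Submodule.mem_torsionBy_iff _ _).1 y.2)
    exact (valuation_pow_mul_eq_one_of_const Fact.out hp2 hgood hA hconst hroot).1.not_ge
      ((A.valuation_le_one_iff a).2 ha)

theorem valuation_zCoord_eq [Fact p.Prime] (hp2 : p ≠ 2) (hgood : W.IsGoodPrimeFor p)
    (hA : A.LiesOverPrime p) (hconst : ∀ k, k ≠ 0 → (p : ℤ) ∣ (W.preΨ' p).coeff k)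
    {x y : Tors W p} (hx : x ≠ 0) (hy : y ≠ 0) :
    A.valuation (zCoord (x : (curveQbar W).Point)) =
      A.valuation (zCoord (y : (curveQbar W).Point)) := by
  have hp : p.Prime := Fact.out
  have h : ∀ z : Tors W p, z ≠ 0 →
      A.valuation (zCoord (z : (curveQbar W).Point)) ^ (p ^ 2 - 1) = A.valuation (p : Q̄) :=
    fun z hz => valuation_zCoord_pow hp hp2 hgood hA hconst
      (by rw [← natCast_zsmul]; exact (Submodule.mem_torsionBy_iff _ _).1 z.2)
      fun h0 => hz (Subtype.ext h0)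
  exact (pow_left_inj₀ zero_le zero_le (natCard_sq_sub_one_pos hp).ne').1
    ((h x hx).trans (h y hy).symm)

/-- Points whose parameters agree to first order are equal. -/
theorem eq_of_zCoord_sub_lt [Fact p.Prime] (hp2 : p ≠ 2) (hgood : W.IsGoodPrimeFor p)
    (hA : A.LiesOverPrime p) (hconst : ∀ k, k ≠ 0 → (p : ℤ) ∣ (W.preΨ' p).coeff k)
    {y y' : Tors W p} (hy : y ≠ 0) (hy' : y' ≠ 0)
    (h : A.valuation (zCoord (y : (curveQbar W).Point) - zCoord (y' : (curveQbar W).Point)) <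
      A.valuation (zCoord (y : (curveQbar W).Point))) : y = y' := by
  classical
  by_contra hne
  have hd : y - y' ≠ 0 := sub_ne_zero.2 hne
  obtain ⟨a₁, b₁, h₁, e₁, n₁⟩ := exists_coords_of_const hp2 hgood hA hconst hd
  obtain ⟨a₂, b₂, h₂, e₂, n₂⟩ := exists_coords_of_const hp2 hgood hA hconst hy'
  obtain ⟨a, b, h₀, e₀, n₀⟩ := exists_coords_of_const hp2 hgood hA hconst hy
  have hsum : (Point.some a₁ b₁ h₁ : (curveQbar W).Point) + .some a₂ b₂ h₂ = .some a b h₀ := by
    rw [← e₀, ← e₁, ← e₂]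
    exact congrArg Subtype.val (sub_add_cancel y y')
  have hv₁ : A.valuation (a₁ / b₁) = A.valuation (a / b) := by
    simpa only [e₀, e₁, zCoord] using valuation_zCoord_eq hp2 hgood hA hconst hd hy
  have hv₂ : A.valuation (a₂ / b₂) = A.valuation (a / b) := by
    simpa only [e₀, e₂, zCoord] using valuation_zCoord_eq hp2 hgood hA hconst hy' hy
  have hc : A.valuation (a / b) < 1 :=
    (ECRed.params_of_not_mem (ECRed.isReductionOf_rat W A) h₀.1 n₀).2.2.1
  have hc0 : A.valuation (a / b) ≠ 0 := by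
    obtain ⟨ha, hb, -, -⟩ := ECRed.params_of_not_mem (ECRed.isReductionOf_rat W A) h₀.1 n₀
    exact (Valuation.ne_zero_iff _).2 (div_ne_zero ha hb)
  have key := (ECRed.inKernel_add_some (ECRed.isReductionOf_rat W A) h₁ h₂ n₁ n₂ hc hv₁.le
    hv₂.le).2
  rw [hsum, ECRed.tParam_some_of_not_mem _ n₀] at key
  simp only [e₀, e₂, zCoord] at h
  have hlt : A.valuation (a₁ / b₁) < A.valuation (a / b) := by
    rw [show a₁ / b₁ = (a / b - a₂ / b₂) - (a / b - (a₁ / b₁ + a₂ / b₂)) by ring]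
    refine (Valuation.map_sub _ _ _).trans_lt (max_lt h (key.trans_lt ?_))
    rw [pow_two]
    exact mul_lt_of_lt_one_left (zero_lt_iff.2 hc0) hc
  exact hlt.ne hv₁

/-- The orbit of a point under inertia is detected to first order. -/
theorem smul_eq_smul_of_residue [Fact p.Prime] (hp2 : p ≠ 2) (hgood : W.IsGoodPrimeFor p)
    (hA : A.LiesOverPrime p) (hconst : ∀ k, k ≠ 0 → (p : ℤ) ∣ (W.preΨ' p).coeff k)
    {x y : Tors W p} (hx : x ≠ 0) (hy : y ≠ 0) {σ : Γℚ} (hσ : σ ∈ A.inertiaSubgroupIn ℚ) :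
    A.valuation (σ (zCoord (y : (curveQbar W).Point) / zCoord (x : (curveQbar W).Point)) -
      zCoord (y : (curveQbar W).Point) / zCoord (x : (curveQbar W).Point)) < 1 := by
  refine (ValuationSubring.mem_nonunits_iff A).1 (Mult.sub_mem_nonunits_of_mem_inertia hσ ?_)
  obtain ⟨a, b, h₀, e₀, n₀⟩ := exists_coords_of_const hp2 hgood hA hconst hx
  obtain ⟨ha, hb, -, -⟩ := ECRed.params_of_not_mem (ECRed.isReductionOf_rat W A) h₀.1 n₀
  rw [← A.valuation_le_one_iff, map_div₀, valuation_zCoord_eq hp2 hgood hA hconst hy hx, div_self]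
  rw [e₀]
  exact (Valuation.ne_zero_iff _).2 (div_ne_zero ha hb)

/-- The stabiliser of a non-zero point in inertia fixes all of `E[p]`. -/
theorem smul_eq_self_of_fix [Fact p.Prime] (hp2 : p ≠ 2) (hgood : W.IsGoodPrimeFor p)
    (hA : A.LiesOverPrime p) (hconst : ∀ k, k ≠ 0 → (p : ℤ) ∣ (W.preΨ' p).coeff k)
    {x : Tors W p} (hx : x ≠ 0) {σ : Γℚ} (hσ : σ ∈ A.inertiaSubgroupIn ℚ) (hfix : σ • x = x)
    (y : Tors W p) : σ • y = y := by
  rcases eq_or_ne y 0 with rfl | hy
  · exact smul_zero σ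
  refine eq_of_zCoord_sub_lt hp2 hgood hA hconst (fun h => hy (smul_eq_zero_iff_eq σ |>.1 h)) hy ?_
  set zx := zCoord (x : (curveQbar W).Point) with hzx
  set zy := zCoord (y : (curveQbar W).Point) with hzy
  have h1 : zCoord ((σ • y : Tors W p) : (curveQbar W).Point) = σ zy :=
    zCoord_smul σ (y : (curveQbar W).Point)
  have h2 : σ zx = zx := by
    rw [hzx, ← zCoord_smul]
    exact congrArg zCoord (congrArg Subtype.val hfix)
  have hzx0 : zx ≠ 0 := by
    obtain ⟨a, b, h₀, e₀, n₀⟩ := exists_coords_of_const hp2 hgood hA hconst hx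
    obtain ⟨ha, hb, -, -⟩ := ECRed.params_of_not_mem (ECRed.isReductionOf_rat W A) h₀.1 n₀
    rw [hzx, e₀]
    exact div_ne_zero ha hb
  have key := smul_eq_smul_of_residue hp2 hgood hA hconst hx hy hσ
  rw [← hzy, ← hzx, map_div₀ σ, h2, ← sub_div, map_div₀,
    div_lt_one₀ (zero_lt_iff.2 ((Valuation.ne_zero_iff _).2 hzx0))] at key
  have hv : A.valuation zx = A.valuation (σ zy) := by
    rw [← h1]
    exact valuation_zCoord_eq hp2 hgood hA hconst hx
      (fun h => hy (smul_eq_zero_iff_eq σ |>.1 h))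
  rw [h1, ← hv]
  exact key

/-- Inertia acts on supersingular `p`-torsion through an abelian group. -/
theorem smul_smul_comm_of_const [Fact p.Prime] (hp2 : p ≠ 2) (hgood : W.IsGoodPrimeFor p)
    (hA : A.LiesOverPrime p) (hconst : ∀ k, k ≠ 0 → (p : ℤ) ∣ (W.preΨ' p).coeff k)
    {σ τ : Γℚ} (hσ : σ ∈ A.inertiaSubgroupIn ℚ) (hτ : τ ∈ A.inertiaSubgroupIn ℚ)
    (y : Tors W p) : σ • τ • y = τ • σ • y := by
  rcases eq_or_ne y 0 with rfl | hy
  · simp
  have hs : ∀ (ρ : Γℚ) {z : Tors W p}, z ≠ 0 → ρ • z ≠ 0 := fun ρ z hz h =>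
    hz (smul_eq_zero_iff_eq ρ |>.1 h)
  refine eq_of_zCoord_sub_lt hp2 hgood hA hconst (hs σ (hs τ hy)) (hs τ (hs σ hy)) ?_
  set zy := zCoord (y : (curveQbar W).Point) with hzy
  have h1 : ∀ (ρ : Γℚ) (z : Tors W p), zCoord ((ρ • z : Tors W p) : (curveQbar W).Point) =
      ρ (zCoord (z : (curveQbar W).Point)) := fun ρ z => zCoord_smul ρ (z : (curveQbar W).Point)
  have hzy0 : zy ≠ 0 := by
    obtain ⟨a, b, h₀, e₀, n₀⟩ := exists_coords_of_const hp2 hgood hA hconst hy
    obtain ⟨ha, hb, -, -⟩ := ECRed.params_of_not_mem (ECRed.isReductionOf_rat W A) h₀.1 n₀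
    rw [hzy, e₀]
    exact div_ne_zero ha hb
  -- `ρ zy = w ρ · zy`
  have hw : ∀ ρ : Γℚ, A.valuation (ρ zy / zy) = 1 := fun ρ => by
    rw [hzy, ← h1, map_div₀, valuation_zCoord_eq hp2 hgood hA hconst (hs ρ hy) hy, div_self]
    exact (Valuation.ne_zero_iff _).2 hzy0
  have hkey : ∀ {ρ ρ' : Γℚ}, ρ ∈ A.inertiaSubgroupIn ℚ →
      A.valuation (ρ (ρ' zy / zy) - ρ' zy / zy) < 1 := fun {ρ ρ'} hρ =>
    (ValuationSubring.mem_nonunits_iff A).1 (Mult.sub_mem_nonunits_of_mem_inertia hρ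
      ((A.valuation_le_one_iff _).1 (hw ρ').le))
  have hexp : ∀ ρ ρ' : Γℚ, ρ (ρ' zy) = ρ (ρ' zy / zy) * (ρ zy / zy) * zy := fun ρ ρ' => by
    rw [mul_assoc, div_mul_cancel₀ _ hzy0, ← map_mul, div_mul_cancel₀ _ hzy0]
  have hv : A.valuation (σ (τ zy)) = A.valuation zy := by
    rw [hzy, ← h1, ← h1]
    exact valuation_zCoord_eq hp2 hgood hA hconst (hs σ (hs τ hy)) hy
  rw [h1, h1, h1, h1, ← hzy, hv, hexp σ τ, hexp τ σ, ← sub_mul, map_mul]
  refine mul_lt_of_lt_one_left (zero_lt_iff.2 ((Valuation.ne_zero_iff _).2 hzy0)) ?_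
  rw [show σ (τ zy / zy) * (σ zy / zy) - τ (σ zy / zy) * (τ zy / zy) =
      (σ (τ zy / zy) - τ zy / zy) * (σ zy / zy)
        - (τ (σ zy / zy) - σ zy / zy) * (τ zy / zy) by ring]
  refine (Valuation.map_sub _ _ _).trans_lt (max_lt ?_ ?_) <;>
    rw [map_mul, hw, mul_one]
  · exact hkey hσ
  · exact hkey hτ

theorem det_modRep [Fact p.Prime] (hΔ : W.Δ ≠ 0) (hn : Nat.card (rootsOfUnity p Q̄) = p) (σ : Γℚ) :
    LinearMap.det (modRep W p σ) =
      ((modularCyclotomicCharacter Q̄ hn (σ : Q̄ ≃+* Q̄) : (ZMod p)ˣ) : ZMod p) := by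
  haveI : (W.map (Int.castRingHom ℚ)).IsElliptic :=
    (isElliptic_iff _).2 (isUnit_iff_ne_zero.2 (by rw [map_Δ]; simpa using hΔ))
  exact Weil.det_galoisRepModuleEnd (W.map (Int.castRingHom ℚ)) p hn σ

/-- An element of the Galois group of determinant one on `E[p]` fixes `μ_p`. -/
theorem apply_root_eq_of_smul_eq [Fact p.Prime] (hΔ : W.Δ ≠ 0) {σ : Γℚ}
    (hσ : LinearMap.det (modRep W p σ) = 1) {μ : Q̄} (hμ : μ ^ p = 1) : σ μ = μ := by
  have hp : p.Prime := Fact.out
  haveI : NeZero p := ⟨hp.ne_zero⟩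
  obtain ⟨ζ, hζ⟩ := HasEnoughRootsOfUnity.exists_primitiveRoot Q̄ p
  obtain ⟨a, -, ha⟩ := hζ.eq_pow_of_pow_eq_one (ξ := σ ζ)
    (by rw [← map_pow, hζ.pow_eq_one, map_one])
  have hall : ∀ ν : Q̄, ν ^ p = 1 → σ ν = ν ^ a := fun ν hν => by
    obtain ⟨i, -, rfl⟩ := hζ.eq_pow_of_pow_eq_one hν
    rw [map_pow, ← ha, ← pow_mul, ← pow_mul, mul_comm]
  have hn := Weil.card_rootsOfUnity_Qbar p
  have h := det_modRep hΔ hn σ
  rw [hσ, cyclotomic_eq_natCast hn σ hall] at h
  rw [hall μ hμ]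
  exact (pow_eq_pow_of_modEq ((ZMod.natCast_eq_natCast_iff a 1 p).1 (by rw [← h, Nat.cast_one]))
    hμ).trans (pow_one μ)

/-- Supersingular reduction at an odd prime. -/
theorem nonempty_localData_supersingular [Fact p.Prime] (hp2 : p ≠ 2) (hgood : W.IsGoodPrimeFor p)
    (hA : A.LiesOverPrime p) (hconst : ∀ k, k ≠ 0 → (p : ℤ) ∣ (W.preΨ' p).coeff k) :
    Nonempty (LocalData W p A) := by
  classical
  have hp : p.Prime := Fact.out
  haveI : NeZero p := ⟨hp.ne_zero⟩
  have hΔ := Δ_ne_zero_of_isGoodPrimeFor hgood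
  have h2 := AtP.finrank_tors (p := p) hΔ
  haveI : Module.Finite (ZMod p) (Tors W p) := Module.finite_of_finrank_eq_succ h2
  haveI : Finite (Tors W p) := Module.finite_of_finite (ZMod p)
  haveI := Fintype.ofFinite (Tors W p)
  have htrans := isInertiaTransitive_of_const hp2 hgood hA hconst
  obtain ⟨x₀, hx₀⟩ : ∃ x : Tors W p, x ≠ 0 := by
    by_contra! hall
    have : Subsingleton (Tors W p) := ⟨fun a b => (hall a).trans (hall b).symm⟩
    rw [Module.finrank_zero_of_subsingleton] at h2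
    omega
  have hker : ∀ σ ∈ A.inertiaSubgroupIn ℚ, σ • x₀ = x₀ → σ ∈ torsInertia W p A := by
    intro σ hσ hfix
    have hall := smul_eq_self_of_fix hp2 hgood hA hconst hx₀ hσ hfix
    refine ⟨hσ, fun μ hμ => apply_root_eq_of_smul_eq hΔ ?_ hμ, hall⟩
    rw [show modRep W p σ = 1 from LinearMap.ext hall, map_one]
  -- the index
  have hcard : (Finset.univ.erase (0 : Tors W p)).card ≤ p ^ 2 - 1 := by
    rw [Finset.card_erase_of_mem (Finset.mem_univ _), Finset.card_univ, ← Nat.card_eq_fintype_card,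
      Module.natCard_eq_pow_finrank (K := ZMod p), Nat.card_zmod, h2]
  obtain ⟨U, hU⟩ := exists_uniformiser hp hA (torsInertia W p A) (p ^ 2 - 1) fun c hc => by
    obtain ⟨S, h1, h3, h4⟩ := exists_finset_conjugates (Finset.univ.erase (0 : Tors W p))
      (fun σ => σ • x₀)
      (fun σ _ => Finset.mem_erase.2
        ⟨fun h => hx₀ (smul_eq_zero_iff_eq σ |>.1 h), Finset.mem_univ _⟩)
      (fun σ hσ τ hτ h => hker _ (mul_mem (inv_mem hσ) hτ) (by
        rw [mul_smul, ← h, inv_smul_smul])) c hc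
    exact ⟨S, h1, h3.trans hcard, h4⟩
  have he : U.e = p ^ 2 - 1 := by
    set z₀ := zCoord (x₀ : (curveQbar W).Point) with hz₀
    have hval : A.valuation z₀ ^ (p ^ 2 - 1) = A.valuation (p : Q̄) :=
      valuation_zCoord_pow hp hp2 hgood hA hconst
        (by rw [← natCast_zsmul]; exact (Submodule.mem_torsionBy_iff _ _).1 x₀.2)
        fun h0 => hx₀ (Subtype.ext h0)
    have hpos := natCard_sq_sub_one_pos hp
    have hz0 : z₀ ≠ 0 := fun h0 => by
      rw [h0, _root_.map_zero, zero_pow hpos.ne'] at hval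
      exact natCast_valuation_ne_zero hp hval.symm
    obtain ⟨i, hi⟩ := U.exists_zpow z₀ hz0 fun σ hσ => by
      rw [hz₀, ← zCoord_smul]
      exact congrArg zCoord (congrArg Subtype.val (hσ.2.2 x₀))
    rw [hi, U.valuation_p, ← zpow_natCast, ← zpow_mul, ← zpow_natCast (n := U.e)] at hval
    have h0 : 0 < A.valuation U.π := zero_lt_iff.2 ((Valuation.ne_zero_iff _).2 U.ne_zero)
    have heq := zpow_right_injective₀ h0
      ((ValuationSubring.mem_nonunits_iff A).1 U.mem_nonunits).ne hval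
    have hdvd : ((p ^ 2 - 1 : ℕ) : ℤ) ∣ (U.e : ℤ) := Dvd.intro_left i heq
    exact le_antisymm hU (Nat.le_of_dvd U.e_pos (Int.natCast_dvd_natCast.1 hdvd))
  have hndvd : ¬ p ∣ U.e := fun hd => by
    rw [he] at hd
    have h1 : p ∣ p ^ 2 := dvd_pow_self p two_ne_zero
    have h3 := Nat.dvd_sub h1 hd
    rw [Nat.sub_sub_self (Nat.one_le_pow 2 p hp.pos)] at h3
    exact hp.one_lt.ne' (Nat.dvd_one.1 h3)
  -- the separating element
  obtain ⟨y, hy⟩ : ∃ y : Tors W p, y ∉ Submodule.span (ZMod p) {x₀} := by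
    by_contra! hall
    have h1 := finrank_span_singleton (K := ZMod p) hx₀
    rw [Submodule.eq_top_iff'.2 hall, finrank_top, h2] at h1
    omega
  have hindep : LinearIndependent (ZMod p) ![x₀, y] := by
    rw [LinearIndependent.pair_iff' hx₀]
    intro c hc
    exact hy (hc ▸ Submodule.smul_mem _ c (Submodule.mem_span_singleton_self x₀))
  have hg : ∀ c : ZMod p, ∃ σ ∈ A.inertiaSubgroupIn ℚ, σ • x₀ = c • x₀ + y := fun c => by
    refine htrans x₀ _ hx₀ fun h => hy ?_
    rw [add_eq_zero_iff_eq_neg'] at h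
    exact h ▸ Submodule.neg_mem _ (Submodule.smul_mem _ c (Submodule.mem_span_singleton_self x₀))
  choose g hgI hgx using hg
  let b := basisOfLinearIndependentOfCardEqFinrank hindep (by rw [Fintype.card_fin, h2])
  have hb0 : b 0 = x₀ := by simp [b]
  have hb1 : b 1 = y := by simp [b]
  obtain ⟨s, t, hst⟩ : ∃ s t : ZMod p, g 0 • y = s • x₀ + t • y :=
    ⟨b.repr (g 0 • y) 0, b.repr (g 0 • y) 1, by
      conv_lhs => rw [← b.sum_repr (g 0 • y)]
      rw [Fin.sum_univ_two, hb0, hb1]⟩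
  have hsm : ∀ (σ : Γℚ) (c : ZMod p) (v : Tors W p), σ • (c • v) = c • (σ • v) := fun σ c v =>
    (modRep W p σ).map_smul c v
  have hgy : ∀ c, g c • y = s • x₀ + (t + c) • y := by
    intro c
    obtain ⟨τ, hτ, hτy⟩ := htrans x₀ y hx₀ fun h => hy (h ▸ zero_mem _)
    have h0 := hgx 0
    rw [zero_smul, zero_add] at h0
    calc g c • y = τ • (g c • x₀) := by
          rw [← hτy, smul_smul_comm_of_const hp2 hgood hA hconst (hgI c) hτ]
      _ = c • (τ • x₀) + τ • y := by rw [hgx, smul_add, hsm]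
      _ = c • y + g 0 • y := by
          rw [hτy]
          congr 1
          rw [← h0, smul_smul_comm_of_const hp2 hgood hA hconst hτ (hgI 0), hτy, h0]
      _ = s • x₀ + (t + c) • y := by rw [hst, add_smul]; abel
  have hdet : ∀ c, LinearMap.det (modRep W p (g c)) = c * (t + c) - s := by
    intro c
    rw [← LinearMap.det_toMatrix b, Matrix.det_fin_two]
    have e0 : modRep W p (g c) (b 0) = c • b 0 + b 1 := by
      rw [hb0, hb1]; exact hgx c
    have e1 : modRep W p (g c) (b 1) = s • b 0 + (t + c) • b 1 := by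
      rw [hb0, hb1]; exact hgy c
    simp [LinearMap.toMatrix_apply, e0, e1]
  obtain ⟨c, hc⟩ : ∃ c, LinearMap.det (modRep W p (g c)) ≠ 1 := by
    by_contra! hall
    have h0 := hall 0
    have h1 := hall 1
    have h3 := hall 2
    rw [hdet] at h0 h1 h3
    have h20 : ((2 : ℕ) : ZMod p) = 0 := by
      push_cast
      linear_combination h3 - 2 * h1 + h0
    exact hp2 ((Nat.prime_dvd_prime_iff_eq hp Nat.prime_two).1
      ((ZMod.natCast_eq_zero_iff _ _).1 h20))
  exact ⟨{
    H := torsInertia W p A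
    le_inertia := torsInertia_le W p A
    normal := fun σ hσ τ hτ => torsInertia_normal hσ hτ
    rep_eq_one := fun σ hσ => modRep_eq_one_of_mem hσ
    zeta_fixed := fun ζ hζ => isFixedBy_torsInertia_root hζ
    U := U
    sq_not_dvd := fun hd => hndvd ((dvd_pow_self p two_ne_zero).trans hd)
    wild := fun hd => absurd hd hndvd
    separating := by
      refine ⟨g c, hgI c, fun ζ hζ hfix => hc ?_, Or.inr fun a v hv => ?_⟩
      · have hn := Weil.card_rootsOfUnity_Qbar p
        have h := det_modRep hΔ hn (g c)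
        rw [cyclotomic_eq_natCast hn (g c) (a := 1) (fun μ hμ => by
          obtain ⟨i, -, rfl⟩ := hζ.eq_pow_of_pow_eq_one hμ
          rw [map_pow, hfix, pow_one]), Nat.cast_one] at h
        exact h
      · by_contra hv0
        obtain ⟨τ, hτ, hτx⟩ := htrans v x₀ hv0 hx₀
        have h1 : g c • x₀ = a • x₀ := by
          rw [← hτx, smul_smul_comm_of_const hp2 hgood hA hconst (hgI c) hτ,
            show g c • v = a • v from hv, hsm]
        rw [hgx] at h1
        refine hy ?_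
        rw [show y = a • x₀ - c • x₀ from eq_sub_of_add_eq' h1, ← sub_smul]
        exact Submodule.smul_mem _ _ (Submodule.mem_span_singleton_self x₀) }⟩

/-- Good reduction at an odd prime `p`. -/
theorem nonempty_localData_good [Fact p.Prime] (hp2 : p ≠ 2) (hgood : W.IsGoodPrimeFor p)
    (hA : A.LiesOverPrime p) : Nonempty (LocalData W p A) := by
  by_cases h : ∀ k, k ≠ 0 → (p : ℤ) ∣ (W.preΨ' p).coeff k
  · exact nonempty_localData_supersingular hp2 hgood hA h
  · push Not at h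
    obtain ⟨k, hk, hdvd⟩ := h
    exact nonempty_localData_ordinary hp2 hgood hA hk hdvd

end Fermat.Agent.MazurPrinciple
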