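/-
Mazur's principle: regular differentials `φ dx`.
-/
import Fermat.Prelude.Def_AlgebraicCurve_CanonicalDivisor

set_option autoImplicit false

noncomputable section

namespace Fermat.Agent.MazurPrinciple

open AlgebraicCurve

/-- `φ dx` has no poles. -/
def IsRegularDiff (K : Type*) {F : Type*} [Field K] [Field F] [Algebra K F] (φ x : F) : Prop :=
  φ • KaehlerDifferential.D K F x = 0 ∨
    ∀ v : Place K F, 0 ≤ v.ordDifferential (φ • KaehlerDifferential.D K F x)

end Fermat.Agent.MazurPrinciple

end
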