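/-
Mazur's principle: differentials of functions on a curve in characteristic `p` over an
algebraically closed field.
-/
import Fermat.Agent.Genus.Differential
import Fermat.Agent.MazurPrinciple.Differentials
import Mathlib.FieldTheory.PurelyInseparable.Basic
import Mathlib.FieldTheory.KummerPolynomial
import Mathlib.FieldTheory.SeparableClosure
import Mathlib.Algebra.CharP.Frobenius

set_option autoImplicit false
set_option linter.style.haveILetI false

noncomputable section

namespace Fermat.Agent.MazurPrinciple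

open AlgebraicCurve IntermediateField

variable {K F : Type*} [Field K] [Field F] [Algebra K F] (p : ℕ) [Fact p.Prime] [CharP K p]

local notation "D" => KaehlerDifferential.D K F

omit [Fact p.Prime] in
theorem kaehler_D_pow_eq_zero (G : F) : D (G ^ p) = 0 := by
  haveI : CharP F p := charP_of_injective_algebraMap (algebraMap K F).injective p
  rw [Derivation.leibniz_pow, ← Nat.cast_smul_eq_nsmul F, CharP.cast_eq_zero, zero_smul]

variable [IsAlgClosed K] [IsCurveOver K F]

omit [Fact p.Prime] [CharP K p] in
/-- The differential of a function regular at `v` is regular at `v`. -/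
theorem exists_regular_coeff (v : Place K F) {u : F} (hu : u = 0 ∨ 0 ≤ v.ord u) :
    ∃ c : F, D u = c • v.dCoord ∧ (c = 0 ∨ 0 ≤ v.ord c) := by
  obtain ⟨π, hπ, hd⟩ := Genus.dCoord_eq v
  refine ⟨v.differentialCoeff (D u), (Genus.differentialCoeff_spec v _).symm, ?_⟩
  set c := v.differentialCoeff (D u) with hc
  rcases eq_or_ne c 0 with h0 | h0
  · exact Or.inl h0
  refine Or.inr ?_
  have hder := Genus.exists_deriv_laurentExpansion hπ (f := u) (ω := c)
    (by rw [← hd, hc, Genus.differentialCoeff_spec])
  rw [← Genus.order_laurentExpansion hπ h0]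
  set b := Genus.laurentExpansion hπ u with hb
  by_contra hlt
  push Not at hlt
  refine ((map_ne_zero (Genus.laurentExpansion hπ)).2 h0)
    (HahnSeries.coeff_order_eq_zero.1 ?_)
  rw [← hder] at hlt ⊢
  rw [Genus.deriv_coeff]
  rcases eq_or_ne ((Genus.deriv b).order + 1) 0 with h1 | h1
  · rw [h1, Int.cast_zero, zero_mul]
  · rcases eq_or_ne b 0 with hb0 | hb0
    · rw [hb0]; simp
    · have hu0 : u ≠ 0 := fun h => hb0 (by rw [hb, h, map_zero])
      rw [HahnSeries.coeff_eq_zero_of_lt_order, mul_zero]
      have h2 := hu.resolve_left hu0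
      rw [← Genus.order_laurentExpansion hπ hu0, ← hb] at h2
      omega

omit [Fact p.Prime] [CharP K p] in
theorem ordDifferential_nonneg_of_eq_smul (v : Place K F) {ω : Ω[F⁄K]} {c : F}
    (h : ω = c • v.dCoord) (hc : c = 0 ∨ 0 ≤ v.ord c) : 0 ≤ v.ordDifferential ω := by
  haveI := Genus.dCoordGenerates v
  rw [Place.ordDifferential, v.differentialCoeff_unique h]
  rcases hc with rfl | h
  · rw [Place.ord_zero]
  · exact h

omit [Fact p.Prime] in
include p in
/-- `df` is regular if `f` has no poles modulo `p`-th powers. -/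
theorem isRegularDiff_of_regular_mod_pow {x f φ : F} (hφ : φ • D x = D f)
    (h : ∀ v : Place K F, ∃ G, f - G ^ p = 0 ∨ 0 ≤ v.ord (f - G ^ p)) :
    IsRegularDiff K φ x := by
  rw [IsRegularDiff, hφ]
  refine Or.inr fun v => ?_
  obtain ⟨G, hG⟩ := h v
  obtain ⟨c, hc, hc'⟩ := exists_regular_coeff v hG
  rw [map_sub, kaehler_D_pow_eq_zero p, sub_zero] at hc
  exact ordDifferential_nonneg_of_eq_smul v hc hc'

omit [Fact p.Prime] in
include p in
/-- `df / f` is regular if every order of `f` is divisible by `p`. -/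
theorem isRegularDiff_of_dvd_ord {x f φ : F} (hf : f ≠ 0) (hφ : φ • D x = f⁻¹ • D f)
    (h : ∀ v : Place K F, (p : ℤ) ∣ v.ord f) : IsRegularDiff K φ x := by
  rw [IsRegularDiff, hφ]
  refine Or.inr fun v => ?_
  obtain ⟨a, ha⟩ := h v
  obtain ⟨π, hπ⟩ := IsDiscreteValuationRing.exists_irreducible v.toValuationSubring
  have hπ0 : ((π : v.toValuationSubring) : F) ≠ 0 := by simpa using hπ.ne_zero
  set G := (π : F) ^ (-a) with hG
  have hG0 : G ^ p ≠ 0 := pow_ne_zero _ (zpow_ne_zero _ hπ0)
  have hord : v.ord (G ^ p * f) = 0 := by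
    rw [v.ord_mul hG0 hf, hG, ← zpow_natCast, v.ord_zpow, v.ord_zpow, v.ord_coe_irreducible hπ, ha]
    ring
  obtain ⟨c, hc, hc'⟩ := exists_regular_coeff v (u := G ^ p * f) (Or.inr hord.ge)
  have hD : D (G ^ p * f) = G ^ p • D f := by
    rw [Derivation.leibniz, kaehler_D_pow_eq_zero p, smul_zero, add_zero]
  refine ordDifferential_nonneg_of_eq_smul v (c := (G ^ p * f)⁻¹ * c) ?_ ?_
  · rw [mul_smul, ← hc, hD, smul_smul]
    congr 1
    field_simp
  · rcases eq_or_ne c 0 with rfl | hc0
    · exact Or.inl (mul_zero _)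
    · refine Or.inr ?_
      rw [v.ord_mul (inv_ne_zero (mul_ne_zero hG0 hf)) hc0, v.ord_inv, hord, neg_zero, zero_add]
      exact hc'.resolve_left hc0

omit [IsCurveOver K F] in
/-- Over an algebraically closed field a function with zero differential is a `p`-th power. -/
theorem exists_eq_pow_of_D_eq_zero {x : F} [Algebra.IsSeparable K⟮x⟯ F] (hx : D x ≠ 0) {f : F}
    (hf : D f = 0) : ∃ G, f = G ^ p := by
  classical
  have hp : p.Prime := Fact.out
  haveI : CharP F p := charP_of_injective_algebraMap (algebraMap K F).injective p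
  let P : IntermediateField K F := Subfield.toIntermediateField (frobenius F p).fieldRange
    (fun a => by
      obtain ⟨b, hb⟩ := IsAlgClosed.exists_pow_nat_eq a hp.pos
      exact ⟨algebraMap K F b, by rw [frobenius_def, ← map_pow, hb]⟩)
  have hpow : ∀ y : F, y ^ p ∈ P := fun y => ⟨y, rfl⟩
  have hDP : ∀ y ∈ P, D y = 0 := by
    rintro y ⟨z, rfl⟩
    exact kaehler_D_pow_eq_zero p z
  by_contra hcon
  push Not at hcon
  have hfP : f ∉ P := by
    rintro ⟨z, hz⟩
    exact hcon z hz.symm
  have hxP : x ∉ P := fun h => hx (hDP x h)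
  -- `F = P(x)`
  have htop : IntermediateField.adjoin P ({x} : Set F) = ⊤ := by
    set M := IntermediateField.adjoin P ({x} : Set F)
    haveI : CharP M p := charP_of_injective_algebraMap (algebraMap K M).injective p
    haveI : ExpChar M p := ExpChar.prime hp
    haveI : IsPurelyInseparable M F := by
      rw [isPurelyInseparable_iff_pow_mem M p]
      intro y
      refine ⟨1, ⟨⟨y ^ p, ?_⟩, ?_⟩⟩
      · exact M.algebraMap_mem (⟨y ^ p, hpow y⟩ : P)
      · rw [pow_one]; rfl
    have hle : K⟮x⟯ ≤ M.restrictScalars K :=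
      adjoin_simple_le_iff.2 (subset_adjoin P _ rfl)
    haveI : Algebra.IsSeparable M F := by
      letI : Algebra K⟮x⟯ M := (IntermediateField.inclusion hle).toRingHom.toAlgebra
      haveI : IsScalarTower K⟮x⟯ M F := IsScalarTower.of_algebraMap_eq fun a => rfl
      exact Algebra.isSeparable_tower_top_of_isSeparable K⟮x⟯ M F
    rw [eq_top_iff]
    intro y _
    obtain ⟨z, rfl⟩ := IsPurelyInseparable.surjective_algebraMap_of_isSeparable M F y
    exact z.2
  have hirr : Irreducible (Polynomial.X ^ p - Polynomial.C (⟨x ^ p, hpow x⟩ : P)) :=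
    X_pow_sub_C_irreducible_of_prime hp fun b hb => hxP (by
      have h : (b : F) ^ p = x ^ p := congrArg Subtype.val hb
      exact (frobenius_inj F p h : (b : F) = x) ▸ b.2)
  have hmin := minpoly.eq_of_irreducible_of_monic hirr
    (x := x) (by simp [sub_eq_zero]) (Polynomial.monic_X_pow_sub_C _ hp.ne_zero)
  have hrank : Module.finrank P F = p := by
    rw [← IntermediateField.finrank_top', ← htop, IntermediateField.adjoin.finrank
      ⟨_, Polynomial.monic_X_pow_sub_C (⟨x ^ p, hpow x⟩ : P) hp.ne_zero, by simp [sub_eq_zero]⟩,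
      ← hmin, Polynomial.natDegree_X_pow_sub_C]
  haveI := IntermediateField.isSimpleOrder_of_finrank_prime P F (hrank.symm ▸ hp)
  rcases eq_bot_or_eq_top (IntermediateField.adjoin P ({f} : Set F)) with h | h
  · obtain ⟨z, hz⟩ := IntermediateField.adjoin_simple_eq_bot_iff.1 h
    exact hfP (hz ▸ z.2)
  · have hmem : x ∈ IntermediateField.adjoin P ({f} : Set F) := h ▸ IntermediateField.mem_top
    refine hx ?_
    clear hx hirr hmin hrank htop hxP
    induction hmem using IntermediateField.adjoin_induction with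
    | mem y hy => rw [Set.mem_singleton_iff.1 hy]; exact hf
    | algebraMap c => exact hDP _ c.2
    | add a b _ _ ha hb => rw [map_add, ha, hb, add_zero]
    | inv a _ ha => rw [Derivation.leibniz_inv, ha, smul_zero]
    | mul a b _ _ ha hb => rw [Derivation.leibniz, ha, hb, smul_zero, smul_zero, add_zero]

end Fermat.Agent.MazurPrinciple

end
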