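/-
Mazur's principle: a differential `φ dj` of `X₀(N)` over `ℚ̄` is regular if and only if
`φ · d j / d τ` has no pole on the upper half plane and vanishes at the cusps.
-/
import Fermat.Agent.MazurPrinciple.FormsAnalyticDeriv
import Fermat.Agent.MazurPrinciple.Differentials
import Fermat.Agent.Genus.Modular
import Fermat.Agent.Curve.ConstExtJZero

set_option autoImplicit false

noncomputable section

open AlgebraicCurve ModularCurve CongruenceSubgroup UpperHalfPlane
open Fermat.Agent.ModFun (HasQExp ordH toFun barToC EqPunct jfun)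
open scoped MatrixGroups

namespace Fermat.Agent.MazurPrinciple

local notation "ℚbar" => AlgebraicClosure ℚ

variable {N : ℕ} [NeZero N]

variable (N) in
/-- `j` as an element of the function field over `ℚ̄`. -/
def jBarElt : modularFunctionFieldBar N := ⟨jqModC ℚbar, Genus.jqModC_mem_bar N⟩

theorem transcendental_jBarElt : Transcendental ℚbar (jBarElt N) := fun h =>
  ModFun.transcendental_jqModC ℚbar (h.algHom (modularFunctionFieldBar N).val)

theorem jBarElt_ne_algebraMap (c : ℚbar) :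
    jBarElt N ≠ algebraMap ℚbar (modularFunctionFieldBar N) c := fun h =>
  transcendental_jBarElt (h ▸ isAlgebraic_algebraMap c)

theorem barToC_jBarElt (ι : ℚbar →+* ℂ) :
    barToC N ι (jBarElt N) = (Places.x0Model N).jF :=
  Subtype.ext (coeffMap_jqModC ι)

theorem barToC_algebraMap (ι : ℚbar →+* ℂ) (c : ℚbar) :
    barToC N ι (algebraMap ℚbar (modularFunctionFieldBar N) c) =
      algebraMap ℂ (modularFunctionFieldC ℂ N) (ι c) := by
  refine Subtype.ext ?_
  show coeffMap ι (algebraMap ℚbar (LaurentSeries ℚbar) c) = algebraMap ℂ (LaurentSeries ℂ) (ι c)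
  rw [algebraMap_laurentSeries_eq_single, algebraMap_laurentSeries_eq_single, coeffMap_single]

theorem barToC_jBarElt_sub (ι : ℚbar →+* ℂ) (c : ℚbar) :
    barToC N ι (jBarElt N - algebraMap ℚbar (modularFunctionFieldBar N) c) =
      (Places.x0Model N).jF - algebraMap ℂ (modularFunctionFieldC ℂ N) (ι c) := by
  rw [map_sub, barToC_jBarElt, barToC_algebraMap]

/-- A place over a finite value or a pole of `j`. -/
theorem exists_ord_jBarElt (v : Place ℚbar (modularFunctionFieldBar N)) :
    v.ord (jBarElt N) < 0 ∨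
      ∃ c : ℚbar, 0 < v.ord (jBarElt N - algebraMap ℚbar (modularFunctionFieldBar N) c) := by
  rcases lt_or_ge (v.ord (jBarElt N)) 0 with h | h
  · exact Or.inl h
  · exact Or.inr (Genus.exists_ord_sub_pos v h jBarElt_ne_algebraMap)

/-- The cusp `∞` is defined over `ℚ̄`. -/
theorem exists_placeToC_eq_cuspPlace (ι : ℚbar →+* ℂ) (g : SL(2, ℤ)) :
    ∃ v, (Places.x0Model N).cuspPlace g = Curve.placeToC N ι v := by
  rcases Curve.exists_eq_placeToC_or N ι ((Places.x0Model N).cuspPlace g) with h | h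
  · exact h
  · have h1 := h (jBarElt N)
    rw [barToC_jBarElt, (Places.x0Model N).ord_jF_cuspPlace] at h1
    have := (Places.cuspWidth_pos (Γ := Gamma0 N) g)
    omega

theorem D_jBarElt_ne_zero :
    KaehlerDifferential.D ℚbar (modularFunctionFieldBar N) (jBarElt N) ≠ 0 := by
  obtain ⟨ι⟩ : Nonempty (ℚbar →+* ℂ) := ⟨(IsAlgClosed.lift : ℚbar →ₐ[ℚ] ℂ).toRingHom⟩
  obtain ⟨v, hv⟩ := exists_placeToC_eq_cuspPlace (N := N) ι 1
  refine (Genus.ordDifferential_D_of_pole v ?_).1
  rw [← Curve.ord_placeToC N ι v, ← hv, barToC_jBarElt,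
    (Places.x0Model N).ord_jF_cuspPlace]
  have := (Places.cuspWidth_pos (Γ := Gamma0 N) (1 : SL(2, ℤ)))
  omega

/-- Regularity of `φ dj`, in orders of `φ` and `j`. -/
theorem isRegularDiff_iff_ord {φ : modularFunctionFieldBar N} (hφ : φ ≠ 0) :
    IsRegularDiff ℚbar φ (jBarElt N) ↔ ∀ v : Place ℚbar (modularFunctionFieldBar N),
      (∀ c, 0 < v.ord (jBarElt N - algebraMap ℚbar (modularFunctionFieldBar N) c) →
        1 ≤ v.ord φ + v.ord (jBarElt N - algebraMap ℚbar (modularFunctionFieldBar N) c)) ∧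
      (v.ord (jBarElt N) < 0 → 1 ≤ v.ord φ + v.ord (jBarElt N)) := by
  have hD := D_jBarElt_ne_zero (N := N)
  have hne : φ • KaehlerDifferential.D ℚbar (modularFunctionFieldBar N) (jBarElt N) ≠ 0 :=
    smul_ne_zero hφ hD
  unfold IsRegularDiff
  rw [or_iff_right hne]
  refine forall_congr' fun v => ?_
  rw [Genus.ordDifferential_smul_ne_zero v hφ hD]
  constructor
  · intro h
    refine ⟨fun c hc => ?_, fun hp => ?_⟩
    · rw [(Genus.ordDifferential_D v hc.ne').2] at h
      omega
    · rw [(Genus.ordDifferential_D_of_pole v hp).2] at h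
      omega
  · intro h
    rcases exists_ord_jBarElt v with hp | ⟨c, hc⟩
    · rw [(Genus.ordDifferential_D_of_pole v hp).2]
      have := h.2 hp
      omega
    · rw [(Genus.ordDifferential_D v hc.ne').2]
      have := h.1 c hc
      omega

/-- The order of `φ · d j / d τ` at a point. -/
theorem ordH_toFun_mul_dTau {F : modularFunctionFieldC ℂ N} (hF : F ≠ 0) (τ : ℍ) :
    ordH (toFun F * dTau jfun) τ =
      (((Places.ellPeriod (Gamma0 N) τ : ℕ) * ((Places.x0Model N).placeAt τ).ord F +
        ((Places.ellPeriod ⊤ τ : ℕ) - 1) : ℤ) : WithTop ℤ) := by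
  have h1 := (Places.x0Model N).ordH_ev hF τ
  rw [Places.x0Model_ev] at h1
  have h2 := ordH_dTau_jfun τ
  rw [ordH] at h1 h2 ⊢
  rw [show (toFun F * dTau jfun) ∘ UpperHalfPlane.ofComplex =
      (toFun F ∘ UpperHalfPlane.ofComplex) * (dTau jfun ∘ UpperHalfPlane.ofComplex) from rfl,
    meromorphicOrderAt_mul ((ModFun.isModularFun_toFun F).mero _ τ.im_pos)
      (ModFun.meroH_of_mdifferentiable (mdifferentiable_dTau ModFun.mdifferentiable_jfun) _
        τ.im_pos), h1, h2, ← WithTop.coe_add]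

/-- Regularity on the upper half plane and vanishing at the cusps. -/
def IsAnalyticallyRegular (F : modularFunctionFieldC ℂ N) : Prop :=
  (∀ τ : ℍ, 0 ≤ ordH (toFun F * dTau jfun) τ) ∧
    ∀ (γ : SL(2, ℤ)) (x : LaurentSeries ℂ),
      HasQExp N (fun τ => toFun F (γ • τ)) x → (N : ℤ) < x.order

theorem isRegularDiff_iff_analytic (ι : ℚbar →+* ℂ) {φ : modularFunctionFieldBar N}
    (hφ : φ ≠ 0) :
    IsRegularDiff ℚbar φ (jBarElt N) ↔ IsAnalyticallyRegular (barToC N ι φ) := by
  rw [isRegularDiff_iff_ord hφ]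
  set M := Places.x0Model N with hM
  have hF : barToC N ι φ ≠ 0 := (map_ne_zero_iff _ (ModFun.barToC_injective N ι)).2 hφ
  have hcusp : ∀ (γ : SL(2, ℤ)) (x : LaurentSeries ℂ),
      HasQExp N (fun τ => toFun (barToC N ι φ) (γ • τ)) x →
      (Places.cuspWidth (Gamma0 N) γ⁻¹ : ℤ) * x.order =
        N * (M.cuspPlace γ⁻¹).ord (barToC N ι φ) := by
    intro γ x hx
    refine M.width_mul_order hF γ⁻¹ ?_
    simpa [hM, Places.x0Model_ev] using hx
  constructor
  · intro h
    refine ⟨fun τ => ?_, fun γ x hx => ?_⟩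
    · rw [ordH_toFun_mul_dTau hF, WithTop.coe_nonneg]
      have hE : 0 < Places.ellPeriod ⊤ τ :=
        Places.ellPeriod_pos (Γ := ⊤) (Subgroup.mem_top _) τ
      have he : 0 < Places.ellPeriod (Gamma0 N) τ := Places.ellPeriod_pos M.neg_one_mem τ
      rcases Curve.exists_eq_placeToC_or N ι (M.placeAt τ) with ⟨v, hv⟩ | h0
      · have hjn : 0 ≤ v.ord (jBarElt N) := by
          rw [← Curve.ord_placeToC N ι v, ← hv, barToC_jBarElt]
          exact M.ord_jF_placeAt_nonneg τ
        obtain ⟨c, hc⟩ := Genus.exists_ord_sub_pos v hjn jBarElt_ne_algebraMap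
        have h1 := (h v).1 c hc
        rw [← Curve.ord_placeToC N ι v φ, ← hv] at h1
        rw [← Curve.ord_placeToC N ι v, ← hv, barToC_jBarElt_sub] at h1 hc
        have hjc : jfun τ = ι c := M.jfun_eq_of_ord_pos τ (ι c) hc
        rw [← hjc] at h1
        have h2 := M.ord_jF_sub_jfun τ
        have hm := mul_le_mul_of_nonneg_right h1
          (Int.natCast_nonneg (Places.ellPeriod (Gamma0 N) τ))
        rw [add_mul] at hm
        nlinarith
      · rw [h0 φ, mul_zero]
        omega
    · have hw : 0 < Places.cuspWidth (Gamma0 N) γ⁻¹ := (Places.cuspWidth_pos γ⁻¹)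
      obtain ⟨v, hv⟩ := exists_placeToC_eq_cuspPlace (N := N) ι γ⁻¹
      have hj : v.ord (jBarElt N) = -(Places.cuspWidth (Gamma0 N) γ⁻¹ : ℤ) := by
        rw [← Curve.ord_placeToC N ι v, ← hv, barToC_jBarElt]
        exact M.ord_jF_cuspPlace _
      have h1 := (h v).2 (by omega)
      rw [hj, ← Curve.ord_placeToC N ι v φ, ← hv] at h1
      have h2 := hcusp γ x hx
      have hN : (0 : ℤ) < N := by exact_mod_cast NeZero.pos N
      by_contra hle
      nlinarith
  · rintro ⟨hH, hC⟩ v
    refine ⟨fun c hc => ?_, fun hp => ?_⟩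
    · rw [← Curve.ord_placeToC N ι v φ]
      rw [← Curve.ord_placeToC N ι v, barToC_jBarElt_sub] at hc ⊢
      obtain ⟨τ, hτ, hv⟩ := (M.ord_jF_sub_pos_iff _ _).1 hc
      rw [← hv, ← hτ] at hc ⊢
      have h1 := hH τ
      rw [ordH_toFun_mul_dTau hF, WithTop.coe_nonneg, ← M.ord_jF_sub_jfun τ] at h1
      have he : (0 : ℤ) < Places.ellPeriod (Gamma0 N) τ := by
        exact_mod_cast Places.ellPeriod_pos M.neg_one_mem τ
      by_contra hlt
      nlinarith
    · rw [← Curve.ord_placeToC N ι v φ]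
      rw [← Curve.ord_placeToC N ι v, barToC_jBarElt] at hp ⊢
      obtain ⟨g, hv⟩ := (M.ord_jF_neg_iff _).1 hp
      rw [← hv, M.ord_jF_cuspPlace]
      obtain ⟨x, hx⟩ := (ModFun.isModularFun_toFun (barToC N ι φ)).cusps g⁻¹
      have h1 := hC g⁻¹ x hx
      have h2 := hcusp g⁻¹ x hx
      rw [inv_inv] at h2
      have hw : (0 : ℤ) < Places.cuspWidth (Gamma0 N) g := by
        exact_mod_cast (Places.cuspWidth_pos g)
      have hN : (0 : ℤ) < N := by exact_mod_cast NeZero.pos N
      by_contra hle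
      nlinarith

end Fermat.Agent.MazurPrinciple

end
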