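/-
Mazur's principle: cusp forms of weight two are the regular differentials `φ dj` of `X₀(N)`,
`q`-expansion `φ θ(j)`.
-/
import Fermat.Agent.MazurPrinciple.Differentials
import Fermat.Agent.MazurPrinciple.FormsAnalyticPlaces
import Fermat.Agent.Genus.Modular
import Fermat.Agent.Genus.LaurentDerivation
import Fermat.Agent.DimLower.Main
import Fermat.Agent.Eigen.QCoeff
import Fermat.Agent.Integral.Nice

set_option autoImplicit false

noncomputable section

namespace Fermat.Agent.MazurPrinciple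

open CongruenceSubgroup ModularCurve UpperHalfPlane Filter
open Fermat.Agent.ModFun (HasQExp EqPunct MeroH ordH toFun barToC IsModularFun jfun)
open scoped MatrixGroups ModularForm Manifold Topology

local notation "ℚbar" => AlgebraicClosure ℚ

variable {N : ℕ} [NeZero N]

/-- `j` in the function field of `X₀(N)`. -/
def jFun (N : ℕ) : modularFunctionFieldBar N := ⟨jqModC ℚbar, Genus.jqModC_mem_bar N⟩

/-- The `q`-expansion of the differential `φ dj`. -/
def diffSeries (φ : modularFunctionFieldBar N) : LaurentSeries ℚbar :=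
  (φ : LaurentSeries ℚbar) * Genus.eulerOp (jqModC ℚbar)

theorem coeff_eq_zero_of_isZeroAtImInfty {h : ℕ} [NeZero h] {G : ℍ → ℂ} {y : LaurentSeries ℂ}
    (hy : HasQExp h G y) (h0 : IsZeroAtImInfty G) {k : ℤ} (hk : k ≤ 0) : y.coeff k = 0 := by
  have hneg : ∀ i < 0, y.coeff i = 0 := by
    intro i hi
    by_contra hne
    have ht : Tendsto (fun τ => ‖G τ‖) atImInfty (𝓝 0) := by
      simpa using (show Tendsto G atImInfty (𝓝 0) from h0).norm
    exact not_tendsto_nhds_of_tendsto_atTop (hy.tendsto_norm_atTop hi hne) 0 ht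
  rcases hk.lt_or_eq with hk | rfl
  · exact hneg k hk
  · exact tendsto_nhds_unique (hy.tendsto_coeff_zero hneg) h0

/-- The expansion of `φ · d j / d τ` at `∞`. -/
theorem coeffMap_diffSeries (ι : ℚbar →+* ℂ) (φ : modularFunctionFieldBar N) :
    coeffMap ι (diffSeries φ) =
      (barToC N ι φ : LaurentSeries ℂ) * Genus.eulerOp (jqModC ℂ) := by
  rw [diffSeries, map_mul]
  congr 1
  ext n
  rw [coeffMap_coeff, Genus.eulerOp_coeff, Genus.eulerOp_coeff, map_mul, map_intCast]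
  congr 1
  exact congrArg (fun y : LaurentSeries ℂ => y.coeff n) (coeffMap_jqModC ι)

theorem eulerOp_jqModC_coeff_neg_one (K : Type*) [Field K] :
    (Genus.eulerOp (jqModC K)).coeff (-1) = -1 := by
  rw [Genus.eulerOp_coeff, coeff_jqModC_neg_one, mul_one, Int.cast_neg, Int.cast_one]

theorem eulerOp_jqModC_ne_zero (K : Type*) [Field K] : Genus.eulerOp (jqModC K) ≠ 0 :=
  fun h => by
    have := eulerOp_jqModC_coeff_neg_one K
    rw [h, HahnSeries.coeff_zero] at this
    exact neg_ne_zero.2 one_ne_zero this.symm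

theorem order_eulerOp_jqModC : (Genus.eulerOp (jqModC ℂ)).order = -1 := by
  refine le_antisymm (HahnSeries.order_le_of_coeff_ne_zero
    (by rw [eulerOp_jqModC_coeff_neg_one]; norm_num)) ?_
  by_contra hlt
  refine HahnSeries.coeff_order_eq_zero.not.2 (eulerOp_jqModC_ne_zero ℂ) ?_
  rw [Genus.eulerOp_coeff, coeff_jqModC_of_lt ℂ (by omega), mul_zero]

theorem mem_Gamma0_conj_T_pow (γ : SL(2, ℤ)) :
    γ * ModularGroup.T ^ (N : ℤ) * γ⁻¹ ∈ Gamma0 N := by
  rw [Gamma0_mem, ZMod.intCast_zmod_eq_zero_iff_dvd]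
  simp [Matrix.SpecialLinearGroup.SL2_inv_expl, ModularGroup.coe_T_zpow, Matrix.mul_apply,
    Fin.sum_univ_two, -zpow_natCast]
  exact ⟨-(γ 1 0 * γ 1 0), by ring⟩

/-- A function analytic near the cusp has the expansion of a function equal to it there. -/
theorem hasQExp_of_eqPunct {h : ℕ} [NeZero h] {G Q : ℍ → ℂ} {y : LaurentSeries ℂ} (hG : MDiff G)
    (hQ : HasQExp h Q y) (he : EqPunct G Q) : HasQExp h G y := by
  refine hQ.congr ?_
  filter_upwards [hQ.eventually_analyticAt] with τ hτ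
  exact (Places.eq_of_eqPunct_of_analyticAt he
    ((UpperHalfPlane.mdifferentiable_iff.1 hG).analyticAt
      (isOpen_upperHalfPlaneSet.mem_nhds τ.im_pos)) hτ).symm

theorem eqPunct_slash {F P : ℍ → ℂ} (h : EqPunct F P) (γ : SL(2, ℤ)) :
    EqPunct (F ∣[(2 : ℤ)] γ) (P ∣[(2 : ℤ)] γ) := by
  have h1 := Places.eqPunct_mul (Places.eqPunct_comp_smul h γ)
    (EqPunct.refl fun τ : ℍ => denom γ τ ^ (-2 : ℤ))
  have e : ∀ G : ℍ → ℂ,
      G ∣[(2 : ℤ)] γ = (fun τ => G (γ • τ)) * fun τ : ℍ => denom γ τ ^ (-2 : ℤ) := fun G =>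
    funext fun τ => ModularForm.SL_slash_apply G γ τ
  rw [e, e]
  exact h1

theorem mul_dTau_slash (f : ℍ → ℂ) (γ : SL(2, ℤ)) :
    (f * dTau jfun) ∣[(2 : ℤ)] γ = (fun τ => f (γ • τ)) * dTau jfun := by
  funext τ
  have h := congrFun (dTau_jfun_slash γ) τ
  rw [ModularForm.SL_slash_apply] at h
  rw [ModularForm.SL_slash_apply, Pi.mul_apply, Pi.mul_apply, mul_assoc, h]

theorem hasQExp_dTau_jfun_period :
    HasQExp N (dTau jfun) (qExpand ℂ N (Genus.eulerOp (jqModC ℂ))) := by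
  have h := hasQExp_dTau_jfun.expand_period N
  rwa [one_mul] at h

theorem hasQExp_comp_smul_mul_dTau {f : ℍ → ℂ} (hf : IsModularFun N f) (γ : SL(2, ℤ)) :
    ∃ x, HasQExp N (fun τ => f (γ • τ)) x ∧
      HasQExp N ((f * dTau jfun) ∣[(2 : ℤ)] γ)
        (x * qExpand ℂ N (Genus.eulerOp (jqModC ℂ))) := by
  obtain ⟨x, hx⟩ := hf.cusps γ
  refine ⟨x, hx, ?_⟩
  rw [mul_dTau_slash]
  exact hx.mul hasQExp_dTau_jfun_period

theorem order_mul_qExpand_eulerOp {x : LaurentSeries ℂ} (hx : x ≠ 0) :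
    (x * qExpand ℂ N (Genus.eulerOp (jqModC ℂ))).order = x.order - N := by
  have h0 : qExpand ℂ N (Genus.eulerOp (jqModC ℂ)) ≠ 0 := fun h =>
    eulerOp_jqModC_ne_zero ℂ (qExpand_injective (R := ℂ) N (h.trans (map_zero _).symm))
  rw [HahnSeries.order_mul hx h0, Places.order_qExpand N (eulerOp_jqModC_ne_zero ℂ),
    order_eulerOp_jqModC]
  ring

theorem ne_zero_of_hasQExp_comp_smul {F : modularFunctionFieldC ℂ N} (hF : F ≠ 0)
    {γ : SL(2, ℤ)} {x : LaurentSeries ℂ} (hx : HasQExp N (fun τ => toFun F (γ • τ)) x) :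
    x ≠ 0 := by
  intro h0
  have h1 := (Places.qexp_eq_zero_iff
    (Places.meroH_comp_smul (ModFun.isModularFun_toFun F).mero γ) hx).1 h0
  have h2 := Places.eqPunct_comp_smul h1 γ⁻¹
  simp only [smul_inv_smul] at h2
  refine (Places.x0Model N).not_eqPunct_zero hF ?_
  exact h2

/-- A function `F` with `F · d j / d τ` analytically regular is a cusp form of weight two. -/
theorem exists_cuspForm_of_isAnalyticallyRegular {F : modularFunctionFieldC ℂ N} (hF : F ≠ 0)
    (h : IsAnalyticallyRegular F) :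
    (∀ n : ℤ, n ≤ 0 → ((F : LaurentSeries ℂ) * Genus.eulerOp (jqModC ℂ)).coeff n = 0) ∧
      ∃ g : CuspForm (Gamma0 N) 2, ∀ n : ℕ, ModularFormClass.qCoeff g n =
        ((F : LaurentSeries ℂ) * Genus.eulerOp (jqModC ℂ)).coeff n := by
  set P := toFun F * dTau jfun with hP
  have hPm : MeroH P := Places.meroH_mul (ModFun.isModularFun_toFun F).mero
    (ModFun.meroH_of_mdifferentiable (mdifferentiable_dTau ModFun.mdifferentiable_jfun))
  set G := ModFun.nfH P with hG
  have hGd : MDiff G := ModFun.mdifferentiable_nfH hPm h.1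
  have hGP : EqPunct G P := ModFun.eqPunct_nfH hPm
  have hexp : ∀ γ : SL(2, ℤ), ∃ x, (N : ℤ) < x.order ∧
      HasQExp N (G ∣[(2 : ℤ)] γ) (x * qExpand ℂ N (Genus.eulerOp (jqModC ℂ))) ∧ x ≠ 0 := by
    intro γ
    obtain ⟨x, hx, hx'⟩ := hasQExp_comp_smul_mul_dTau (ModFun.isModularFun_toFun F) γ
    exact ⟨x, h.2 γ x hx,
      hasQExp_of_eqPunct (hGd.slash 2 _) hx' (eqPunct_slash hGP γ),
      ne_zero_of_hasQExp_comp_smul hF hx⟩
  have hzero : ∀ γ : SL(2, ℤ), IsZeroAtImInfty (G ∣[(2 : ℤ)] γ) := by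
    intro γ
    obtain ⟨x, hlt, hq, hx0⟩ := hexp γ
    refine hq.isZeroAtImInfty fun k hk => HahnSeries.coeff_eq_zero_of_lt_order ?_
    rw [order_mul_qExpand_eulerOp hx0]
    omega
  have hslash : ∀ γ ∈ Gamma0 N, G ∣[(2 : ℤ)] γ = G := by
    intro γ hγ
    have hPγ : P ∣[(2 : ℤ)] γ = P := by
      rw [hP, mul_dTau_slash]
      simp only [(ModFun.isModularFun_toFun F).smul_eq γ hγ]
    funext τ
    refine Places.eq_of_eqPunct_of_analyticAt ((eqPunct_slash hGP γ).trans ?_) ?_ ?_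
    · rw [hPγ]
      exact hGP.symm
    · exact (UpperHalfPlane.mdifferentiable_iff.1 (hGd.slash 2 _)).analyticAt
        (isOpen_upperHalfPlaneSet.mem_nhds τ.im_pos)
    · exact (UpperHalfPlane.mdifferentiable_iff.1 hGd).analyticAt
        (isOpen_upperHalfPlaneSet.mem_nhds τ.im_pos)
  let g : CuspForm (Gamma0 N) 2 :=
    { toFun := G
      slash_action_eq' := fun δ hδ => by
        obtain ⟨γ, hγ, rfl⟩ := hδ
        exact hslash γ hγ
      holo' := hGd
      zero_at_cusps' := fun {c} hc => by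
        rw [Subgroup.IsArithmetic.isCusp_iff_isCusp_SL2Z] at hc
        rw [OnePoint.isZeroAt_iff_forall_SL2Z hc]
        exact fun γ _ => hzero γ }
  have hG1 : HasQExp 1 G ((F : LaurentSeries ℂ) * Genus.eulerOp (jqModC ℂ)) :=
    hasQExp_of_eqPunct hGd ((ModFun.hasQExp_toFun F).mul hasQExp_dTau_jfun) hGP
  have hper : Function.Periodic (G ∘ UpperHalfPlane.ofComplex) ((1 : ℕ) : ℝ) := by
    rw [Nat.cast_one]
    exact Integral.periodic_of_slash_T (hslash _ (by simp [Gamma0_mem, ModularGroup.T]))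
  have hbd : IsBoundedAtImInfty G := by
    have h1 := (hzero 1).isBoundedAtImInfty
    rwa [SlashAction.slash_one] at h1
  have hz : ∀ n : ℤ, n ≤ 0 →
      ((F : LaurentSeries ℂ) * Genus.eulerOp (jqModC ℂ)).coeff n = 0 := by
    intro n hn
    have hz0 : IsZeroAtImInfty G := by
      have h1 := hzero 1
      rwa [SlashAction.slash_one] at h1
    exact coeff_eq_zero_of_isZeroAtImInfty hG1 hz0 hn
  refine ⟨hz, g, fun n => ?_⟩
  rw [hG1.unique (ModFun.hasQExp_qExpansion hper hGd hbd), HahnSeries.ofPowerSeries_apply_coeff,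
    ModularFormClass.qCoeff]
  simp only [Nat.cast_one]
  rfl

/-- A regular differential is a cusp form. -/
theorem exists_cuspForm_of_isRegularDiff (ι : ℚbar →+* ℂ) (φ : modularFunctionFieldBar N)
    (h : IsRegularDiff ℚbar φ (jFun N)) :
    (∀ n : ℤ, n ≤ 0 → (diffSeries φ).coeff n = 0) ∧
      ∃ g : CuspForm (Gamma0 N) 2,
        ∀ n : ℕ, ModularFormClass.qCoeff g n = ι ((diffSeries φ).coeff n) := by
  rcases eq_or_ne φ 0 with rfl | hφ
  · have h0 : diffSeries (0 : modularFunctionFieldBar N) = 0 := by simp [diffSeries]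
    refine ⟨fun n _ => by simp [h0], 0, fun n => ?_⟩
    rw [h0, HahnSeries.coeff_zero, map_zero, Eigen.qCoeff_form_zero]
  have hF : barToC N ι φ ≠ 0 := (map_ne_zero_iff _ (ModFun.barToC_injective N ι)).2 hφ
  obtain ⟨hz, g, hg⟩ := exists_cuspForm_of_isAnalyticallyRegular hF
    ((isRegularDiff_iff_analytic ι hφ).1 h)
  rw [← coeffMap_diffSeries] at hz hg
  simp only [coeffMap_coeff] at hz hg
  exact ⟨fun n hn => ι.injective ((hz n hn).trans (map_zero ι).symm), g, hg⟩

theorem periodic_slash_of_slash_eq {G : ℍ → ℂ} (hG : ∀ δ ∈ Gamma0 N, G ∣[(2 : ℤ)] δ = G)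
    (γ : SL(2, ℤ)) :
    Function.Periodic ((G ∣[(2 : ℤ)] γ) ∘ UpperHalfPlane.ofComplex) ((N : ℕ) : ℝ) := by
  set H := G ∣[(2 : ℤ)] γ with hH
  have hT : H ∣[(2 : ℤ)] (ModularGroup.T ^ (N : ℤ)) = H := by
    rw [hH, ← SlashAction.slash_mul,
      show γ * ModularGroup.T ^ (N : ℤ) = γ * ModularGroup.T ^ (N : ℤ) * γ⁻¹ * γ by group,
      SlashAction.slash_mul, hG _ (mem_Gamma0_conj_T_pow γ)]
  rw [Integral.slash_SL_eq_self_iff] at hT
  have h1 : ∀ z : ℍ, H ((((N : ℕ) : ℝ)) +ᵥ z) = H z := fun z => by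
    have hd : denom (ModularGroup.T ^ (N : ℤ) : SL(2, ℤ)) z = 1 := by
      rw [ModularGroup.denom_apply, ModularGroup.coe_T_zpow]
      simp
    have h2 := hT z
    rw [hd, one_zpow, one_mul, UpperHalfPlane.modular_T_zpow_smul] at h2
    simpa using h2
  intro w
  by_cases hw : 0 < w.im
  · have : 0 < (w + (((N : ℕ) : ℝ) : ℂ)).im := by simpa using hw
    simp only [Function.comp_apply, ofComplex_apply_of_im_pos this, ofComplex_apply_of_im_pos hw]
    refine Eq.trans (congrArg H (UpperHalfPlane.ext ?_)) (h1 ⟨w, hw⟩)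
    simp [add_comm]
  · rw [not_lt] at hw
    have : (w + (((N : ℕ) : ℝ) : ℂ)).im ≤ 0 := by simpa using hw
    simp only [Function.comp_apply, ofComplex_apply_of_im_nonpos this,
      ofComplex_apply_of_im_nonpos hw]

/-- A cusp form with integral coefficients is a regular differential. -/
theorem exists_isRegularDiff_of_cuspForm (g : CuspForm (Gamma0 N) 2) (z : ℕ → ℤ)
    (hz : ∀ n, ModularFormClass.qCoeff g n = z n) :
    ∃ φ : modularFunctionFieldBar N, IsRegularDiff ℚbar φ (jFun N) ∧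
      (∀ n : ℕ, (diffSeries φ).coeff n = z n) ∧ ∀ n : ℤ, n < 0 → (diffSeries φ).coeff n = 0 := by
  let ι : ℚbar →+* ℂ := (IsAlgClosed.lift : ℚbar →ₐ[ℚ] ℂ).toRingHom
  set θ : LaurentSeries ℚbar := Genus.eulerOp (jqModC ℚbar) with hθ
  have hθ0 : θ ≠ 0 := eulerOp_jqModC_ne_zero ℚbar
  set Z : LaurentSeries ℚbar :=
    HahnSeries.ofPowerSeries ℤ ℚbar (PowerSeries.mk fun n => (z n : ℚbar)) with hZ
  have hθι : coeffMap ι θ = Genus.eulerOp (jqModC ℂ) := by
    ext n
    rw [coeffMap_coeff, hθ, Genus.eulerOp_coeff, Genus.eulerOp_coeff, map_mul, map_intCast]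
    congr 1
    exact congrArg (fun y : LaurentSeries ℂ => y.coeff n) (coeffMap_jqModC ι)
  have hgd : MDiff (g : ℍ → ℂ) := CuspFormClass.holo g
  have hgs : ∀ γ ∈ Gamma0 N, (g : ℍ → ℂ) ∣[(2 : ℤ)] γ = g := DimLower.slash_eq_of_mem g
  have hgz : ∀ γ : SL(2, ℤ), IsZeroAtImInfty ((g : ℍ → ℂ) ∣[(2 : ℤ)] γ) := fun γ => by
    haveI : (Gamma0 N).FiniteIndex := ⟨by
      rw [Places.index_Gamma0 N]; exact (Gamma0.dedekindPsi_pos N).ne'⟩
    have hc : IsCusp (Matrix.SpecialLinearGroup.mapGL ℝ γ • OnePoint.infty)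
        ((Gamma0 N).map (Matrix.SpecialLinearGroup.mapGL ℝ)) := by
      rw [Subgroup.IsArithmetic.isCusp_iff_isCusp_SL2Z]
      exact isCusp_SL2Z_iff'.mpr ⟨γ, rfl⟩
    exact g.zero_at_cusps' hc _ rfl
  have hgN : ∀ γ : SL(2, ℤ), ∃ y, HasQExp N ((g : ℍ → ℂ) ∣[(2 : ℤ)] γ) y := fun γ =>
    ⟨_, ModFun.hasQExp_qExpansion
      (periodic_slash_of_slash_eq hgs γ) (hgd.slash 2 _) (hgz γ).isBoundedAtImInfty⟩
  have hg1 : HasQExp 1 (g : ℍ → ℂ) (coeffMap ι Z) := by
    have hper : Function.Periodic ((g : ℍ → ℂ) ∘ UpperHalfPlane.ofComplex) ((1 : ℕ) : ℝ) := by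
      rw [Nat.cast_one]
      exact Integral.periodic_of_slash_T (hgs _ (by simp [Gamma0_mem, ModularGroup.T]))
    have hb : IsBoundedAtImInfty (g : ℍ → ℂ) := by
      have h1 := (hgz 1).isBoundedAtImInfty
      rwa [SlashAction.slash_one] at h1
    refine (ModFun.hasQExp_qExpansion hper hgd hb).of_eq ?_
    ext k
    rcases lt_or_ge k 0 with hk | hk
    · rw [coeffMap_coeff, ofPowerSeries_coeff_of_neg _ hk, hZ, ofPowerSeries_coeff_of_neg _ hk,
        map_zero]
    · lift k to ℕ using hk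
      rw [coeffMap_coeff, HahnSeries.ofPowerSeries_apply_coeff, hZ,
        HahnSeries.ofPowerSeries_apply_coeff, PowerSeries.coeff_mk, map_intCast, ← hz,
        ModularFormClass.qCoeff]
      simp only [Nat.cast_one]
  set f : ℍ → ℂ := (g : ℍ → ℂ) / dTau jfun with hf
  have hfγ : ∀ γ : SL(2, ℤ),
      (fun τ => f (γ • τ)) = ((g : ℍ → ℂ) ∣[(2 : ℤ)] γ) / dTau jfun := fun γ => by
    funext τ
    have h1 := congrFun (dTau_jfun_slash γ) τ
    rw [ModularForm.SL_slash_apply] at h1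
    rw [hf, Pi.div_apply, Pi.div_apply, ← h1, ModularForm.SL_slash_apply,
      mul_div_mul_right _ _ (zpow_ne_zero _ (denom_ne_zero _ _))]
  have hfmod : IsModularFun N f := by
    refine ⟨?_, fun γ hγ τ => ?_, fun γ => ?_⟩
    · rw [hf, div_eq_mul_inv]
      exact Places.meroH_mul (ModFun.meroH_of_mdifferentiable hgd)
        (Places.meroH_inv (ModFun.meroH_of_mdifferentiable
          (mdifferentiable_dTau ModFun.mdifferentiable_jfun)))
    · have h1 := congrFun (hfγ γ) τ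
      rw [hgs γ hγ] at h1
      exact h1
    · obtain ⟨y, hy⟩ := hgN γ
      rw [hfγ γ]
      exact ⟨_, hy.div hasQExp_dTau_jfun_period⟩
  have hfX : HasQExp 1 f (coeffMap ι (Z / θ)) := by
    rw [map_div₀, hθι]
    exact hg1.div hasQExp_dTau_jfun
  have hmemC := ModFun.mem_modularFunctionFieldC_of_hasQExp hfmod hfX
  have hmem : Z / θ ∈ modularFunctionFieldBar N := by
    letI : Algebra ℚbar ℂ := ι.toAlgebra
    have h1 : Z / θ ∈ IntermediateField.adjoin ℚbar {jqModC ℚbar, jqNModC ℚbar N} := by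
      refine ModFun.mem_adjoin_of_coeffMap_mem (L := ℂ) _ ?_
      rw [Set.image_pair, RingHom.algebraMap_toAlgebra, coeffMap_jqModC, coeffMap_jqNModC]
      exact hmemC
    refine (IntermediateField.adjoin_le_iff.2 ?_ : _ ≤ modularFunctionFieldBar N) h1
    rintro _ (rfl | rfl)
    · exact Genus.jqModC_mem_bar N
    · exact Genus.jqNModC_mem_bar N
  set φ : modularFunctionFieldBar N := ⟨Z / θ, hmem⟩ with hφ
  have hser : diffSeries φ = Z := div_mul_cancel₀ Z hθ0
  refine ⟨φ, ?_, fun n => ?_, fun n hn => ?_⟩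
  · rcases eq_or_ne φ 0 with h0 | h0
    · left
      rw [h0, zero_smul]
    refine (isRegularDiff_iff_analytic ι h0).2 ?_
    have hfF : EqPunct (toFun (barToC N ι φ)) f :=
      ModFun.toFun_eqPunct (barToC N ι φ) hfmod hfX
    have hgP : EqPunct (g : ℍ → ℂ) (toFun (barToC N ι φ) * dTau jfun) := by
      refine EqPunct.trans (fun τ => ?_) (Places.eqPunct_mul hfF (EqPunct.refl _)).symm
      filter_upwards [eventually_dTau_jfun_ne_zero τ] with w hw
      simp only [Function.comp_apply, hf, Pi.mul_apply, Pi.div_apply] at hw ⊢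
      exact (div_mul_cancel₀ _ hw).symm
    refine ⟨fun τ => ?_, fun γ x hx => ?_⟩
    · rw [← hgP.ordH_eq τ]
      exact ((UpperHalfPlane.mdifferentiable_iff.1 hgd).analyticAt
        (isOpen_upperHalfPlaneSet.mem_nhds τ.im_pos)).meromorphicOrderAt_nonneg
    · have hF0 : barToC N ι φ ≠ 0 := (map_ne_zero_iff _ (ModFun.barToC_injective N ι)).2 h0
      have hx0 := ne_zero_of_hasQExp_comp_smul hF0 hx
      have hQ : HasQExp N ((g : ℍ → ℂ) ∣[(2 : ℤ)] γ)
          (x * qExpand ℂ N (Genus.eulerOp (jqModC ℂ))) := by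
        refine hasQExp_of_eqPunct (hgd.slash 2 _) ?_ (eqPunct_slash hgP γ)
        rw [mul_dTau_slash]
        exact hx.mul hasQExp_dTau_jfun_period
      have hy0 : x * qExpand ℂ N (Genus.eulerOp (jqModC ℂ)) ≠ 0 := mul_ne_zero hx0 fun h =>
        eulerOp_jqModC_ne_zero ℂ (qExpand_injective (R := ℂ) N (h.trans (map_zero _).symm))
      by_contra hle
      exact HahnSeries.coeff_order_eq_zero.not.2 hy0 (coeff_eq_zero_of_isZeroAtImInfty hQ (hgz γ)
        (by rw [order_mul_qExpand_eulerOp hx0]; omega))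
  · rw [hser, hZ, HahnSeries.ofPowerSeries_apply_coeff, PowerSeries.coeff_mk]
  · rw [hser, hZ, ofPowerSeries_coeff_of_neg _ hn]

end Fermat.Agent.MazurPrinciple

end
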