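/-
The divisor of `dj` on `X₀(N)` over the algebraic numbers and the genus of the function field.
-/
import Fermat.Agent.Genus.Modular
import Fermat.Agent.Torsion.Main
import Fermat.Agent.S27.Main

set_option autoImplicit false
set_option synthInstance.maxHeartbeats 400000

noncomputable section

open AlgebraicCurve ModularCurve CongruenceSubgroup

namespace Fermat.Agent.MazurPrinciple

open Fermat.Agent.Genus

variable (N : ℕ) [NeZero N]

/-- The genus of the function field is the genus formula. -/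
theorem genusFF_bar_eq_finrank_cuspForm :
    genusFF (AlgebraicClosure ℚ) (modularFunctionFieldBar N) =
      Module.finrank ℂ (CuspForm (Gamma0 N) 2) := by
  obtain ⟨g, hg, hcard⟩ := Torsion.exists_natCard_jTorsion (N := N)
  rw [← DimLower.finrank_cuspForm_two_eq_genusFormula N] at hg
  have h1 := S27.natCard_torsion_pow (AlgebraicClosure ℚ) (modularFunctionFieldBar N) 2 1
  have h2 := hcard 2 two_ne_zero
  change Nat.card (Pic0.torsion (AlgebraicClosure ℚ) (modularFunctionFieldBar N) 2) = _ at h2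
  rw [pow_one] at h1
  rw [h1] at h2
  have h3 := Nat.pow_right_injective le_rfl h2
  have h4 : g = Module.finrank ℂ (CuspForm (Gamma0 N) 2) := by exact_mod_cast hg
  omega

/-- Only finitely many places are ramified over the `j`-line. -/
theorem finite_ordDifferential_D_j_ne_zero :
    {v : Place (AlgebraicClosure ℚ) ↥(modularFunctionFieldBar N) |
      v.ordDifferential (KaehlerDifferential.D (AlgebraicClosure ℚ) _
        (⟨jqModC (AlgebraicClosure ℚ), jqModC_mem_bar N⟩ :
          ↥(modularFunctionFieldBar N))) ≠ 0}.Finite := by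
  classical
  obtain ⟨ι⟩ : Nonempty (AlgebraicClosure ℚ →+* ℂ) :=
    ⟨(IsAlgClosed.lift : AlgebraicClosure ℚ →ₐ[ℚ] ℂ).toRingHom⟩
  letI algQC : Algebra (AlgebraicClosure ℚ) ℂ := ι.toAlgebra
  letI : Algebra ↥(modularFunctionFieldBar N) ↥(modularFunctionFieldC ℂ N) :=
    (ModFun.barToC N ι).toAlgebra
  letI algKE : Algebra (AlgebraicClosure ℚ) ↥(modularFunctionFieldC ℂ N) :=
    ((algebraMap ℂ ↥(modularFunctionFieldC ℂ N)).comp ι).toAlgebra
  haveI : IsScalarTower (AlgebraicClosure ℚ) ↥(modularFunctionFieldBar N)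
      ↥(modularFunctionFieldC ℂ N) := by
    refine IsScalarTower.of_algebraMap_eq fun a => Subtype.ext ?_
    show algebraMap ℂ (LaurentSeries ℂ) (ι a) =
      coeffMap ι (algebraMap (AlgebraicClosure ℚ) (LaurentSeries (AlgebraicClosure ℚ)) a)
    rw [algebraMap_laurentSeries_eq_single, algebraMap_laurentSeries_eq_single, coeffMap_single]
  haveI : IsScalarTower (AlgebraicClosure ℚ) ℂ ↥(modularFunctionFieldC ℂ N) :=
    IsScalarTower.of_algebraMap_eq fun _ => rfl
  let x : ↥(modularFunctionFieldBar N) := ⟨jqModC (AlgebraicClosure ℚ), jqModC_mem_bar N⟩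
  let M := Places.x0Model N
  have hxM : algebraMap ↥(modularFunctionFieldBar N) ↥(modularFunctionFieldC ℂ N) x = M.jF :=
    Subtype.ext (coeffMap_jqModC ι)
  have hx : Transcendental (AlgebraicClosure ℚ) x := fun h =>
    ModFun.transcendental_jqModC (AlgebraicClosure ℚ)
      (h.algHom (modularFunctionFieldBar N).val)
  haveI : Module.Finite (IntermediateField.adjoin (AlgebraicClosure ℚ) {x})
      ↥(modularFunctionFieldBar N) := Curve.finite_adjoin_of_transcendental hx
  haveI : Curve.IsConstExt (AlgebraicClosure ℚ) ↥(modularFunctionFieldBar N) ℂ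
      ↥(modularFunctionFieldC ℂ N) := by
    refine Curve.IsConstExt.of_transcendental x ?_ ?_
    · rw [hxM]
      exact fun h => ModFun.transcendental_jqModC ℂ (h.algHom (modularFunctionFieldC ℂ N).val)
    · apply IntermediateField.lift_injective (modularFunctionFieldC ℂ N)
      rw [IntermediateField.lift_top, IntermediateField.lift_adjoin]
      refine le_antisymm ?_ (IntermediateField.adjoin_le_iff.mpr ?_)
      · rw [IntermediateField.adjoin_le_iff]
        rintro _ ⟨y, -, rfl⟩
        exact y.2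
      · rintro _ (rfl | rfl)
        · refine IntermediateField.subset_adjoin _ _ ⟨M.jF, ⟨x, hxM⟩, rfl⟩
        · refine IntermediateField.subset_adjoin _ _ ⟨⟨_, jqNModC_mem ℂ N⟩,
            ⟨⟨_, jqNModC_mem_bar N⟩, Subtype.ext (coeffMap_jqNModC ι N)⟩, rfl⟩
  have hx0 : ∀ c, x - algebraMap (AlgebraicClosure ℚ) _ c ≠ 0 := fun c h =>
    hx (sub_eq_zero.mp h ▸ isAlgebraic_algebraMap c)
  have hxne : x ≠ 0 := fun h => hx (h ▸ isAlgebraic_zero)
  have hnc : ∀ c, x ≠ algebraMap (AlgebraicClosure ℚ) _ c := fun c h => hx0 c (sub_eq_zero.mpr h)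
  refine ((sum_ord_neg_finite (K := AlgebraicClosure ℚ) hxne).union
    (((finite_setOf_ord_pos (K := AlgebraicClosure ℚ) (hx0 0)).union
      (finite_setOf_ord_pos (K := AlgebraicClosure ℚ) (hx0 1728))))).subset fun v hv => ?_
  by_cases hneg : v.ord x < 0
  · exact Or.inl hneg
  obtain ⟨c, hc⟩ := exists_ord_sub_pos v (not_lt.mp hneg) hnc
  rcases eq_or_ne c 0 with rfl | h0
  · exact Or.inr (Or.inl hc)
  rcases eq_or_ne c 1728 with rfl | h1
  · exact Or.inr (Or.inr hc)
  exfalso
  apply hv
  have hmap : algebraMap ↥(modularFunctionFieldBar N) ↥(modularFunctionFieldC ℂ N)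
      (x - algebraMap (AlgebraicClosure ℚ) _ c) =
      M.jF - algebraMap ℂ _ (algebraMap (AlgebraicClosure ℚ) ℂ c) := by
    rw [map_sub, hxM, ← IsScalarTower.algebraMap_apply, ← IsScalarTower.algebraMap_apply]
  have hle := M.ord_jF_sub_le_one (Curve.placeExt ℂ ↥(modularFunctionFieldC ℂ N) v)
    (c := algebraMap (AlgebraicClosure ℚ) ℂ c)
    ((map_ne_zero_iff _ (RingHom.injective _)).mpr h0)
    (fun h => h1 (RingHom.injective (algebraMap (AlgebraicClosure ℚ) ℂ) (by rw [h, map_ofNat])))
  rw [← hmap, Curve.ord_placeExt] at hle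
  rw [(ordDifferential_D v (c := c) hc.ne').2]
  omega

/-- `X₀(N)` over the algebraic numbers has canonical divisors. -/
theorem hasCanonicalDivisor_bar :
    HasCanonicalDivisor (K := AlgebraicClosure ℚ) (F := ↥(modularFunctionFieldBar N)) := by
  refine ⟨fun ω hω => ?_⟩
  set x : ↥(modularFunctionFieldBar N) := ⟨jqModC (AlgebraicClosure ℚ), jqModC_mem_bar N⟩
  set dx := KaehlerDifferential.D (AlgebraicClosure ℚ) ↥(modularFunctionFieldBar N) x with hdx
  have hfin := finite_ordDifferential_D_j_ne_zero N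
  have hx : Transcendental (AlgebraicClosure ℚ) x := fun h =>
    ModFun.transcendental_jqModC (AlgebraicClosure ℚ) (h.algHom (modularFunctionFieldBar N).val)
  have hdx0 : dx ≠ 0 := by
    obtain ⟨v, hv⟩ := Curve.exists_place_ord_pos
      (K := AlgebraicClosure ℚ) (F := ↥(modularFunctionFieldBar N)) hx
    exact (ordDifferential_D v (f := x) (c := 0) (by simpa using hv.ne')).1
  obtain ⟨a, ha⟩ := exists_smul_eq_of_finrank_eq_one IsCurveOver.finrank_kaehler hdx0 ω
  have ha0 : a ≠ 0 := fun h => hω (by rw [← ha, h, zero_smul])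
  obtain ⟨E, hE, -⟩ := HasPrincipalDivisors.exists_divisor (K := AlgebraicClosure ℚ) a ha0
  refine ⟨E + Finsupp.ofSupportFinite
    (fun v : Place (AlgebraicClosure ℚ) ↥(modularFunctionFieldBar N) => v.ordDifferential dx) hfin,
    fun v => ?_⟩
  rw [Finsupp.add_apply, Finsupp.ofSupportFinite_coe, hE, ← ha,
    ordDifferential_smul_ne_zero v ha0 hdx0]

/-- The divisor of `dj`. -/
theorem exists_divisor_D_j :
    ∃ D : Divisor (AlgebraicClosure ℚ) ↥(modularFunctionFieldBar N),
      (∀ v, D v = v.ordDifferential (KaehlerDifferential.D (AlgebraicClosure ℚ) _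
        (⟨jqModC (AlgebraicClosure ℚ), jqModC_mem_bar N⟩ :
          ↥(modularFunctionFieldBar N)))) ∧
      Divisor.degree D = 2 * (Module.finrank ℂ (CuspForm (Gamma0 N) 2) : ℤ) - 2 := by
  haveI := hasCanonicalDivisor_bar N
  set x : ↥(modularFunctionFieldBar N) := ⟨jqModC (AlgebraicClosure ℚ), jqModC_mem_bar N⟩
  have hx : Transcendental (AlgebraicClosure ℚ) x := fun h =>
    ModFun.transcendental_jqModC (AlgebraicClosure ℚ) (h.algHom (modularFunctionFieldBar N).val)
  obtain ⟨w, hw⟩ := Curve.exists_place_ord_pos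
    (K := AlgebraicClosure ℚ) (F := ↥(modularFunctionFieldBar N)) hx
  have hdx0 := (ordDifferential_D w (f := x) (c := 0) (by simpa using hw.ne')).1
  refine ⟨canonicalDivisorOf hdx0, canonicalDivisorOf_apply hdx0, ?_⟩
  obtain ⟨ω, hω, hdeg⟩ := exists_degree_canonical_eq N
  obtain ⟨a, ha⟩ := exists_smul_eq_of_finrank_eq_one IsCurveOver.finrank_kaehler hω
    (KaehlerDifferential.D (AlgebraicClosure ℚ) _ x)
  have ha0 : a ≠ 0 := fun h => hdx0 (by rw [← ha, h, zero_smul])
  obtain ⟨E, hE, hEdeg⟩ := HasPrincipalDivisors.exists_divisor (K := AlgebraicClosure ℚ) a ha0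
  have : canonicalDivisorOf hdx0 = E + canonicalDivisorOf hω := by
    ext v
    rw [Finsupp.add_apply, canonicalDivisorOf_apply, canonicalDivisorOf_apply, hE,
      ← ordDifferential_smul_ne_zero v ha0 hω, ha]
  rw [this, map_add, hEdeg, zero_add]
  rw [← DimLower.finrank_cuspForm_two_eq_genusFormula N] at hdeg
  exact_mod_cast hdeg

end Fermat.Agent.MazurPrinciple

end
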