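/-
Mazur's principle: differentials as `q`-series and their reduction modulo `q`.
-/
import Fermat.Agent.MazurPrinciple.FormsModPGenus
import Fermat.Agent.MazurPrinciple.FormsAnalytic
import Fermat.Agent.Igusa.JacobianGood
import Fermat.Prelude.Thm_ModularCurve_coeff_jqModC_neg_one
import Mathlib.RingTheory.Kaehler.Basic

set_option autoImplicit false
set_option synthInstance.maxHeartbeats 400000

noncomputable section

namespace Fermat.Agent.MazurPrinciple

open AlgebraicCurve ModularCurve IsLocalRing

local notation "ℚbar" => AlgebraicClosure ℚ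

section Euler

variable {K : Type*} [Field K]

theorem single_zero_mul (c : K) (x : LaurentSeries K) : HahnSeries.single 0 c * x = c • x := by
  ext n
  rw [HahnSeries.coeff_single_zero_mul, HahnSeries.coeff_smul, smul_eq_mul]

theorem isScalarTower_series (F : IntermediateField K (LaurentSeries K)) :
    IsScalarTower K F (LaurentSeries K) := ⟨fun c x y => by
  show ((c • x : F) : LaurentSeries K) * y = c • ((x : LaurentSeries K) * y)
  rw [Algebra.smul_def, IntermediateField.coe_mul, IntermediateField.coe_algebraMap_apply,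
    algebraMap_laurentSeries_eq_single, mul_assoc, single_zero_mul]⟩

attribute [local instance] isScalarTower_series

/-- `eulerOp` as a derivation on a subfield of Laurent series. -/
def eulerDer (F : IntermediateField K (LaurentSeries K)) : Derivation K F (LaurentSeries K) where
  toFun f := Genus.eulerOp (f : LaurentSeries K)
  map_add' f g := Genus.eulerOp_add _ _
  map_smul' c f := by
    show Genus.eulerOp ((c • f : F) : LaurentSeries K) = c • Genus.eulerOp (f : LaurentSeries K)
    rw [Algebra.smul_def, IntermediateField.coe_mul, IntermediateField.coe_algebraMap_apply,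
      algebraMap_laurentSeries_eq_single, Genus.eulerOp_mul, Genus.eulerOp_single,
      ← single_zero_mul]
    simp
  map_one_eq_zero' := by
    show Genus.eulerOp (1 : LaurentSeries K) = 0
    ext n
    simp only [Genus.eulerOp_coeff, HahnSeries.coeff_one, HahnSeries.coeff_zero]
    rcases eq_or_ne n 0 with rfl | h <;> simp [*]
  leibniz' f g := by
    show Genus.eulerOp ((f : LaurentSeries K) * (g : LaurentSeries K)) =
      (f : LaurentSeries K) * Genus.eulerOp (g : LaurentSeries K) +
        (g : LaurentSeries K) * Genus.eulerOp (f : LaurentSeries K)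
    rw [Genus.eulerOp_mul]
    ring

/-- The `q`-series of a differential. -/
def diffQ (F : IntermediateField K (LaurentSeries K)) : Ω[F⁄K] →ₗ[F] LaurentSeries K :=
  (eulerDer F).liftKaehlerDifferential

theorem diffQ_D (F : IntermediateField K (LaurentSeries K)) (f : F) :
    diffQ F (KaehlerDifferential.D K F f) = Genus.eulerOp (f : LaurentSeries K) :=
  Derivation.liftKaehlerDifferential_comp_D _ f

theorem diffQ_smul_D (F : IntermediateField K (LaurentSeries K)) (c f : F) :
    diffQ F (c • KaehlerDifferential.D K F f) =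
      (c : LaurentSeries K) * Genus.eulerOp (f : LaurentSeries K) := by
  rw [map_smul, diffQ_D]
  rfl

theorem D_ne_zero_of_eulerOp_ne_zero (F : IntermediateField K (LaurentSeries K)) {f : F}
    (h : Genus.eulerOp (f : LaurentSeries K) ≠ 0) : KaehlerDifferential.D K F f ≠ 0 :=
  fun h0 => h (by rw [← diffQ_D, h0, map_zero])

theorem eulerOp_ne_zero_of_D_ne_zero (F : IntermediateField K (LaurentSeries K))
    [IsCurveOver K F] {x f : F} (hx : Genus.eulerOp (x : LaurentSeries K) ≠ 0)
    (hf : KaehlerDifferential.D K F f ≠ 0) : Genus.eulerOp (f : LaurentSeries K) ≠ 0 := by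
  intro h
  obtain ⟨a, ha⟩ := exists_smul_eq_of_finrank_eq_one IsCurveOver.finrank_kaehler hf
    (KaehlerDifferential.D K F x)
  have h1 := congrArg (diffQ F) ha
  rw [diffQ_smul_D, h, mul_zero, diffQ_D] at h1
  exact hx h1.symm

end Euler

/-- The operator `f ↦ X f'` over a commutative ring. -/
def eulerR {R : Type*} [CommRing R] (f : LaurentSeries R) : LaurentSeries R where
  coeff n := (n : R) * f.coeff n
  isPWO_support' := f.isPWO_support'.mono fun n hn h => hn (by simp [h])

theorem coeffMap_eulerR {R K : Type*} [CommRing R] [Field K] (f : R →+* K) (u : LaurentSeries R) :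
    coeffMap f (eulerR u) = Genus.eulerOp (coeffMap f u) := by
  ext n
  rw [coeffMap_coeff, Genus.eulerOp_coeff, coeffMap_coeff]
  show f ((n : R) * u.coeff n) = _
  rw [map_mul, map_intCast]

/-- Riemann-Roch in degree `2 g - 2`: `l(D) ≤ g`. -/
theorem ellDim_le_genusFF {K F : Type*} [Field K] [Field F] [Algebra K F] [IsAlgClosed K]
    [Curve.IsFunctionFieldOne K F] {D : Divisor K F}
    (hD : Divisor.degree D = 2 * (genusFF K F : ℤ) - 2) :
    (Curve.ellDim D : ℤ) ≤ genusFF K F := by
  obtain ⟨v⟩ := Curve.RedAux.nonempty_place (K := K) (F := F)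
  have hdeg : Divisor.degree (D + Finsupp.single v 1) = 2 * (genusFF K F : ℤ) - 1 := by
    rw [map_add, Divisor.degree_single, Curve.RedAux.deg_one, hD]
    ring
  have h1 := Curve.ellDim_eq_of_degree_ge (D := D + Finsupp.single v 1) hdeg.ge
  rw [hdeg] at h1
  haveI := Curve.RedAux.finite_L (D + Finsupp.single v 1)
  have h2 : Curve.ellDim D ≤ Curve.ellDim (D + Finsupp.single v 1) :=
    Submodule.finrank_mono (Curve.RedAux.L_mono (le_add_of_nonneg_right (Finsupp.single_nonneg.mpr (by norm_num))))
  omega

section Reduce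

variable {N : ℕ} [NeZero N] {q : ℕ} [Fact q.Prime] (hqN : ¬ q ∣ N) {A : ValuationSubring ℚbar}
  (hA : A.LiesOverPrime q)

/-- A function which is a quotient of integral series with non-zero reductions is integral and
reduces to the quotient of the reductions. -/
theorem exists_mem_V_of_mul_eq (f : modularFunctionFieldBar N) (a b : LaurentSeries A)
    (ha : coeffMap (residue A) a ≠ 0) (hb : coeffMap (residue A) b ≠ 0)
    (h : (f : LaurentSeries ℚbar) * coeffMap A.subtype b = coeffMap A.subtype a) :
    ∃ hf : f ∈ (Igusa.x0GoodReduction hqN hA).V,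
      ((Igusa.x0GoodReduction hqN hA).φ ⟨f, hf⟩ : LaurentSeries (ResidueField A)) *
        coeffMap (residue A) b = coeffMap (residue A) a := by
  set G := Igusa.x0GoodReduction hqN hA with hG
  have hinj : Function.Injective (coeffMap A.subtype) := fun x y hxy => by
    ext n
    have := congrArg (fun s => HahnSeries.coeff s n) hxy
    simp only [coeffMap_coeff] at this
    exact this
  have hf0 : f ≠ 0 := fun h0 => by
    have h1 : coeffMap A.subtype a = coeffMap A.subtype 0 := by
      rw [← h, h0, map_zero]; simp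
    exact ha (by rw [hinj h1, map_zero])
  obtain ⟨c, hc, hne⟩ := G.exists_scale f hf0
  obtain ⟨u, v, hv, huv, hu', hv'⟩ := Igusa.x0GoodReduction_exists_quotient hqN hA ⟨c • f, hc⟩
  obtain ⟨hvV, hvφ⟩ := Igusa.x0GoodReduction_φ_coeffMap hqN hA v hv'
  obtain ⟨huV, huφ⟩ := Igusa.x0GoodReduction_φ_coeffMap hqN hA u hu'
  have hV : (⟨c • f, hc⟩ : G.V) * ⟨_, hvV⟩ = ⟨_, huV⟩ := Subtype.ext (Subtype.ext huv)
  have hred : (G.φ ⟨c • f, hc⟩ : LaurentSeries (ResidueField A)) * coeffMap (residue A) v =
      coeffMap (residue A) u := by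
    have := congrArg G.φ hV
    rw [map_mul] at this
    have := congrArg Subtype.val this
    rw [IntermediateField.coe_mul] at this
    rw [← hvφ, ← huφ]
    exact this
  have hu0 : coeffMap (residue A) u ≠ 0 := by
    rw [← hred]
    exact mul_ne_zero (fun h0 => hne (Subtype.ext h0)) hv
  have hcf : ((c • f : modularFunctionFieldBar N) : LaurentSeries ℚbar) =
      algebraMap ℚbar (LaurentSeries ℚbar) c * (f : LaurentSeries ℚbar) := by
    rw [IntermediateField.coe_smul, Algebra.smul_def]
  have hkey : coeffMap A.subtype (u * b) =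
      algebraMap ℚbar (LaurentSeries ℚbar) c * coeffMap A.subtype (a * v) := by
    rw [map_mul, map_mul, ← huv, hcf, ← h]
    ring
  have hsingle : ∀ d : A, algebraMap ℚbar (LaurentSeries ℚbar) (d : ℚbar) =
      coeffMap A.subtype (HahnSeries.single 0 d) := fun d => by
    rw [algebraMap_laurentSeries_eq_single, coeffMap_single]
    rfl
  have hc0 : c ≠ 0 := fun h0 => hne (by
    rw [show (⟨c • f, hc⟩ : G.V) = 0 from
      Subtype.ext ((congrArg (fun e => e • f) h0).trans (zero_smul _ f)), map_zero])
  have hcA : c ∈ A ∧ c⁻¹ ∈ A := by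
    rcases A.mem_or_inv_mem c with hmem | hmem
    · refine ⟨hmem, ?_⟩
      rw [show c = ((⟨c, hmem⟩ : A) : ℚbar) from rfl, hsingle, ← map_mul] at hkey
      have h1 := congrArg (coeffMap (residue A)) (hinj hkey)
      rw [map_mul, map_mul, coeffMap_single] at h1
      have hr : residue A ⟨c, hmem⟩ ≠ 0 := fun h0 => by
        rw [h0, map_zero, zero_mul] at h1
        exact mul_ne_zero hu0 hb h1
      obtain ⟨w, hw⟩ := (residue_ne_zero_iff_isUnit _).mp hr
      have h2 : ((↑w⁻¹ : A) : ℚbar) = c⁻¹ := by
        refine eq_inv_of_mul_eq_one_left ?_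
        have := congrArg Subtype.val w.inv_mul
        rw [hw] at this
        exact this
      exact h2 ▸ Subtype.coe_prop _
    · refine ⟨?_, hmem⟩
      have hkey' : algebraMap ℚbar (LaurentSeries ℚbar) c⁻¹ * coeffMap A.subtype (u * b) =
          coeffMap A.subtype (a * v) := by
        rw [hkey, ← mul_assoc, ← map_mul, inv_mul_cancel₀ hc0, map_one, one_mul]
      rw [show c⁻¹ = ((⟨c⁻¹, hmem⟩ : A) : ℚbar) from rfl, hsingle, ← map_mul] at hkey'
      have h1 := congrArg (coeffMap (residue A)) (hinj hkey')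
      rw [map_mul, map_mul, map_mul, coeffMap_single] at h1
      have hr : residue A ⟨c⁻¹, hmem⟩ ≠ 0 := fun h0 => by
        rw [h0, map_zero, zero_mul] at h1
        exact mul_ne_zero ha hv h1.symm
      obtain ⟨w, hw⟩ := (residue_ne_zero_iff_isUnit _).mp hr
      have h2 : ((↑w⁻¹ : A) : ℚbar) = c := by
        have := congrArg Subtype.val w.inv_mul
        rw [hw] at this
        simpa using eq_inv_of_mul_eq_one_left this
      exact h2 ▸ Subtype.coe_prop _
  have hf : f ∈ G.V := by
    have := G.smul_mem ⟨c⁻¹, hcA.2⟩ hc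
    simpa [inv_smul_smul₀ hc0] using this
  refine ⟨hf, ?_⟩
  have hmul : (⟨c • f, hc⟩ : G.V) = ⟨_, G.algebraMap_mem ⟨c, hcA.1⟩⟩ * ⟨f, hf⟩ :=
    Subtype.ext (Algebra.smul_def c f)
  have hφc : (G.φ ⟨c • f, hc⟩ : LaurentSeries (ResidueField A)) =
      HahnSeries.single 0 (residue A ⟨c, hcA.1⟩) * (G.φ ⟨f, hf⟩ : LaurentSeries (ResidueField A)) := by
    rw [hmul, map_mul, IntermediateField.coe_mul]
    congr 1
    rw [G.φ_algebraMap, Igusa.x0GoodReduction_π]
    exact algebraMap_laurentSeries_eq_single _ _
  rw [show c = ((⟨c, hcA.1⟩ : A) : ℚbar) from rfl, hsingle, ← map_mul] at hkey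
  have h1 := congrArg (coeffMap (residue A)) (hinj hkey)
  rw [map_mul, map_mul, map_mul, coeffMap_single, ← hred, hφc] at h1
  have hs : HahnSeries.single (0 : ℤ) (residue A ⟨c, hcA.1⟩) ≠ 0 := by
    rw [ne_eq, HahnSeries.single_eq_zero_iff]
    exact (residue_ne_zero_iff_isUnit _).mpr
      (isUnit_iff_exists_inv.mpr ⟨⟨c⁻¹, hcA.2⟩, Subtype.ext (mul_inv_cancel₀ hc0)⟩)
  refine mul_left_cancel₀ (mul_ne_zero hs hv) ?_
  linear_combination h1

variable (N A) in
/-- `j` on the special fibre. -/
def jSp : modularFunctionFieldFullC (ResidueField A) N :=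
  ⟨jqModC (ResidueField A), jqModC_mem_full (ResidueField A) N⟩

/-- The divisor of `dj` on the special fibre is bounded by the reduction of the divisor of `dj`. -/
theorem ordDifferential_D_jSp_le {D : Divisor ℚbar (modularFunctionFieldBar N)}
    (hD : ∀ P, D P = P.ordDifferential (KaehlerDifferential.D ℚbar _ (jFun N)))
    (v : Place (ResidueField A) (modularFunctionFieldFullC (ResidueField A) N)) :
    v.ordDifferential (KaehlerDifferential.D (ResidueField A) _ (jSp N A)) ≤
      (Igusa.x0GoodReduction hqN hA).divMap D v := by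
  classical
  haveI := Igusa.isAlgClosed_residueField hqN hA
  set G := Igusa.x0GoodReduction hqN hA with hG
  -- a uniformiser at `v`
  obtain ⟨π, hπ, hπd⟩ := Genus.dCoord_eq v
  haveI := Genus.dCoordGenerates v
  have hordπ : v.ord (π : modularFunctionFieldFullC (ResidueField A) N) = 1 :=
    v.ord_coe_irreducible hπ
  set tb : modularFunctionFieldFullC (ResidueField A) N := (π : modularFunctionFieldFullC (ResidueField A) N) with htb
  have hDtb : KaehlerDifferential.D (ResidueField A) _ tb ≠ 0 := Genus.D_irreducible_ne_zero v hπ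
  have hjb : Genus.eulerOp ((jSp N A : modularFunctionFieldFullC (ResidueField A) N) :
      LaurentSeries (ResidueField A)) ≠ 0 := eulerOp_jqModC_ne_zero _
  have hθtb := eulerOp_ne_zero_of_D_ne_zero _ hjb hDtb
  -- a lift of the uniformiser without poles above `v`
  obtain ⟨s, hs⟩ := G.placeMap_surjective.hasRightInverse
  obtain ⟨w, hw⟩ : ∃ w : Place (ResidueField A) (modularFunctionFieldFullC (ResidueField A) N),
      v.ord tb ≠ w.ord tb ∧ w ≠ v := by
    have htr : Transcendental (ResidueField A) tb :=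
      Curve.transcendental_of_ord_ne_zero v (by omega)
    obtain ⟨w, hw⟩ := Curve.exists_place_ord_pos (K := ResidueField A)
      (Curve.transcendental_of_ord_ne_zero v (f := tb⁻¹) (by rw [v.ord_inv]; omega))
    rw [w.ord_inv] at hw
    exact ⟨w, by omega, fun h => by rw [h] at hw; omega⟩
  set E₀ : Divisor (ResidueField A) (modularFunctionFieldFullC (ResidueField A) N) :=
    Curve.poleDivisor (ResidueField A) tb +
      Finsupp.single w (2 * (genusFF (ResidueField A) (modularFunctionFieldFullC (ResidueField A) N) : ℤ))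
    with hE₀
  have hE₀v : E₀ v = 0 := by
    rw [hE₀, Finsupp.add_apply, Curve.poleDivisor_apply, Finsupp.single_eq_of_ne hw.2.symm, hordπ]
    norm_num
  set L₀ : Divisor ℚbar (modularFunctionFieldBar N) := Finsupp.mapDomain s E₀ with hL₀
  have hmapL : G.divMap L₀ = E₀ := by
    rw [hL₀, Curve.GoodReduction.divMap_apply, ← Finsupp.mapDomain_comp]
    exact (congrArg (fun h => Finsupp.mapDomain h E₀) (funext hs)).trans Finsupp.mapDomain_id
  have hL₀P : ∀ P, G.placeMap P = v → L₀ P = 0 := by
    intro P hP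
    rw [hL₀]
    by_cases hr : P ∈ Set.range s
    · obtain ⟨Q, rfl⟩ := hr
      rw [hs Q] at hP
      subst hP
      rw [Finsupp.mapDomain_apply hs.injective]
      exact hE₀v
    · exact Finsupp.mapDomain_of_notMem_range _ _ hr
  have hpos : 0 ≤ Curve.poleDivisor (ResidueField A) tb := Curve.RedAux.poleDivisor_nonneg tb
  have htmem : tb ∈ riemannRochSpace E₀ :=
    Curve.RedAux.L_mono (le_add_of_nonneg_right (Finsupp.single_nonneg.mpr (by positivity))) (Curve.RedAux.mem_L_poleDivisor tb)
  have hsub := G.reduceSubspace_eq_of_degree_ge (D := L₀) (by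
    rw [← G.degree_divMap, hmapL, hE₀, map_add, Divisor.degree_single, Curve.RedAux.deg_one]
    have h0 := Curve.RedAux.degree_nonneg hpos
    rw [← G.genus_eq]
    push_cast
    omega)
  rw [hmapL] at hsub
  rw [← hsub, Curve.GoodReduction.mem_reduceSubspace] at htmem
  obtain ⟨t, htL, hφt⟩ := htmem
  -- the series of `dt`
  obtain ⟨u, b₀, hb₀, hub, hu', hb₀'⟩ := Igusa.x0GoodReduction_exists_quotient hqN hA t
  obtain ⟨huV, huφ⟩ := Igusa.x0GoodReduction_φ_coeffMap hqN hA u hu'
  obtain ⟨hbV, hbφ⟩ := Igusa.x0GoodReduction_φ_coeffMap hqN hA b₀ hb₀'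
  have hredt : (tb : LaurentSeries (ResidueField A)) * coeffMap (residue A) b₀ =
      coeffMap (residue A) u := by
    have hV : t * ⟨_, hbV⟩ = ⟨_, huV⟩ := Subtype.ext (Subtype.ext hub)
    have := congrArg Subtype.val (congrArg G.φ hV)
    rw [map_mul, IntermediateField.coe_mul, hφt, hbφ, huφ] at this
    exact this
  set a : LaurentSeries A := eulerR (jqModC A) * b₀ ^ 2 with ha
  set b : LaurentSeries A := eulerR u * b₀ - u * eulerR b₀ with hb
  have hbred : coeffMap (residue A) b =
      Genus.eulerOp (tb : LaurentSeries (ResidueField A)) * coeffMap (residue A) b₀ ^ 2 := by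
    rw [hb, map_sub, map_mul, map_mul, coeffMap_eulerR, coeffMap_eulerR, ← hredt, Genus.eulerOp_mul]
    ring
  have hared : coeffMap (residue A) a =
      Genus.eulerOp (jqModC (ResidueField A)) * coeffMap (residue A) b₀ ^ 2 := by
    rw [ha, map_mul, map_pow, coeffMap_eulerR, coeffMap_jqModC]
  have hbQ : coeffMap A.subtype b = Genus.eulerOp ((t : modularFunctionFieldBar N) :
      LaurentSeries ℚbar) * coeffMap A.subtype b₀ ^ 2 := by
    rw [hb, map_sub, map_mul, map_mul, coeffMap_eulerR, coeffMap_eulerR, ← hub, Genus.eulerOp_mul]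
    ring
  have hbne : coeffMap (residue A) b ≠ 0 := by
    rw [hbred]; exact mul_ne_zero hθtb (pow_ne_zero _ hb₀)
  have haze : coeffMap (residue A) a ≠ 0 := by
    rw [hared]; exact mul_ne_zero (eulerOp_jqModC_ne_zero _) (pow_ne_zero _ hb₀)
  have hθt : Genus.eulerOp ((t : modularFunctionFieldBar N) : LaurentSeries ℚbar) ≠ 0 := by
    intro h0
    rw [h0, zero_mul] at hbQ
    refine hbne ?_
    have : b = 0 := by
      ext n
      have := congrArg (fun s => HahnSeries.coeff s n) hbQ
      simp only [coeffMap_coeff, HahnSeries.coeff_zero] at this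
      rw [HahnSeries.coeff_zero]
      exact this
    rw [this, map_zero]
  have hDt := D_ne_zero_of_eulerOp_ne_zero _ hθt
  obtain ⟨h, hh⟩ := exists_smul_eq_of_finrank_eq_one IsCurveOver.finrank_kaehler hDt
    (KaehlerDifferential.D ℚbar (modularFunctionFieldBar N) (jFun N))
  have hθ : (h : LaurentSeries ℚbar) *
      Genus.eulerOp ((t : modularFunctionFieldBar N) : LaurentSeries ℚbar) =
      Genus.eulerOp (jqModC ℚbar) := by
    rw [← diffQ_smul_D, hh, diffQ_D]
    rfl
  obtain ⟨hhV, hφh⟩ := exists_mem_V_of_mul_eq hqN hA h a b haze hbne (by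
    rw [hbQ, ← mul_assoc, hθ, ha, map_mul, map_pow, coeffMap_eulerR, coeffMap_jqModC])
  rw [hbred, hared, ← mul_assoc] at hφh
  have hφh' := mul_right_cancel₀ (pow_ne_zero 2 hb₀) hφh
  obtain ⟨hb', hhb'⟩ := v.exists_eq_smul_dCoord
    (KaehlerDifferential.D (ResidueField A) _ (jSp N A))
  have hbeq : hb' = G.φ ⟨h, hhV⟩ := by
    have h1 := congrArg (diffQ _) hhb'
    rw [hπd, diffQ_smul_D, diffQ_D] at h1
    refine Subtype.ext (mul_right_cancel₀ hθtb ?_)
    rw [← h1]
    exact hφh'.symm
  have hφh0 : G.φ ⟨h, hhV⟩ ≠ 0 := fun h0 => by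
    rw [h0] at hφh'
    simp only [ZeroMemClass.coe_zero, zero_mul] at hφh'
    exact eulerOp_jqModC_ne_zero _ hφh'.symm
  haveI : Nontrivial Ω[modularFunctionFieldFullC (ResidueField A) N⁄ResidueField A] :=
    ⟨⟨_, 0, hDtb⟩⟩
  have hordv : v.ordDifferential (KaehlerDifferential.D (ResidueField A) _ (jSp N A)) =
      v.ord (G.φ ⟨h, hhV⟩) := by
    rw [Place.ordDifferential, v.differentialCoeff_unique hhb', hbeq]
  have hh0 : (h : modularFunctionFieldBar N) ≠ 0 := G.coe_ne_zero_of_φ_ne_zero hφh0
  obtain ⟨E, hE, -⟩ := HasPrincipalDivisors.exists_divisor (K := ℚbar) h hh0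
  have hR : ∀ P, G.placeMap P = v → 0 ≤ (D - E) P := by
    intro P hP
    rw [Finsupp.sub_apply, hD, hE, ← hh, Genus.ordDifferential_smul_ne_zero P hh0 hDt]
    have htP : 0 ≤ P.ord (t : modularFunctionFieldBar N) := by
      rcases eq_or_ne (t : modularFunctionFieldBar N) 0 with h0 | h0
      · rw [h0, P.ord_zero]
      · have := (Curve.RedAux.mem_L_iff h0).mp htL P
        rw [hL₀P P hP] at this
        simpa using this
    have hnc : ∀ c, (t : modularFunctionFieldBar N) ≠ algebraMap ℚbar _ c := fun c hc =>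
      hDt (by rw [hc, Derivation.map_algebraMap])
    obtain ⟨c, hc⟩ := Genus.exists_ord_sub_pos P htP hnc
    rw [(Genus.ordDifferential_D P (c := c) hc.ne').2]
    omega
  have hge : 0 ≤ G.divMap (D - E) v := by
    rw [Curve.GoodReduction.divMap_apply, Finsupp.mapDomain, Finsupp.sum_apply]
    refine Finset.sum_nonneg fun P _ => ?_
    simp only [Finsupp.single_apply]
    split_ifs with hP
    · exact hR P hP
    · exact le_rfl
  rw [map_sub, Finsupp.sub_apply, G.divMap_apply_eq_ord ⟨h, hhV⟩ hφh0 hE] at hge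
  omega

end Reduce

end Fermat.Agent.MazurPrinciple

end
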