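/-
Mazur's principle: a regular differential on `X₀(N)` modulo `q ∤ N` is a combination of integral
cusp forms modulo `q`.
-/
import Fermat.Agent.MazurPrinciple.FormsAnalytic
import Fermat.Agent.MazurPrinciple.FormsModPReduce
import Fermat.Agent.Igusa.JacobianGood
import Fermat.Agent.Integral.Main
import Mathlib.LinearAlgebra.FreeModule.PID
import Mathlib.LinearAlgebra.Dual.Lemmas

set_option autoImplicit false
set_option synthInstance.maxHeartbeats 200000
set_option linter.style.haveILetI false

noncomputable section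

namespace Fermat.Agent.MazurPrinciple

open CongruenceSubgroup ModularCurve IsLocalRing AlgebraicCurve

local notation "ℚbar" => AlgebraicClosure ℚ

variable {N : ℕ} [NeZero N]

/-- `j` in the function field of the reduction of `X₀(N)`. -/
def jRes (N : ℕ) (A : ValuationSubring ℚbar) : modularFunctionFieldFullC (ResidueField A) N :=
  ⟨jqModC (ResidueField A), jqModC_mem_full (ResidueField A) N⟩

/-- The `q`-expansion of the differential `φ dj` on the reduction. -/
def diffSeriesRes {A : ValuationSubring ℚbar}
    (φ : modularFunctionFieldFullC (ResidueField A) N) : LaurentSeries (ResidueField A) :=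
  (φ : LaurentSeries (ResidueField A)) * Genus.eulerOp (jqModC (ResidueField A))

/-- An element of the lattice has integral coefficients. -/
theorem exists_int_qCoeff_of_mem {f : CuspForm (Gamma0 N) 2} (hf : f ∈ CuspForm.intLattice N 2)
    (n : ℕ) : ∃ z : ℤ, ModularFormClass.qCoeff f n = (z : ℂ) := by
  induction hf using Submodule.span_induction with
  | mem f hf => exact hf n
  | zero => exact ⟨0, by rw [← Integral.coeff_qLin, map_zero, map_zero, Int.cast_zero]⟩
  | add f g _ _ hf hg =>
    obtain ⟨a, ha⟩ := hf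
    obtain ⟨b, hb⟩ := hg
    rw [← Integral.coeff_qLin] at ha hb
    exact ⟨a + b, by rw [← Integral.coeff_qLin, map_add, map_add, ha, hb]; push_cast; rfl⟩
  | smul c f _ hf =>
    obtain ⟨a, ha⟩ := hf
    rw [← Integral.coeff_qLin] at ha
    exact ⟨c * a, by
      rw [← Integral.coeff_qLin, map_zsmul, map_zsmul, ha, zsmul_eq_mul]; push_cast; rfl⟩

set_option maxHeartbeats 1600000 in
/-- Regular differentials modulo `q` come from integral cusp forms. -/
theorem exists_comb_of_isRegularDiff {q : ℕ} [Fact q.Prime] (hqN : ¬ q ∣ N)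
    (A : ValuationSubring ℚbar) (hA : A.LiesOverPrime q)
    (φ : modularFunctionFieldFullC (ResidueField A) N)
    (h : IsRegularDiff (ResidueField A) φ (jRes N A)) :
    (∀ n : ℤ, n ≤ 0 → (diffSeriesRes φ).coeff n = 0) ∧
      ∃ (m : ℕ) (c : Fin m → ResidueField A) (g : Fin m → CuspForm (Gamma0 N) 2),
        (∀ i, g i ∈ CuspForm.intLattice N 2) ∧
        ∀ (n : ℕ) (z : Fin m → ℤ), (∀ i, ModularFormClass.qCoeff (g i) n = z i) →
          (diffSeriesRes φ).coeff n = ∑ i, c i * (z i : ResidueField A) := by
  classical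
  haveI := Igusa.isAlgClosed_residueField hqN hA
  set G := Igusa.x0GoodReduction hqN hA with hG
  -- a basis of the lattice
  haveI : Module.Finite ℤ (CuspForm.intLattice N 2) :=
    Module.Finite.iff_fg.mpr (CuspForm.intLattice_fg N 2)
  haveI : IsAddTorsionFree (CuspForm (Gamma0 N) 2) := .of_isTorsionFree ℂ _
  haveI : Module.Free ℤ (CuspForm.intLattice N 2) := Module.free_of_finite_type_torsion_free'
  set m := Module.finrank ℤ (CuspForm.intLattice N 2) with hm
  let bas : Module.Basis (Fin m) ℤ (CuspForm.intLattice N 2) := Module.finBasis ℤ _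
  set g : Fin m → CuspForm (Gamma0 N) 2 := fun i => (bas i : CuspForm (Gamma0 N) 2) with hg
  choose z hz using fun i n => exists_int_qCoeff_of_mem (bas i).2 n
  have hz' : ∀ i n, ModularFormClass.qCoeff (g i) n = (z i n : ℂ) := hz
  have hz0 : ∀ i, z i 0 = 0 := fun i => by
    have := (hz' i 0).symm.trans (Integral.qCoeff_zero_eq_zero (g i))
    exact_mod_cast this
  choose φi hreg hcoeff hneg using fun i => exists_isRegularDiff_of_cuspForm (g i) (z i) (hz' i)
  set ZS : Fin m → LaurentSeries ℤ := fun i => ((PowerSeries.mk (z i) : PowerSeries ℤ) : LaurentSeries ℤ)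
    with hZS
  have hZSc : ∀ i (n : ℕ), (ZS i).coeff (n : ℤ) = z i n := fun i n => by
    rw [hZS, PowerSeries.coeff_coe, if_neg (by omega), Int.natAbs_natCast, PowerSeries.coeff_mk]
  have hZSn : ∀ i (n : ℤ), n < 0 → (ZS i).coeff n = 0 := fun i n hn => by
    rw [hZS, PowerSeries.coeff_coe, if_pos hn]
  set Z : Fin m → LaurentSeries A := fun i => coeffMap (Int.castRingHom A) (ZS i) with hZ
  have hZk : ∀ i (n : ℤ), (coeffMap (residue A) (Z i)).coeff n = ((ZS i).coeff n : ResidueField A) :=
    fun i n => by rw [hZ, coeffMap_coeff, coeffMap_coeff, eq_intCast, map_intCast]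
  have hZQ : ∀ i, (φi i : LaurentSeries ℚbar) * coeffMap A.subtype (eulerR (jqModC A)) =
      coeffMap A.subtype (Z i) := by
    intro i
    rw [coeffMap_eulerR, coeffMap_jqModC]
    ext n
    rw [hZ, coeffMap_coeff, coeffMap_coeff, eq_intCast, map_intCast]
    rcases lt_or_ge n 0 with hn | hn
    · rw [hZSn i n hn, Int.cast_zero]
      exact hneg i n hn
    · obtain ⟨n', rfl⟩ := Int.eq_ofNat_of_zero_le hn
      rw [hZSc]
      exact hcoeff i n'
  -- the reductions are independent
  haveI : CharP (ResidueField A) q := (CharP.charP_iff_prime_eq_zero (Fact.out : q.Prime)).mpr (by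
    have h1 : residue A (q : A) = 0 := by
      rw [IsLocalRing.residue_eq_zero_iff, ← ValuationSubring.coe_mem_nonunits_iff]
      exact hA
    rwa [map_natCast] at h1)
  letI : Algebra (ZMod q) (ResidueField A) := ZMod.algebra (ResidueField A) q
  have hindep : ∀ c : Fin m → ResidueField A,
      (∀ n : ℕ, ∑ i, c i * (z i n : ResidueField A) = 0) → c = 0 := by
    intro c hc
    funext i₀
    by_contra hne
    obtain ⟨ψ, hψ⟩ : ∃ ψ : Module.Dual (ZMod q) (ResidueField A), ψ (c i₀) ≠ 0 := by
      by_contra hall
      push Not at hall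
      exact hne ((Module.forall_dual_apply_eq_zero_iff (ZMod q) (c i₀)).mp hall)
    set a : Fin m → ℤ := fun i => ((ψ (c i)).val : ℤ) with ha
    have haz : ∀ i, (a i : ZMod q) = ψ (c i) := fun i => by
      rw [ha, Int.cast_natCast, ZMod.natCast_zmod_val]
    have hdvd : ∀ n : ℕ, (q : ℤ) ∣ ∑ i, a i * z i n := fun n => by
      rw [← ZMod.intCast_zmod_eq_zero_iff_dvd, Int.cast_sum, ← map_zero ψ, ← hc n, map_sum]
      refine Finset.sum_congr rfl fun i _ => ?_
      rw [Int.cast_mul, haz, show c i * (z i n : ResidueField A) = (z i n : ZMod q) • c i by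
        rw [Algebra.smul_def, map_intCast, mul_comm], map_smul, smul_eq_mul, mul_comm]
    have hq0 : (q : ℂ) ≠ 0 := Nat.cast_ne_zero.mpr (Fact.out : q.Prime).ne_zero
    set h' : CuspForm (Gamma0 N) 2 := (q : ℂ)⁻¹ • ∑ i, a i • g i with hh'
    have hh'mem : h' ∈ CuspForm.intLattice N 2 := by
      refine Integral.mem_intLattice_of_forall fun n => ?_
      obtain ⟨e, he⟩ := hdvd n
      refine ⟨e, ?_⟩
      rw [← Integral.coeff_qLin, hh', map_smul, PowerSeries.coeff_smul, map_sum, map_sum,
        Finset.sum_congr rfl (g := fun i => ((a i * z i n : ℤ) : ℂ)) (fun i _ => by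
          rw [map_zsmul, map_zsmul, Integral.coeff_qLin, hz', zsmul_eq_mul, Int.cast_mul]),
        ← Int.cast_sum, he, smul_eq_mul, Int.cast_mul, Int.cast_natCast, ← mul_assoc,
        inv_mul_cancel₀ hq0, one_mul]
    have hsum : (q : ℤ) • (⟨h', hh'mem⟩ : CuspForm.intLattice N 2) = ∑ i, a i • bas i := by
      apply Subtype.ext
      rw [SetLike.val_smul, AddSubmonoidClass.coe_finsetSum]
      show (q : ℤ) • h' = ∑ i, a i • g i
      rw [hh', ← Int.cast_smul_eq_zsmul ℂ, Int.cast_natCast, smul_inv_smul₀ hq0]
    have h1 := congrArg (fun x => bas.repr x i₀) hsum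
    simp only [map_zsmul, map_sum, Module.Basis.repr_self, Finsupp.smul_apply,
      Finsupp.finsetSum_apply, Finsupp.single_apply, smul_eq_mul, mul_ite, mul_one, mul_zero,
      Finset.sum_ite_eq', Finset.mem_univ, if_true] at h1
    apply hψ
    rw [← haz, ← h1, Int.cast_mul, Int.cast_natCast, ZMod.natCast_self, zero_mul]
  have hZne : ∀ i, coeffMap (residue A) (Z i) ≠ 0 := by
    intro i h0
    have h1 := hindep (Pi.single i 1) fun n => by
      rw [Finset.sum_eq_single i (fun j _ hj => by rw [Pi.single_eq_of_ne hj, zero_mul])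
        (fun h => absurd (Finset.mem_univ i) h), Pi.single_eq_same, one_mul]
      have := hZk i n
      rw [h0, hZSc, HahnSeries.coeff_zero] at this
      exact this.symm
    simpa using congrFun h1 i
  have hJne : coeffMap (residue A) (eulerR (jqModC A)) ≠ 0 := by
    rw [coeffMap_eulerR, coeffMap_jqModC]
    exact eulerOp_jqModC_ne_zero _
  choose hV hφV using fun i =>
    exists_mem_V_of_mul_eq hqN hA (φi i) (Z i) (eulerR (jqModC A)) (hZne i) hJne (hZQ i)
  set ψ : Fin m → modularFunctionFieldFullC (ResidueField A) N := fun i => G.φ ⟨φi i, hV i⟩ with hψ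
  have hser : ∀ i, diffSeriesRes (ψ i) = coeffMap (residue A) (Z i) := fun i => by
    rw [← hφV i, coeffMap_eulerR, coeffMap_jqModC]
    rfl
  have hdiff : ∀ c : Fin m → ResidueField A, ∀ n : ℤ,
      (diffSeriesRes (∑ i, c i • ψ i)).coeff n = ∑ i, c i * ((ZS i).coeff n : ResidueField A) := by
    intro c n
    have h1 : ((∑ i, c i • ψ i : modularFunctionFieldFullC (ResidueField A) N) :
        LaurentSeries (ResidueField A)) =
        ∑ i, HahnSeries.single 0 (c i) * (ψ i : LaurentSeries (ResidueField A)) := by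
      rw [AddSubmonoidClass.coe_finsetSum]
      refine Finset.sum_congr rfl fun i _ => ?_
      rw [Algebra.smul_def, IntermediateField.coe_mul, IntermediateField.coe_algebraMap_apply,
        algebraMap_laurentSeries_eq_single]
    rw [diffSeriesRes, h1, Finset.sum_mul, HahnSeries.coeff_sum]
    refine Finset.sum_congr rfl fun i _ => ?_
    rw [mul_assoc, ← diffSeriesRes, hser, HahnSeries.coeff_single_zero_mul, hZk]
  have hli : LinearIndependent (ResidueField A) ψ := by
    rw [Fintype.linearIndependent_iff]
    intro c hc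
    refine congrFun (hindep c fun n => ?_)
    have := hdiff c (n : ℤ)
    rw [hc] at this
    simp only [hZSc] at this
    rw [← this, diffSeriesRes]
    simp
  -- the space of regular differentials
  obtain ⟨D, hD, hdegD⟩ := exists_divisor_D_j N
  have hD' : ∀ P, D P = P.ordDifferential (KaehlerDifferential.D ℚbar _ (jFun N)) := hD
  have hψmem : ∀ i, ψ i ∈ riemannRochSpace (G.divMap D) := fun i => by
    refine G.φ_mem_riemannRochSpace _ ?_
    rcases eq_or_ne (φi i) 0 with h0 | h0
    · show φi i ∈ riemannRochSpace D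
      rw [h0]; exact zero_mem _
    refine (Curve.RedAux.mem_L_iff h0).mpr fun P => ?_
    have hDj : KaehlerDifferential.D ℚbar _ (jFun N) ≠ 0 :=
      D_ne_zero_of_eulerOp_ne_zero _ (eulerOp_jqModC_ne_zero _)
    rcases hreg i with h | h
    · exact absurd (smul_eq_zero.mp h) (by simp [h0, hDj])
    · have := h P
      rw [Genus.ordDifferential_smul_ne_zero P h0 hDj, ← hD'] at this
      omega
  have hgen : genusFF (ResidueField A) (modularFunctionFieldFullC (ResidueField A) N) =
      Module.finrank ℂ (CuspForm (Gamma0 N) 2) := by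
    rw [G.genus_eq]; exact genusFF_bar_eq_finrank_cuspForm N
  have hell : (Curve.ellDim (G.divMap D) : ℤ) ≤
      genusFF (ResidueField A) (modularFunctionFieldFullC (ResidueField A) N) :=
    ellDim_le_genusFF (by rw [G.degree_divMap, hdegD, hgen])
  have hdim : Module.finrank ℂ (CuspForm (Gamma0 N) 2) ≤ m := by
    have htop : Submodule.span ℂ (Set.range g) = ⊤ := by
      refine top_unique ((Integral.hasIntegralStructure N 2).ge.trans (Submodule.span_le.mpr ?_))
      intro x hx
      rw [show x = ((∑ i, bas.repr ⟨x, hx⟩ i • bas i : CuspForm.intLattice N 2) :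
        CuspForm (Gamma0 N) 2) by rw [bas.sum_repr], AddSubmonoidClass.coe_finsetSum]
      refine Submodule.sum_mem _ fun i _ => ?_
      rw [SetLike.val_smul, ← Int.cast_smul_eq_zsmul ℂ]
      exact Submodule.smul_mem _ _ (Submodule.subset_span ⟨i, rfl⟩)
    rw [← finrank_top ℂ (CuspForm (Gamma0 N) 2), ← htop]
    exact (finrank_range_le_card _).trans_eq (Fintype.card_fin m)
  have hspan : Submodule.span (ResidueField A) (Set.range ψ) = riemannRochSpace (G.divMap D) := by
    haveI := Curve.RedAux.finite_L (G.divMap D)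
    refine Submodule.eq_of_le_of_finrank_le (Submodule.span_le.mpr ?_) ?_
    · rintro _ ⟨i, rfl⟩; exact hψmem i
    · rw [finrank_span_eq_card hli, Fintype.card_fin]
      have : Module.finrank (ResidueField A) (riemannRochSpace (G.divMap D)) =
          Curve.ellDim (G.divMap D) := rfl
      omega
  have hφmem : φ ∈ riemannRochSpace (G.divMap D) := by
    rcases eq_or_ne φ 0 with h0 | h0
    · rw [h0]; exact zero_mem _
    refine (Curve.RedAux.mem_L_iff h0).mpr fun v => ?_
    have hDj : KaehlerDifferential.D (ResidueField A) _ (jRes N A) ≠ 0 :=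
      D_ne_zero_of_eulerOp_ne_zero _ (eulerOp_jqModC_ne_zero _)
    rcases h with h | h
    · exact absurd (smul_eq_zero.mp h) (by simp [h0, hDj])
    · have h1 := h v
      rw [Genus.ordDifferential_smul_ne_zero v h0 hDj] at h1
      have h2 : v.ordDifferential (KaehlerDifferential.D (ResidueField A) _ (jRes N A)) ≤
          G.divMap D v := ordDifferential_D_jSp_le hqN hA hD' v
      omega
  rw [← hspan, Submodule.mem_span_range_iff_exists_fun] at hφmem
  obtain ⟨c, rfl⟩ := hφmem
  refine ⟨fun n hn => ?_, m, c, g, fun i => (bas i).2, fun n w hw => ?_⟩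
  · rw [hdiff]
    refine Finset.sum_eq_zero fun i _ => ?_
    rcases hn.lt_or_eq with hn | rfl
    · rw [hZSn i n hn, Int.cast_zero, mul_zero]
    · rw [show ((0 : ℤ)) = ((0 : ℕ) : ℤ) from rfl, hZSc, hz0, Int.cast_zero, mul_zero]
  · rw [hdiff]
    refine Finset.sum_congr rfl fun i _ => ?_
    have : z i n = w i := by exact_mod_cast (hz' i n).symm.trans (hw i)
    rw [hZSc, this]

end Fermat.Agent.MazurPrinciple

end
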