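/-
Mazur's principle: differentials of functions on the reduction of `X₀(N)` modulo `q ∤ N`.
-/
import Fermat.Agent.MazurPrinciple.FormsModP
import Fermat.Agent.MazurPrinciple.DiffResidueAux

set_option autoImplicit false
set_option linter.style.haveILetI false
set_option synthInstance.maxHeartbeats 200000

noncomputable section

namespace Fermat.Agent.MazurPrinciple

open ModularCurve IsLocalRing AlgebraicCurve IntermediateField

local notation "ℚbar" => AlgebraicClosure ℚ

namespace DiffResidue

variable {N q : ℕ} [NeZero N] (A : ValuationSubring ℚbar)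

local notation "kA" => ResidueField A
local notation "FA" => modularFunctionFieldFullC (ResidueField A) N
local notation "dA" => KaehlerDifferential.D (ResidueField A)
  (modularFunctionFieldFullC (ResidueField A) N)

theorem charP_residue [Fact q.Prime] (hA : A.LiesOverPrime q) : CharP kA q := by
  refine (CharP.charP_iff_prime_eq_zero Fact.out).2 ?_
  rw [← map_natCast (IsLocalRing.residue A) q, IsLocalRing.residue_eq_zero_iff,
    ← A.coe_mem_nonunits_iff]
  exact hA

theorem eulerOp_algebraMap (a : kA) :
    Genus.eulerOp (algebraMap kA (LaurentSeries kA) a) = 0 := by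
  rw [algebraMap_laurentSeries_eq_single, Genus.eulerOp_single, Int.cast_zero, zero_mul,
    HahnSeries.single_eq_zero]

/-- `θ` as a derivation of the function field. -/
def thetaDer : Derivation kA FA (LaurentSeries kA) :=
  Derivation.mk'
    { toFun := fun f => Genus.eulerOp (f : LaurentSeries kA)
      map_add' := fun a b => by
        rw [IntermediateField.coe_add, Genus.eulerOp_add]
      map_smul' := fun a f => by
        rw [RingHom.id_apply, Algebra.smul_def, IntermediateField.coe_mul,
          IntermediateField.coe_algebraMap_apply, Genus.eulerOp_mul, eulerOp_algebraMap,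
          zero_mul, zero_add, algebraMap_laurentSeries_eq_single, ← HahnSeries.C_apply,
          HahnSeries.C_mul_eq_smul] }
    fun a b => by
      show Genus.eulerOp ((a * b : FA) : LaurentSeries kA) =
        (a : LaurentSeries kA) * Genus.eulerOp (b : LaurentSeries kA) +
          (b : LaurentSeries kA) * Genus.eulerOp (a : LaurentSeries kA)
      rw [IntermediateField.coe_mul, Genus.eulerOp_mul]
      ring

local instance isScalarTower_laurent : IsScalarTower kA FA (LaurentSeries kA) :=
  ⟨fun a b c => by
    show (((a • b : FA) : LaurentSeries kA)) * c = a • ((b : LaurentSeries kA) * c)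
    rw [Algebra.smul_def a b, IntermediateField.coe_mul, IntermediateField.coe_algebraMap_apply,
      algebraMap_laurentSeries_eq_single, mul_assoc, ← HahnSeries.C_apply,
      HahnSeries.C_mul_eq_smul]⟩

theorem lift_theta_smul (φ f : FA) :
    (thetaDer (N := N) A).liftKaehlerDifferential (φ • dA f) =
      (φ : LaurentSeries kA) * Genus.eulerOp (f : LaurentSeries kA) := by
  rw [map_smul, Derivation.liftKaehlerDifferential_comp_D]
  rfl

theorem eulerOp_jqModC_ne_zero : Genus.eulerOp (jqModC kA) ≠ 0 := fun h => by
  have h1 := congrArg (fun z : LaurentSeries kA => z.coeff (-1 : ℤ)) h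
  have hj : (jqModC kA).coeff (-1 : ℤ) = 1 := by
    simpa using coeff_jqModC_pow_self kA 1
  simp [hj] at h1

theorem D_jRes_ne_zero : dA (jRes N A) ≠ 0 := fun h => by
  refine eulerOp_jqModC_ne_zero A ?_
  have h1 := lift_theta_smul (N := N) A 1 (jRes N A)
  rw [h, smul_zero, map_zero, IntermediateField.coe_one, one_mul] at h1
  exact h1.symm

theorem exists_smul_D_jRes [IsAlgClosed kA] (ω : Ω[FA⁄kA]) :
    ∃ φ : FA, φ • dA (jRes N A) = ω :=
  exists_smul_eq_of_finrank_eq_one IsCurveOver.finrank_kaehler (D_jRes_ne_zero A) ω

theorem isSeparable_jRes : Algebra.IsSeparable (ResidueField A)⟮jRes N A⟯ FA := by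
  refine Igusa.isSeparable_adjoin _ (divisorExpansionsC kA N) rfl (jRes N A) fun y hy => ?_
  obtain ⟨d, hne, -, hy⟩ := hy
  haveI := hne
  exact Igusa.isSeparable_jqNModC (jRes N A) y rfl hy

end DiffResidue

attribute [local instance] DiffResidue.isScalarTower_laurent

variable {N q : ℕ} [NeZero N] [Fact q.Prime] (hqN : ¬ q ∣ N) (A : ValuationSubring ℚbar)
  (hA : A.LiesOverPrime q)

include hqN hA

/-- If `f` has no poles modulo `q`-th powers, `df` is a regular differential. -/
theorem exists_diff_of_regular_mod_pow (f : modularFunctionFieldFullC (ResidueField A) N)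
    (h : ∀ v : Place (ResidueField A) (modularFunctionFieldFullC (ResidueField A) N),
      ∃ G, f - G ^ q = 0 ∨ 0 ≤ v.ord (f - G ^ q)) :
    ∃ φ, IsRegularDiff (ResidueField A) φ (jRes N A) ∧
      diffSeriesRes φ = Genus.eulerOp (f : LaurentSeries (ResidueField A)) := by
  haveI := (Igusa.x0GoodReduction hqN hA).isAlgClosed_residue
  haveI := DiffResidue.charP_residue A hA
  obtain ⟨φ, hφ⟩ := DiffResidue.exists_smul_D_jRes A
    (KaehlerDifferential.D (ResidueField A) (modularFunctionFieldFullC (ResidueField A) N) f)
  refine ⟨φ, isRegularDiff_of_regular_mod_pow q hφ h, ?_⟩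
  have h1 := congrArg (DiffResidue.thetaDer (N := N) A).liftKaehlerDifferential hφ
  rw [DiffResidue.lift_theta_smul, Derivation.liftKaehlerDifferential_comp_D] at h1
  exact h1

/-- If `q` divides every order of `f`, `df / f` is a regular differential. -/
theorem exists_logDiff_of_dvd_ord (f : modularFunctionFieldFullC (ResidueField A) N) (hf : f ≠ 0)
    (h : ∀ v : Place (ResidueField A) (modularFunctionFieldFullC (ResidueField A) N),
      (q : ℤ) ∣ v.ord f) :
    ∃ φ, IsRegularDiff (ResidueField A) φ (jRes N A) ∧
      diffSeriesRes φ = Genus.eulerOp (f : LaurentSeries (ResidueField A)) /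
        (f : LaurentSeries (ResidueField A)) := by
  haveI := (Igusa.x0GoodReduction hqN hA).isAlgClosed_residue
  haveI := DiffResidue.charP_residue A hA
  obtain ⟨φ, hφ⟩ := DiffResidue.exists_smul_D_jRes A
    (f⁻¹ • KaehlerDifferential.D (ResidueField A)
      (modularFunctionFieldFullC (ResidueField A) N) f)
  refine ⟨φ, isRegularDiff_of_dvd_ord q hf hφ h, ?_⟩
  have h1 := congrArg (DiffResidue.thetaDer (N := N) A).liftKaehlerDifferential hφ
  rw [DiffResidue.lift_theta_smul, DiffResidue.lift_theta_smul, IntermediateField.coe_inv,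
    inv_mul_eq_div] at h1
  exact h1

/-- A function with zero `θ` is a `q`-th power. -/
theorem exists_eq_pow_of_eulerOp_eq_zero (f : modularFunctionFieldFullC (ResidueField A) N)
    (h : Genus.eulerOp (f : LaurentSeries (ResidueField A)) = 0) :
    ∃ G, f = G ^ q := by
  haveI := (Igusa.x0GoodReduction hqN hA).isAlgClosed_residue
  haveI := DiffResidue.charP_residue A hA
  haveI := DiffResidue.isSeparable_jRes (N := N) A
  refine exists_eq_pow_of_D_eq_zero q (DiffResidue.D_jRes_ne_zero A) ?_
  obtain ⟨φ, hφ⟩ := DiffResidue.exists_smul_D_jRes A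
    (KaehlerDifferential.D (ResidueField A) (modularFunctionFieldFullC (ResidueField A) N) f)
  have h1 := congrArg (DiffResidue.thetaDer (N := N) A).liftKaehlerDifferential hφ
  rw [DiffResidue.lift_theta_smul, Derivation.liftKaehlerDifferential_comp_D] at h1
  rw [← hφ]
  have h2 : (φ : LaurentSeries (ResidueField A)) = 0 :=
    (mul_eq_zero.1 (h1.trans h)).resolve_right (DiffResidue.eulerOp_jqModC_ne_zero A)
  rw [show φ = 0 from Subtype.ext h2, zero_smul]

end Fermat.Agent.MazurPrinciple

end
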