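/-
Mazur's principle: a mod `p` eigen `q`-series in the span of integral cusp forms of level `N`
gives residual modularity of level `N`.

Only the eigenvalues at good primes are used; the character of the algebra they generate is
extended to the full Hecke algebra by going up and then lifted to characteristic zero.
-/
import Fermat.Agent.Eigen.EigenHom
import Fermat.Agent.Eigen.Lifting
import Fermat.Agent.Integral.Main
import Mathlib.Algebra.CharP.Lemmas
import Mathlib.RingTheory.Ideal.GoingUp

set_option autoImplicit false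
set_option linter.style.haveILetI false

noncomputable section

open CongruenceSubgroup ModularFormClass

namespace Fermat.Agent.MazurPrinciple

open Fermat.Agent.Eigen

variable {N : ℕ} [NeZero N] {ι : Type*} [Fintype ι] {k : Type*} [Field k]

/-- The combination `∑ c i * h i`, read modulo the characteristic, is zero. -/
def CombZero (c : ι → k) (h : ι → S2 N) : Prop :=
  ∀ (n : ℕ) (z : ι → ℤ), (∀ i, qCoeff (h i) n = z i) → ∑ i, c i * (z i : k) = 0

/-- A mod `p` eigen `q`-series in the span of integral forms of level `N` lifts to an eigenform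
of level `N` with congruent eigenvalues at the primes where it was an eigen series. -/
theorem exists_eigenform_of_comb {p : ℕ} [Fact p.Prime] [CharP k p] (S : Set ℕ) (a : ℕ → ℤ)
    (c : ι → k) (g : ι → S2 N) (hg : ∀ i, g i ∈ CuspForm.intLattice N 2)
    (hne : ∃ (n : ℕ) (z : ι → ℤ), (∀ i, qCoeff (g i) n = z i) ∧ ∑ i, c i * (z i : k) ≠ 0)
    (heig : ∀ ℓ : ℕ, ℓ.Prime → ¬ ℓ ∣ N → ℓ ∉ S → ∀ (n : ℕ) (u v w : ι → ℤ),
      (∀ i, qCoeff (g i) (n * ℓ) = u i) → (∀ i, qCoeff (g i) (n / ℓ) = v i) →
      (∀ i, qCoeff (g i) n = w i) →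
      ∑ i, c i * (u i : k) + (if ℓ ∣ n then (ℓ : k) * ∑ i, c i * (v i : k) else 0)
        = (a ℓ : k) * ∑ i, c i * (w i : k)) :
    ∃ (f : CuspForm (Gamma0 N) 2) (_ : f.IsNormalizedEigenform)
      (𝔪 : Ideal (integralClosure ℤ ℂ)), 𝔪.IsMaximal ∧ (p : integralClosure ℤ ℂ) ∈ 𝔪 ∧
      ∀ ℓ : ℕ, ℓ.Prime → ¬ ℓ ∣ N → ℓ ∉ S → ∃ x : integralClosure ℤ ℂ, (x : ℂ) = qCoeff f ℓ ∧
          x - (a ℓ : integralClosure ℤ ℂ) ∈ 𝔪 := by
  classical
  let S' : Set ℕ := S ∪ {q | q ∣ N}
  have H := Integral.hasIntegralStructure N 2
  haveI := heckeAlgebra_moduleFinite H (∅ : Set ℕ)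
  let T := CuspForm.heckeAlgebra N 2 S'
  let Z : (ι → S2 N) → Prop := fun h =>
    (∀ i, h i ∈ CuspForm.intLattice N 2) ∧ CombZero c h
  -- stability of the tuples whose combination vanishes
  have hZ : ∀ (t : T) (h : ι → S2 N), Z h → Z (fun i => (t : Module.End ℂ (S2 N)) (h i)) := by
    rintro ⟨t, ht⟩ h ⟨hhL, hh⟩
    refine ⟨fun i => CuspForm.mem_intLattice_of_mem_heckeAlgebra one_le_two ht (hhL i), ?_⟩
    induction ht using Algebra.adjoin_induction generalizing h with
    | mem x hx =>
      rcases hx with ⟨ℓ, hℓ, hℓN, -, rfl⟩ | ⟨q, hqN, hq, hqS, rfl⟩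
      · intro n z hz
        choose u hu using fun i => intLattice_le_intCoeff (h i) (hhL i) (n * ℓ)
        choose v hv using fun i => intLattice_le_intCoeff (h i) (hhL i) (n / ℓ)
        have he : ∀ i, z i = u i + (if ℓ ∣ n then (ℓ : ℤ) * v i else 0) := fun i => by
          have h1 := hz i
          dsimp only at h1
          rw [qCoeff_heckeTLin_two, hu, hv] at h1
          split_ifs with hd
          · rw [if_pos hd] at h1
            exact_mod_cast h1.symm
          · rw [if_neg hd, add_zero] at h1
            rw [add_zero]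
            exact_mod_cast h1.symm
        have h1 := hh (n * ℓ) u hu
        have h2 := hh (n / ℓ) v hv
        simp only [he, Int.cast_add, mul_add, Finset.sum_add_distrib, h1, zero_add]
        split_ifs with hd
        · simp only [Int.cast_mul, Int.cast_natCast, mul_left_comm (c _) (ℓ : k)]
          rw [← Finset.mul_sum, h2, mul_zero]
        · simp
      · exact absurd (Or.inr hqN) hqS
    | algebraMap r =>
      intro n z hz
      choose u hu using fun i => intLattice_le_intCoeff (h i) (hhL i) n
      have he : ∀ i, z i = r * u i := fun i => by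
        have h1 := hz i
        dsimp only at h1
        rw [Module.algebraMap_end_apply, qCoeff_zsmul, hu] at h1
        exact_mod_cast h1.symm
      simp only [he, Int.cast_mul, mul_left_comm (c _) (r : k)]
      rw [← Finset.mul_sum, hh n u hu, mul_zero]
    | add x y hx' hy' hx hy =>
      intro n z hz
      choose u hu using fun i => intLattice_le_intCoeff (x (h i))
        (CuspForm.mem_intLattice_of_mem_heckeAlgebra one_le_two hx' (hhL i)) n
      choose v hv using fun i => intLattice_le_intCoeff (y (h i))
        (CuspForm.mem_intLattice_of_mem_heckeAlgebra one_le_two hy' (hhL i)) n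
      have he : ∀ i, z i = u i + v i := fun i => by
        have h1 := hz i
        dsimp only at h1
        rw [LinearMap.add_apply, qCoeff_add, hu, hv] at h1
        exact_mod_cast h1.symm
      simp only [he, Int.cast_add, mul_add, Finset.sum_add_distrib, hx h hhL hh n u hu,
        hy h hhL hh n v hv, add_zero]
    | mul x y hx' hy' hx hy =>
      intro n z hz
      exact hx (fun i => y (h i))
        (fun i => CuspForm.mem_intLattice_of_mem_heckeAlgebra one_le_two hy' (hhL i))
        (hy h hhL hh) n z hz
  let J : Ideal T :=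
    { carrier := {t | Z (fun i => (t : Module.End ℂ (S2 N)) (g i))}
      add_mem' := fun {s t} hs ht => ⟨fun i => Submodule.add_mem _ (hs.1 i) (ht.1 i),
        fun n z hz => by
          choose u hu using fun i => intLattice_le_intCoeff _ (hs.1 i) n
          choose v hv using fun i => intLattice_le_intCoeff _ (ht.1 i) n
          have he : ∀ i, z i = u i + v i := fun i => by
            have h1 := hz i
            simp only [Subalgebra.coe_add, LinearMap.add_apply, qCoeff_add, hu, hv] at h1
            exact_mod_cast h1.symm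
          simp only [he, Int.cast_add, mul_add, Finset.sum_add_distrib, hs.2 n u hu,
            ht.2 n v hv, add_zero]⟩
      zero_mem' := ⟨fun i => by simp, fun n z hz => by
        have he : ∀ i, z i = 0 := fun i => by
          have h1 := hz i
          simp only [ZeroMemClass.coe_zero, LinearMap.zero_apply, qCoeff_form_zero] at h1
          exact_mod_cast h1.symm
        simp [he]⟩
      smul_mem' := fun s _ ht => hZ s _ ht }
  have hJ : J ≠ ⊤ := fun h => by
    obtain ⟨n, z, hz, hne⟩ := hne
    have h1 : (1 : T) ∈ J := h ▸ Submodule.mem_top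
    exact hne (h1.2 n z fun i => by simpa using hz i)
  obtain ⟨M, hM, hJM⟩ := Ideal.exists_le_maximal J hJ
  let incl : T →+* CuspForm.heckeAlgebra N 2 (∅ : Set ℕ) :=
    (Subalgebra.inclusion (CuspForm.heckeAlgebra_mono (Set.empty_subset S'))).toRingHom
  have hincl : Function.Injective incl := Subalgebra.inclusion_injective _
  letI : Algebra T (CuspForm.heckeAlgebra N 2 (∅ : Set ℕ)) := incl.toAlgebra
  haveI : IsScalarTower ℤ T (CuspForm.heckeAlgebra N 2 (∅ : Set ℕ)) :=
    IsScalarTower.of_algebraMap_eq' (RingHom.ext_int _ _)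
  haveI : Algebra.IsIntegral T (CuspForm.heckeAlgebra N 2 (∅ : Set ℕ)) :=
    Algebra.IsIntegral.tower_top (R := ℤ)
  obtain ⟨M', hM', hMM'⟩ := Ideal.exists_ideal_over_maximal_of_isIntegral
    (S := CuspForm.heckeAlgebra N 2 (∅ : Set ℕ)) M
    (((RingHom.injective_iff_ker_eq_bot incl).1 hincl).le.trans bot_le)
  obtain ⟨χ, 𝔪, h𝔪, hcomap⟩ := exists_char_lift_maximal M'
  obtain ⟨f, hf, hfχ⟩ := Eigen.exists_eigenform_of_ringHom H
    ((integralClosure ℤ ℂ).val.toRingHom.comp χ)
  have hmem : ∀ t : T, t ∈ J → χ (incl t) ∈ 𝔪 := fun t ht => by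
    have h1 : t ∈ M'.comap (algebraMap T _) := hMM'.symm ▸ hJM ht
    have h2 : incl t ∈ 𝔪.comap χ := hcomap.symm ▸ h1
    exact h2
  refine ⟨f, hf, 𝔪, h𝔪, ?_, fun ℓ hℓ hℓN hℓS => ?_⟩
  · have hpk : (p : k) = 0 := CharP.cast_eq_zero k p
    have h : ((p : ℤ) : T) ∈ J := by
      refine ⟨fun i => CuspForm.mem_intLattice_of_mem_heckeAlgebra one_le_two
        (((p : ℤ) : T)).2 (hg i), fun n z hz => ?_⟩
      choose u hu using fun i => intLattice_le_intCoeff _ (hg i) n
      have he : ∀ i, z i = (p : ℤ) * u i := fun i => by
        have h1 := hz i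
        dsimp only at h1
        rw [← eq_intCast (algebraMap ℤ T) (p : ℤ), Subalgebra.coe_algebraMap,
          Module.algebraMap_end_apply, qCoeff_zsmul, hu] at h1
        exact_mod_cast h1.symm
      simp [he, hpk]
    have h' := hmem _ h
    rwa [map_intCast, map_intCast, Int.cast_natCast] at h'
  · have hℓS' : ℓ ∉ S' := fun h => h.elim hℓS hℓN
    let t : T := CuspForm.heckeAlgebra.T hℓ hℓN hℓS'
    refine ⟨χ (incl t), ?_, ?_⟩
    · rw [← eigenChar_T hf hℓ hℓN (Set.notMem_empty ℓ), hfχ]
      rfl
    · have h : t - algebraMap ℤ T (a ℓ) ∈ J := by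
        have hev : ∀ i, ((t - algebraMap ℤ T (a ℓ) : T) : Module.End ℂ (S2 N)) (g i)
            = CuspForm.heckeTLin 2 hℓ hℓN (g i) - a ℓ • g i := fun i => by
          rw [Subalgebra.coe_sub, LinearMap.sub_apply, Subalgebra.coe_algebraMap,
            Module.algebraMap_end_apply]
          rfl
        refine ⟨fun i => CuspForm.mem_intLattice_of_mem_heckeAlgebra one_le_two
          (t - algebraMap ℤ T (a ℓ)).2 (hg i), fun n z hz => ?_⟩
        choose u hu using fun i => intLattice_le_intCoeff _ (hg i) (n * ℓ)
        choose v hv using fun i => intLattice_le_intCoeff _ (hg i) (n / ℓ)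
        choose w hw using fun i => intLattice_le_intCoeff _ (hg i) n
        have he : ∀ i, z i = u i + (if ℓ ∣ n then (ℓ : ℤ) * v i else 0) - a ℓ * w i :=
          fun i => by
            have h1 := hz i
            dsimp only at h1
            rw [hev, qCoeff_sub, qCoeff_zsmul, qCoeff_heckeTLin_two, hu, hv, hw] at h1
            split_ifs with hd
            · rw [if_pos hd] at h1
              exact_mod_cast h1.symm
            · rw [if_neg hd] at h1
              exact_mod_cast h1.symm
        have key := heig ℓ hℓ hℓN hℓS n u v w hu hv hw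
        rw [← sub_eq_zero] at key
        refine Eq.trans ?_ key
        simp only [Finset.mul_sum]
        split_ifs with hd
        · simp only [Finset.mul_sum, ← Finset.sum_add_distrib, ← Finset.sum_sub_distrib]
          refine Finset.sum_congr rfl fun i _ => ?_
          rw [he, if_pos hd]
          push_cast
          ring
        · simp only [add_zero, ← Finset.sum_sub_distrib]
          refine Finset.sum_congr rfl fun i _ => ?_
          rw [he, if_neg hd]
          push_cast
          ring
      have h' := hmem _ h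
      rwa [map_sub, map_sub, eq_intCast (algebraMap ℤ T), map_intCast, map_intCast] at h'

end Fermat.Agent.MazurPrinciple
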