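/-
Mazur's principle at `p`: `f ↦ heckeFun f` on the fixed functions, and the relation it gives for
the function of an eigen torsion class.
-/
import Fermat.Agent.MazurPrinciple.FixedField
import Fermat.Agent.HeckeJ.Norm
import Fermat.Agent.MP.SecondGlue
import Mathlib.RingTheory.RootsOfUnity.AlgebraicallyClosed

set_option autoImplicit false
set_option linter.style.haveILetI false
set_option synthInstance.maxHeartbeats 200000

noncomputable section

namespace Fermat.Agent.MazurPrinciple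

open ModularCurve AlgebraicCurve
open Fermat.Agent.BadReduction Fermat.Agent.HeckeJ

local notation "ℚbar" => AlgebraicClosure ℚ
local notation "Γℚ" => AlgebraicClosure ℚ ≃ₐ[ℚ] AlgebraicClosure ℚ

section Norm

variable {N l : ℕ} [NeZero N] [NeZero l]

theorem heckeFun_map_mul (f g : modularFunctionFieldBar N) :
    heckeFun ℚbar N l (f * g) = heckeFun ℚbar N l f * heckeFun ℚbar N l g := by
  letI := algebraAlong (heckeAlphaBar ℚbar N l)
  simp only [heckeFun, normA, map_mul]

theorem heckeFun_map_pow (f : modularFunctionFieldBar N) (n : ℕ) :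
    heckeFun ℚbar N l (f ^ n) = heckeFun ℚbar N l f ^ n := by
  letI := algebraAlong (heckeAlphaBar ℚbar N l)
  simp only [heckeFun, normA, map_pow]

theorem heckeFun_map_const (c : ℚbar) : ∃ e : ℕ,
    heckeFun ℚbar N l (algebraMap ℚbar (modularFunctionFieldBar N) c) =
      algebraMap ℚbar (modularFunctionFieldBar N) c ^ e := by
  letI := algebraAlong (heckeAlphaBar ℚbar N l)
  refine ⟨Module.finrank (modularFunctionFieldBar N) (modularFunctionFieldBar (N * l)), ?_⟩
  rw [heckeFun, normA, AlgHom.commutes, ← (heckeAlphaBar ℚbar N l).commutes c]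
  exact Algebra.norm_algebraMap (algebraMap ℚbar (modularFunctionFieldBar N) c)

theorem heckeFun_map_galois (σ : Γℚ) (f : modularFunctionFieldBar N) :
    heckeFun ℚbar N l (arithmeticGalois (modularFunctionFieldFull N) σ • f) =
      arithmeticGalois (modularFunctionFieldFull N) σ • heckeFun ℚbar N l f := by
  letI := algebraAlong (heckeAlphaBar ℚbar N l)
  rw [heckeFun, heckeFun, normA, normA, ← heckeBetaBar_galois_smul]
  have h := Algebra.norm_eq_of_equiv_equiv
    (arithmeticRingAut (L := ℚbar) (modularFunctionFieldFull N) σ)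
    (arithmeticRingAut (L := ℚbar) (modularFunctionFieldFull (N * l)) σ)
    (RingHom.ext fun x => (heckeAlphaBar_galois_smul ℚbar N l σ x).symm)
    (heckeBetaBar ℚbar N l f)
  show _ = arithmeticRingAut (modularFunctionFieldFull N) σ _
  rw [h, RingEquiv.apply_symm_apply]
  rfl

end Norm

variable {M q l : ℕ} [NeZero M] [hq : Fact q.Prime] [NeZero l] {H : Subgroup Γℚ}

local instance neZero_prime_heckeBasic : NeZero q := ⟨hq.out.ne_zero⟩

theorem heckeFun_mem_fixedFun {f : X0F M q} (hf : f ∈ fixedFun H M q) :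
    heckeFun ℚbar (M * q) l f ∈ fixedFun H M q :=
  mem_fixedFun.2 fun σ hσ => by rw [← heckeFun_map_galois, mem_fixedFun.1 hf σ hσ]

omit [NeZero M] hq in
/-- Conjugation maps leading coefficients to their conjugates. -/
theorem leadingCoeff_conj (σ : Γℚ) (x : LaurentSeries ℚbar) :
    (coeffMap (σ : ℚbar →+* ℚbar) x).leadingCoeff = σ x.leadingCoeff := by
  rcases eq_or_ne x 0 with rfl | hx
  · simp
  have hne : (coeffMap (σ : ℚbar →+* ℚbar) x).coeff x.order ≠ 0 := by
    rw [coeffMap_coeff]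
    exact (map_ne_zero (σ : ℚbar →+* ℚbar)).2 (HahnSeries.coeff_order_eq_zero.not.2 hx)
  have hx' : coeffMap (σ : ℚbar →+* ℚbar) x ≠ 0 := fun h => hne (by rw [h]; rfl)
  have ho : (coeffMap (σ : ℚbar →+* ℚbar) x).order = x.order := by
    refine le_antisymm (HahnSeries.order_le_of_coeff_ne_zero hne)
      (HahnSeries.order_le_of_coeff_ne_zero fun h => ?_)
    have := HahnSeries.coeff_order_eq_zero.not.2 hx'
    rw [coeffMap_coeff, h, map_zero] at this
    exact this rfl
  rw [HahnSeries.leadingCoeff_eq, HahnSeries.leadingCoeff_eq, ho, coeffMap_coeff]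
  rfl

/-- The eigen relation: with `div f = q D` and `T_l [D] = a [D]`, `heckeFun f = c f ^ n g ^ q`
with `n ≡ a (mod q)`, `c` and `g` fixed, `g` with leading coefficient `1`. -/
theorem exists_hecke_rel {Dv : Divisor.degZero (K := ℚbar) (F := X0F M q)} {f : X0F M q}
    (hfix : f ∈ fixedFun H M q) (hf0 : f ≠ 0)
    (hdiv : ∀ v : Place ℚbar (X0F M q), (q : ℤ) * (Dv : Divisor ℚbar (X0F M q)) v = v.ord f)
    (hlead : (f : LaurentSeries ℚbar).leadingCoeff = 1) (hl : l.Prime) (a : ℤ)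
    (hT : heckeOperatorBar (M * q) ⟨l, hl⟩ (Pic0.mk Dv) = a • Pic0.mk Dv) :
    ∃ (c : ℚbar) (n : ℕ) (g : X0F M q), c ≠ 0 ∧ IsFixedBy H c ∧ g ∈ fixedFun H M q ∧ g ≠ 0 ∧
      (g : LaurentSeries ℚbar).leadingCoeff = 1 ∧ (n : ZMod q) = a ∧
      heckeFun ℚbar (M * q) l f = algebraMap ℚbar (X0F M q) c * (f ^ n * g ^ q) := by
  haveI := hasPrincipalDivisors_laurentBaseChange ℚbar (M * q)
  rw [heckeOperatorBar_mk] at hT
  change QuotientAddGroup.mk _ = a • QuotientAddGroup.mk _ at hT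
  rw [← QuotientAddGroup.mk_zsmul, QuotientAddGroup.eq, AddSubgroup.mem_addSubgroupOf] at hT
  obtain ⟨g₀, hg₀, hord⟩ := hT
  set n : ℕ := (a : ZMod q).val with hn_def
  have hn : (n : ZMod q) = a := ZMod.natCast_zmod_val _
  obtain ⟨k, hk⟩ : (q : ℤ) ∣ a - n := by
    rw [← ZMod.intCast_zmod_eq_zero_iff_dvd]
    push_cast
    rw [hn, sub_self]
  set g₁ : X0F M q := g₀⁻¹ * f ^ k with hg₁_def
  have hfk : f ^ k ≠ 0 := zpow_ne_zero _ hf0
  have hg₁ : g₁ ≠ 0 := mul_ne_zero (inv_ne_zero hg₀) hfk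
  set Hf := heckeFun ℚbar (M * q) l f with hHf
  have hHf0 : Hf ≠ 0 := heckeFun_ne_zero ℚbar (M * q) l hf0
  have hden : f ^ n * g₁ ^ q ≠ 0 := mul_ne_zero (pow_ne_zero _ hf0) (pow_ne_zero _ hg₁)
  have hu : ∀ v : Place ℚbar (X0F M q), v.ord (Hf * (f ^ n * g₁ ^ q)⁻¹) = 0 := by
    intro v
    have h1 := mul_heckeDiv_apply ℚbar (M * q) l hf0 (q : ℤ) hdiv v
    have h2 := hord v
    simp only [AddSubgroup.coe_add, AddSubgroup.coe_neg, AddSubgroup.coe_zsmul,
      Finsupp.coe_add, Finsupp.coe_neg, Finsupp.coe_smul, Pi.add_apply, Pi.neg_apply,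
      Pi.smul_apply, smul_eq_mul] at h2
    rw [v.ord_mul hHf0 (inv_ne_zero hden), v.ord_inv,
      v.ord_mul (pow_ne_zero _ hf0) (pow_ne_zero _ hg₁), Curve.ord_pow v, Curve.ord_pow v,
      hg₁_def, v.ord_mul (inv_ne_zero hg₀) hfk, v.ord_inv, v.ord_zpow, ← hHf] at *
    rw [← h1, ← h2, ← hdiv v, show a = n + q * k by omega]
    ring
  obtain ⟨c₀, hc₀⟩ := Move.exists_const_of_ord_nonneg (k' := ℚbar)
    (f := Hf * (f ^ n * g₁ ^ q)⁻¹) fun _ v => (hu v).ge
  have hc₀0 : c₀ ≠ 0 := by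
    rintro rfl
    rw [map_zero] at hc₀
    exact mul_ne_zero hHf0 (inv_ne_zero hden) hc₀.symm
  -- normalise the leading coefficient of `g`
  have hg₁' : (g₁ : LaurentSeries ℚbar) ≠ 0 := fun h => hg₁ (Subtype.ext h)
  set b : ℚbar := (g₁ : LaurentSeries ℚbar).leadingCoeff with hb_def
  have hb : b ≠ 0 := HahnSeries.leadingCoeff_ne_zero.2 hg₁'
  set g : X0F M q := algebraMap ℚbar (X0F M q) b⁻¹ * g₁ with hg_def
  obtain ⟨c, hc_def⟩ : ∃ c : ℚbar, c = c₀ * b ^ q := ⟨_, rfl⟩
  have hgser : (g : LaurentSeries ℚbar) =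
      HahnSeries.single (0 : ℤ) b⁻¹ * (g₁ : LaurentSeries ℚbar) := by
    rw [hg_def, IntermediateField.coe_mul, ← algebraMap_laurentSeries_eq_single]
    rfl
  have hgl : (g : LaurentSeries ℚbar).leadingCoeff = 1 := by
    rw [hgser, HahnSeries.leadingCoeff_mul, HahnSeries.leadingCoeff_of_single, ← hb_def,
      inv_mul_cancel₀ hb]
  have hg0 : g ≠ 0 := mul_ne_zero ((map_ne_zero _).2 (inv_ne_zero hb)) hg₁
  have hrel : Hf = algebraMap ℚbar (X0F M q) c * (f ^ n * g ^ q) := by
    have e : algebraMap ℚbar (X0F M q) c * (f ^ n * g ^ q) =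
        algebraMap ℚbar (X0F M q) c₀ * (f ^ n * g₁ ^ q) := by
      rw [hc_def, hg_def, map_mul, map_pow, mul_pow, ← map_pow, ← map_pow]
      have h1 : algebraMap ℚbar (X0F M q) (b ^ q) * algebraMap ℚbar (X0F M q) (b⁻¹ ^ q) = 1 := by
        rw [← map_mul, inv_pow, mul_inv_cancel₀ (pow_ne_zero _ hb), map_one]
      calc algebraMap ℚbar (X0F M q) c₀ * algebraMap ℚbar (X0F M q) (b ^ q) *
            (f ^ n * (algebraMap ℚbar (X0F M q) (b⁻¹ ^ q) * g₁ ^ q))
          = algebraMap ℚbar (X0F M q) c₀ * (f ^ n * g₁ ^ q) *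
              (algebraMap ℚbar (X0F M q) (b ^ q) * algebraMap ℚbar (X0F M q) (b⁻¹ ^ q)) := by ring
        _ = _ := by rw [h1, mul_one]
    rw [e, hc₀, inv_mul_cancel_right₀ hden]
  have hσ : ∀ σ ∈ H, σ c = c ∧ arithmeticGalois (modularFunctionFieldFull (M * q)) σ • g = g := by
    intro σ hσ
    let τ : LaurentSeries ℚbar →+* LaurentSeries ℚbar := coeffMap (σ : ℚbar →+* ℚbar)
    have hfσ : τ (f : LaurentSeries ℚbar) = f := mem_fixedFun_iff_series.1 hfix σ hσ
    have hHσ : τ (Hf : LaurentSeries ℚbar) = Hf :=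
      mem_fixedFun_iff_series.1 (heckeFun_mem_fixedFun hfix) σ hσ
    have hser : (Hf : LaurentSeries ℚbar) = HahnSeries.single (0 : ℤ) c *
        ((f : LaurentSeries ℚbar) ^ n * (g : LaurentSeries ℚbar) ^ q) := by
      rw [hrel]
      rw [← algebraMap_laurentSeries_eq_single]
      rfl
    have h1 := hHσ
    rw [hser, map_mul, map_mul, map_pow, map_pow, hfσ] at h1
    have hτc : τ (HahnSeries.single (0 : ℤ) c) = HahnSeries.single (0 : ℤ) (σ c) :=
      coeffMap_single _ _ _
    rw [hτc] at h1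
    have hfn : ((f : LaurentSeries ℚbar) ^ n) ≠ 0 :=
      pow_ne_zero _ fun h => hf0 (Subtype.ext h)
    have h2 : HahnSeries.single (0 : ℤ) (σ c) * τ (g : LaurentSeries ℚbar) ^ q =
        HahnSeries.single (0 : ℤ) c * (g : LaurentSeries ℚbar) ^ q := by
      refine mul_left_cancel₀ hfn ?_
      linear_combination h1
    have hgτ : (τ (g : LaurentSeries ℚbar)).leadingCoeff = 1 := by
      rw [show τ = coeffMap (σ : ℚbar →+* ℚbar) from rfl, leadingCoeff_conj, hgl, map_one]
    have hcσ : σ c = c := by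
      have h3 := congrArg HahnSeries.leadingCoeff h2
      rw [HahnSeries.leadingCoeff_mul, HahnSeries.leadingCoeff_mul,
        HahnSeries.leadingCoeff_of_single, HahnSeries.leadingCoeff_of_single] at h3
      have e : ∀ (x : LaurentSeries ℚbar) (m : ℕ), x.leadingCoeff = 1 →
          (x ^ m).leadingCoeff = 1 := by
        intro x m hx
        induction m with
        | zero => simp
        | succ m ih => rw [pow_succ, HahnSeries.leadingCoeff_mul, ih, hx, one_mul]
      rwa [e _ q hgτ, e _ q hgl, mul_one, mul_one] at h3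
    refine ⟨hcσ, Subtype.ext ?_⟩
    show τ (g : LaurentSeries ℚbar) = g
    have hc0 : c ≠ 0 := hc_def ▸ mul_ne_zero hc₀0 (pow_ne_zero _ hb)
    rw [hcσ, mul_right_inj' (by simpa using hc0)] at h2
    have hgs : (g : LaurentSeries ℚbar) ≠ 0 := fun h => hg0 (Subtype.ext h)
    obtain ⟨ζ, hζ⟩ := HasEnoughRootsOfUnity.exists_primitiveRoot (M := ℚbar) (n := q)
    have hζ' := hζ.map_of_injective (f := algebraMap ℚbar (LaurentSeries ℚbar))
      (algebraMap ℚbar (LaurentSeries ℚbar)).injective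
    obtain ⟨i, -, hi⟩ := hζ'.eq_pow_of_pow_eq_one
      (ξ := τ (g : LaurentSeries ℚbar) / (g : LaurentSeries ℚbar))
      (by rw [div_pow, h2, div_self (pow_ne_zero _ hgs)])
    rw [eq_div_iff hgs, ← map_pow] at hi
    have h3 := congrArg HahnSeries.leadingCoeff hi
    rw [algebraMap_laurentSeries_eq_single, HahnSeries.leadingCoeff_mul,
      HahnSeries.leadingCoeff_of_single, hgl, hgτ, mul_one] at h3
    rw [← hi, h3, map_one, one_mul]
  exact ⟨c, n, g, hc_def ▸ mul_ne_zero hc₀0 (pow_ne_zero _ hb), fun σ h => (hσ σ h).1,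
    mem_fixedFun.2 fun σ h => (hσ σ h).2, hg0, hgl, hn, hrel⟩

end Fermat.Agent.MazurPrinciple

end
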