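/-
Mazur's principle: the algebra of the substitutions `q ↦ u q`, `q ↦ q ^ d` on Laurent series:
Euler operator, leading coefficients, Gauss reductions.
-/
import Fermat.Agent.ES.IdentitySeries
import Fermat.Agent.Carayol.ValuationsGauss
import Fermat.Agent.Genus.LaurentDerivation
import Fermat.Prelude.Thm_ModularCurve_coeffMap_qExpand

set_option autoImplicit false

noncomputable section

namespace Fermat.Agent.MazurPrinciple.Subst

open ModularCurve HahnSeries Fermat.Agent.Carayol
open Fermat.Agent.EichlerShimura (twist twist_coeff coeffMap_twist)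
open Fermat.Agent.Genus (eulerOp eulerOp_coeff eulerOp_mul eulerOp_add)

variable {K : Type*} [Field K]

theorem eulerOp_one : eulerOp (1 : LaurentSeries K) = 0 := by
  ext n
  rcases eq_or_ne n 0 with rfl | h
  · simp
  · simp [HahnSeries.coeff_one, h]

theorem eulerOp_twist (u : Kˣ) (f : LaurentSeries K) :
    eulerOp (twist u f) = twist u (eulerOp f) := by
  ext n
  simp only [eulerOp_coeff, twist_coeff]
  ring

theorem eulerOp_qExpand (d : ℕ) [NeZero d] (f : LaurentSeries K) :
    eulerOp (qExpand K d f) = (d : K) • qExpand K d (eulerOp f) := by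
  ext n
  rw [HahnSeries.coeff_smul, eulerOp_coeff, smul_eq_mul]
  by_cases h : (d : ℤ) ∣ n
  · obtain ⟨m, rfl⟩ := h
    rw [qExpand_coeff_mul, qExpand_coeff_mul, eulerOp_coeff]
    push_cast
    ring
  · rw [qExpand_coeff_of_not_dvd d f h, qExpand_coeff_of_not_dvd d _ h, mul_zero, mul_zero]

/-- `θ log` turns products into sums. -/
theorem eulerOp_div_mul {a b : LaurentSeries K} (ha : a ≠ 0) (hb : b ≠ 0) :
    eulerOp (a * b) / (a * b) = eulerOp a / a + eulerOp b / b := by
  rw [eulerOp_mul]
  field_simp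

theorem eulerOp_div_prod {ι : Type*} (s : Finset ι) (F : ι → LaurentSeries K)
    (h : ∀ i ∈ s, F i ≠ 0) :
    eulerOp (∏ i ∈ s, F i) / ∏ i ∈ s, F i = ∑ i ∈ s, eulerOp (F i) / F i := by
  classical
  induction s using Finset.induction_on with
  | empty => simp [eulerOp_one]
  | insert i s hi ih =>
    have h' : ∀ j ∈ s, F j ≠ 0 := fun j hj => h j (Finset.mem_insert_of_mem hj)
    rw [Finset.prod_insert hi, Finset.sum_insert hi,
      eulerOp_div_mul (h i (Finset.mem_insert_self i s)) (Finset.prod_ne_zero_iff.2 h'), ih h']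

theorem qExpand_div_eulerOp (d : ℕ) [NeZero d] (f : LaurentSeries K) :
    eulerOp (qExpand K d f) / qExpand K d f = (d : K) • qExpand K d (eulerOp f / f) := by
  rw [eulerOp_qExpand, map_div₀, ← HahnSeries.C_mul_eq_smul, ← HahnSeries.C_mul_eq_smul,
    mul_div_assoc]

theorem twist_div_eulerOp (u : Kˣ) (f : LaurentSeries K) :
    eulerOp (twist u f) / twist u f = twist u (eulerOp f / f) := by
  rw [eulerOp_twist, map_div₀]

/-- The `l`th coefficients of the sum over the cosets. -/
theorem coeff_of_identity {l : ℕ} [NeZero l] (hl : (l : K) ≠ 0) {u : Kˣ} (hu : u ^ l = 1)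
    {v w : LaurentSeries K}
    (h : (l : K) • qExpand K l w = ((l * l : ℕ) : K) • qExpand K (l * l) v +
      ∑ a ∈ Finset.range l, twist (u ^ a) v) (n : ℤ) :
    w.coeff n = v.coeff (n * l) + if (l : ℤ) ∣ n then (l : K) * v.coeff (n / l) else 0 := by
  have h1 := congrArg (fun z : LaurentSeries K => z.coeff ((l : ℤ) * n)) h
  simp only [HahnSeries.coeff_smul, smul_eq_mul, HahnSeries.coeff_add, HahnSeries.coeff_sum,
    qExpand_coeff_mul, twist_coeff] at h1
  have hu1 : ∀ a : ℕ, (((u ^ a) ^ ((l : ℤ) * n) : Kˣ) : K) = 1 := fun a => by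
    rw [zpow_mul, zpow_natCast, ← pow_mul, mul_comm a l, pow_mul, hu, one_pow, one_zpow,
      Units.val_one]
  simp only [hu1, one_mul, Finset.sum_const, Finset.card_range, nsmul_eq_mul] at h1
  have h2 : (qExpand K (l * l) v).coeff ((l : ℤ) * n) =
      if (l : ℤ) ∣ n then v.coeff (n / l) else 0 := by
    split_ifs with hd
    · obtain ⟨m, rfl⟩ := hd
      rw [show (l : ℤ) * ((l : ℤ) * m) = ((l * l : ℕ) : ℤ) * m by push_cast; ring,
        qExpand_coeff_mul, Int.mul_ediv_cancel_left _ (by exact_mod_cast NeZero.ne l)]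
    · refine qExpand_coeff_of_not_dvd _ _ fun hd' => hd ?_
      push_cast at hd'
      exact (mul_dvd_mul_iff_left (by exact_mod_cast NeZero.ne l : (l : ℤ) ≠ 0)).1 hd'
  rw [h2, mul_comm (l : ℤ) n] at h1
  apply mul_left_cancel₀ hl
  rw [h1]
  split_ifs <;> push_cast <;> ring

theorem order_twist (u : Kˣ) (f : LaurentSeries K) : (twist u f).order = f.order := by
  rcases eq_or_ne f 0 with rfl | hf
  · rw [map_zero]
  have hne : twist u f ≠ 0 := (map_ne_zero_iff _ (twist u).injective).2 hf
  refine le_antisymm (order_le_of_coeff_ne_zero ?_) (order_le_of_coeff_ne_zero ?_)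
  · rw [twist_coeff]
    exact mul_ne_zero (Units.ne_zero _) (fun h => hf (coeff_order_eq_zero.1 h))
  · intro h
    have h1 : (twist u f).coeff (twist u f).order = 0 := by rw [twist_coeff, h, mul_zero]
    exact hne (coeff_order_eq_zero.1 h1)

theorem leadingCoeff_twist (u : Kˣ) (f : LaurentSeries K) :
    (twist u f).leadingCoeff = ((u ^ f.order : Kˣ) : K) * f.leadingCoeff := by
  rw [leadingCoeff_eq, order_twist, twist_coeff, leadingCoeff_eq]

theorem order_qExpand' (d : ℕ) [NeZero d] {f : LaurentSeries K} (hf : f ≠ 0) :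
    (qExpand K d f).order = (d : ℤ) * f.order := by
  have hd : (0 : ℤ) < d := by exact_mod_cast NeZero.pos d
  have hne : qExpand K d f ≠ 0 := (map_ne_zero_iff _ (qExpand K d).injective).2 hf
  refine le_antisymm (order_le_of_coeff_ne_zero ?_) ?_
  · rw [qExpand_coeff_mul]
    exact fun h => hf (coeff_order_eq_zero.1 h)
  · by_contra h
    rw [not_le] at h
    have hlt := fun h0 => hne (coeff_order_eq_zero.1 h0)
    by_cases hdvd : (d : ℤ) ∣ (qExpand K d f).order
    · obtain ⟨m, hm⟩ := hdvd
      rw [hm] at h hlt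
      rw [qExpand_coeff_mul] at hlt
      exact hlt (coeff_eq_zero_of_lt_order (lt_of_mul_lt_mul_left h hd.le))
    · exact hlt (qExpand_coeff_of_not_dvd d f hdvd)

theorem leadingCoeff_qExpand (d : ℕ) [NeZero d] (f : LaurentSeries K) :
    (qExpand K d f).leadingCoeff = f.leadingCoeff := by
  rcases eq_or_ne f 0 with rfl | hf
  · simp
  · rw [leadingCoeff_eq, order_qExpand' d hf, qExpand_coeff_mul, leadingCoeff_eq]

/-- The leading coefficient of the product over all twists, `l` odd. -/
theorem leadingCoeff_prod_twist {l : ℕ} (hl : Odd l) {u : Kˣ} (hu : u ^ l = 1)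
    (f : LaurentSeries K) :
    (∏ a ∈ Finset.range l, twist (u ^ a) f).leadingCoeff = f.leadingCoeff ^ l := by
  have hprod : ∀ s : Finset ℕ, (∏ a ∈ s, twist (u ^ a) f).leadingCoeff =
      (((∏ a ∈ s, u ^ a) ^ f.order : Kˣ) : K) * f.leadingCoeff ^ s.card := by
    classical
    intro s
    induction s using Finset.induction_on with
    | empty => simp
    | insert i s hi ih =>
      rw [Finset.prod_insert hi, Finset.prod_insert hi, Finset.card_insert_of_notMem hi,
        leadingCoeff_mul, ih, leadingCoeff_twist, mul_zpow, Units.val_mul, pow_succ]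
      ring
  rw [hprod, Finset.prod_pow_eq_pow_sum, Finset.sum_range_id, Finset.card_range]
  obtain ⟨m, rfl⟩ := hl
  rw [show (2 * m + 1) * (2 * m + 1 - 1) / 2 = (2 * m + 1) * m by
      rw [Nat.add_sub_cancel, show (2 * m + 1) * (2 * m) = (2 * m + 1) * m * 2 by ring,
        Nat.mul_div_cancel _ (by norm_num)],
    pow_mul, hu, one_pow, one_zpow, Units.val_one, one_mul]

section Gauss

variable (A : ValuationSubring K) {k : Type*} [Field k] (π : A →+* k)

theorem gaussRed_congr {f g : gaussSubring A π} (h : (f : LaurentSeries K) = g) :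
    gaussRed A π f = gaussRed A π g := congrArg _ (Subtype.ext h)

theorem gaussRed_eq_div (f : gaussSubring A π) {y₁ y₂ : LaurentSeries A}
    (h : coeffMap π y₂ ≠ 0) (e : (f : LaurentSeries K) * coeffMap A.subtype y₂
      = coeffMap A.subtype y₁) :
    gaussRed A π f = coeffMap π y₁ / coeffMap π y₂ := gaussRedFun_eq f h e

theorem twist_gauss (uA : Aˣ) (f : gaussSubring A π) :
    ∃ h : twist (Units.map (A.subtype : A →* K) uA) (f : LaurentSeries K) ∈ gaussSubring A π,
      gaussRed A π ⟨_, h⟩ = twist (Units.map (π : A →* k) uA) (gaussRed A π f) := by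
  obtain ⟨y₁, y₂, h, e⟩ := f.2
  have hy : coeffMap π (twist uA y₂) ≠ 0 := by
    rw [coeffMap_twist]
    exact (map_ne_zero_iff _ (RingHom.injective _)).2 h
  have he : twist (Units.map (A.subtype : A →* K) uA) (f : LaurentSeries K) *
      coeffMap A.subtype (twist uA y₂) = coeffMap A.subtype (twist uA y₁) := by
    rw [coeffMap_twist, coeffMap_twist, ← map_mul, e]
  have hmem : twist (Units.map (A.subtype : A →* K) uA) (f : LaurentSeries K) ∈
      gaussSubring A π := ⟨_, _, hy, he⟩
  have h1 := gaussRed_eq_div A π ⟨_, hmem⟩ hy he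
  have h2 := gaussRed_eq_div A π f h e
  refine ⟨hmem, ?_⟩
  rw [h1, h2, map_div₀, coeffMap_twist, coeffMap_twist]

theorem qExpand_gauss (d : ℕ) [NeZero d] (f : gaussSubring A π) :
    ∃ h : qExpand K d (f : LaurentSeries K) ∈ gaussSubring A π,
      gaussRed A π ⟨_, h⟩ = qExpand k d (gaussRed A π f) := by
  obtain ⟨y₁, y₂, h, e⟩ := f.2
  have hy : coeffMap π (qExpand A d y₂) ≠ 0 := by
    rw [coeffMap_qExpand]
    exact (map_ne_zero_iff _ (RingHom.injective _)).2 h
  have he : qExpand K d (f : LaurentSeries K) * coeffMap A.subtype (qExpand A d y₂) =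
      coeffMap A.subtype (qExpand A d y₁) := by
    rw [coeffMap_qExpand, coeffMap_qExpand, ← map_mul, e]
  have hmem : qExpand K d (f : LaurentSeries K) ∈ gaussSubring A π := ⟨_, _, hy, he⟩
  have h1 := gaussRed_eq_div A π ⟨_, hmem⟩ hy he
  have h2 := gaussRed_eq_div A π f h e
  refine ⟨hmem, ?_⟩
  rw [h1, h2, map_div₀, coeffMap_qExpand, coeffMap_qExpand]

/-- A product of series congruent to `1` modulo `c`, to first order. -/
theorem exists_prod_one_add {C : gaussSubring A π} (hC : gaussRed A π C = 0) {ι : Type*}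
    (s : Finset ι) (x : ι → gaussSubring A π) :
    ∃ y : gaussSubring A π, ∏ i ∈ s, (1 + C * x i) = 1 + C * y ∧
      gaussRed A π y = ∑ i ∈ s, gaussRed A π (x i) := by
  classical
  induction s using Finset.induction_on with
  | empty => exact ⟨0, by simp, by simp⟩
  | insert i s hi ih =>
    obtain ⟨y, hy, hy'⟩ := ih
    refine ⟨x i + y + C * x i * y, by rw [Finset.prod_insert hi, hy]; ring, ?_⟩
    rw [Finset.sum_insert hi, map_add, map_add, map_mul, map_mul, hC, hy', zero_mul, zero_mul,
      add_zero]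

end Gauss

end Fermat.Agent.MazurPrinciple.Subst

end
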