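/-
Mazur's principle: `f ↦ heckeFun f` (prime `l ∤ M q`) commutes with `w_q`: the involution
`w_q` of level `M l q` is compatible with both degeneracy maps, and norms commute with it.
-/
import Fermat.Agent.HeckeJ.Norm
import Fermat.Agent.BadReduction.X0Model

set_option autoImplicit false
set_option linter.style.haveILetI false
set_option synthInstance.maxHeartbeats 200000

noncomputable section

namespace Fermat.Agent.MazurPrinciple

open ModularCurve AlgebraicCurve IntermediateField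
open Fermat.Agent.BadReduction Fermat.Agent.HeckeJ

local notation "ℚbar" => AlgebraicClosure ℚ

/-- The function fields of two equal levels. -/
def levelEquiv {a b : ℕ} (h : a = b) :
    modularFunctionFieldBar a ≃ₐ[ℚbar] modularFunctionFieldBar b :=
  h ▸ AlgEquiv.refl

theorem coe_levelEquiv {a b : ℕ} (h : a = b) (x : modularFunctionFieldBar a) :
    (levelEquiv h x : LaurentSeries ℚbar) = x := by
  subst h
  rfl

theorem coe_levelEquiv_symm {a b : ℕ} (h : a = b) (x : modularFunctionFieldBar b) :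
    ((levelEquiv h).symm x : LaurentSeries ℚbar) = x := by
  subst h
  rfl

theorem jdBar_congr_val {a b : ℕ} (d : {d : ℕ // d ∈ a.divisors})
    (e : {e : ℕ // e ∈ b.divisors}) (h : d.1 = e.1) : jdBar d = jdBar e := by
  obtain ⟨d, hd⟩ := d
  obtain ⟨e, he⟩ := e
  obtain rfl : d = e := h
  rfl

theorem qExpand_jdBar {a b : ℕ} (m : ℕ) [NeZero m] (d : {d : ℕ // d ∈ a.divisors})
    (e : {e : ℕ // e ∈ b.divisors}) (h : m * d.1 = e.1) :
    qExpand ℚbar m (jdBar d) = jdBar e := by
  haveI : NeZero d.1 := ⟨(Nat.pos_of_mem_divisors d.2).ne'⟩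
  haveI : NeZero e.1 := ⟨(Nat.pos_of_mem_divisors e.2).ne'⟩
  rw [jdBar, jdBar, coeffEmb_qExpand_jq, coeffEmb_qExpand_jq, ← coeffMap_qExpand,
    qExpand_qExpand]
  exact congrArg _ (qExpand_congr h _)

variable {M q l : ℕ} [NeZero M] [hq : Fact q.Prime] [NeZero l]

local instance neZero_prime_heckeSwap : NeZero q := ⟨hq.out.ne_zero⟩

/-- `w_q` of level `M l q`, read on the field of level `M q l`. -/
def swapLift (hqMl : ¬ q ∣ M * l) :
    modularFunctionFieldBar (M * q * l) ≃ₐ[ℚbar] modularFunctionFieldBar (M * q * l) :=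
  ((levelEquiv (Nat.mul_right_comm M q l)).trans (atkinLehner hqMl)).trans
    (levelEquiv (Nat.mul_right_comm M q l)).symm

theorem coe_swapLift_jdBar (hqMl : ¬ q ∣ M * l) (x : modularFunctionFieldBar (M * q * l))
    (d : {d : ℕ // d ∈ (M * l * q).divisors}) (hx : (x : LaurentSeries ℚbar) = jdBar d) :
    (swapLift hqMl x : LaurentSeries ℚbar) = jdBar (swapIdx hqMl d) := by
  have h : levelEquiv (Nat.mul_right_comm M q l) x = ⟨jdBar d, jdBar_mem d⟩ :=
    Subtype.ext ((coe_levelEquiv _ x).trans hx)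
  rw [swapLift, AlgEquiv.trans_apply, AlgEquiv.trans_apply, coe_levelEquiv_symm, h,
    atkinLehner_apply, atkinHom_jdBar]

theorem swapLift_alpha (hqM : ¬ q ∣ M) (hqMl : ¬ q ∣ M * l) (x : X0F M q) :
    swapLift hqMl (heckeAlphaBar ℚbar (M * q) l x) =
      heckeAlphaBar ℚbar (M * q) l (atkinLehner hqM x) := by
  have h : (swapLift hqMl).toAlgHom.comp (heckeAlphaBar ℚbar (M * q) l) =
      (heckeAlphaBar ℚbar (M * q) l).comp (atkinHom hqM) :=
    algHom_ext_jdBar fun d => by
      have hd : d.1 ∈ (M * l * q).divisors := Nat.mem_divisors.2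
        ⟨(Nat.dvd_of_mem_divisors d.2).trans ⟨l, Nat.mul_right_comm M l q⟩, NeZero.ne _⟩
      refine Subtype.ext ?_
      rw [AlgHom.comp_apply, AlgHom.comp_apply, atkinHom_jdBar, coe_heckeAlphaBar]
      refine (coe_swapLift_jdBar hqMl _ ⟨d.1, hd⟩ (coe_heckeAlphaBar _ _ _)).trans ?_
      exact jdBar_congr_val _ _ rfl
  exact AlgHom.congr_fun h x

theorem swapLift_beta (hl : l.Prime) (hlq : l ≠ q) (hqM : ¬ q ∣ M) (hqMl : ¬ q ∣ M * l)
    (x : X0F M q) :
    swapLift hqMl (heckeBetaBar ℚbar (M * q) l x) =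
      heckeBetaBar ℚbar (M * q) l (atkinLehner hqM x) := by
  have hql : ¬ q ∣ l := fun h => hlq ((Nat.prime_dvd_prime_iff_eq hq.out hl).1 h).symm
  have h : (swapLift hqMl).toAlgHom.comp (heckeBetaBar ℚbar (M * q) l) =
      (heckeBetaBar ℚbar (M * q) l).comp (atkinHom hqM) :=
    algHom_ext_jdBar fun d => by
      have hd : l * d.1 ∈ (M * l * q).divisors := Nat.mem_divisors.2
        ⟨by rw [Nat.mul_right_comm M l q, mul_comm (M * q) l]
            exact mul_dvd_mul_left l (Nat.dvd_of_mem_divisors d.2), NeZero.ne _⟩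
      refine Subtype.ext ?_
      rw [AlgHom.comp_apply, AlgHom.comp_apply, atkinHom_jdBar, coe_heckeBetaBar]
      refine (coe_swapLift_jdBar hqMl _ ⟨l * d.1, hd⟩
        ((coe_heckeBetaBar _ _ _).trans (qExpand_jdBar l d ⟨l * d.1, hd⟩ rfl))).trans ?_
      refine (qExpand_jdBar l (swapIdx hqM d) _ ?_).symm
      show l * swapDiv M q d.1 = swapDiv (M * l) q (l * d.1)
      unfold swapDiv
      by_cases hqd : q ∣ d.1
      · rw [if_pos hqd, if_pos (hqd.mul_left l), Nat.mul_div_assoc l hqd]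
      · rw [if_neg hqd, if_neg fun h => (hq.out.dvd_mul.1 h).elim hql hqd, mul_assoc]
  exact AlgHom.congr_fun h x

/-- `w_q` commutes with `f ↦ heckeFun f`. -/
theorem heckeFun_atkinLehner' (hqM : ¬ q ∣ M) (hl : l.Prime) (hlN : ¬ l ∣ M * q) (f : X0F M q) :
    heckeFun ℚbar (M * q) l (atkinLehner hqM f) =
      atkinLehner hqM (heckeFun ℚbar (M * q) l f) := by
  have hlq : l ≠ q := fun h => hlN (h ▸ dvd_mul_left l M)
  have hqMl : ¬ q ∣ M * l := fun h => (hq.out.dvd_mul.1 h).elim hqM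
    fun h' => hlq ((Nat.prime_dvd_prime_iff_eq hq.out hl).1 h').symm
  let φ := heckeAlphaBar ℚbar (M * q) l
  show normA ℚbar (M * q) l (heckeBetaBar ℚbar (M * q) l (atkinLehner hqM f)) =
    atkinLehner hqM (normA ℚbar (M * q) l (heckeBetaBar ℚbar (M * q) l f))
  rw [← swapLift_beta hl hlq hqM hqMl f]
  letI := algebraAlong φ
  show Algebra.norm (X0F M q) _ = atkinLehner hqM (Algebra.norm (X0F M q) _)
  have hn := Algebra.norm_eq_of_equiv_equiv (atkinLehner hqM).toRingEquiv
    (swapLift hqMl).toRingEquiv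
    (RingHom.ext fun y => (swapLift_alpha hqM hqMl y).symm) (heckeBetaBar ℚbar (M * q) l f)
  rw [hn]
  exact ((atkinLehner hqM).apply_symm_apply _).symm

end Fermat.Agent.MazurPrinciple

end
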