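/-
Mazur's principle: the effect of `f ↦ heckeFun f` (prime `l ∤ M q`) on expansions at the cusps
`∞` and `w_q ∞` and their reductions.
-/
import Fermat.Agent.HeckeJ.Norm
import Fermat.Agent.BadReduction.X0Model
import Fermat.Agent.Genus.LaurentDerivation
import Fermat.Agent.MazurPrinciple.HeckeSeriesAlg
import Fermat.Agent.MazurPrinciple.HeckeSwap
import Fermat.Agent.ES.IdentityNorm
import Fermat.Agent.HeckeJ.Degree

set_option autoImplicit false
set_option linter.style.haveILetI false
set_option synthInstance.maxHeartbeats 200000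

noncomputable section

namespace Fermat.Agent.MazurPrinciple

open ModularCurve IsLocalRing
open Fermat.Agent.BadReduction Fermat.Agent.HeckeJ
open Fermat.Agent.Carayol (gaussSubring gaussRed)
open Fermat.Agent.EichlerShimura (twist)

local notation "ℚbar" => AlgebraicClosure ℚ

/-- `θ log`. -/
def logTheta {K : Type*} [Field K] (f : LaurentSeries K) : LaurentSeries K :=
  Genus.eulerOp f / f

/-- `w` is the image of `v` under `T_l` in weight two, on `q`-expansions. -/
def IsHeckeImage {K : Type*} [Field K] (l : ℕ) (v w : LaurentSeries K) : Prop :=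
  ∀ n : ℤ, w.coeff n =
    v.coeff (n * l) + if (l : ℤ) ∣ n then (l : K) * v.coeff (n / l) else 0

variable {M q l : ℕ} [NeZero M] [hq : Fact q.Prime] [NeZero l]

local instance neZero_prime_heckeSeries : NeZero q := ⟨hq.out.ne_zero⟩

/-- The expansion of `heckeFun f` in `q ^ (1 / l)`: the product over the cosets. -/
theorem qExpand_heckeFun (hl : l.Prime) (hlN : ¬ l ∣ M * q) (u : ℚbarˣ)
    (hu : IsPrimitiveRoot (u : ℚbar) l) (f : X0F M q) :
    qExpand ℚbar l ((heckeFun ℚbar (M * q) l f : X0F M q) : LaurentSeries ℚbar) =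
      qExpand ℚbar (l * l) (f : LaurentSeries ℚbar) *
        ∏ a ∈ Finset.range l, twist (u ^ a) (f : LaurentSeries ℚbar) :=
  EichlerShimura.qExpand_normAlpha_heckeBeta hl hlN (finiteAlong_heckeAlphaBar ℚbar (M * q) l)
    (by rw [finrankAlong_heckeAlphaBar ℚbar (M * q) hl, levelIndex, if_neg hlN]) u hu f

/-- A primitive root of unity of prime order is a unit of the valuation ring. -/
theorem exists_root_unit (A : ValuationSubring ℚbar) (hl : l.Prime) :
    ∃ uA : Aˣ, IsPrimitiveRoot ((Units.map (A.subtype : A →* ℚbar) uA : ℚbarˣ) : ℚbar) l ∧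
      Units.map (residue A : A →* ResidueField A) uA ^ l = 1 := by
  obtain ⟨ζ, hζ⟩ := HasEnoughRootsOfUnity.exists_primitiveRoot (M := ℚbar) (n := l)
  have hζA : ζ ∈ A := by
    rcases A.mem_or_inv_mem ζ with h | h
    · exact h
    · have hp1 : ζ⁻¹ ^ (l - 1) = ζ := by
        rw [inv_pow]
        refine inv_eq_of_mul_eq_one_left ?_
        rw [← pow_succ', Nat.sub_add_cancel hl.one_le, hζ.pow_eq_one]
      exact hp1 ▸ pow_mem h _
  have hζA' : IsPrimitiveRoot (⟨ζ, hζA⟩ : A) l :=
    IsPrimitiveRoot.of_map_of_injective (f := A.subtype) hζ Subtype.coe_injective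
  set uA : Aˣ := (hζA'.isUnit hl.ne_zero).unit
  have huA : (uA : A) = ⟨ζ, hζA⟩ := IsUnit.unit_spec _
  refine ⟨uA, by show IsPrimitiveRoot ((uA : A) : ℚbar) l; rw [huA]; exact hζ, ?_⟩
  rw [← map_pow, show uA ^ l = 1 from Units.ext (by
    rw [Units.val_pow_eq_pow_val, huA, hζA'.pow_eq_one, Units.val_one]), map_one]

variable (A : ValuationSubring ℚbar) in
/-- Integrality at `∞` may be read in `q ^ (1 / l)`. -/
theorem exists_infRed_qExpand (F : X0F M q)
    (h : qExpand ℚbar l (F : LaurentSeries ℚbar) ∈ gaussSubring A (residue A)) :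
    ∃ hF : F ∈ infV M q A, qExpand (ResidueField A) l (infRed M q A ⟨F, hF⟩) =
      gaussRed A (residue A) ⟨_, h⟩ := by
  have hF : F ∈ infV M q A := by
    rcases eq_or_ne F 0 with rfl | hF0
    · exact zero_mem _
    refine ((infV M q A).mem_or_inv_mem F).elim id fun hi => ?_
    obtain ⟨hm, hr⟩ := Subst.qExpand_gauss A (residue A) l
      (⟨((F⁻¹ : X0F M q) : LaurentSeries ℚbar), hi⟩ : gaussSubring A (residue A))
    have h1 : (⟨_, hm⟩ : gaussSubring A (residue A)) * ⟨_, h⟩ = 1 := Subtype.ext (by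
      show qExpand ℚbar l ((F⁻¹ : X0F M q) : LaurentSeries ℚbar) *
        qExpand ℚbar l (F : LaurentSeries ℚbar) = 1
      rw [← map_mul, ← IntermediateField.coe_mul, inv_mul_cancel₀ hF0,
        IntermediateField.coe_one, map_one])
    have h2 := congrArg (gaussRed A (residue A)) h1
    rw [map_mul, map_one, hr] at h2
    have hne : gaussRed A (residue A) ⟨((F⁻¹ : X0F M q) : LaurentSeries ℚbar), hi⟩ ≠ 0 :=
      fun h0 => by rw [h0, map_zero, zero_mul] at h2; exact zero_ne_one h2
    have h3 := Carayol.inv_mem_gaussSubring_of_red_ne_zero hne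
    rwa [← IntermediateField.coe_inv, inv_inv] at h3
  refine ⟨hF, ?_⟩
  obtain ⟨hm, hr⟩ := Subst.qExpand_gauss A (residue A) l
    (⟨(F : LaurentSeries ℚbar), hF⟩ : gaussSubring A (residue A))
  exact hr.symm.trans (Subst.gaussRed_congr A (residue A) rfl)

/-- The leading coefficient is raised to the power `l + 1`. -/
theorem leadingCoeff_heckeFun (hl : l.Prime) (hl2 : l ≠ 2) (hlN : ¬ l ∣ M * q)
    {f : X0F M q} (hf : f ≠ 0) :
    ((heckeFun ℚbar (M * q) l f : X0F M q) : LaurentSeries ℚbar).leadingCoeff =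
      (f : LaurentSeries ℚbar).leadingCoeff ^ (l + 1) := by
  obtain ⟨ζ, hζ⟩ := HasEnoughRootsOfUnity.exists_primitiveRoot (M := ℚbar) (n := l)
  obtain ⟨u, rfl⟩ := hζ.isUnit hl.ne_zero
  have hu : u ^ l = 1 := Units.ext (by rw [Units.val_pow_eq_pow_val, hζ.pow_eq_one, Units.val_one])
  rw [← Subst.leadingCoeff_qExpand l, qExpand_heckeFun hl hlN u hζ, HahnSeries.leadingCoeff_mul,
    Subst.leadingCoeff_qExpand, Subst.leadingCoeff_prod_twist (hl.odd_of_ne_two hl2) hu,
    pow_succ']

/-- `w_q` commutes with `f ↦ heckeFun f`. -/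
theorem heckeFun_atkinLehner (hqM : ¬ q ∣ M) (hl : l.Prime) (hlN : ¬ l ∣ M * q) (f : X0F M q) :
    heckeFun ℚbar (M * q) l (atkinLehner hqM f) =
      atkinLehner hqM (heckeFun ℚbar (M * q) l f) :=
  heckeFun_atkinLehner' hqM hl hlN f

variable (A : ValuationSubring ℚbar) (hA : A.LiesOverPrime q)

include hA in
/-- A prime other than `q` is invertible in the residue field. -/
theorem natCast_residue_ne_zero (hl : l.Prime) (hlN : ¬ l ∣ M * q) :
    (l : ResidueField A) ≠ 0 := by
  intro h0
  have hq0 : ((q : ℕ) : ResidueField A) = 0 := by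
    rw [← map_natCast (residue A), residue_eq_zero_iff, mem_maximalIdeal, mem_nonunits_iff]
    exact fun hu => ((ValuationSubring.mem_nonunits_iff A).1 hA).ne
      ((ValuationSubring.valuation_eq_one_iff A _).1 hu)
  have hlq : Nat.Coprime l q :=
    (Nat.coprime_primes hl hq.out).2 fun h => hlN (h ▸ dvd_mul_left _ _)
  obtain ⟨a, b, hab⟩ := Nat.isCoprime_iff_coprime.2 hlq
  have h1 := congrArg (Int.cast : ℤ → ResidueField A) hab
  push_cast at h1
  rw [h0, hq0] at h1
  simp at h1

include hA in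
/-- On logarithmic derivatives of reductions `heckeFun` is `T_l`. -/
theorem infRed_heckeFun (hl : l.Prime) (hlN : ¬ l ∣ M * q) {f : X0F M q}
    (hf : f ∈ infV M q A) (h0 : infRed M q A ⟨f, hf⟩ ≠ 0) :
    ∃ h : heckeFun ℚbar (M * q) l f ∈ infV M q A, infRed M q A ⟨_, h⟩ ≠ 0 ∧
      IsHeckeImage l (logTheta (infRed M q A ⟨f, hf⟩)) (logTheta (infRed M q A ⟨_, h⟩)) := by
  obtain ⟨uA, hu, hū⟩ := exists_root_unit A hl
  set u := Units.map (A.subtype : A →* ℚbar) uA with hu_def
  set ū := Units.map (residue A : A →* ResidueField A) uA with hū_def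
  set y : gaussSubring A (residue A) := ⟨(f : LaurentSeries ℚbar), hf⟩ with hy
  have hy0 : gaussRed A (residue A) y ≠ 0 := h0
  obtain ⟨he, her⟩ := Subst.qExpand_gauss A (residue A) (l * l) y
  have htw : ∀ a : ℕ, ∃ h : twist (u ^ a) (f : LaurentSeries ℚbar) ∈ gaussSubring A (residue A),
      gaussRed A (residue A) ⟨_, h⟩ = twist (ū ^ a) (gaussRed A (residue A) y) := fun a => by
    rw [hu_def, hū_def, ← map_pow, ← map_pow]
    exact Subst.twist_gauss A (residue A) (uA ^ a) y
  choose htm htr using htw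
  set P : gaussSubring A (residue A) :=
    ⟨_, he⟩ * ∏ a ∈ Finset.range l, ⟨_, htm a⟩ with hP
  have hPe : (P : LaurentSeries ℚbar) =
      qExpand ℚbar l ((heckeFun ℚbar (M * q) l f : X0F M q) : LaurentSeries ℚbar) := by
    rw [qExpand_heckeFun hl hlN u hu, hP, Subring.coe_mul, SubmonoidClass.coe_finsetProd]
  obtain ⟨hF, hred⟩ := exists_infRed_qExpand A (heckeFun ℚbar (M * q) l f) (hPe ▸ P.2)
  rw [Subst.gaussRed_congr A (residue A) (g := P) hPe.symm, hP, map_mul, map_prod, her] at hred
  simp only [htr] at hred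
  set k := ResidueField A
  set fb : LaurentSeries k := gaussRed A (residue A) y
  set w := infRed M q A ⟨_, hF⟩
  have hQ : qExpand k (l * l) fb ≠ 0 := (map_ne_zero_iff _ (RingHom.injective _)).2 hy0
  have hT : ∀ a ∈ Finset.range l, twist (ū ^ a) fb ≠ 0 :=
    fun a _ => (map_ne_zero_iff _ (RingHom.injective _)).2 hy0
  refine ⟨hF, fun h1 => ?_, fun n =>
    Subst.coeff_of_identity (natCast_residue_ne_zero A hA hl hlN) hū ?_ n⟩
  · rw [show w = 0 from h1, map_zero] at hred
    exact mul_ne_zero hQ (Finset.prod_ne_zero_iff.2 hT) hred.symm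
  · show _ • qExpand k l (Genus.eulerOp w / w) = _
    rw [← Subst.qExpand_div_eulerOp, hred, Subst.eulerOp_div_mul hQ (Finset.prod_ne_zero_iff.2 hT),
      Subst.eulerOp_div_prod _ _ hT, Subst.qExpand_div_eulerOp]
    simp only [Subst.twist_div_eulerOp]
    rfl

include hA in
/-- On derivatives of the first residue of `g ≡ 1` `heckeFun` is `T_l`. -/
theorem infRed_heckeFun_one_add (hl : l.Prime) (hlN : ¬ l ∣ M * q) {g : X0F M q}
    {c : ℚbar} (hc : c ∈ A.nonunits) (hc0 : c ≠ 0) (h : c⁻¹ • (g - 1) ∈ infV M q A) :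
    ∃ h' : c⁻¹ • (heckeFun ℚbar (M * q) l g - 1) ∈ infV M q A,
      IsHeckeImage l (Genus.eulerOp (infRed M q A ⟨_, h⟩))
        (Genus.eulerOp (infRed M q A ⟨_, h'⟩)) := by
  obtain ⟨uA, hu, hū⟩ := exists_root_unit A hl
  set u := Units.map (A.subtype : A →* ℚbar) uA with hu_def
  set ū := Units.map (residue A : A →* ResidueField A) uA with hū_def
  set b : X0F M q := c⁻¹ • (g - 1) with hb
  set y : gaussSubring A (residue A) := ⟨(b : LaurentSeries ℚbar), h⟩
  have hcA : c ∈ A := A.nonunits_subset hc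
  set C : gaussSubring A (residue A) :=
    ⟨_, Carayol.coeffMap_mem_gaussSubring (HahnSeries.single 0 (⟨c, hcA⟩ : A))⟩ with hC_def
  have hC : gaussRed A (residue A) C = 0 := by
    rw [hC_def, Carayol.gaussRed_coeffMap, coeffMap_single,
      show residue A ⟨c, hcA⟩ = 0 by
        rw [residue_eq_zero_iff, mem_maximalIdeal, mem_nonunits_iff]
        exact fun hu => ((ValuationSubring.mem_nonunits_iff A).1 hc).ne
          ((ValuationSubring.valuation_eq_one_iff A _).1 hu),
      map_zero]
  have hCe : (C : LaurentSeries ℚbar) = HahnSeries.C c := by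
    rw [hC_def]
    show coeffMap A.subtype _ = _
    rw [coeffMap_single, HahnSeries.C_apply]
    rfl
  have hsm : ∀ (r : ℚbar) (v : X0F M q), ((r • v : X0F M q) : LaurentSeries ℚbar) =
      HahnSeries.C r * (v : LaurentSeries ℚbar) := fun r v => by
    rw [Algebra.smul_def, IntermediateField.coe_mul, HahnSeries.C_apply]
    exact congrArg (· * _) (algebraMap_laurentSeries_eq_single ℚbar r)
  have hgb : (g : LaurentSeries ℚbar) = 1 + HahnSeries.C c * (b : LaurentSeries ℚbar) := by
    rw [hb, hsm, ← mul_assoc, ← map_mul, mul_inv_cancel₀ hc0, map_one, one_mul,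
      AddSubgroupClass.coe_sub, IntermediateField.coe_one, add_sub_cancel]
  obtain ⟨he, her⟩ := Subst.qExpand_gauss A (residue A) (l * l) y
  have htw : ∀ a : ℕ, ∃ h : twist (u ^ a) (b : LaurentSeries ℚbar) ∈ gaussSubring A (residue A),
      gaussRed A (residue A) ⟨_, h⟩ = twist (ū ^ a) (gaussRed A (residue A) y) := fun a => by
    rw [hu_def, hū_def, ← map_pow, ← map_pow]
    exact Subst.twist_gauss A (residue A) (uA ^ a) y
  choose htm htr using htw
  obtain ⟨z, hz, hzr⟩ := Subst.exists_prod_one_add A (residue A) hC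
    (Finset.insertNone (Finset.range l)) fun o => o.elim ⟨_, he⟩ fun a => ⟨_, htm a⟩
  rw [Finset.prod_insertNone] at hz
  rw [Finset.sum_insertNone] at hzr
  simp only [Option.elim_none, Option.elim_some, her, htr] at hzr
  have htC : ∀ v : ℚbarˣ, twist v (HahnSeries.C c) = HahnSeries.C c := fun v => by
    ext n
    rw [EichlerShimura.twist_coeff, HahnSeries.C_apply]
    rcases eq_or_ne n 0 with rfl | hn
    · simp
    · simp [HahnSeries.coeff_single_of_ne hn]
  set b' : X0F M q := c⁻¹ • (heckeFun ℚbar (M * q) l g - 1) with hb'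
  have hG : qExpand ℚbar l ((heckeFun ℚbar (M * q) l g : X0F M q) : LaurentSeries ℚbar) =
      1 + HahnSeries.C c * (z : LaurentSeries ℚbar) := by
    have hz' := congrArg Subtype.val hz
    simp only [Option.elim_none, Option.elim_some, Subring.coe_mul, SubmonoidClass.coe_finsetProd,
      Subring.coe_add, Subring.coe_one, hCe] at hz'
    rw [qExpand_heckeFun hl hlN u hu, hgb, map_add, map_one, map_mul, qExpand_C]
    simp only [map_add, map_one, map_mul, htC]
    exact hz'
  have hb'e : qExpand ℚbar l (b' : LaurentSeries ℚbar) = (z : LaurentSeries ℚbar) := by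
    rw [hb', hsm, AddSubgroupClass.coe_sub, IntermediateField.coe_one, map_mul, qExpand_C,
      map_sub, map_one, hG, add_sub_cancel_left, ← mul_assoc, ← map_mul, inv_mul_cancel₀ hc0,
      map_one, one_mul]
  obtain ⟨h', hred⟩ := exists_infRed_qExpand A b' (hb'e ▸ z.2)
  rw [Subst.gaussRed_congr A (residue A) (g := z) hb'e, hzr] at hred
  refine ⟨h', fun n => Subst.coeff_of_identity (natCast_residue_ne_zero A hA hl hlN) hū ?_ n⟩
  rw [← Subst.eulerOp_qExpand, hred, Genus.eulerOp_add, Subst.eulerOp_qExpand]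
  congr 1
  refine (map_sum (AddMonoidHom.mk' Genus.eulerOp Genus.eulerOp_add) _ _).trans ?_
  exact Finset.sum_congr rfl fun a _ => Subst.eulerOp_twist _ _

end Fermat.Agent.MazurPrinciple

end
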