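/-
Mazur's principle at `p`: below the threshold `p e / (p - 1)`, at a level divisible by `p`, the
residue of `κ φ ^ p - 1` (with `κ` constant) is a `p`-th power.
-/
import Fermat.Agent.MP.SecondCompare
import Mathlib.Algebra.CharP.Algebra
import Mathlib.Algebra.CharP.Lemmas

set_option autoImplicit false
set_option linter.style.haveILetI false

noncomputable section

namespace Fermat.Agent.MazurPrinciple

universe u v w x

namespace RedSystem

variable {F : Type u} [Field F] {π : F} {k : Type w} [Field k] {ι : Type x}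
  {Fb : ι → Type v} [∀ b, Field (Fb b)] [∀ b, Algebra k (Fb b)] (S : RedSystem F π k Fb)

/-- The leading residue of a constant is constant. -/
theorem const_lead {b : ι} {m : ℕ} {a : F} (ha : a ∈ S.Kc) {B : Fb b}
    (hB : (S.R b).Lead m a B) : ∃ c : k, B = algebraMap k (Fb b) c := by
  have hd : (S.R b).Lead 0 (a / π ^ m) B := by
    obtain ⟨y, rfl, hy⟩ := hB
    exact ⟨y, by rw [pow_zero, one_mul, mul_div_cancel_left₀ _ (pow_ne_zero m (S.R b).π_ne_zero)],
      hy⟩
  obtain ⟨c, hc⟩ := S.const_residue (a / π ^ m) (div_mem ha (pow_mem S.π_mem_Kc m)) b hd.div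
  exact ⟨c, hd.unique (hc b)⟩

/-- Below the threshold, at levels divisible by `p`, the residue of `κ φ ^ p - 1` is a `p`-th
power. -/
theorem exists_pow_of_lead [IsAlgClosed k] {p : ℕ} [CharP k p] (hp : p.Prime) {e : ℕ} {u0 : k}
    {b : ι} (hpe : (S.R b).Lead e (p : F) (algebraMap k (Fb b) u0))
    {i : ℕ} (hi : 0 < i) (hdvd : p ∣ i) (hth : (p - 1) * i < p * e)
    {κ φ : F} (hκ : κ ∈ S.Kc) {n : ℤ} {φ0 : Fb b} (hφ0 : φ0 ≠ 0)
    (hφ : (S.R b).Lead 0 (φ * π ^ (-n)) φ0) {B : Fb b}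
    (hB : (S.R b).Lead i (κ * φ ^ p - 1) B) : ∃ G : Fb b, B = G ^ p := by
  haveI : Fact p.Prime := ⟨hp⟩
  haveI : CharP (Fb b) p := charP_of_injective_algebraMap (algebraMap k (Fb b)).injective p
  obtain ⟨l, rfl⟩ := hdvd
  have hl : 0 < l := Nat.pos_of_mul_pos_left hi
  have hle : ∀ m, m ≤ l → p * m < e + m := fun m hm => by
    have h1 : (p - 1) * m < e := by
      have h2 : p * ((p - 1) * m) < p * e := by
        refine lt_of_le_of_lt ?_ hth
        rw [mul_left_comm]
        exact Nat.mul_le_mul_left _ (Nat.mul_le_mul_left _ hm)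
      exact Nat.lt_of_mul_lt_mul_left h2
    have h3 : p - 1 + 1 = p := Nat.succ_pred_eq_of_pos hp.pos
    calc p * m = (p - 1) * m + m := by rw [← Nat.succ_mul, ← h3]; rfl
      _ < e + m := by omega
  have hπ : π ≠ 0 := (S.R b).π_ne_zero
  set φ' := φ * π ^ (-n) with hφ'
  set κ' := κ * (π ^ n) ^ p with hκ'
  have hκ'mem : κ' ∈ S.Kc := mul_mem hκ (pow_mem (zpow_mem S.π_mem_Kc n) p)
  have hg : κ' * φ' ^ p = κ * φ ^ p := by
    rw [hκ', hφ', mul_pow, mul_assoc, mul_left_comm ((π ^ n) ^ p), ← mul_pow,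
      ← zpow_add₀ hπ, add_neg_cancel, zpow_zero, one_pow, mul_one]
  have hg1 : (S.R b).Lead 0 (κ' * φ' ^ p) 1 := by
    rw [hg]
    convert (hB.div.lead_zero hi).add (UnifRed.lead_one (R := S.R b)) using 1 <;> ring
  have hφne : φ' ≠ 0 := hφ.ne_zero hφ0
  have hκlead : (S.R b).Lead 0 κ' ((φ0 ^ p)⁻¹) := by
    have hp0 := hφ.pow p
    rw [Nat.zero_mul] at hp0
    have h := hg1.mul (hp0.inv (pow_ne_zero _ hφ0))
    rw [add_zero, one_mul] at h
    convert h using 1
    field_simp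
  obtain ⟨c, hc⟩ := S.const_lead hκ'mem hκlead
  obtain ⟨r, hr⟩ := IsAlgClosed.exists_pow_nat_eq c⁻¹ hp.pos
  have hrφ : φ0 = algebraMap k (Fb b) r := by
    refine frobenius_inj (Fb b) p ?_
    rw [frobenius_def, frobenius_def, ← map_pow, hr, map_inv₀, ← hc, inv_inv]
  have hr0 : r ≠ 0 := fun h => hφ0 (by rw [hrφ, h, map_zero])
  obtain ⟨ρ₀, hρ₀, hρ₀1⟩ := S.exists_const r
  -- successive approximation of `φ'` by constants
  have key : ∀ m : ℕ, 1 ≤ m → m ≤ l → ∃ ρ ∈ S.Kc, (S.R b).Lead 0 ρ φ0 ∧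
      (S.R b).Div m (φ' / ρ - 1) := by
    intro m
    induction m with
    | zero => intro h; omega
    | succ m ih =>
      intro _ hml
      rcases Nat.eq_zero_or_pos m with rfl | hm
      · refine ⟨ρ₀, hρ₀, hrφ ▸ hρ₀1 b, UnifRed.lead_zero_iff.1 ?_⟩
        have h := hφ.mul ((hrφ ▸ hρ₀1 b : (S.R b).Lead 0 ρ₀ φ0).inv hφ0)
        rw [add_zero, mul_inv_cancel₀ hφ0] at h
        have h' := h.sub UnifRed.lead_one
        rw [sub_self] at h'
        rwa [div_eq_mul_inv]
      obtain ⟨ρ, hρ, hρ1, hd⟩ := ih hm (by omega)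
      obtain ⟨X, hX⟩ := hd.exists_lead
      have hρne : ρ ≠ 0 := hρ1.ne_zero hφ0
      set z := φ' / ρ - 1 with hz
      set γ := κ' * ρ ^ p with hγ
      have hγmem : γ ∈ S.Kc := mul_mem hκ'mem (pow_mem hρ p)
      have hγ1 : (S.R b).Lead 0 γ 1 := by
        have h := hκlead.mul (hρ1.pow p)
        rwa [Nat.zero_mul, add_zero, inv_mul_cancel₀ (pow_ne_zero _ hφ0)] at h
      have hpow := UnifRed.lead_pow_sub_one hp hpe hm hX (p * m) le_rfl (hle m (by omega)).le
      rw [if_pos rfl, if_neg (hle m (by omega)).ne, add_zero] at hpow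
      have hbig : (S.R b).Lead (p * m) (κ * φ ^ p - 1) 0 :=
        hB.div.lead_zero (Nat.mul_lt_mul_of_pos_left (by omega) hp.pos)
      have hγlead : (S.R b).Lead (p * m) (γ - 1) (-X ^ p) := by
        have h0 := hγ1.mul hpow
        rw [zero_add, one_mul] at h0
        have h := hbig.sub h0
        rw [zero_sub] at h
        convert h using 1
        rw [← hg, hz, hγ]
        have : φ' = ρ * (1 + (φ' / ρ - 1)) := by field_simp; ring
        conv_rhs => enter [1, 1, 2, 1]; rw [this]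
        rw [mul_pow]
        ring
      obtain ⟨c', hc'⟩ := S.const_lead (sub_mem hγmem (one_mem _)) hγlead
      obtain ⟨x, hx⟩ := IsAlgClosed.exists_pow_nat_eq (-c') hp.pos
      have hXx : X = algebraMap k (Fb b) x := by
        refine frobenius_inj (Fb b) p ?_
        rw [frobenius_def, frobenius_def, ← map_pow, hx, map_neg, ← hc', neg_neg]
      obtain ⟨a, ha, ha1⟩ := S.exists_const_lead m x
      have h1a : (S.R b).Lead 0 (1 + a) 1 := by
        simpa using (UnifRed.lead_one (R := S.R b)).add ((ha1 b).div.lead_zero hm)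
      have h1ane : 1 + a ≠ 0 := h1a.ne_zero one_ne_zero
      refine ⟨ρ * (1 + a), mul_mem hρ (add_mem (one_mem _) ha), by simpa using hρ1.mul h1a,
        UnifRed.lead_zero_iff.1 ?_⟩
      have h := (hX.sub (hXx ▸ ha1 b : (S.R b).Lead m a X)).mul (h1a.inv one_ne_zero)
      rw [add_zero, sub_self, zero_mul] at h
      convert h using 1
      rw [hz]
      field_simp
      ring
  obtain ⟨ρ, hρ, hρ1, hd⟩ := key l hl le_rfl
  obtain ⟨X, hX⟩ := hd.exists_lead
  have hρne : ρ ≠ 0 := hρ1.ne_zero hφ0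
  have hγ1 : (S.R b).Lead 0 (κ' * ρ ^ p) 1 := by
    have h := hκlead.mul (hρ1.pow p)
    rwa [Nat.zero_mul, add_zero, inv_mul_cancel₀ (pow_ne_zero _ hφ0)] at h
  have hpow := UnifRed.lead_pow_sub_one hp hpe hl hX (p * l) le_rfl (hle l le_rfl).le
  rw [if_pos rfl, if_neg (hle l le_rfl).ne, add_zero] at hpow
  have hγlead : (S.R b).Lead (p * l) (κ' * ρ ^ p - 1) (B - X ^ p) := by
    have h := hγ1.mul hpow
    rw [zero_add, one_mul] at h
    convert hB.sub h using 1
    rw [← hg]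
    have : φ' = ρ * (1 + (φ' / ρ - 1)) := by field_simp; ring
    conv_rhs => enter [1, 1, 2, 1]; rw [this]
    rw [mul_pow]
    ring
  obtain ⟨c', hc'⟩ := S.const_lead (sub_mem (mul_mem hκ'mem (pow_mem hρ p)) (one_mem _)) hγlead
  obtain ⟨x, hx⟩ := IsAlgClosed.exists_pow_nat_eq c' hp.pos
  refine ⟨X + algebraMap k (Fb b) x, ?_⟩
  rw [add_pow_char, ← map_pow, hx, ← hc', add_sub_cancel]

end RedSystem

end Fermat.Agent.MazurPrinciple

end
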