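/-
Mazur's principle at `p`: the reductions of the function of an eigen torsion class give mod `p`
eigen differentials on `X₀(M)`, so either they are `p`-th powers or `W` is residually modular of
level `M`.
-/
import Fermat.Agent.MazurPrinciple.DiffResidue
import Fermat.Agent.MazurPrinciple.EigenModP
import Fermat.Agent.MazurPrinciple.HeckeBasic
import Fermat.Agent.MazurPrinciple.HeckeSeries
import Fermat.Agent.MazurPrinciple.Intrinsic
import Fermat.Agent.MazurPrinciple.X0Descent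
import Fermat.Agent.MP.SecondComponentBridge
import Fermat.Agent.Mazur.LocalRank
import Fermat.Prelude.Def_FLTPrelim_ModularRep

set_option autoImplicit false
set_option linter.style.haveILetI false
set_option synthInstance.maxHeartbeats 200000

noncomputable section

namespace Fermat.Agent.MazurPrinciple

open ModularCurve AlgebraicCurve IsLocalRing
open Fermat.Agent.BadReduction Fermat.Agent.HeckeJ

local notation "ℚbar" => AlgebraicClosure ℚ
local notation "Γℚ" => AlgebraicClosure ℚ ≃ₐ[ℚ] AlgebraicClosure ℚ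

section Series

variable {k : Type*} [Field k]

theorem logTheta_mul {f g : LaurentSeries k} (hf : f ≠ 0) (hg : g ≠ 0) :
    logTheta (f * g) = logTheta f + logTheta g := by
  rw [logTheta, logTheta, logTheta, Genus.eulerOp_mul]
  field_simp

theorem logTheta_pow {f : LaurentSeries k} (hf : f ≠ 0) (n : ℕ) :
    logTheta (f ^ n) = n • logTheta f := by
  induction n with
  | zero =>
    rw [pow_zero, zero_smul, logTheta, ← HahnSeries.single_zero_one, Genus.eulerOp_single]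
    simp
  | succ n ih => rw [pow_succ, logTheta_mul (pow_ne_zero _ hf) hf, ih, succ_nsmul]

theorem logTheta_single_zero (c : k) : logTheta (HahnSeries.single (0 : ℤ) c) = 0 := by
  rw [logTheta, Genus.eulerOp_single]
  simp

theorem nsmul_char_eq_zero (q : ℕ) [CharP k q] (f : LaurentSeries k) : q • f = 0 := by
  ext n
  rw [HahnSeries.coeff_smul, ← Nat.cast_smul_eq_nsmul k, CharP.cast_eq_zero, zero_smul]
  rfl

theorem eulerOp_eq_mul_logTheta {f : LaurentSeries k} (hf : f ≠ 0) :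
    Genus.eulerOp f = f * logTheta f := by
  rw [logTheta, mul_div_cancel₀ _ hf]

theorem eulerOp_pow_char (q : ℕ) [CharP k q] (f : LaurentSeries k) (hq : q ≠ 0) :
    Genus.eulerOp (f ^ q) = 0 := by
  rcases eq_or_ne f 0 with rfl | hf
  · rw [zero_pow hq]; ext n; simp
  · rw [eulerOp_eq_mul_logTheta (pow_ne_zero _ hf), logTheta_pow hf, nsmul_char_eq_zero, mul_zero]

theorem eulerOp_sub (f g : LaurentSeries k) :
    Genus.eulerOp (f - g) = Genus.eulerOp f - Genus.eulerOp g := by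
  ext n; simp [mul_sub]

theorem eulerOp_nsmul (n : ℕ) (f : LaurentSeries k) :
    Genus.eulerOp (n • f) = n • Genus.eulerOp f := by
  induction n with
  | zero => ext m; simp
  | succ n ih => rw [succ_nsmul, succ_nsmul, Genus.eulerOp_add, ih]

theorem nsmul_eq_zsmul_of_cast_eq {q n : ℕ} {a : ℤ} [CharP k q] (h : (n : ZMod q) = a)
    (f : LaurentSeries k) : n • f = a • f := by
  ext m
  rw [HahnSeries.coeff_smul, HahnSeries.coeff_smul, ← Nat.cast_smul_eq_nsmul k,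
    ← Int.cast_smul_eq_zsmul k]
  congr 1
  have := congrArg (ZMod.castHom dvd_rfl k) h
  rwa [map_natCast, map_intCast] at this

end Series

variable (W : WeierstrassCurve ℤ) {M q : ℕ} [NeZero M] [hq : Fact q.Prime]

local instance neZero_prime_eigenStep : NeZero q := ⟨hq.out.ne_zero⟩

/-- The relations satisfied by the function of an eigen class. -/
def HeckeRel (H : Subgroup Γℚ) (f : X0F M q) : Prop :=
  ∀ (l : ℕ) [NeZero l], l.Prime → ¬ l ∣ M * q → W.IsGoodPrimeFor l →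
    ∃ (c : ℚbar) (n : ℕ) (g : X0F M q), c ≠ 0 ∧ IsFixedBy H c ∧ g ∈ fixedFun H M q ∧ g ≠ 0 ∧
      (g : LaurentSeries ℚbar).leadingCoeff = 1 ∧ (n : ZMod q) = W.apOfModel l ∧
      heckeFun ℚbar (M * q) l f = algebraMap ℚbar (X0F M q) c * (f ^ n * g ^ q)

variable (hqM : ¬ q ∣ M) {A : ValuationSubring ℚbar} (hA : A.LiesOverPrime q)

include hqM hA in
/-- A non-zero regular differential modulo `q` on `X₀(M)` with the eigenvalues of `W` gives
residual modularity of level `M`. -/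
theorem isResiduallyModularOfLevel_of_diff (φ : X0Res M A)
    (hφ : IsRegularDiff (ResidueField A) φ (jRes M A)) (hne : diffSeriesRes φ ≠ 0)
    (heig : ∀ l : ℕ, l.Prime → ¬ l ∣ M * q → W.IsGoodPrimeFor l →
      IsHeckeImage l (diffSeriesRes φ) (W.apOfModel l • diffSeriesRes φ)) :
    W.IsResiduallyModularOfLevel q M := by
  haveI := charP_residueField A hq.out hA
  obtain ⟨hneg, m, c, g, hg, hcomb⟩ := exists_comb_of_isRegularDiff hqM A hA φ hφ
  have hne' : ∃ (n : ℕ) (z : Fin m → ℤ), (∀ i, ModularFormClass.qCoeff (g i) n = z i) ∧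
      ∑ i, c i * (z i : ResidueField A) ≠ 0 := by
    obtain ⟨j, hj⟩ : ∃ j : ℤ, (diffSeriesRes φ).coeff j ≠ 0 := by
      by_contra hcon
      push Not at hcon
      exact hne (HahnSeries.ext (funext hcon))
    obtain ⟨n, rfl⟩ : ∃ n : ℕ, j = n := by
      rcases le_or_gt j 0 with h | h
      · exact absurd (hneg j h) hj
      · exact ⟨j.toNat, (Int.toNat_of_nonneg h.le).symm⟩
    choose z hz using fun i => Eigen.intLattice_le_intCoeff (g i) (hg i) n
    exact ⟨n, z, hz, hcomb n z hz ▸ hj⟩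
  obtain ⟨f, hf, 𝔪, h𝔪, hp, hcong⟩ := exists_eigenform_of_comb
    {l : ℕ | l = q ∨ ¬ W.IsGoodPrimeFor l} W.apOfModel c g hg hne'
    (fun l hl hlM hlS n u v w hu hv hw => by
      simp only [Set.mem_setOf_eq, not_or, not_not] at hlS
      have hlN : ¬ l ∣ M * q := fun h => (hl.dvd_mul.1 h).elim hlM
        fun h => hlS.1 ((Nat.prime_dvd_prime_iff_eq hl hq.out).1 h)
      have h := heig l hl hlN hlS.2 n
      rw [HahnSeries.coeff_smul, zsmul_eq_mul, ← Nat.cast_mul, hcomb _ u hu, hcomb n w hw] at h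
      rw [h]
      congr 1
      by_cases hd : l ∣ n
      · rw [if_pos hd, if_pos (Int.natCast_dvd_natCast.2 hd), ← Int.natCast_div, hcomb _ v hv]
      · rw [if_neg hd, if_neg (fun h => hd (Int.natCast_dvd_natCast.1 h))])
  exact ⟨f, 𝔪, hf, h𝔪, hp, fun l hl hgood hlM hlq =>
    hcong l hl hlM (by simp [hlq, hgood])⟩

/-- The component `i` read at `∞`. -/
def toInf : Fin 2 → (X0F M q →ₐ[ℚbar] X0F M q)
  | 0 => AlgHom.id _ _
  | 1 => (atkinLehner hqM).toAlgHom

theorem mem_compV_iff_toInf : ∀ (i : Fin 2) (z : X0F M q),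
    z ∈ compV hqM A i ↔ toInf hqM i z ∈ infV M q A
  | 0, _ => Iff.rfl
  | 1, _ => Iff.rfl

theorem coe_compPhi_toInf : ∀ (i : Fin 2) (z : compV hqM A i),
    (compPhi hqM A hA i z : LaurentSeries (ResidueField A)) =
      infRed M q A ⟨toInf hqM i z, (mem_compV_iff_toInf hqM i _).1 z.2⟩
  | 0, _ => rfl
  | 1, _ => rfl

theorem toInf_smul : ∀ (i : Fin 2) (c : ℚbar) (z : X0F M q),
    toInf hqM i (c • z) = c • toInf hqM i z
  | 0, _, _ => rfl
  | 1, c, z => atkinLehner_smul hqM c z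

theorem toInf_heckeFun {l : ℕ} [NeZero l] (hl : l.Prime) (hlN : ¬ l ∣ M * q) :
    ∀ (i : Fin 2) (z : X0F M q),
      heckeFun ℚbar (M * q) l (toInf hqM i z) = toInf hqM i (heckeFun ℚbar (M * q) l z)
  | 0, _ => rfl
  | 1, z => heckeFun_atkinLehner hqM hl hlN z

variable {H : Subgroup Γℚ} (hH : H ≤ A.inertiaSubgroupIn ℚ) (U : Uniformiser A q H)

local notation "𝒟" => x0Descent hqM hA hH U

/-- The image of a fixed function under `heckeFun`. -/
def heckeF0 (l : ℕ) [NeZero l] (z : (𝒟).F0) : (𝒟).F0 :=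
  ⟨heckeFun ℚbar (M * q) l (z : X0F M q), heckeFun_mem_fixedFun z.2⟩

theorem coe_heckeF0 (l : ℕ) [NeZero l] (z : (𝒟).F0) :
    ((heckeF0 hqM hA hH U l z : (𝒟).F0) : X0F M q) = heckeFun ℚbar (M * q) l (z : X0F M q) := rfl

theorem lead_zero_iff_toInf {i : Fin 2} {z : (𝒟).F0} {B : X0Res M A} :
    ((𝒟).redSystem.R i).Lead 0 z B ↔ ∃ h : toInf hqM i (z : X0F M q) ∈ infV M q A,
      infRed M q A ⟨_, h⟩ = (B : LaurentSeries (ResidueField A)) := by
  refine (𝒟).lead_zero_iff.trans ⟨fun ⟨h, hB⟩ => ⟨(mem_compV_iff_toInf hqM i _).1 h, ?_⟩,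
    fun ⟨h, hB⟩ => ⟨(mem_compV_iff_toInf hqM i _).2 h, Subtype.ext ?_⟩⟩
  · rw [← hB]; exact (coe_compPhi_toInf hqM hA i ⟨_, h⟩).symm
  · rw [← hB]; exact coe_compPhi_toInf hqM hA i _

/-- `heckeFun` on non-zero reductions is `T_l` on `θ log`. -/
theorem lead_heckeF0 {l : ℕ} [NeZero l] (hl : l.Prime) (hlN : ¬ l ∣ M * q) {i : Fin 2}
    {z : (𝒟).F0} {B : X0Res M A} (h : ((𝒟).redSystem.R i).Lead 0 z B) (hB : B ≠ 0) :
    ∃ B' : X0Res M A, B' ≠ 0 ∧
      ((𝒟).redSystem.R i).Lead 0 (heckeF0 hqM hA hH U l z) B' ∧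
      IsHeckeImage l (logTheta (B : LaurentSeries (ResidueField A)))
        (logTheta (B' : LaurentSeries (ResidueField A))) := by
  obtain ⟨hz, hzB⟩ := (lead_zero_iff_toInf hqM hA hH U).1 h
  obtain ⟨hz', hne, himg⟩ := infRed_heckeFun A hA hl hlN hz
    (by rw [hzB]; exact fun h0 => hB (Subtype.ext h0))
  have hmem : heckeFun ℚbar (M * q) l (z : X0F M q) ∈ compV hqM A i := by
    rw [mem_compV_iff_toInf, ← toInf_heckeFun hqM hl hlN]; exact hz'
  have e : (compPhi hqM A hA i ⟨_, hmem⟩ : LaurentSeries (ResidueField A)) =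
      infRed M q A ⟨_, hz'⟩ := by
    rw [coe_compPhi_toInf]
    exact congrArg _ (Subtype.ext (toInf_heckeFun hqM hl hlN i _).symm)
  refine ⟨compPhi hqM A hA i ⟨_, hmem⟩, fun h0 => hne ?_,
    (𝒟).lead_zero_iff.2 ⟨hmem, rfl⟩, ?_⟩
  · rw [← e, h0]; rfl
  · rw [e, ← hzB]; exact himg

/-- The reduction of a constant times a `q`-th power is one. -/
theorem exists_const_mul_pow_of_lead {i : Fin 2} {C φ : (𝒟).F0} (hC : C ∈ (𝒟).redSystem.Kc)
    (hφ : φ ≠ 0) {B : X0Res M A} (h : ((𝒟).redSystem.R i).Lead 0 (C * φ ^ q) B) :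
    ∃ (c : ResidueField A) (G : X0Res M A), G ≠ 0 ∧
      B = algebraMap (ResidueField A) (X0Res M A) c * G ^ q := by
  obtain ⟨n, ψ, hψ⟩ := Move.exists_hasVal (D := 𝒟) (Mazur.rankLeOne_of_liesOverPrime hq.out hA)
    φ.2 (fun h0 => hφ (Subtype.ext h0))
  have h0 := (Move.HasVal.lead hψ i).pow q
  rw [Nat.zero_mul] at h0
  have hπ : (𝒟).πF ≠ 0 := ((𝒟).redSystem.R i).π_ne_zero
  have h1 := h.mul (h0.inv (pow_ne_zero _ (hψ.ne_zero i)))
  rw [add_zero] at h1
  have hC' : C * φ ^ q * ((φ * (𝒟).πF ^ (-n i)) ^ q)⁻¹ = C * ((𝒟).πF ^ (n i)) ^ q := by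
    rw [mul_pow, zpow_neg, inv_pow]
    field_simp
  rw [hC'] at h1
  obtain ⟨c, hc⟩ := (𝒟).redSystem.const_lead
    (mul_mem hC (pow_mem (zpow_mem (𝒟).redSystem.π_mem_Kc _) _)) h1
  exact ⟨c, ψ i, hψ.ne_zero i, by rw [← hc, inv_mul_cancel_right₀ (pow_ne_zero _ (hψ.ne_zero i))]⟩

theorem exists_heckeFun_const (l : ℕ) [NeZero l] {a : (𝒟).F0} (ha : a ∈ (𝒟).redSystem.Kc) :
    heckeF0 hqM hA hH U l a ∈ (𝒟).redSystem.Kc := by
  obtain ⟨a, rfl⟩ := ha
  obtain ⟨e, he⟩ := heckeFun_map_const (N := M * q) (l := l) (a : ℚbar)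
  refine ⟨a ^ e, Subtype.ext ?_⟩
  rw [map_pow, SubmonoidClass.coe_pow, coe_heckeF0]
  exact he.symm

theorem heckeF0_mul (l : ℕ) [NeZero l] (a b : (𝒟).F0) :
    heckeF0 hqM hA hH U l (a * b) = heckeF0 hqM hA hH U l a * heckeF0 hqM hA hH U l b :=
  Subtype.ext (heckeFun_map_mul _ _)

theorem heckeF0_pow (l : ℕ) [NeZero l] (a : (𝒟).F0) (n : ℕ) :
    heckeF0 hqM hA hH U l (a ^ n) = heckeF0 hqM hA hH U l a ^ n :=
  Subtype.ext (heckeFun_map_pow _ _)

theorem heckeF0_ne_zero (l : ℕ) [NeZero l] {a : (𝒟).F0} (ha : a ≠ 0) :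
    heckeF0 hqM hA hH U l a ≠ 0 := fun h =>
  heckeFun_ne_zero ℚbar (M * q) l (fun h0 => ha (Subtype.ext h0)) (congrArg Subtype.val h)

/-- The relation inside the fixed functions. -/
theorem exists_rel_F0 {f : (𝒟).F0} (hrel : HeckeRel W H (f : X0F M q)) (l : ℕ) [NeZero l]
    (hl : l.Prime) (hlN : ¬ l ∣ M * q) (hgood : W.IsGoodPrimeFor l) :
    ∃ (C : (𝒟).F0) (n : ℕ) (g : (𝒟).F0), C ∈ (𝒟).redSystem.Kc ∧ g ≠ 0 ∧
      (n : ZMod q) = W.apOfModel l ∧ heckeF0 hqM hA hH U l f = C * (f ^ n * g ^ q) := by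
  obtain ⟨c, n, g, -, hc, hg, hg0, -, hn, e⟩ := hrel l hl hlN hgood
  exact ⟨(𝒟).constHom ⟨c, hc⟩, n, ⟨g, hg⟩, ⟨_, rfl⟩, fun h => hg0 (congrArg Subtype.val h), hn,
    Subtype.ext e⟩

variable (hnot : ¬ W.IsResiduallyModularOfLevel q M) {f : (x0Descent hqM hA hH U).F0}
  (hrel : HeckeRel W H (f : X0F M q))

include hnot hrel in
/-- The reductions of `f` are `q`-th powers when `q` divides their orders. -/
theorem exists_pow_of_hasVal {n : Fin 2 → ℤ} {φ : Fin 2 → X0Res M A}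
    (hval : Move.HasVal (𝒟) (f : X0F M q) n φ)
    (hord : ∀ (i : Fin 2) (v : Place (ResidueField A) (X0Res M A)), (q : ℤ) ∣ v.ord (φ i))
    (i : Fin 2) : ∃ G : X0Res M A, φ i = G ^ q := by
  haveI := charP_residueField A hq.out hA
  have hφ0 : φ i ≠ 0 := hval.ne_zero i
  have hφ0' : (φ i : LaurentSeries (ResidueField A)) ≠ 0 := fun h => hφ0 (Subtype.ext h)
  obtain ⟨ω, hω, hωser⟩ := exists_logDiff_of_dvd_ord hqM A hA (φ i) hφ0 (hord i)
  change _ = logTheta _ at hωser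
  refine exists_eq_pow_of_eulerOp_eq_zero hqM A hA (φ i) ?_
  rw [eulerOp_eq_mul_logTheta hφ0', ← hωser]
  by_cases hne : diffSeriesRes ω = 0
  · rw [hne, mul_zero]
  exfalso
  refine hnot (isResiduallyModularOfLevel_of_diff W hqM hA ω hω hne fun l hl hlN hgood => ?_)
  haveI : NeZero l := ⟨hl.ne_zero⟩
  obtain ⟨C, m, g, hC, hg, hm, e⟩ := exists_rel_F0 W hqM hA hH U hrel l hl hlN hgood
  set z : (𝒟).F0 := f * (𝒟).πF ^ (-n i) with hz
  have hlead : ((𝒟).redSystem.R i).Lead 0 z (φ i) := Move.HasVal.lead hval i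
  obtain ⟨B', hB'0, hB', himg⟩ := lead_heckeF0 hqM hA hH U hl hlN hlead hφ0
  set C' := C * heckeF0 hqM hA hH U l ((𝒟).πF ^ (-n i)) * ((𝒟).πF ^ (n i)) ^ m with hC'
  have hπ : (𝒟).πF ≠ 0 := ((𝒟).redSystem.R i).π_ne_zero
  have hC'mem : C' ∈ (𝒟).redSystem.Kc :=
    mul_mem (mul_mem hC (exists_heckeFun_const hqM hA hH U l
      (zpow_mem (𝒟).redSystem.π_mem_Kc _))) (pow_mem (zpow_mem (𝒟).redSystem.π_mem_Kc _) _)
  have hzm := hlead.pow m
  rw [Nat.zero_mul] at hzm
  have hR : ((𝒟).redSystem.R i).Lead 0 (C' * g ^ q) (B' * (φ i ^ m)⁻¹) := by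
    have h1 := hB'.mul (hzm.inv (pow_ne_zero _ hφ0))
    rw [add_zero] at h1
    have hf0 : f ≠ 0 := left_ne_zero_of_mul (hlead.ne_zero hφ0)
    convert h1 using 1
    rw [hz, heckeF0_mul, e, hC', mul_pow, mul_inv, ← inv_pow ((𝒟).πF ^ (-n i)), zpow_neg,
      inv_inv]
    field_simp
  obtain ⟨c, G, hG, eR⟩ := exists_const_mul_pow_of_lead hqM hA hH U hC'mem hg hR
  have eB : B' = algebraMap (ResidueField A) (X0Res M A) c * G ^ q * φ i ^ m := by
    rw [← eR, inv_mul_cancel_right₀ (pow_ne_zero _ hφ0)]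
  have hc0 : c ≠ 0 := by
    rintro rfl
    exact hB'0 (by rw [eB, map_zero, zero_mul, zero_mul])
  have hG' : (G : LaurentSeries (ResidueField A)) ≠ 0 := fun h => hG (Subtype.ext h)
  have key : logTheta (B' : LaurentSeries (ResidueField A)) =
      W.apOfModel l • logTheta (φ i : LaurentSeries (ResidueField A)) := by
    have hser : (B' : LaurentSeries (ResidueField A)) = HahnSeries.single (0 : ℤ) c *
        (G : LaurentSeries (ResidueField A)) ^ q * (φ i : LaurentSeries (ResidueField A)) ^ m := by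
      rw [eB, ← algebraMap_laurentSeries_eq_single]
      rfl
    have hs : HahnSeries.single (0 : ℤ) c ≠ 0 := by simpa using hc0
    rw [hser, logTheta_mul (mul_ne_zero hs (pow_ne_zero _ hG')) (pow_ne_zero _ hφ0'),
      logTheta_mul hs (pow_ne_zero _ hG'), logTheta_single_zero, logTheta_pow hG',
      nsmul_char_eq_zero, add_zero, zero_add, logTheta_pow hφ0',
      nsmul_eq_zsmul_of_cast_eq hm]
  rw [hωser, ← key]
  exact himg

include hnot hrel in
/-- The residues of `κ ψ ^ q f - 1` below the threshold are exact. -/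
theorem rootExact_x0 {e : ℕ} {u0 : ResidueField A}
    (hpe : ∀ b, ((𝒟).redSystem.R b).Lead e (q : (𝒟).F0)
      (algebraMap (ResidueField A) (X0Res M A) u0)) :
    Move.RootExact (𝒟) q e f := by
  haveI := charP_residueField A hq.out hA
  haveI := (x0Reduction hqM A hA).isAlgClosed_residue
  intro i hi hth hdvd κ hκ ψ hψ B hB hreg b
  obtain ⟨ω, hω, hωser⟩ := exists_diff_of_regular_mod_pow hqM A hA (B b) (hreg b)
  refine exists_eq_pow_of_eulerOp_eq_zero hqM A hA (B b) ?_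
  rw [← hωser]
  by_contra hne
  refine hnot (isResiduallyModularOfLevel_of_diff W hqM hA ω hω hne fun l hl hlN hgood => ?_)
  haveI : NeZero l := ⟨hl.ne_zero⟩
  obtain ⟨C, m, g, hC, hg, hm, e'⟩ := exists_rel_F0 W hqM hA hH U hrel l hl hlN hgood
  set G : (𝒟).F0 := κ * ψ ^ q * f with hG
  have hGlead : ((𝒟).redSystem.R b).Lead i (G - 1) (B b) := hB b
  have hG1 : ((𝒟).redSystem.R b).Lead 0 G 1 := by
    simpa using (hGlead.div.lead_zero hi).add
      (UnifRed.lead_one (R := (𝒟).redSystem.R b))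
  have hGne : G ≠ 0 := hG1.ne_zero one_ne_zero
  have hκ0 : κ ≠ 0 := left_ne_zero_of_mul (left_ne_zero_of_mul hGne)
  -- the first residue of `heckeFun G`
  obtain ⟨y, hy, hyB⟩ := hGlead
  have hπi : (U.π ^ i : ℚbar) ≠ 0 := pow_ne_zero _ U.ne_zero
  have hπn : (U.π ^ i : ℚbar) ∈ A.nonunits := by
    rw [A.mem_nonunits_iff, map_pow]
    exact pow_lt_one₀ zero_le ((A.mem_nonunits_iff).1 U.mem_nonunits) hi.ne'
  have hyeq : toInf hqM b ((y : (𝒟).F0) : X0F M q) =
      (U.π ^ i)⁻¹ • (toInf hqM b (G : X0F M q) - 1) := by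
    rw [← map_one (toInf hqM b), ← map_sub, ← toInf_smul]
    congr 1
    have e1 : (G : X0F M q) - 1 = algebraMap ℚbar (X0F M q) (U.π ^ i) * ((y : (𝒟).F0) : X0F M q) := by
      rw [map_pow]
      exact congrArg Subtype.val hy
    rw [e1, ← Algebra.smul_def, inv_smul_smul₀ hπi]
  have hymem : (U.π ^ i)⁻¹ • (toInf hqM b (G : X0F M q) - 1) ∈ infV M q A :=
    hyeq ▸ (mem_compV_iff_toInf hqM b _).1 y.2
  obtain ⟨hmem', himg⟩ := infRed_heckeFun_one_add A hA hl hlN hπn hπi hymem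
  let y' : X0F M q := (U.π ^ i)⁻¹ • ((heckeF0 hqM hA hH U l G : X0F M q) - 1)
  have hy'fix : y' ∈ (𝒟).F0 := (𝒟).smul_mem (inv_mem (pow_mem (𝒟).ϖ_mem i))
    (sub_mem (SetLike.coe_mem _) (one_mem _))
  have hy'eq : toInf hqM b y' =
      (U.π ^ i)⁻¹ • (heckeFun ℚbar (M * q) l (toInf hqM b (G : X0F M q)) - 1) := by
    rw [toInf_smul, map_sub, map_one, coe_heckeF0, toInf_heckeFun hqM hl hlN]
  have hy'V : y' ∈ compV hqM A b := by rw [mem_compV_iff_toInf, hy'eq]; exact hmem'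
  set B' : X0Res M A := compPhi hqM A hA b ⟨y', hy'V⟩ with hB'
  have hH' : ((𝒟).redSystem.R b).Lead i (heckeF0 hqM hA hH U l G - 1) B' := by
    refine ⟨⟨⟨y', hy'fix⟩, hy'V⟩, Subtype.ext ?_, rfl⟩
    show (heckeF0 hqM hA hH U l G : X0F M q) - 1 =
      algebraMap ℚbar (X0F M q) U.π ^ i * y'
    rw [← map_pow, ← Algebra.smul_def, smul_inv_smul₀ hπi]
  -- compare with `G ^ m`
  have hGm : ((𝒟).redSystem.R b).Lead i (G ^ m - 1) ((m : X0Res M A) * B b) :=
    (hB b).sub_one_pow hi m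
  have hGm1 := hG1.pow m
  rw [Nat.zero_mul, one_pow] at hGm1
  have hdiff := (hH'.sub hGm).mul (hGm1.inv one_ne_zero)
  rw [add_zero, inv_one, mul_one] at hdiff
  set φ := heckeF0 hqM hA hH U l ψ * g * (ψ ^ m)⁻¹ with hφ
  have hφ0 : φ ≠ 0 :=
    mul_ne_zero (mul_ne_zero (heckeF0_ne_zero hqM hA hH U l hψ) hg)
      (inv_ne_zero (pow_ne_zero _ hψ))
  have hkey : (heckeF0 hqM hA hH U l G - 1 - (G ^ m - 1)) * (G ^ m)⁻¹ =
      heckeF0 hqM hA hH U l κ * C * (κ ^ m)⁻¹ * φ ^ q - 1 := by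
    rw [sub_sub_sub_cancel_right, sub_mul, mul_inv_cancel₀ (pow_ne_zero _ hGne), hG, heckeF0_mul,
      heckeF0_mul, heckeF0_pow, e', hφ]
    have hf0 : f ≠ 0 := right_ne_zero_of_mul hGne
    have hκm := pow_ne_zero m hκ0
    simp only [mul_pow, inv_pow, ← pow_mul, mul_comm q m]
    field_simp
  rw [hkey] at hdiff
  obtain ⟨n, φ₀, hφ₀⟩ := Move.exists_hasVal (D := 𝒟)
    (Mazur.rankLeOne_of_liesOverPrime hq.out hA) φ.2 (fun h0 => hφ0 (Subtype.ext h0))
  obtain ⟨G', hG'⟩ := (𝒟).redSystem.exists_pow_of_lead hq.out (hpe b) hi hdvd hth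
    (mul_mem (mul_mem (exists_heckeFun_const hqM hA hH U l hκ) hC)
      (inv_mem (pow_mem hκ m))) (hφ₀.ne_zero b) (Move.HasVal.lead hφ₀ b) hdiff
  have hθ : Genus.eulerOp (B' : LaurentSeries (ResidueField A)) =
      W.apOfModel l • Genus.eulerOp (B b : LaurentSeries (ResidueField A)) := by
    have h1 : (B' : LaurentSeries (ResidueField A)) -
        m • (B b : LaurentSeries (ResidueField A)) =
        (G' : LaurentSeries (ResidueField A)) ^ q := by
      rw [nsmul_eq_mul]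
      exact congrArg Subtype.val hG'
    have h2 := congrArg Genus.eulerOp h1
    rw [eulerOp_sub, eulerOp_nsmul, eulerOp_pow_char q _ hq.out.ne_zero, sub_eq_zero] at h2
    rw [h2, nsmul_eq_zsmul_of_cast_eq hm]
  rw [hωser, ← hθ]
  have e2 : (B b : LaurentSeries (ResidueField A)) = infRed M q A ⟨_, hymem⟩ := by
    rw [← hyB]
    refine (coe_compPhi_toInf hqM hA b ⟨_, y.2⟩).trans ?_
    exact congrArg _ (Subtype.ext hyeq)
  have e3 : (B' : LaurentSeries (ResidueField A)) = infRed M q A ⟨_, hmem'⟩ := by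
    rw [hB', coe_compPhi_toInf]
    exact congrArg _ (Subtype.ext hy'eq)
  rw [e2, e3]
  exact himg

end Fermat.Agent.MazurPrinciple

end
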