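/-
Mazur's principle: `E[p]` embeds Galois-equivariantly in the Hecke eigen classes of `J₀(N)[p]`
when `E` is residually modular of level `N`.
-/
import Fermat.Agent.MazurPrinciple.Constituent
import Fermat.Agent.MazurPrinciple.LocalData
import Fermat.Agent.GaloisMod.Main
import Fermat.Agent.CondLevel.Curve
import Fermat.Agent.Density.Main
import Fermat.Prelude.Def_FLTPrelim_ModularRep

set_option autoImplicit false

noncomputable section

namespace Fermat.Agent.MazurPrinciple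

open ModularCurve GaloisAdic GaloisMod CongruenceSubgroup
open scoped WeierstrassCurve.Affine

local notation "ℚbar" => AlgebraicClosure ℚ
local notation "Γℚ" => AlgebraicClosure ℚ ≃ₐ[ℚ] AlgebraicClosure ℚ

variable {W : WeierstrassCurve ℤ} {p N : ℕ} [NeZero N]

theorem modRep_apply (σ : Γℚ)
    (v : Submodule.torsionBy ℤ ((W.map (Int.castRingHom ℚ))⁄ℚbar).Point p) :
    modRep W p σ v = σ • v := rfl

/-- `E[p]` has an element of trace zero (complex conjugation). -/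
theorem exists_trace_modRep_eq_zero (hΔ : W.Δ ≠ 0) [Fact p.Prime] (hp2 : p ≠ 2) :
    ∃ c : Γℚ, LinearMap.trace (ZMod p) _ (modRep W p c) = 0 := by
  have := CondLevel.isElliptic_baseChange hΔ
  obtain ⟨b⟩ := CondLevel.exists_torsBasis hΔ (Fact.out (p := p.Prime)).ne_zero
  have := Module.Finite.of_basis b
  have hV : Module.finrank (ZMod p) (CondLevel.Tors W p) = 2 := by
    rw [Module.finrank_eq_card_basis b, Fintype.card_fin]
  obtain ⟨c, hcc, hc1⟩ := CondLevel.exists_involution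
  refine ⟨c, ?_⟩
  have h := sq_sub_trace_smul_add_det hV (CondLevel.torsRep W p c)
  rw [CondLevel.det_torsRep_involution hΔ hp2 c hcc hc1,
    show CondLevel.torsRep W p c * CondLevel.torsRep W p c = 1 by rw [← map_mul, hcc, map_one],
    neg_one_smul, sub_add_eq_add_sub, add_neg_cancel, zero_sub, neg_eq_zero] at h
  rcases smul_eq_zero.1 h with h0 | h0
  · exact h0
  · exfalso
    have h1 : CondLevel.torsRep W p c * CondLevel.torsRep W p c = 1 := by rw [← map_mul, hcc, map_one]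
    rw [h0, mul_zero] at h1
    have : Nontrivial (CondLevel.Tors W p) := Module.nontrivial_of_finrank_eq_succ (n := 1) hV
    exact zero_ne_one h1

/-- The embedding, from a Galois stable group of eigen classes. -/
theorem exists_embedding_of_eigen [Fact p.Prime] [NeZero p] (hΔ : W.Δ ≠ 0) (hp : p.Prime)
    (hp2 : p ≠ 2) (hirr : W.ModRepIsIrreducible p) (X : AddSubgroup (JTors N p)) [Nontrivial X]
    [Module (ZMod p) X] (hst : ∀ (σ : Γℚ) (x : JTors N p), x ∈ X → galTors σ x ∈ X)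
    (heig : ∀ (x : X) (ℓ : ℕ) (hℓ : ℓ.Prime), ¬ ℓ ∣ N → ℓ ≠ p → W.IsGoodPrimeFor ℓ →
      heckeOperatorBar N ⟨ℓ, hℓ⟩ x.1.pt = W.apOfModel ℓ • x.1.pt) :
    ∃ f : Submodule.torsionBy ℤ ((W.map (Int.castRingHom ℚ))⁄ℚbar).Point p →+ JZero N,
      Function.Injective f ∧ (∀ (σ : Γℚ) v, f (modRep W p σ v) = σ • f v) ∧
      ∀ v (ℓ : ℕ) (hℓ : ℓ.Prime), ¬ ℓ ∣ N → ℓ ≠ p → W.IsGoodPrimeFor ℓ →
        heckeOperatorBar N ⟨ℓ, hℓ⟩ (f v) = W.apOfModel ℓ • f v := by
  classical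
  haveI : Module.Finite (ZMod p) X := Module.Finite.of_finite
  have hF := torsionFacts N p
  let gal : Γℚ → (X →+ X) := fun σ =>
    AddMonoidHom.mk' (fun x : X => (⟨galTors σ x.1, hst σ _ x.2⟩ : X))
      fun x y => Subtype.ext (_root_.map_add (galTors σ) x.1 y.1)
  let u : Γℚ →* Module.End (ZMod p) X :=
    { toFun := fun σ => (gal σ).toZModLinearMap p
      map_one' := LinearMap.ext fun x => Subtype.ext (JTors.ext (by
        simp only [AddMonoidHom.coe_toZModLinearMap, gal, AddMonoidHom.mk'_apply, Module.End.one_apply]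
        exact (pt_galTors _ _).trans (one_smul _ _)))
      map_mul' := fun σ τ => LinearMap.ext fun x => Subtype.ext (JTors.ext (by
        simp only [AddMonoidHom.coe_toZModLinearMap, gal, AddMonoidHom.mk'_apply, Module.End.mul_apply]
        exact ((pt_galTors _ _).trans (mul_smul _ _ _)).trans
          (((pt_galTors σ (galTors τ x.1)).trans (congrArg (σ • ·) (pt_galTors τ x.1))).symm))) }
  have hpt : ∀ (σ : Γℚ) (x : X), ((u σ : X →ₗ[ZMod p] X) x).1.pt = σ • x.1.pt :=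
    fun σ x => pt_galTors σ x.1
  -- the curve
  haveI := CondLevel.isElliptic_baseChange hΔ
  obtain ⟨b⟩ := CondLevel.exists_torsBasis hΔ hp.ne_zero
  haveI := Module.Finite.of_basis b
  have hV : Module.finrank (ZMod p) (CondLevel.Tors W p) = 2 := by
    rw [Module.finrank_eq_card_basis b, Fintype.card_fin]
  let ρ := CondLevel.torsRep W p
  obtain ⟨L₁, hL₁, h₁⟩ := EC.galoisFactorsThroughFiniteLevel (W.map (Int.castRingHom ℚ)) hp.ne_zero
  choose Lx hLx using fun x : X => hF.smooth x.1.pt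
  haveI : ∀ x, FiniteDimensional ℚ (Lx x) := fun x => (hLx x).1
  haveI := hL₁
  let L := L₁ ⊔ ⨆ x, Lx x
  haveI : FiniteDimensional ℚ L := IntermediateField.finiteDimensional_sup _ _
  have hfix : ∀ σ τ : Γℚ, (∀ y ∈ L, σ y = τ y) → ρ σ = ρ τ ∧ u σ = u τ := fun σ τ h => by
    have hh : ∀ y ∈ L, (σ⁻¹ * τ) y = y := fun y hy => by
      rw [AlgEquiv.mul_apply, ← h y hy]
      exact σ.symm_apply_apply y
    have e1 : ρ (σ⁻¹ * τ) = 1 := h₁ _ fun y hy => hh y ((le_sup_left : L₁ ≤ L) hy)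
    have e2 : u (σ⁻¹ * τ) = 1 := LinearMap.ext fun x => Subtype.ext <| JTors.ext <| by
      rw [hpt]
      exact (hLx x).2 _ fun y hy =>
        hh y ((le_sup_right : (⨆ x, Lx x) ≤ L) (le_iSup Lx x hy))
    refine ⟨?_, ?_⟩ <;> rw [← mul_inv_cancel_left σ τ, map_mul]
    · rw [e1, mul_one]
    · rw [e2, mul_one]
  have hrel : ∀ σ, u σ + LinearMap.det (ρ σ) • u σ⁻¹ = LinearMap.trace (ZMod p) _ (ρ σ) • 1 := by
    refine fun σ => Density.forall_of_frobenius
      (P := fun σ => u σ + LinearMap.det (ρ σ) • u σ⁻¹ = LinearMap.trace (ZMod p) _ (ρ σ) • 1)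
      L (fun σ τ h hσ => ?_) (fun σ m hσ => add_det_smul_inv_pow hV ρ u hσ m)
      (W.Δ.natAbs.primeFactors ∪ N.primeFactors ∪ {p}) (fun ℓ hℓ hℓS A hA τ hτ => ?_) σ
    · obtain ⟨e1, e2⟩ := hfix σ τ h
      have e3 : u σ⁻¹ = u τ⁻¹ := by
        have h1 : u σ⁻¹ * u σ = 1 := by rw [← map_mul, inv_mul_cancel, map_one]
        have h2 : u τ * u τ⁻¹ = 1 := by rw [← map_mul, mul_inv_cancel, map_one]
        exact left_inv_eq_right_inv h1 (by rw [e2]; exact h2)
      rw [← e1, ← e2, ← e3]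
      exact hσ
    · simp only [Finset.mem_union, Finset.mem_singleton, not_or] at hℓS
      obtain ⟨⟨hℓΔ, hℓN⟩, hℓp⟩ := hℓS
      have hgood : W.IsGoodPrimeFor ℓ := fun h => hℓΔ (Nat.mem_primeFactors.2
        ⟨hℓ, Int.natCast_dvd.1 h, Int.natAbs_ne_zero.2 hΔ⟩)
      have hℓN' : ¬ ℓ ∣ N := fun h => hℓN (Nat.mem_primeFactors.2 ⟨hℓ, h, NeZero.ne N⟩)
      obtain ⟨ht, hd⟩ := CondLevel.frobenius_tors (pow_one p).symm hp hℓ (Ne.symm hℓp) hgood hA hτ
      show _ + LinearMap.det (CondLevel.torsRep W p τ) • _ =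
        LinearMap.trace (ZMod p) _ (CondLevel.torsRep W p τ) • _
      rw [ht, hd, Nat.cast_smul_eq_nsmul, Int.cast_smul_eq_zsmul]
      refine LinearMap.ext fun x => ?_
      obtain ⟨y, rfl⟩ : ∃ y, x = u τ y := ⟨u τ⁻¹ x, by
        rw [← Module.End.mul_apply, ← map_mul, mul_inv_cancel, map_one, Module.End.one_apply]⟩
      simp only [LinearMap.add_apply, LinearMap.smul_apply, Module.End.one_apply]
      rw [← Module.End.mul_apply (u τ⁻¹), ← map_mul, inv_mul_cancel, map_one, Module.End.one_apply]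
      refine Subtype.ext (JTors.ext ?_)
      show τ • τ • y.1.pt + ℓ • y.1.pt = W.apOfModel ℓ • (τ • y.1.pt)
      have hq := hF.frobenius ⟨ℓ, hℓ⟩ hℓN' hℓp A hA τ hτ 1 _ (JTors.pow_one_nsmul y.1)
      have he := heig (u τ y) ℓ hℓ hℓN' hℓp hgood
      rw [hpt] at he
      rw [he, sub_add_eq_add_sub, sub_eq_zero] at hq
      exact hq
  obtain ⟨c, hc⟩ := exists_trace_modRep_eq_zero (p := p) hΔ hp2
  have h2 : (2 : ZMod p) ≠ 0 := fun h => hp2 ((Nat.prime_dvd_prime_iff_eq hp Nat.prime_two).1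
    ((ZMod.natCast_eq_zero_iff 2 p).1 (by exact_mod_cast h)))
  obtain ⟨f, hf, hfeq⟩ := exists_injective_intertwiner h2 hV ρ u
    (fun Y hY => hirr.2 Y fun σ x hx => hY σ x hx) hrel hc
  let pt : X →+ JZero N := AddMonoidHom.mk' (fun x => x.1.pt) fun x y => rfl
  refine ⟨pt.comp f.toAddMonoidHom, fun a b h => hf (Subtype.ext (JTors.ext h)), fun σ v => ?_,
    fun v ℓ hℓ hℓN hℓp hgood => heig (f v) ℓ hℓ hℓN hℓp hgood⟩
  show (f (ρ σ v)).1.pt = σ • (f v).1.pt
  rw [hfeq, hpt]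


/-- If `E` is residually modular of level `N` with irreducible `E[p]`, then `E[p]` embeds
equivariantly into the eigen classes of `J₀(N)[p]`. -/
theorem exists_equivariant_embedding (hΔ : W.Δ ≠ 0) (hp : p.Prime) (hp2 : p ≠ 2)
    (hirr : W.ModRepIsIrreducible p) (hmod : W.IsResiduallyModularOfLevel p N) :
    ∃ f : Submodule.torsionBy ℤ ((W.map (Int.castRingHom ℚ))⁄ℚbar).Point p →+ JZero N,
      Function.Injective f ∧ (∀ (σ : Γℚ) v, f (modRep W p σ v) = σ • f v) ∧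
      ∀ v (ℓ : ℕ) (hℓ : ℓ.Prime), ¬ ℓ ∣ N → ℓ ≠ p → W.IsGoodPrimeFor ℓ →
        heckeOperatorBar N ⟨ℓ, hℓ⟩ (f v) = W.apOfModel ℓ • f v := by
  classical
  haveI : Fact p.Prime := ⟨hp⟩
  haveI : NeZero p := ⟨hp.ne_zero⟩
  obtain ⟨g, 𝔪, hg, h𝔪, hp𝔪, hcong⟩ := hmod
  haveI := h𝔪
  let k := integralClosure ℤ ℂ ⧸ 𝔪
  letI : Field k := Ideal.Quotient.field 𝔪
  haveI : CharP k p := (CharP.charP_iff_prime_eq_zero hp).2
    (by rw [← map_natCast (Ideal.Quotient.mk 𝔪)]; exact Ideal.Quotient.eq_zero_iff_mem.2 hp𝔪)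
  let ψ : CuspForm.heckeAlgebra N 2 (∅ : Set ℕ) →+* k :=
    (Ideal.Quotient.mk 𝔪).comp (eigenCharInt hg)
  obtain ⟨x₀, hx₀, hx₀m⟩ := Fermat.Agent.Torsion.exists_ne_zero_forall_heckeRep_eq_zero N
    (RingHom.ker ψ) (isMaximal_ker (p := p) ψ) (p := p) (by simp [RingHom.mem_ker])
  let X : AddSubgroup (JTors N p) :=
    { carrier := {x | ∀ t ∈ RingHom.ker ψ, t • x = 0}
      add_mem' := fun {x y} hx hy t ht => by rw [smul_add, hx t ht, hy t ht, add_zero]
      zero_mem' := fun t _ => smul_zero t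
      neg_mem' := fun {x} hx t ht => by rw [smul_neg, hx t ht, neg_zero] }
  haveI : Nontrivial X := ⟨⟨⟨x₀, hx₀m⟩, 0, fun h => hx₀ (congrArg Subtype.val h)⟩⟩
  have hkill : ∀ x : X, p • x = 0 := fun x => Subtype.ext <| JTors.ext <| by
    have h := JTors.pow_one_nsmul (x : JTors N p)
    rw [pow_one] at h
    exact h
  letI : Module (ZMod p) X := AddCommGroup.zmodModule hkill
  have hF := torsionFacts N p
  refine exists_embedding_of_eigen hΔ hp hp2 hirr X (fun σ x hx t ht => ?_) ?_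
  · rw [← galTors_smul hF.hecke_comm, hx t ht, map_zero]
  intro x ℓ hℓ hℓN hℓp hgood
  obtain ⟨a, ha, hmem⟩ := hcong ℓ hℓ hgood hℓN hℓp
  have hker : heckeGenAt N ⟨ℓ, hℓ⟩ -
      (W.apOfModel ℓ : CuspForm.heckeAlgebra N 2 (∅ : Set ℕ)) ∈ RingHom.ker ψ := by
    rw [RingHom.mem_ker, map_sub, map_intCast, sub_eq_zero]
    show Ideal.Quotient.mk 𝔪 (eigenCharInt hg (heckeGenAt N ⟨ℓ, hℓ⟩)) = _
    rw [show eigenCharInt hg (heckeGenAt N ⟨ℓ, hℓ⟩) = a from
      Subtype.ext ((coe_eigenCharInt_heckeGenAt hg ⟨ℓ, hℓ⟩ hℓN).trans ha.symm),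
      ← map_intCast (Ideal.Quotient.mk 𝔪)]
    exact Ideal.Quotient.eq.2 hmem
  have h1 := x.2 _ hker
  rw [sub_smul, sub_eq_zero, Int.cast_smul_eq_zsmul] at h1
  have h2 := congrArg JTors.pt h1
  rw [pt_heckeGenAt_smul] at h2
  exact h2

end Fermat.Agent.MazurPrinciple
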