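/-
Mazur's principle at `p`: the poles of `j` on `X₀(Mq)` lie over `∞` or over `0` of `X₀(q)`, which
fixes the orders of `j`, `w_q j` and of the modular unit.
-/
import Fermat.Agent.MazurPrinciple.NodesUnitReduction
import Fermat.Agent.Residual.LowerUnitOrd

set_option autoImplicit false
set_option linter.style.haveILetI false
set_option synthInstance.maxHeartbeats 400000

noncomputable section

open ModularCurve AlgebraicCurve IntermediateField
open Fermat.Agent.Curve Fermat.Agent.BadReduction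
open Fermat.Agent.Residual.Lower (unitInf ord_unitInf order_coe_jBar order_coe_modUnit
  ord_atkinLehner_jBar mem_bar_of_dvd)

namespace Fermat.Agent.MazurPrinciple

local notation "ℚbar" => AlgebraicClosure ℚ

variable {M q : ℕ} [NeZero M] [hq : Fact q.Prime]

local instance neZero_prime_nodesCusp : NeZero q := ⟨hq.out.ne_zero⟩

/-- On `X₀(q)` the poles of `j` are `∞` and `0`. -/
theorem cusp_dichotomy_one (hq1 : ¬ q ∣ 1) (v : Place ℚbar (X0F 1 q))
    (h : v.ord (Igusa.jBar (1 * q)) < 0) :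
    (v.ord (Igusa.jBar (1 * q)) = -1 ∧
      v.ord (atkinLehner hq1 (Igusa.jBar (1 * q))) = -(q : ℤ) ∧
      v.ord (modUnit 1 q) = (q : ℤ) - 1) ∨
    (v.ord (Igusa.jBar (1 * q)) = -(q : ℤ) ∧
      v.ord (atkinLehner hq1 (Igusa.jBar (1 * q))) = -1 ∧
      v.ord (modUnit 1 q) = 1 - (q : ℤ)) := by
  classical
  haveI := IsFunctionFieldOne.isCurveOver (K := ℚbar) (F := X0F 1 q)
  have hwint := isIntegral_toRingHom (atkinLehner hq1).toAlgHom
  set Z := (unitInf 1 q).restrictAlong (atkinLehner hq1).toAlgHom hwint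
  set e := Place.ramificationIndexAlong (atkinLehner hq1).toAlgHom (unitInf 1 q)
  have hw : ∀ f, (unitInf 1 q).ord (atkinLehner hq1 f) = (e : ℤ) * Z.ord f := fun f =>
    Place.ord_restrictAlong _ hwint _ f
  have hUinf : (unitInf 1 q).ord (modUnit 1 q) = (q : ℤ) - 1 := by
    rw [ord_unitInf, order_coe_modUnit]
  have hwU : (unitInf 1 q).ord (atkinLehner hq1 (modUnit 1 q)) = 1 - (q : ℤ) := by
    have h1 := congrArg (unitInf 1 q).ord (modUnit_mul_atkinLehner hq1)
    rw [Place.ord_mul _ (modUnit_ne_zero 1 q) ((map_ne_zero _).2 (modUnit_ne_zero 1 q)),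
      ord_algebraMap, hUinf] at h1
    omega
  have hwj := ord_atkinLehner_jBar (M := 1) hq1
  have hwwj : atkinLehner hq1 (atkinLehner hq1 (Igusa.jBar (1 * q))) = Igusa.jBar (1 * q) :=
    atkinLehner_atkinLehner hq1 _
  have hjinf : (unitInf 1 q).ord (Igusa.jBar (1 * q)) = -1 := by
    rw [ord_unitInf, order_coe_jBar]
  have hZw : -1 = (e : ℤ) * Z.ord (atkinLehner hq1 (Igusa.jBar (1 * q))) := by
    rw [← hw, hwwj, hjinf]
  have he1 : (e : ℤ) = 1 := Int.eq_one_of_mul_eq_one_right (b := -Z.ord _)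
    (Int.natCast_nonneg e) (by rw [mul_neg, ← hZw, neg_neg])
  rw [hw, he1, one_mul] at hwU hwj
  rw [he1, one_mul] at hZw
  have hq2 := hq.out.two_le
  have hne : unitInf 1 q ≠ Z := fun hh => by
    rw [hh, hwj] at hjinf
    omega
  have hjtr : Transcendental ℚbar (Igusa.jBar (1 * q)) :=
    transcendental_of_ord_ne_zero (unitInf 1 q) (by rw [hjinf]; omega)
  have hdeg : Divisor.degree (poleDivisor ℚbar (Igusa.jBar (1 * q))) = (q : ℤ) + 1 := by
    rw [degree_poleDivisor hjtr]
    have h1 := Igusa.GaussX0.finrank_jField (M := 1 * q)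
    rw [Igusa.JField] at h1
    rw [h1, one_mul, show dedekindPsi q = q + 1 by
      simpa using Gamma0.dedekindPsi_prime_pow hq.out 0]
    push_cast
    ring
  have hv : v = unitInf 1 q ∨ v = Z := by
    by_contra hcon
    push Not at hcon
    have hle : Finsupp.single (unitInf 1 q) (1 : ℤ) + Finsupp.single Z (q : ℤ) +
        Finsupp.single v 1 ≤ poleDivisor ℚbar (Igusa.jBar (1 * q)) := by
      intro P
      simp only [Finsupp.add_apply, Finsupp.single_apply, poleDivisor_apply]
      by_cases h1 : unitInf 1 q = P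
      · subst h1
        rw [if_pos rfl, if_neg hne.symm, if_neg hcon.1, hjinf]
        simp
      by_cases h2 : Z = P
      · subst h2
        rw [if_neg hne, if_pos rfl, if_neg hcon.2, hwj]
        simp
      by_cases h3 : v = P
      · subst h3
        rw [if_neg h1, if_neg h2, if_pos rfl]
        omega
      · rw [if_neg h1, if_neg h2, if_neg h3]
        simp
    have h4 := degree_mono hle
    rw [map_add, map_add, Divisor.degree_single, Divisor.degree_single, Divisor.degree_single,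
      IsCurveOver.deg_eq_one_of_isAlgClosed, IsCurveOver.deg_eq_one_of_isAlgClosed,
      IsCurveOver.deg_eq_one_of_isAlgClosed, hdeg] at h4
    omega
  rcases hv with rfl | rfl
  · exact Or.inl ⟨hjinf, ord_atkinLehner_jBar hq1, hUinf⟩
  · exact Or.inr ⟨hwj, hZw.symm, hwU⟩

/-- The two kinds of cusps of `X₀(Mq)`. -/
theorem cusp_dichotomy (hqM : ¬ q ∣ M) (v : Place ℚbar (X0F M q))
    (h : v.ord (Igusa.jBar (M * q)) < 0) : ∃ e : ℕ, 0 < e ∧
    ((v.ord (Igusa.jBar (M * q)) = -(e : ℤ) ∧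
      v.ord (atkinLehner hqM (Igusa.jBar (M * q))) = -((q : ℤ) * e) ∧
      v.ord (modUnit M q) = ((q : ℤ) - 1) * e) ∨
    (v.ord (Igusa.jBar (M * q)) = -((q : ℤ) * e) ∧
      v.ord (atkinLehner hqM (Igusa.jBar (M * q))) = -(e : ℤ) ∧
      v.ord (modUnit M q) = (1 - (q : ℤ)) * e)) := by
  have hq1 : ¬ q ∣ 1 := hq.out.not_dvd_one
  have hle := mem_bar_of_dvd (a := 1 * q) (b := M * q) (by rw [one_mul]; exact dvd_mul_left q M)
  let i : X0F 1 q →ₐ[ℚbar] X0F M q := IntermediateField.inclusion hle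
  have hi := isIntegral_toRingHom i
  have hcoe : ∀ z, ((i z : X0F M q) : LaurentSeries ℚbar) = (z : LaurentSeries ℚbar) :=
    fun z => IntermediateField.coe_inclusion hle z
  have eU : i (modUnit 1 q) = modUnit M q :=
    Subtype.ext (by rw [hcoe, coe_modUnit, coe_modUnit])
  have ej : i (Igusa.jBar (1 * q)) = Igusa.jBar (M * q) :=
    Subtype.ext (by rw [hcoe, Igusa.coe_jBar', Igusa.coe_jBar'])
  have hser : ∀ {L : ℕ} [NeZero L] (hL : ¬ q ∣ L),
      ((atkinLehner hL (Igusa.jBar (L * q)) : X0F L q) : LaurentSeries ℚbar) =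
        qExpand ℚbar q (jqModC ℚbar) := by
    intro L _ hL
    have hα : heckeAlphaBar ℚbar L q (Igusa.jBar L) = Igusa.jBar (L * q) :=
      Subtype.ext (((coe_heckeAlphaBar L q (Igusa.jBar L)).trans (Igusa.coe_jBar' L)).trans
        (Igusa.coe_jBar' (L * q)).symm)
    rw [← hα, atkinLehner_alpha, coe_heckeBetaBar, Igusa.coe_jBar']
  have ew : i (atkinLehner hq1 (Igusa.jBar (1 * q))) = atkinLehner hqM (Igusa.jBar (M * q)) :=
    Subtype.ext (by rw [hcoe, hser hq1, hser hqM])
  set w := v.restrictAlong i hi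
  set e := Place.ramificationIndexAlong i v
  have hr : ∀ f, v.ord (i f) = (e : ℤ) * w.ord f := fun f => Place.ord_restrictAlong i hi v f
  have h1 : v.ord (Igusa.jBar (M * q)) = (e : ℤ) * w.ord (Igusa.jBar (1 * q)) :=
    (congrArg (fun z => v.ord z) ej.symm).trans (hr (Igusa.jBar (1 * q)))
  have h2 : v.ord (atkinLehner hqM (Igusa.jBar (M * q))) =
      (e : ℤ) * w.ord (atkinLehner hq1 (Igusa.jBar (1 * q))) :=
    (congrArg (fun z => v.ord z) ew.symm).trans (hr (atkinLehner hq1 (Igusa.jBar (1 * q))))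
  have h3 : v.ord (modUnit M q) = (e : ℤ) * w.ord (modUnit 1 q) :=
    (congrArg (fun z => v.ord z) eU.symm).trans (hr (modUnit 1 q))
  have he : 0 < e := by
    rcases Nat.eq_zero_or_pos e with he | he
    · rw [h1, he, Nat.cast_zero, zero_mul] at h
      exact absurd h (lt_irrefl 0)
    · exact he
  have hw : w.ord (Igusa.jBar (1 * q)) < 0 := by
    by_contra hc
    rw [h1] at h
    exact absurd h (not_lt.2 (mul_nonneg (Int.natCast_nonneg e) (not_lt.1 hc)))
  refine ⟨e, he, ?_⟩
  rcases cusp_dichotomy_one hq1 w hw with ⟨a, b, c⟩ | ⟨a, b, c⟩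
  · exact Or.inl ⟨by rw [h1, a]; ring, by rw [h2, b]; ring, by rw [h3, c]; ring⟩
  · exact Or.inr ⟨by rw [h1, a]; ring, by rw [h2, b]; ring, by rw [h3, c]; ring⟩

end Fermat.Agent.MazurPrinciple

end
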