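/-
Mazur's principle at `p`: the nodes of a special fibre with two components.

If the tuples vanishing on `B` are in the special fibre and every bounded function on a component
is the restriction of a tuple in the special fibre, glued branches lie on different components,
so the classes of glued branches with two elements are the nodes.
-/
import Fermat.Agent.MP.SecondBridge
import Fermat.Agent.Bad.Gluing
import Mathlib.Data.Finset.Card

set_option autoImplicit false

noncomputable section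

namespace Fermat.Agent.MazurPrinciple.Move

open AlgebraicCurve IntermediateField Fermat.Agent.Curve
open Fermat.Agent.Bad Fermat.Agent.Bad.MultiReduction

universe uK uF uk uFb

variable {K : Type uK} [Field K] {A : ValuationSubring K}
  {F : Type uF} [Field F] [Algebra K F]
  {k : Type uk} [Field k] {Fb : Fin 2 → Type uFb} [∀ i, Field (Fb i)] [∀ i, Algebra k (Fb i)]
  [IsAlgClosed K] [IsFunctionFieldOne K F] [∀ i, IsFunctionFieldOne k (Fb i)]

/-- Every bounded function on a component is the restriction of a tuple of the special fibre. -/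
def ProjectsOnto (R : MultiReduction A F k Fb) : Prop :=
  ∀ i, ∃ N₁ : ℕ, ∀ N, N₁ ≤ N → ∀ a ∈ riemannRochSpace (N • poleDivisor k (R.xb i)),
    ∃ (M : ℕ) (h : ∀ i, Fb i), h ∈ R.spFibre (R.polarSp M) ∧ h i = a

variable {R : MultiReduction A F k Fb}

/-- Branches on one component with equal values on the whole special fibre are equal. -/
theorem ProjectsOnto.eq_of_glued (hproj : ProjectsOnto R) {i : Fin 2} {v v' : Place k (Fb i)}
    (hv : 0 ≤ v.ord (R.xb i)) (hv' : 0 ≤ v'.ord (R.xb i))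
    (h : ∀ (N : ℕ), ∀ t ∈ R.spFibre (R.polarSp N),
      bval (⟨i, v⟩ : Σ i, Place k (Fb i)) t = bval ⟨i, v'⟩ t) : v = v' := by
  classical
  haveI := R.isAlgClosed_residue
  by_contra hne
  have hreg : ∀ b ∈ ({⟨i, v⟩, ⟨i, v'⟩} : Finset (Σ i, Place k (Fb i))),
      0 ≤ b.2.ord (R.xb b.1) := by
    intro b hb
    simp only [Finset.mem_insert, Finset.mem_singleton] at hb
    rcases hb with rfl | rfl
    exacts [hv, hv']
  obtain ⟨N₀, hN₀⟩ := exists_branchEval_surjective (R := R) _ hreg
  obtain ⟨N₁, hN₁⟩ := hproj i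
  have hb : (⟨i, v⟩ : Σ i, Place k (Fb i)) ∈
      ({⟨i, v⟩, ⟨i, v'⟩} : Finset (Σ i, Place k (Fb i))) := Finset.mem_insert_self _ _
  obtain ⟨g, hg⟩ := hN₀ (max N₀ N₁) (le_max_left _ _)
    (fun b => if b = ⟨⟨i, v⟩, hb⟩ then 1 else 0)
  obtain ⟨M, t, ht, hti⟩ := hN₁ (max N₀ N₁) (le_max_right _ _) _ (R.mem_polarFibre.1 g.2 i)
  have h1 := congrFun hg ⟨⟨i, v⟩, hb⟩
  have h2 := congrFun hg ⟨⟨i, v'⟩, Finset.mem_insert_of_mem (Finset.mem_singleton_self _)⟩
  rw [branchEval_apply, if_pos rfl] at h1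
  rw [branchEval_apply, if_neg (fun e => hne
    (by simpa using (congrArg Subtype.val e).symm))] at h2
  have h3 := h M t ht
  simp only [bval] at h1 h2 h3
  rw [hti, h1, h2] at h3
  exact one_ne_zero h3

variable (R) in
/-- The branches of `B` on the component `∞` which are glued to a branch on the other one. -/
def nodeSet (B : Finset (Σ i, Place k (Fb i))) : Type uFb :=
  {b : ↥B // (b : Σ i, Place k (Fb i)).1 = 0 ∧ ∃ b' : ↥B, (b' : Σ i, Place k (Fb i)).1 = 1 ∧
    glueSetoid R B b b'}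

instance (B : Finset (Σ i, Place k (Fb i))) : Fintype (nodeSet R B) :=
  Fintype.ofFinite {b : ↥B // (b : Σ i, Place k (Fb i)).1 = 0 ∧
    ∃ b' : ↥B, (b' : Σ i, Place k (Fb i)).1 = 1 ∧ glueSetoid R B b b'}

variable {B : Finset (Σ i, Place k (Fb i))}

/-- The two branches at a node. -/
def nodeBranch (s : nodeSet R B) : Fin 2 → ↥B
  | 0 => s.1
  | 1 => s.2.2.choose

theorem nodeBranch_fst (s : nodeSet R B) :
    ∀ j : Fin 2, (nodeBranch s j : Σ i, Place k (Fb i)).1 = j
  | 0 => s.2.1
  | 1 => s.2.2.choose_spec.1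

theorem nodeBranch_glued (s : nodeSet R B) :
    glueSetoid R B (nodeBranch s 0) (nodeBranch s 1) := s.2.2.choose_spec.2

theorem ProjectsOnto.eq_of_glueSetoid (hproj : ProjectsOnto R)
    (hreg : ∀ b ∈ B, 0 ≤ b.2.ord (R.xb b.1)) {b b' : ↥B}
    (h : glueSetoid R B b b')
    (hi : (b : Σ i, Place k (Fb i)).1 = (b' : Σ i, Place k (Fb i)).1) : b = b' := by
  obtain ⟨⟨i, v⟩, hb⟩ := b
  obtain ⟨⟨i', v'⟩, hb'⟩ := b'
  obtain rfl : i = i' := hi
  have e : v = v' := hproj.eq_of_glued (hreg ⟨i, v⟩ hb) (hreg ⟨i, v'⟩ hb') h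
  exact Subtype.ext (congrArg (Sigma.mk i) e)

theorem ProjectsOnto.nodeBranch_injective (hproj : ProjectsOnto R)
    (hreg : ∀ b ∈ B, 0 ≤ b.2.ord (R.xb b.1)) :
    Function.Injective fun x : nodeSet R B × Fin 2 =>
      (nodeBranch x.1 x.2 : Σ i, Place k (Fb i)) := by
  rintro ⟨s, j⟩ ⟨s', j'⟩ h
  obtain rfl : j = j' := by
    rw [← nodeBranch_fst s j, ← nodeBranch_fst s' j']
    exact congrArg Sigma.fst h
  have hj : nodeBranch s j = nodeBranch s' j := Subtype.ext h
  have h0 : nodeBranch s 0 = nodeBranch s' 0 := by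
    fin_cases j
    · exact hj
    · refine hproj.eq_of_glueSetoid hreg ?_ ((nodeBranch_fst s 0).trans (nodeBranch_fst s' 0).symm)
      exact ((glueSetoid R B).trans (nodeBranch_glued s)
        ((glueSetoid R B).symm (by rw [show nodeBranch s 1 = nodeBranch s' 1 from hj]
                                   exact nodeBranch_glued s')))
  exact Prod.ext (Subtype.ext h0) rfl

/-- The classes of glued branches are singletons and nodes. -/
theorem ProjectsOnto.card_add_nodes (hproj : ProjectsOnto R)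
    (hreg : ∀ b ∈ B, 0 ≤ b.2.ord (R.xb b.1)) :
    Fintype.card (nodeSet R B) + Nat.card (Quotient (glueSetoid R B)) = B.card := by
  classical
  let mk : ↥B → Quotient (glueSetoid R B) := Quotient.mk _
  let f : Fin 2 → Finset ↥B := fun i =>
    Finset.univ.filter fun b => (b : Σ i, Place k (Fb i)).1 = i
  have hinj : ∀ i, Set.InjOn mk (f i : Set ↥B) := fun i a ha b hb hab =>
    hproj.eq_of_glueSetoid hreg (Quotient.exact hab)
      ((Finset.mem_filter.1 ha).2.trans (Finset.mem_filter.1 hb).2.symm)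
  have hcover : (f 0).image mk ∪ (f 1).image mk = Finset.univ := by
    refine Finset.eq_univ_of_forall fun c => ?_
    obtain ⟨b, rfl⟩ := Quotient.mk_surjective c
    have hb : ∀ i : Fin 2, i = 0 ∨ i = 1 := by decide
    rcases hb (b : Σ i, Place k (Fb i)).1 with h | h
    · exact Finset.mem_union_left _
        (Finset.mem_image.2 ⟨b, Finset.mem_filter.2 ⟨Finset.mem_univ _, h⟩, rfl⟩)
    · exact Finset.mem_union_right _
        (Finset.mem_image.2 ⟨b, Finset.mem_filter.2 ⟨Finset.mem_univ _, h⟩, rfl⟩)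
  have hB : (f 0).card + (f 1).card = B.card := by
    rw [← Fintype.card_coe B, ← Finset.card_univ,
      ← Finset.card_union_of_disjoint (Finset.disjoint_filter.2 fun b _ h => by rw [h]; decide)]
    congr 1
    ext b
    have hb : ∀ i : Fin 2, i = 0 ∨ i = 1 := by decide
    simpa [f] using hb (b : Σ i, Place k (Fb i)).1
  have hinter : ((f 0).image mk ∩ (f 1).image mk).card = Fintype.card (nodeSet R B) := by
    rw [← Finset.card_univ]
    refine (Finset.card_bij (fun s _ => mk s.1) ?_ ?_ ?_).symm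
    · intro s _
      exact Finset.mem_inter.2
        ⟨Finset.mem_image.2 ⟨s.1, Finset.mem_filter.2 ⟨Finset.mem_univ _, s.2.1⟩, rfl⟩,
          Finset.mem_image.2 ⟨nodeBranch s 1,
            Finset.mem_filter.2 ⟨Finset.mem_univ _, nodeBranch_fst s 1⟩,
            (Quotient.sound (nodeBranch_glued s)).symm⟩⟩
    · intro s _ s' _ h
      exact Subtype.ext (hinj 0 (Finset.mem_filter.2 ⟨Finset.mem_univ _, s.2.1⟩)
        (Finset.mem_filter.2 ⟨Finset.mem_univ _, s'.2.1⟩) h)
    · intro c hc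
      obtain ⟨h0, h1⟩ := Finset.mem_inter.1 hc
      obtain ⟨b, hb, rfl⟩ := Finset.mem_image.1 h0
      obtain ⟨b', hb', e⟩ := Finset.mem_image.1 h1
      exact ⟨⟨b, (Finset.mem_filter.1 hb).2, b', (Finset.mem_filter.1 hb').2,
        Quotient.exact e.symm⟩, Finset.mem_univ _, rfl⟩
  have h := Finset.card_union_add_card_inter ((f 0).image mk) ((f 1).image mk)
  rw [hcover, hinter, Finset.card_univ, Finset.card_image_of_injOn (hinj 0),
    Finset.card_image_of_injOn (hinj 1), hB, ← Nat.card_eq_fintype_card] at h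
  omega

/-- The nodes of a special fibre of two components. -/
def NodePairs.ofVanishing (hproj : ProjectsOnto R)
    (hreg : ∀ b ∈ B, 0 ≤ b.2.ord (R.xb b.1))
    (hZ : ∃ N₁, ∀ N, N₁ ≤ N → ∀ h ∈ R.polarFibre N,
      (∀ b ∈ B, VanishesAt b 1 h) → h ∈ R.spFibre (R.polarSp N)) :
    NodePairs R (nodeSet R B) where
  br s j := nodeBranch s j
  br_injective := hproj.nodeBranch_injective hreg
  regular s j := hreg _ (nodeBranch s j).2
  matched N h hh s := nodeBranch_glued s N h hh
  count := by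
    have h1 := exists_vanishing_bound R B hreg hZ
    have h2 := hproj.card_add_nodes hreg
    omega

theorem NodePairs.ofVanishing_br_fst (hproj : ProjectsOnto R)
    (hreg : ∀ b ∈ B, 0 ≤ b.2.ord (R.xb b.1))
    (hZ : ∃ N₁, ∀ N, N₁ ≤ N → ∀ h ∈ R.polarFibre N,
      (∀ b ∈ B, VanishesAt b 1 h) → h ∈ R.spFibre (R.polarSp N)) (s : nodeSet R B) (j : Fin 2) :
    ((NodePairs.ofVanishing hproj hreg hZ).br s j).1 = j := nodeBranch_fst s j

theorem NodePairs.ofVanishing_br_mem (hproj : ProjectsOnto R)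
    (hreg : ∀ b ∈ B, 0 ≤ b.2.ord (R.xb b.1))
    (hZ : ∃ N₁, ∀ N, N₁ ≤ N → ∀ h ∈ R.polarFibre N,
      (∀ b ∈ B, VanishesAt b 1 h) → h ∈ R.spFibre (R.polarSp N)) (s : nodeSet R B) (j : Fin 2) :
    (NodePairs.ofVanishing hproj hreg hZ).br s j ∈ B := (nodeBranch s j).2

/-- The nodes connect the two components. -/
theorem NodePairs.ofVanishing_connected (hA : RankLeOne A) (hproj : ProjectsOnto R)
    (hreg : ∀ b ∈ B, 0 ≤ b.2.ord (R.xb b.1)) (hmeets : ∀ i, ∃ b ∈ B, b.1 = i)
    (hZ : ∃ N₁, ∀ N, N₁ ≤ N → ∀ h ∈ R.polarFibre N,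
      (∀ b ∈ B, VanishesAt b 1 h) → h ∈ R.spFibre (R.polarSp N)) :
    Connected (NodePairs.ofVanishing hproj hreg hZ) := by
  classical
  haveI := R.isAlgClosed_residue
  intro c hc i j
  have key : ∀ b b' : ↥B, (glueSetoid R B) b b' →
      c (b : Σ i, Place k (Fb i)).1 = c (b' : Σ i, Place k (Fb i)).1 := by
    intro b b' hbb'
    have h01 : ∀ i : Fin 2, i = 0 ∨ i = 1 := by decide
    rcases eq_or_ne (b : Σ i, Place k (Fb i)).1 (b' : Σ i, Place k (Fb i)).1 with h | h
    · rw [h]
    have hnode : ∀ b b' : ↥B, (glueSetoid R B) b b' → (b : Σ i, Place k (Fb i)).1 = 0 →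
        (b' : Σ i, Place k (Fb i)).1 = 1 → c 0 = c 1 := fun b b' h hb hb' => by
      have := hc ⟨b, hb, b', hb', h⟩
      rwa [NodePairs.ofVanishing_br_fst, NodePairs.ofVanishing_br_fst] at this
    rcases h01 (b : Σ i, Place k (Fb i)).1 with h0 | h0 <;>
      rcases h01 (b' : Σ i, Place k (Fb i)).1 with h1 | h1
    · exact absurd (h0.trans h1.symm) h
    · rw [h0, h1]; exact hnode b b' hbb' h0 h1
    · rw [h0, h1]; exact (hnode b' b ((glueSetoid R B).symm hbb') h1 h0).symm
    · exact absurd (h0.trans h1.symm) h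
  obtain ⟨N₀, hN₀, -⟩ := exists_seminormal_bound_of_count R B (Quotient.mk (glueSetoid R B))
    Quotient.mk_surjective hreg
    (fun N h hh b b' hbb' => (Quotient.exact hbb' : glueSetoid R B b b') N h hh)
    (exists_vanishing_bound R B hreg hZ)
  refine BGlue.constTuple_eq_const (R := R) hA (Gluing.ofVanishing R B hreg hmeets hZ)
    (hN₀ N₀ le_rfl _ (BGlue.constTuple_mem_polarFibre R c N₀) fun b b' hbb' => ?_) i j
  simp only [bval, BGlue.constTuple, placeValue_algebraMap]
  exact key b b' (Quotient.exact hbb')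

end Fermat.Agent.MazurPrinciple.Move

end
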