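/-
Mazur's principle at `p`: the nodes of the special fibre of `X₀(Mq)`.
-/
import Fermat.Agent.MazurPrinciple.Nodes
import Fermat.Agent.BadReduction.X0Conductor
import Fermat.Agent.Mazur.LocalRank

set_option autoImplicit false
set_option linter.style.haveILetI false
set_option synthInstance.maxHeartbeats 400000

noncomputable section

namespace Fermat.Agent.MazurPrinciple

open ModularCurve AlgebraicCurve IsLocalRing
open Fermat.Agent.BadReduction Fermat.Agent.Bad

local notation "ℚbar" => AlgebraicClosure ℚ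

variable {M q : ℕ} [NeZero M] [hq : Fact q.Prime]

local instance neZero_prime_nodesX0 : NeZero q := ⟨hq.out.ne_zero⟩

variable (hqM : ¬ q ∣ M) (A : ValuationSubring ℚbar) (hA : A.LiesOverPrime q)

theorem x0_projectsOnto : Move.ProjectsOnto (x0Reduction hqM A hA) := by
  haveI := charP_residue_of_liesOverPrime hq.out hA
  haveI := (x0Reduction hqM A hA).isAlgClosed_residue
  obtain ⟨N₁, h⟩ := exists_proj_full hqM A hA
  intro i
  exact ⟨N₁, fun N hN a ha => ⟨N, h N hN i a ha⟩⟩

/-- A finite set of branches carrying the conductor. -/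
def x0Branches : Finset (Σ _ : Fin 2, Place (ResidueField A) (X0Res M A)) :=
  (exists_conductor_proof hqM A hA).choose

theorem x0Branches_spec :
    (∀ b ∈ x0Branches hqM A hA, 0 ≤ b.2.ord ((x0Reduction hqM A hA).xb b.1)) ∧
      (∀ i, ∃ b ∈ x0Branches hqM A hA, b.1 = i) ∧
      ∃ N₀ : ℕ, ∀ N, N₀ ≤ N → ∀ h ∈ (x0Reduction hqM A hA).polarFibre N,
        (∀ b ∈ x0Branches hqM A hA, MultiReduction.VanishesAt b 1 h) →
          h ∈ (x0Reduction hqM A hA).spFibre ((x0Reduction hqM A hA).polarSp N) :=
  (exists_conductor_proof hqM A hA).choose_spec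

/-- The nodes of the special fibre of `X₀(Mq)`. -/
abbrev x0NodeSet : Type := Move.nodeSet (x0Reduction hqM A hA) (x0Branches hqM A hA)

/-- The two branches at each node. -/
def x0NodePairs : Move.NodePairs (x0Reduction hqM A hA) (x0NodeSet hqM A hA) :=
  Move.NodePairs.ofVanishing (x0_projectsOnto hqM A hA) (x0Branches_spec hqM A hA).1
    (x0Branches_spec hqM A hA).2.2

theorem x0NodePairs_br_fst (s : x0NodeSet hqM A hA) (j : Fin 2) :
    ((x0NodePairs hqM A hA).br s j).1 = j :=
  Move.NodePairs.ofVanishing_br_fst _ _ _ s j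

theorem x0NodePairs_htwo (s : x0NodeSet hqM A hA) (i : Fin 2) :
    i = ((x0NodePairs hqM A hA).br s 0).1 ∨ i = ((x0NodePairs hqM A hA).br s 1).1 := by
  rw [x0NodePairs_br_fst, x0NodePairs_br_fst]
  fin_cases i <;> simp

theorem x0_connected : Move.Connected (x0NodePairs hqM A hA) :=
  Move.NodePairs.ofVanishing_connected (Mazur.rankLeOne_of_liesOverPrime hq.out hA)
    (x0_projectsOnto hqM A hA) (x0Branches_spec hqM A hA).1 (x0Branches_spec hqM A hA).2.1
    (x0Branches_spec hqM A hA).2.2

instance x0NodeSet_nonempty : Nonempty (x0NodeSet hqM A hA) := by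
  rcases isEmpty_or_nonempty (x0NodeSet hqM A hA) with he | h
  · exfalso
    have h := x0_connected hqM A hA (c := fun i => if i = 0 then 0 else 1)
      (fun s => (he.false s).elim) 0 1
    simp at h
  · exact h

end Fermat.Agent.MazurPrinciple

end
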