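/-
Mazur's principle at `p`: no branch at a node of the special fibre of `X₀(Mq)` is a cusp.

The tuple `(Y, Y ^ q)` vanishes at the cusps only, so glued branches are both cusps or neither;
the reduction `(1, Y ^ (q ^ 2 - 1))` of `α y ^ q / β y` separates the cusps of the two components.
-/
import Fermat.Agent.MazurPrinciple.NodesCusp
import Fermat.Agent.MazurPrinciple.NodesX0

set_option autoImplicit false
set_option linter.style.haveILetI false
set_option linter.unusedSectionVars false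
set_option synthInstance.maxHeartbeats 400000
set_option maxHeartbeats 800000

noncomputable section

open ModularCurve IntermediateField IsLocalRing AlgebraicCurve Polynomial
open Fermat.Agent.Curve Fermat.Agent.Curve.RedAux Fermat.Agent.Bad
open Fermat.Agent.BadReduction

namespace Fermat.Agent.MazurPrinciple

local notation "ℚbar" => AlgebraicClosure ℚ

theorem ord_aeval_of_neg {K F : Type*} [Field K] [Field F] [Algebra K F] [IsFunctionFieldOne K F]
    {v : Place K F} {p : ℤ[X]} (hp : p.Monic) {z : F} (hz : v.ord z < 0) :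
    v.ord (aeval z p) = p.natDegree * v.ord z := by
  have hz0 : z ≠ 0 := fun h => by rw [h, Place.ord_zero] at hz; omega
  conv_lhs => rw [hp.as_sum, map_add, map_pow, aeval_X]
  rw [ord_add_eq_left v (pow_ne_zero _ hz0), ord_pow]
  intro hne
  rw [ord_pow]
  refine lt_of_lt_of_le (?_ : _ < ((p.natDegree : ℤ) - 1) * v.ord z) ?_
  · rw [sub_mul, one_mul]; omega
  rw [map_sum] at hne ⊢
  refine le_ord_sum v _ _ _ (fun i hi hne' => ?_) hne
  rw [Finset.mem_range] at hi
  rw [map_mul, map_pow, aeval_X, aeval_C] at hne' ⊢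
  have hc : algebraMap ℤ F (p.coeff i) = algebraMap K F ((p.coeff i : ℤ) : K) := by simp
  rw [v.ord_mul (left_ne_zero_of_mul hne') (right_ne_zero_of_mul hne'), hc, ord_algebraMap,
    zero_add, ord_pow]
  exact mul_le_mul_of_nonpos_right (by omega) hz.le

variable {M q : ℕ} [NeZero M] [hq : Fact q.Prime]

local instance neZero_prime_nodesBranch : NeZero q := ⟨hq.out.ne_zero⟩

variable (hqM : ¬ q ∣ M) (A : ValuationSubring ℚbar) (hA : A.LiesOverPrime q)
  [CharP (ResidueField A) q] [IsAlgClosed (ResidueField A)]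

local instance nbFieldRes : Field (X0Res M A) := inferInstance
local instance nbAlgRes : Algebra (ResidueField A) (X0Res M A) := inferInstance
local instance nbFFRes : IsFunctionFieldOne (ResidueField A) (X0Res M A) := inferInstance
local instance nbFieldBar : Field (modularFunctionFieldBar M) := inferInstance
local instance nbFFBar : IsFunctionFieldOne ℚbar (modularFunctionFieldBar M) := inferInstance
local instance nbFFTop : IsFunctionFieldOne ℚbar (X0F M q) := inferInstance

local notation "αF" => heckeAlphaBar ℚbar M q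
local notation "βF" => heckeBetaBar ℚbar M q
local notation "Yb" => resY (ResidueField A) q M

/-- `P (j)` reduces to `P (j)`. -/
theorem red_cubicJM :
    ∃ h : cubicJM M q ∈ (Igusa.x0GoodReduction hqM hA).V,
      (Igusa.x0GoodReduction hqM hA).φ ⟨_, h⟩ = Yb⁻¹ := by
  obtain ⟨h, e⟩ := red_cubicJM_inv hqM A hA
  set G := Igusa.x0GoodReduction hqM hA
  have hne : G.φ ⟨_, h⟩ ≠ 0 := by
    rw [e]; exact resY_ne_zero (ResidueField A) q M
  obtain ⟨⟨r, hr⟩, hrr⟩ := isUnit_iff_exists_inv.1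
    (not_not.1 (mt (G.φ_eq_zero_iff ⟨_, h⟩).2 hne))
  have hr' : (cubicJM M q)⁻¹ * r = 1 := congrArg Subtype.val hrr
  have hP : cubicJM M q = r := by
    rw [← inv_inv (cubicJM M q)]
    exact inv_eq_of_mul_eq_one_right hr'
  refine ⟨hP ▸ hr, ?_⟩
  rw [← e]
  refine eq_inv_of_mul_eq_one_right ?_
  rw [← map_mul, ← map_one G.φ]
  refine congrArg _ (Subtype.ext ?_)
  show (cubicJM M q)⁻¹ * cubicJM M q = 1
  rw [hP] at hr' ⊢
  exact hr'

include hqM in
/-- `α y ^ q / β y` has its poles among those of `x`. -/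
theorem sepFun_mem_polarSp :
    αF ((cubicJM M q)⁻¹ ^ q) * βF (cubicJM M q) ∈ (x0Reduction hqM A hA).polarSp q := by
  have hC0 : cubicJ M q ≠ 0 := cubicJ_ne_zero
  have hw0 : atkinLehner hqM (cubicJ M q) ≠ 0 := (_root_.map_ne_zero _).2 hC0
  rw [map_pow, map_inv₀, heckeAlphaBar_cubicJM, heckeBetaBar_cubicJM hqM]
  refine (mem_L_iff (mul_ne_zero (pow_ne_zero _ (inv_ne_zero hC0)) hw0)).2 fun v => ?_
  rw [v.ord_mul (pow_ne_zero _ (inv_ne_zero hC0)) hw0, ord_pow, v.ord_inv]
  show -((q • poleDivisor ℚbar (x0Fun hqM)) v) ≤ _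
  rw [Finsupp.smul_apply, poleDivisor_apply, x0Fun, v.ord_inv, v.ord_mul hC0 hw0, neg_neg,
    nsmul_eq_mul]
  have hd : (cubic q).natDegree ≠ 0 := by rw [cubic_natDegree]; norm_num
  have ewC : atkinLehner hqM (cubicJ M q) =
      aeval (atkinLehner hqM (Igusa.jBar (M * q))) (cubic q) :=
    map_aeval_int (atkinLehner hqM : X0F M q →+* X0F M q) _ _
  by_cases hj : v.ord (Igusa.jBar (M * q)) < 0
  · obtain ⟨e, he, ⟨a, b, -⟩ | ⟨a, b, -⟩⟩ := cusp_dichotomy hqM v hj
    all_goals
      have hb : v.ord (atkinLehner hqM (Igusa.jBar (M * q))) < 0 := by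
        rw [b]
        have : (0 : ℤ) < q := by exact_mod_cast hq.out.pos
        have : (0 : ℤ) < e := by exact_mod_cast he
        nlinarith
      rw [ewC, cubicJ, ord_aeval_of_neg cubic_monic hj, ord_aeval_of_neg cubic_monic hb,
        cubic_natDegree, a, b]
      have h1 : (e : ℤ) ≤ (q : ℤ) * ((q : ℤ) * e) := by
        have : (1 : ℤ) ≤ q := by exact_mod_cast hq.out.one_le
        nlinarith [mul_le_mul this this zero_le_one (by omega)]
      have h2 : (0 : ℤ) ≤ (q : ℤ) * e := by positivity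
      rw [max_eq_right (by push_cast; omega), mul_zero, neg_zero]
      push_cast
      nlinarith
  · have h0 : 0 ≤ v.ord (cubicJ M q) := by
      rw [← mem_iff_ord_nonneg, cubicJ, aeval_mem_place_iff v cubic_monic hd, mem_iff_ord_nonneg]
      exact not_lt.1 hj
    have h1 : 0 ≤ v.ord (atkinLehner hqM (cubicJ M q)) := by
      rw [← mem_iff_ord_nonneg, ewC, aeval_mem_place_iff v cubic_monic hd, ← heckeAlphaBar_jBar,
        atkinLehner_alpha, beta_jBar_mem_iff hqM v, heckeAlphaBar_jBar, mem_iff_ord_nonneg]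
      exact not_lt.1 hj
    rw [max_eq_left (by omega : (0 : ℤ) ≤ v.ord (cubicJ M q) +
      v.ord (atkinLehner hqM (cubicJ M q)))]
    rw [mul_add]
    have : (0 : ℤ) ≤ (q : ℤ) * v.ord (atkinLehner hqM (cubicJ M q)) :=
      mul_nonneg (Int.natCast_nonneg _) h1
    nlinarith

/-- The tuple `(1, Y ^ (q ^ 2) / Y)` is in the special fibre. -/
theorem sepTuple_mem :
    ![(1 : X0Res M A), (Yb ^ q) ^ q * Yb⁻¹] ∈
      (x0Reduction hqM A hA).spFibre ((x0Reduction hqM A hA).polarSp q) := by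
  set G := Igusa.x0GoodReduction hqM hA
  obtain ⟨hY, eY⟩ := red_cubicJM_inv hqM A hA
  obtain ⟨hP, eP⟩ := red_cubicJM hqM A hA
  obtain ⟨a0, ea0⟩ := compPhi_zero_alpha hqM A hA ((⟨_, hY⟩ : G.V) ^ q)
  obtain ⟨b0, eb0⟩ := compPhi_zero_beta hqM A hA ⟨_, hP⟩
  obtain ⟨a1, ea1⟩ := compPhi_one_alpha hqM A hA ((⟨_, hY⟩ : G.V) ^ q)
  obtain ⟨b1, eb1⟩ := compPhi_one_beta hqM A hA ⟨_, hP⟩
  have hΦY : resPhi (ResidueField A) q M Yb = Yb ^ q := by
    conv_lhs => rw [← resFrob_resY (ResidueField A) q M]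
    exact resPhi_resFrob _ q M _
  have hint : αF ((cubicJM M q)⁻¹ ^ q) * βF (cubicJM M q) ∈
      (x0Reduction hqM A hA).integers := (x0Reduction hqM A hA).mem_integers.2 fun i => by
    fin_cases i
    · exact mul_mem a0 b0
    · exact mul_mem a1 b1
  refine ⟨⟨_, hint⟩, sepFun_mem_polarSp hqM A hA, funext fun i => ?_⟩
  fin_cases i
  · refine (red_mul_apply hqM A hA 0 a0 b0 hint).trans ((congrArg₂ (· * ·) ea0 eb0).trans ?_)
    rw [map_pow, eY, eP, map_inv₀, hΦY]
    show Yb ^ q * (Yb ^ q)⁻¹ = 1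
    exact mul_inv_cancel₀ (pow_ne_zero _ (resY_ne_zero _ q M))
  · refine (red_mul_apply hqM A hA 1 a1 b1 hint).trans ((congrArg₂ (· * ·) ea1 eb1).trans ?_)
    rw [map_pow G.φ, eY, eP, map_pow, hΦY]
    rfl

/-- The tuple `(Y, Y ^ q)` is in the special fibre. -/
theorem yTuple_mem :
    ![Yb, Yb ^ q] ∈ (x0Reduction hqM A hA).spFibre ((x0Reduction hqM A hA).polarSp 1) := by
  obtain ⟨hY, eY⟩ := red_cubicJM_inv hqM A hA
  have hΦY : resPhi (ResidueField A) q M Yb = Yb ^ q := by
    conv_lhs => rw [← resFrob_resY (ResidueField A) q M]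
    exact resPhi_resFrob _ q M _
  have h1 : ((1 : (Igusa.x0GoodReduction hqM hA).V) : modularFunctionFieldBar M) ∈
      riemannRochSpace (1 • poleDivisor ℚbar (cubicJM M q)⁻¹) := by
    refine (mem_L_iff (one_ne_zero)).2 fun v => ?_
    rw [one_smul, v.ord_one]
    exact neg_nonpos.2 (Finsupp.le_def.1 (poleDivisor_nonneg _) v)
  have h := pair_mem hqM A hA (T := ⟨_, hY⟩)
    (by rw [one_smul]; exact mem_L_poleDivisor _) h1
  rwa [map_one, map_one, mul_one, mul_one, eY, hΦY] at h

variable {A} in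
theorem resY_ord_pos_iff (v : Place (ResidueField A) (X0Res M A)) :
    0 < v.ord Yb ↔ v.ord (resJ (ResidueField A) M) < 0 := by
  have hd : (cubic q).natDegree ≠ 0 := by rw [cubic_natDegree]; norm_num
  have h : 0 ≤ v.ord (aeval (resJ (ResidueField A) M) (cubic q)) ↔
      0 ≤ v.ord (resJ (ResidueField A) M) := by
    rw [← mem_iff_ord_nonneg, aeval_mem_place_iff v cubic_monic hd, mem_iff_ord_nonneg]
  rw [resY, v.ord_inv]
  omega

theorem x0NodePairs_br_not_cusp_aux (s : x0NodeSet hqM A hA) (j : Fin 2) :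
    0 ≤ ((x0NodePairs hqM A hA).br s j).2.ord (resJ (ResidueField A) M) := by
  set P := x0NodePairs hqM A hA
  have reg : ∀ j, 0 ≤ (P.br s j).2.ord Yb := fun j => by
    have h := P.regular s j
    rw [x0Reduction_xb, ord_pow] at h
    exact nonneg_of_mul_nonneg_right h (by exact_mod_cast Nat.succ_pos q)
  have m1 := P.matched 1 _ (yTuple_mem hqM A hA) s
  have m2 := P.matched q _ (sepTuple_mem hqM A hA) s
  have f0 := x0NodePairs_br_fst hqM A hA s 0
  have f1 := x0NodePairs_br_fst hqM A hA s 1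
  have r0 := reg 0
  have r1 := reg 1
  suffices hh : 0 ≤ (P.br s 0).2.ord (resJ (ResidueField A) M) ∧
      0 ≤ (P.br s 1).2.ord (resJ (ResidueField A) M) by
    fin_cases j
    exacts [hh.1, hh.2]
  generalize P.br s 0 = b0 at *
  generalize P.br s 1 = b1 at *
  obtain ⟨i0, v⟩ := b0
  obtain ⟨i1, w⟩ := b1
  change i0 = 0 at f0
  change i1 = 1 at f1
  subst f0 f1
  simp only [MultiReduction.bval, Matrix.cons_val_zero, Matrix.cons_val_one, Matrix.cons_val_fin_one,
    placeValue_one] at m1 m2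
  change 0 ≤ v.ord Yb at r0
  change 0 ≤ w.ord Yb at r1
  change 0 ≤ v.ord _ ∧ 0 ≤ w.ord _
  have hY0 := resY_ne_zero (ResidueField A) q M
  have hvY : Yb ∈ v.toValuationSubring := mem_of_zero_or_le v (Or.inr r0)
  have hwY : Yb ^ q ∈ w.toValuationSubring := pow_mem (mem_of_zero_or_le w (Or.inr r1)) q
  have hqpos : (0 : ℤ) < q := by exact_mod_cast hq.out.pos
  have iffv : placeValue v Yb = 0 ↔ 0 < v.ord Yb := by
    rw [placeValue_eq_zero_iff v hvY, or_iff_right hY0]
    omega
  have iffw : placeValue w (Yb ^ q) = 0 ↔ 0 < w.ord Yb := by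
    rw [placeValue_eq_zero_iff w hwY, or_iff_right (pow_ne_zero _ hY0), ord_pow]
    constructor
    · intro h; nlinarith
    · intro h; nlinarith
  have key : ¬ 0 < w.ord Yb := by
    intro hw
    have hord : 1 ≤ w.ord ((Yb ^ q) ^ q * Yb⁻¹) := by
      rw [w.ord_mul (pow_ne_zero _ (pow_ne_zero _ hY0)) (inv_ne_zero hY0), ord_pow, ord_pow,
        w.ord_inv]
      have h2 : (4 : ℤ) ≤ (q : ℤ) * q := by
        exact_mod_cast Nat.mul_le_mul hq.out.two_le hq.out.two_le
      have h3 : 4 * w.ord Yb ≤ (q : ℤ) * q * w.ord Yb := mul_le_mul_of_nonneg_right h2 hw.le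
      linarith
    have hz : placeValue w ((Yb ^ q) ^ q * Yb⁻¹) = 0 :=
      (placeValue_eq_zero_iff w (mem_of_zero_or_le w (Or.inr (by omega)))).2 (Or.inr hord)
    rw [hz] at m2
    exact one_ne_zero m2
  have key' : ¬ 0 < v.ord Yb := fun h => key (iffw.1 (m1 ▸ iffv.2 h))
  rw [resY_ord_pos_iff] at key key'
  exact ⟨not_lt.1 key', not_lt.1 key⟩

omit [CharP (ResidueField A) q] [IsAlgClosed (ResidueField A)] in
/-- No branch at a node is a cusp. -/
theorem x0NodePairs_br_not_cusp (s : x0NodeSet hqM A hA) (j : Fin 2) :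
    0 ≤ ((x0NodePairs hqM A hA).br s j).2.ord (resJ (ResidueField A) M) := by
  haveI := charP_residue_of_liesOverPrime hq.out hA
  haveI := (x0Reduction hqM A hA).isAlgClosed_residue
  exact x0NodePairs_br_not_cusp_aux hqM A hA s j

omit [CharP (ResidueField A) q] [IsAlgClosed (ResidueField A)] in
/-- A place of negative order of `j` is at no node. -/
theorem x0NodePairs_br_ne_cusp (s : x0NodeSet hqM A hA) (j : Fin 2) (i : Fin 2)
    {v : Place (ResidueField A) (X0Res M A)} (hv : v.ord (resJ (ResidueField A) M) < 0) :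
    (x0NodePairs hqM A hA).br s j ≠ ⟨i, v⟩ := fun h => by
  have h1 := x0NodePairs_br_not_cusp hqM A hA s j
  rw [h] at h1
  exact absurd h1 (not_le.2 hv)

end Fermat.Agent.MazurPrinciple

end
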