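/-
Places of a function field from embeddings into Laurent series: the embeddings giving one place at
which `j` has a pole of order `n` prime to the characteristic are at most `n`.
-/
import Fermat.Agent.Bad.GluingValue
import Fermat.Agent.Curve.BasicFunctionField
import Fermat.Agent.Curve.RiemannRochSpace
import Mathlib.RingTheory.LaurentSeries

set_option autoImplicit false
set_option linter.style.haveILetI false
set_option linter.unusedSectionVars false

noncomputable section

open AlgebraicCurve Polynomial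
open Fermat.Agent.Curve Fermat.Agent.Curve.RedAux Fermat.Agent.Bad

namespace Fermat.Agent.MazurPrinciple.Branch

variable {k : Type*} [Field k]

/-- The ring of power series among the Laurent series. -/
abbrev powRing (k : Type*) [Field k] : Subring (LaurentSeries k) :=
  RingHom.range (HahnSeries.ofPowerSeries ℤ k)

theorem mem_ps_iff {x : (LaurentSeries k)} : x ∈ (powRing k) ↔ x = 0 ∨ 0 ≤ x.order := by
  constructor
  · rintro ⟨p, rfl⟩
    by_cases hp : (HahnSeries.ofPowerSeries ℤ k p : (LaurentSeries k)) = 0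
    · exact Or.inl hp
    refine Or.inr (not_lt.1 fun h => hp (HahnSeries.coeff_order_eq_zero.1 ?_))
    rcases hi : (HahnSeries.ofPowerSeries ℤ k p : (LaurentSeries k)).order with i | i
    · rw [hi] at h; exact absurd h (by simp)
    · rw [HahnSeries.ofPowerSeries_apply]
      exact HahnSeries.embDomain_of_notMem_range (by rintro ⟨m, hm⟩; simp at hm)
  · intro h
    refine ⟨PowerSeries.mk fun n => x.coeff n, ?_⟩
    ext n
    rcases le_or_gt 0 n with hn | hn
    · lift n to ℕ using hn
      rw [HahnSeries.ofPowerSeries_apply_coeff, PowerSeries.coeff_mk]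
    · rw [HahnSeries.ofPowerSeries_apply,
        HahnSeries.embDomain_of_notMem_range (by rintro ⟨m, hm⟩; simp at hm; omega)]
      rcases h with rfl | h
      · simp
      · exact (HahnSeries.coeff_eq_zero_of_lt_order (by omega)).symm

theorem order_inv {x : (LaurentSeries k)} (hx : x ≠ 0) : x⁻¹.order = -x.order := by
  have h := HahnSeries.order_mul hx (inv_ne_zero hx)
  rw [mul_inv_cancel₀ hx, HahnSeries.order_one] at h
  omega

theorem order_zpow {x : (LaurentSeries k)} (hx : x ≠ 0) (n : ℤ) : (x ^ n).order = n * x.order := by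
  obtain ⟨n, rfl | rfl⟩ := n.eq_nat_or_neg
  · rw [zpow_natCast, HahnSeries.order_pow, nsmul_eq_mul]
  · rw [zpow_neg, order_inv (zpow_ne_zero _ hx), zpow_natCast, HahnSeries.order_pow, nsmul_eq_mul]
    ring

variable {E : Type*} [Field E] [Algebra k E] [IsFunctionFieldOne k E] [IsAlgClosed k]
  (ψ : E →+* (LaurentSeries k))

/-- The functions regular for the embedding. -/
def ringOfHom : ValuationSubring E where
  toSubring := (powRing k).comap ψ
  mem_or_inv_mem' x := by
    rcases eq_or_ne x 0 with rfl | hx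
    · exact Or.inl (Subring.zero_mem _)
    have hy : ψ x ≠ 0 := (_root_.map_ne_zero ψ).2 hx
    rcases le_or_gt 0 (ψ x).order with h | h
    · exact Or.inl (mem_ps_iff.2 (Or.inr h))
    · refine Or.inr (mem_ps_iff.2 (Or.inr ?_))
      rw [map_inv₀, order_inv hy]
      omega

theorem mem_ringOfHom {f : E} : f ∈ ringOfHom ψ ↔ ψ f ∈ (powRing k) := Iff.rfl

variable {J : E} (hJ : Transcendental k J)
  (hψ : ∀ c, ψ (algebraMap k E c) = algebraMap k (LaurentSeries k) c) (hneg : (ψ J).order < 0)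

include hψ in
theorem algebraMap_mem_ringOfHom (c : k) : algebraMap k E c ∈ ringOfHom ψ := by
  rw [mem_ringOfHom, hψ]
  exact ⟨PowerSeries.C c, by
    rw [HahnSeries.ofPowerSeries_C, HahnSeries.algebraMap_apply']
    simp [HahnSeries.ofPowerSeries_C]⟩

include hneg in
theorem notMem_ringOfHom : J ∉ ringOfHom ψ := fun h => by
  rcases mem_ps_iff.1 h with h | h
  · rw [h] at hneg; simp at hneg
  · omega

/-- The place of an embedding. -/
def placeOfHom : Place k E where
  toValuationSubring := ringOfHom ψ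
  algebraMap_mem' := algebraMap_mem_ringOfHom ψ hψ
  ne_top' h := notMem_ringOfHom ψ hneg (h ▸ ValuationSubring.mem_top J)
  isPrincipalIdealRing' := by
    refine isPrincipalIdealRing_of_mem_nonunits (t := J⁻¹) (transcendental_inv hJ) _
      (algebraMap_mem_ringOfHom ψ hψ) ?_
    refine (ValuationSubring.mem_nonunits_iff_or _).2 (Or.inr ?_)
    rw [inv_inv]
    exact notMem_ringOfHom ψ hneg

theorem map_mem_ps {f : E} (hf : f ∈ (placeOfHom ψ hJ hψ hneg).toValuationSubring) : ψ f ∈ (powRing k) := hf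

theorem exists_order_eq : ∃ e : ℕ, 0 < e ∧ ∀ f : E, f ≠ 0 → (ψ f).order = e * (placeOfHom ψ hJ hψ hneg).ord f := by
  obtain ⟨π, hπ⟩ := IsDiscreteValuationRing.exists_irreducible (placeOfHom ψ hJ hψ hneg).toValuationSubring
  have hπ0 : (π : E) ≠ 0 := by simpa [ne_eq, ZeroMemClass.coe_eq_zero] using hπ.ne_zero
  have hP0 : ψ (π : E) ≠ 0 := (_root_.map_ne_zero ψ).2 hπ0
  have hpos : 0 < (ψ (π : E)).order := by
    by_contra hle
    have hmem : (π : E)⁻¹ ∈ (placeOfHom ψ hJ hψ hneg).toValuationSubring := by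
      show ψ (π : E)⁻¹ ∈ (powRing k)
      rw [map_inv₀]
      exact mem_ps_iff.2 (Or.inr (by rw [order_inv hP0]; omega))
    exact hπ.not_isUnit (IsUnit.of_mul_eq_one ⟨_, hmem⟩ (Subtype.ext (mul_inv_cancel₀ hπ0)))
  refine ⟨(ψ (π : E)).order.toNat, by omega, fun f hf => ?_⟩
  obtain ⟨u, hu⟩ := (placeOfHom ψ hJ hψ hneg).exists_unit_mul_zpow hf hπ
  have hu0 : ((u : (placeOfHom ψ hJ hψ hneg).toValuationSubring) : E) ≠ 0 := by
    intro h
    rw [h, zero_mul] at hu
    exact hf hu
  have huo : (ψ ((u : (placeOfHom ψ hJ hψ hneg).toValuationSubring) : E)).order = 0 := by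
    have h1 := map_mem_ps ψ hJ hψ hneg (u : (placeOfHom ψ hJ hψ hneg).toValuationSubring).2
    have h2 := map_mem_ps ψ hJ hψ hneg ((u⁻¹ : (placeOfHom ψ hJ hψ hneg).toValuationSubringˣ) : (placeOfHom ψ hJ hψ hneg).toValuationSubring).2
    have e : ((u : (placeOfHom ψ hJ hψ hneg).toValuationSubring) : E) *
        ((u⁻¹ : (placeOfHom ψ hJ hψ hneg).toValuationSubringˣ) : (placeOfHom ψ hJ hψ hneg).toValuationSubring) = 1 :=
      congrArg Subtype.val u.mul_inv
    rw [eq_inv_of_mul_eq_one_right e, map_inv₀] at h2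
    have hz : ψ ((u : (placeOfHom ψ hJ hψ hneg).toValuationSubring) : E) ≠ 0 := (_root_.map_ne_zero ψ).2 hu0
    have a := (mem_ps_iff.1 h1).resolve_left hz
    have b := (mem_ps_iff.1 h2).resolve_left (inv_ne_zero hz)
    rw [order_inv hz] at b
    omega
  conv_lhs => rw [hu, map_mul, map_zpow₀]
  rw [HahnSeries.order_mul ((_root_.map_ne_zero ψ).2 hu0) (zpow_ne_zero _ hP0), huo, order_zpow hP0,
    zero_add, Int.toNat_of_nonneg hpos.le, mul_comm]

/-- The value at the place is the constant term. -/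
theorem coeff_zero_eq {f : E} (hf : f ∈ (placeOfHom ψ hJ hψ hneg).toValuationSubring) :
    (ψ f).coeff 0 = placeValue (placeOfHom ψ hJ hψ hneg) f := by
  have hc : algebraMap k E (placeValue (placeOfHom ψ hJ hψ hneg) f) ∈ (placeOfHom ψ hJ hψ hneg).toValuationSubring :=
    (placeOfHom ψ hJ hψ hneg).algebraMap_mem' _
  have hd : placeValue (placeOfHom ψ hJ hψ hneg) (f - algebraMap k E (placeValue (placeOfHom ψ hJ hψ hneg) f)) = 0 := by
    rw [placeValue_sub _ hf hc, placeValue_algebraMap, sub_self]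
  have h0 : (ψ (f - algebraMap k E (placeValue (placeOfHom ψ hJ hψ hneg) f))).coeff 0 = 0 := by
    rcases (placeValue_eq_zero_iff _ (sub_mem hf hc)).1 hd with h | h
    · rw [h, map_zero, HahnSeries.coeff_zero]
    · obtain ⟨e, he, heq⟩ := exists_order_eq ψ hJ hψ hneg
      by_cases hne : f - algebraMap k E (placeValue (placeOfHom ψ hJ hψ hneg) f) = 0
      · rw [hne, map_zero, HahnSeries.coeff_zero]
      · refine HahnSeries.coeff_eq_zero_of_lt_order ?_
        rw [heq _ hne]
        exact mul_pos (by exact_mod_cast he) (by omega)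
  rw [map_sub, hψ, HahnSeries.coeff_sub, sub_eq_zero] at h0
  rw [h0, HahnSeries.algebraMap_apply']
  simp [HahnSeries.ofPowerSeries_C, HahnSeries.C_apply]

theorem exists_approx {π : E} (hπ : (placeOfHom ψ hJ hψ hneg).ord π = 1) (K : ℕ) {f : E}
    (hf : f ∈ (placeOfHom ψ hJ hψ hneg).toValuationSubring) :
    ∃ p : k[X], ∃ g ∈ (placeOfHom ψ hJ hψ hneg).toValuationSubring, f = aeval π p + π ^ K * g := by
  induction K generalizing f with
  | zero => exact ⟨0, f, hf, by simp⟩
  | succ K ih =>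
    obtain ⟨p, g, hg, rfl⟩ := ih hf
    have hπ0 : π ≠ 0 := fun h => by rw [h, Place.ord_zero] at hπ; omega
    set c := placeValue (placeOfHom ψ hJ hψ hneg) g
    have hc : algebraMap k E c ∈ (placeOfHom ψ hJ hψ hneg).toValuationSubring := (placeOfHom ψ hJ hψ hneg).algebraMap_mem' _
    have hd : placeValue (placeOfHom ψ hJ hψ hneg) (g - algebraMap k E c) = 0 := by
      rw [placeValue_sub _ hg hc, placeValue_algebraMap, sub_self]
    refine ⟨p + C c * X ^ K, (g - algebraMap k E c) / π, ?_, ?_⟩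
    · refine mem_of_zero_or_le _ ?_
      rcases (placeValue_eq_zero_iff _ (sub_mem hg hc)).1 hd with h | h
      · exact Or.inl (by rw [h, zero_div])
      · by_cases hne : g - algebraMap k E c = 0
        · exact Or.inl (by rw [hne, zero_div])
        refine Or.inr ?_
        rw [div_eq_mul_inv, (placeOfHom ψ hJ hψ hneg).ord_mul hne (inv_ne_zero hπ0), (placeOfHom ψ hJ hψ hneg).ord_inv, hπ]
        omega
    · rw [map_add, map_mul, map_pow, aeval_C, aeval_X, pow_succ, mul_assoc (π ^ K),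
        mul_div_cancel₀ _ hπ0]
      ring

/-- Two embeddings of one place with the same leading coefficient at a uniformiser are equal. -/
theorem eq_of_leadingCoeff_eq (ψ' : E →+* (LaurentSeries k)) (hψ' : ∀ c, ψ' (algebraMap k E c) = algebraMap k (LaurentSeries k) c)
    (hneg' : (ψ' J).order < 0) (hsame : ψ J = ψ' J)
    (hv : placeOfHom ψ' hJ hψ' hneg' = (placeOfHom ψ hJ hψ hneg)) {π : E} (hπ : (placeOfHom ψ hJ hψ hneg).ord π = 1)
    (hn : (((placeOfHom ψ hJ hψ hneg).ord J : ℤ) : k) ≠ 0) (hord : (ψ π).order = (ψ' π).order)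
    (hlc : (ψ π).leadingCoeff = (ψ' π).leadingCoeff) : ψ = ψ' := by
  have hπ0 : π ≠ 0 := fun h => by rw [h, Place.ord_zero] at hπ; omega
  obtain ⟨e, he, heq⟩ := exists_order_eq ψ hJ hψ hneg
  have mem' : ∀ f ∈ (placeOfHom ψ hJ hψ hneg).toValuationSubring, ψ' f ∈ (powRing k) := fun f hf =>
    map_mem_ps ψ' hJ hψ' hneg' (by rw [hv]; exact hf)
  have hπm : π ∈ (placeOfHom ψ hJ hψ hneg).toValuationSubring := mem_of_zero_or_le _ (Or.inr (by omega))
  set P := ψ π with hP
  set P' := ψ' π with hP'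
  have hP0 : P ≠ 0 := (_root_.map_ne_zero ψ).2 hπ0
  have hP0' : P' ≠ 0 := (_root_.map_ne_zero ψ').2 hπ0
  have hPe : P.order = e := by rw [hP, heq π hπ0, hπ, mul_one]
  have hPe' : P'.order = e := hord ▸ hPe
  have hpoly : ∀ p : k[X], ∃ w ∈ (powRing k), ψ (aeval π p) - ψ' (aeval π p) = (P - P') * w := by
    intro p
    induction p using Polynomial.induction_on' with
    | add p p' hp hp' =>
      obtain ⟨w, hw, e1⟩ := hp
      obtain ⟨w', hw', e2⟩ := hp'
      exact ⟨w + w', add_mem hw hw', by rw [map_add, map_add, map_add, mul_add, ← e1, ← e2]; ring⟩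
    | monomial m a =>
      rw [aeval_monomial, map_mul, map_mul, map_pow, map_pow, hψ, hψ', ← mul_sub]
      refine ⟨algebraMap k (LaurentSeries k) a * ∑ i ∈ Finset.range m, P ^ i * P' ^ (m - 1 - i),
        mul_mem ((hψ a) ▸ algebraMap_mem_ringOfHom ψ hψ a) (sum_mem fun i _ =>
          mul_mem (pow_mem (map_mem_ps ψ hJ hψ hneg hπm) _) (pow_mem (mem' _ hπm) _)), ?_⟩
      rw [← hP, ← hP', ← geom_sum₂_mul]
      ring
  -- the differences
  have hdiff : P - P' ≠ 0 → ∀ f ∈ (placeOfHom ψ hJ hψ hneg).toValuationSubring,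
      ∃ w ∈ (powRing k), ψ f - ψ' f = (P - P') * w := by
    intro hD f hf
    set K := (P - P').order.toNat
    obtain ⟨p, g, hg, rfl⟩ := exists_approx ψ hJ hψ hneg hπ K hf
    obtain ⟨w, hw, e1⟩ := hpoly p
    have hdiv : ∀ Q : (LaurentSeries k), Q ≠ 0 → Q.order = e → Q ^ K / (P - P') ∈ (powRing k) := fun Q hQ hQe => by
      refine mem_ps_iff.2 (Or.inr ?_)
      rw [div_eq_mul_inv, HahnSeries.order_mul (pow_ne_zero _ hQ) (inv_ne_zero hD),
        HahnSeries.order_pow, order_inv hD, hQe, nsmul_eq_mul]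
      have h1 : (K : ℤ) ≤ (K : ℤ) * e := le_mul_of_one_le_right (Int.natCast_nonneg K)
        (by exact_mod_cast he)
      omega
    refine ⟨w + P ^ K / (P - P') * ψ g - P' ^ K / (P - P') * ψ' g, sub_mem (add_mem hw
      (mul_mem (hdiv P hP0 hPe) (map_mem_ps ψ hJ hψ hneg hg)))
      (mul_mem (hdiv P' hP0' hPe') (mem' _ hg)), ?_⟩
    rw [map_add, map_add, map_mul, map_mul, map_pow, map_pow, ← hP, ← hP', mul_sub, mul_add, ← e1,
      ← mul_assoc, ← mul_assoc, mul_div_cancel₀ _ hD, mul_div_cancel₀ _ hD]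
    ring
  have hPP : P = P' := by
    by_contra hne
    have hD : P - P' ≠ 0 := sub_ne_zero.2 hne
    have hJ0 : J ≠ 0 := fun h => hJ (h ▸ isAlgebraic_zero)
    have hordJ : (ψ J).order = e * (placeOfHom ψ hJ hψ hneg).ord J := heq J hJ0
    obtain ⟨n, hn'⟩ : ∃ n : ℕ, (placeOfHom ψ hJ hψ hneg).ord J = -(n : ℤ) := by
      refine ⟨(-(placeOfHom ψ hJ hψ hneg).ord J).toNat, ?_⟩
      have : (placeOfHom ψ hJ hψ hneg).ord J ≤ 0 := by nlinarith
      omega
    have hn1 : 1 ≤ n := by
      rcases Nat.eq_zero_or_pos n with h | h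
      · rw [hn', h] at hordJ; simp at hordJ; omega
      · exact h
    have hnk : (n : k) ≠ 0 := by
      intro h
      exact hn (by rw [hn', Int.cast_neg, Int.cast_natCast, h, neg_zero])
    set u := J⁻¹ / π ^ n with hu
    have hu0 : u ≠ 0 := div_ne_zero (inv_ne_zero hJ0) (pow_ne_zero _ hπ0)
    have huord : (placeOfHom ψ hJ hψ hneg).ord u = 0 := by
      rw [hu, div_eq_mul_inv, (placeOfHom ψ hJ hψ hneg).ord_mul (inv_ne_zero hJ0) (inv_ne_zero (pow_ne_zero _ hπ0)),
        (placeOfHom ψ hJ hψ hneg).ord_inv, (placeOfHom ψ hJ hψ hneg).ord_inv, Curve.ord_pow, hπ, hn']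
      ring
    have hum : u ∈ (placeOfHom ψ hJ hψ hneg).toValuationSubring := mem_of_zero_or_le _ (Or.inr huord.ge)
    obtain ⟨W, hW, eW⟩ := hdiff hD u hum
    set r := P' / P with hr
    have hr0 : r ≠ 0 := div_ne_zero hP0' hP0
    have hro : r.order = 0 := by
      rw [hr, div_eq_mul_inv, HahnSeries.order_mul hP0' (inv_ne_zero hP0), order_inv hP0, hPe, hPe']
      ring
    have hrc : r.coeff 0 = 1 := by
      have h1 : r.leadingCoeff * P.leadingCoeff = P'.leadingCoeff := by
        rw [← HahnSeries.leadingCoeff_mul, hr, div_mul_cancel₀ _ hP0]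
      rw [← hlc, HahnSeries.leadingCoeff_eq, hro] at h1
      exact mul_left_eq_self₀.1 h1 |>.resolve_right (HahnSeries.leadingCoeff_ne_zero.2 hP0)
    have heqn : P ^ n * ψ u = P' ^ n * ψ' u := by
      rw [hu, map_div₀, map_div₀, map_pow, map_pow, map_inv₀, map_inv₀, hsame,
        mul_div_cancel₀ _ (pow_ne_zero _ hP0), mul_div_cancel₀ _ (pow_ne_zero _ hP0')]
    obtain ⟨n, rfl⟩ : ∃ m, n = m + 1 := ⟨n - 1, by omega⟩
    have hzero : ψ u * (∑ i ∈ Finset.range (n + 1), r ^ (n - i)) + P' * r ^ n * W = 0 := by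
      have h1 : (P - P') * (P ^ n * (ψ u * (∑ i ∈ Finset.range (n + 1), r ^ (n - i)) +
          P' * r ^ n * W)) = 0 := by
        have hs : ∑ i ∈ Finset.range (n + 1), P ^ i * P' ^ (n - i) =
            P ^ n * ∑ i ∈ Finset.range (n + 1), r ^ (n - i) := by
          rw [Finset.mul_sum]
          refine Finset.sum_congr rfl fun i hi => ?_
          obtain ⟨j, hj⟩ : ∃ j, n = i + j := ⟨n - i, by
            rw [Finset.mem_range] at hi; omega⟩
          rw [hr, div_pow, hj, Nat.add_sub_cancel_left, pow_add, mul_assoc,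
            mul_div_cancel₀ _ (pow_ne_zero _ hP0)]
        have hg := geom_sum₂_mul P P' (n + 1)
        simp only [Nat.add_sub_cancel] at hg
        rw [hs] at hg
        have hr' : P ^ n * r ^ n = P' ^ n := by
          rw [hr, div_pow, mul_div_cancel₀ _ (pow_ne_zero _ hP0)]
        rw [show P' ^ (n + 1) = P' * (P ^ n * r ^ n) by rw [hr', pow_succ']] at hg heqn
        linear_combination (ψ u) * hg + P' * (P ^ n * r ^ n) * (-eW) + heqn
      exact (mul_eq_zero.1 ((mul_eq_zero.1 h1).resolve_left hD)).resolve_left (pow_ne_zero _ hP0)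
    obtain ⟨pr, hpr⟩ := (mem_ps_iff (x := r)).2 (Or.inr hro.ge)
    obtain ⟨pP, hpP⟩ := mem' _ hπm
    obtain ⟨pU, hpU⟩ := map_mem_ps ψ hJ hψ hneg hum
    obtain ⟨pW, hpW⟩ := hW
    rw [← hP'] at hpP
    rw [← hpr, ← hpP, ← hpU, ← hpW] at hzero
    simp only [← map_pow, ← map_sum, ← map_mul, ← map_add] at hzero
    have hp := congrArg PowerSeries.constantCoeff
      (HahnSeries.ofPowerSeries_injective (hzero.trans (map_zero _).symm))
    have c0 : ∀ (x : (LaurentSeries k)) (p : PowerSeries k), HahnSeries.ofPowerSeries ℤ k p = x →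
        PowerSeries.constantCoeff p = x.coeff 0 := fun x p h => by
      rw [← h, ← PowerSeries.coeff_zero_eq_constantCoeff_apply]
      exact (HahnSeries.ofPowerSeries_apply_coeff p 0).symm
    simp only [map_add, map_mul, map_sum, map_pow, map_zero, c0 _ _ hpr, c0 _ _ hpP, c0 _ _ hpU,
      hrc, one_pow, Finset.sum_const, Finset.card_range, nsmul_eq_mul, mul_one] at hp
    rw [HahnSeries.coeff_eq_zero_of_lt_order (x := P') (by rw [hPe']; exact_mod_cast he), zero_mul, add_zero,
      coeff_zero_eq ψ hJ hψ hneg hum] at hp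
    rcases mul_eq_zero.1 hp with h | h
    · rcases (placeValue_eq_zero_iff _ hum).1 h with h | h
      · exact hu0 h
      · omega
    · exact hnk h
  have hO : ∀ f ∈ (placeOfHom ψ hJ hψ hneg).toValuationSubring, ψ f = ψ' f := by
    intro f hf
    by_contra hne
    have hx : ψ f - ψ' f ≠ 0 := sub_ne_zero.2 hne
    set K := (ψ f - ψ' f).order.toNat + 1
    obtain ⟨p, g, hg, e1⟩ := exists_approx ψ hJ hψ hneg hπ K hf
    obtain ⟨w, -, e2⟩ := hpoly p
    rw [hPP, sub_self, zero_mul, sub_eq_zero] at e2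
    have e3 : ψ f - ψ' f = P ^ K * (ψ g - ψ' g) := by
      rw [e1, map_add, map_add, map_mul, map_mul, map_pow, map_pow, ← hP, ← hP', ← hPP, e2]
      ring
    have hz : ψ g - ψ' g ≠ 0 := fun h => hx (by rw [e3, h, mul_zero])
    have h1 := congrArg HahnSeries.order e3
    rw [HahnSeries.order_mul (pow_ne_zero _ hP0) hz, HahnSeries.order_pow, hPe, nsmul_eq_mul] at h1
    have h2 := (mem_ps_iff.1 (sub_mem (map_mem_ps ψ hJ hψ hneg hg) (mem' _ hg))).resolve_left hz
    have h3 : (K : ℤ) ≤ (K : ℤ) * e := le_mul_of_one_le_right (Int.natCast_nonneg K)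
      (by exact_mod_cast he)
    omega
  refine RingHom.ext fun f => ?_
  rcases (placeOfHom ψ hJ hψ hneg).toValuationSubring.mem_or_inv_mem f with h | h
  · exact hO f h
  · rw [← inv_inv f, map_inv₀ ψ, map_inv₀ ψ', hO _ h]

end Fermat.Agent.MazurPrinciple.Branch

namespace Fermat.Agent.MazurPrinciple.Branch

variable {k E : Type*} [Field k] [Field E] [Algebra k E] [IsFunctionFieldOne k E] [IsAlgClosed k]

/-- Embeddings sending `J` to one series of order `-m`, `m ≠ 0` in `k`, the `i`-th with image in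
series of `t ^ d i`, give places with poles of `J` of order prime to the characteristic, at least
`∑ d i / m` many. -/
theorem exists_places {J : E} (hJ : Transcendental k J) {Q : Type*} [Fintype Q]
    (ψ : Q → E →+* LaurentSeries k) (hinj : Function.Injective ψ)
    (hψ : ∀ i c, ψ i (algebraMap k E c) = algebraMap k (LaurentSeries k) c)
    {s : LaurentSeries k} (hs : ∀ i, ψ i J = s) {m : ℕ} (hm : s.order = -(m : ℤ))
    (hmk : (m : k) ≠ 0) (d : Q → ℕ)
    (hd : ∀ i f, (d i : ℤ) ∣ (ψ i f).order) :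
    ∃ S : Finset (Place k E), (∀ v ∈ S, v.ord J < 0 ∧ ((v.ord J : ℤ) : k) ≠ 0) ∧
      ∑ i, d i ≤ m * S.card := by
  classical
  have hm0 : 0 < m := Nat.pos_of_ne_zero fun h => hmk (by rw [h, Nat.cast_zero])
  have hneg : ∀ i, (ψ i J).order < 0 := fun i => by rw [hs, hm]; omega
  let v : Q → Place k E := fun i => placeOfHom (ψ i) hJ (hψ i) (hneg i)
  have hJ0 : J ≠ 0 := fun h => hJ (h ▸ isAlgebraic_zero)
  choose e he heq using fun i => exists_order_eq (ψ i) hJ (hψ i) (hneg i)
  have hne : ∀ i, (e i : ℤ) * (v i).ord J = -(m : ℤ) := fun i => by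
    rw [← hm, ← hs i, heq i J hJ0]
  have hlt : ∀ i, (v i).ord J < 0 := fun i => by
    by_contra h
    nlinarith [hne i, mul_nonneg (Int.natCast_nonneg (e i)) (not_lt.1 h)]
  have hnk : ∀ i, (((v i).ord J : ℤ) : k) ≠ 0 := fun i h => hmk (by
    have h1 := congrArg (fun z : ℤ => (z : k)) (hne i)
    simp only [Int.cast_mul, h, mul_zero, Int.cast_neg, Int.cast_natCast] at h1
    exact neg_eq_zero.1 h1.symm)
  refine ⟨Finset.univ.image v, fun w hw => ?_, ?_⟩
  · obtain ⟨i, -, rfl⟩ := Finset.mem_image.1 hw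
    exact ⟨hlt i, hnk i⟩
  have hde : ∀ i, d i ≤ e i := fun i => by
    obtain ⟨π, hπ⟩ := IsDiscreteValuationRing.exists_irreducible (v i).toValuationSubring
    have h := hd i (π : E)
    rw [heq i _ (by simpa [ne_eq, ZeroMemClass.coe_eq_zero] using hπ.ne_zero),
      (v i).ord_coe_irreducible hπ, mul_one] at h
    exact Nat.le_of_dvd (he i) (Int.natCast_dvd_natCast.1 h)
  refine (Finset.sum_le_sum fun i _ => hde i).trans ?_
  rw [← Finset.sum_fiberwise_of_maps_to (g := v) (t := Finset.univ.image v)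
    (fun i hi => Finset.mem_image_of_mem v hi), mul_comm m, ← smul_eq_mul]
  refine Finset.sum_le_card_nsmul _ _ m fun w hw => ?_
  obtain ⟨i₀, -, rfl⟩ := Finset.mem_image.1 hw
  set T := Finset.univ.filter fun i => v i = v i₀
  set n := (-(v i₀).ord J).toNat with hn
  have hn0 : (v i₀).ord J = -(n : ℤ) := by have := hlt i₀; omega
  have hen : ∀ i ∈ T, e i * n = m := fun i hi => by
    have h := hne i
    rw [(Finset.mem_filter.1 hi).2, hn0] at h
    have : ((e i * n : ℕ) : ℤ) = m := by push_cast; linarith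
    exact_mod_cast this
  have hn1 : 0 < n := by have := hlt i₀; omega
  obtain ⟨π, hπ⟩ := IsDiscreteValuationRing.exists_irreducible (v i₀).toValuationSubring
  have hπ1 := (v i₀).ord_coe_irreducible hπ
  have hπ0 : (π : E) ≠ 0 := by simpa [ne_eq, ZeroMemClass.coe_eq_zero] using hπ.ne_zero
  set u := J⁻¹ / (π : E) ^ n with hu
  have huord : (v i₀).ord u = 0 := by
    rw [hu, div_eq_mul_inv, (v i₀).ord_mul (inv_ne_zero hJ0) (inv_ne_zero (pow_ne_zero _ hπ0)),
      (v i₀).ord_inv, (v i₀).ord_inv, Curve.ord_pow, hπ1, hn0]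
    ring
  have hu0 : u ≠ 0 := div_ne_zero (inv_ne_zero hJ0) (pow_ne_zero _ hπ0)
  have hum : u ∈ (v i₀).toValuationSubring := mem_of_zero_or_le _ (Or.inr huord.ge)
  set c₀ := placeValue (v i₀) u with hc₀
  set a := s⁻¹.leadingCoeff / c₀ with ha
  have hcard : T.card ≤ n := by
    refine le_trans (Finset.card_le_card_of_injOn (fun i => (ψ i (π : E)).leadingCoeff)
      (t := (nthRoots n a).toFinset) (fun i hi => ?_) fun i hi i' hi' hl => ?_)
      ((Multiset.toFinset_card_le _).trans (card_nthRoots n a))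
    · have hvi : v i = v i₀ := (Finset.mem_filter.1 hi).2
      have hum' : u ∈ (v i).toValuationSubring := hvi ▸ hum
      have hU0 : ψ i u ≠ 0 := (_root_.map_ne_zero _).2 hu0
      have hUo : (ψ i u).order = 0 := by
        rw [heq i u hu0, show (v i).ord u = 0 by rw [hvi]; exact huord, mul_zero]
      have hUc : (ψ i u).leadingCoeff = c₀ := by
        rw [HahnSeries.leadingCoeff_eq, hUo, coeff_zero_eq (ψ i) hJ (hψ i) (hneg i) hum', hc₀]
        exact congrArg (fun w => placeValue w u) hvi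
      have h1 : c₀ * (ψ i (π : E)).leadingCoeff ^ n = s⁻¹.leadingCoeff := by
        have e1 : ψ i u * ψ i (π : E) ^ n = s⁻¹ := by
          rw [← map_pow, ← map_mul, hu, div_mul_cancel₀ _ (pow_ne_zero _ hπ0), map_inv₀, hs]
        rw [← e1, HahnSeries.leadingCoeff_mul, hUc]
        congr 1
        induction n with
        | zero => simp
        | succ n ih => rw [pow_succ, pow_succ, HahnSeries.leadingCoeff_mul, ih]
      have hc0 : c₀ ≠ 0 := hUc ▸ HahnSeries.leadingCoeff_ne_zero.2 hU0
      rw [Finset.mem_coe, Multiset.mem_toFinset, mem_nthRoots hn1, ha, eq_div_iff hc0, mul_comm]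
      exact h1
    · have hvi : v i = v i₀ := (Finset.mem_filter.1 hi).2
      have hvi' : v i' = v i₀ := (Finset.mem_filter.1 hi').2
      have h1 : (v i).ord (π : E) = 1 := by rw [hvi]; exact hπ1
      have hee : e i = e i' :=
        Nat.eq_of_mul_eq_mul_right hn1 ((hen i hi).trans (hen i' hi').symm)
      refine hinj (eq_of_leadingCoeff_eq (ψ i) hJ (hψ i) (hneg i) (ψ i') (hψ i') (hneg i')
        ((hs i).trans (hs i').symm) (hvi'.trans hvi.symm) h1 (hnk i) ?_ hl)
      rw [heq i _ hπ0, heq i' _ hπ0, h1, show (v i').ord (π : E) = 1 by rw [hvi']; exact hπ1, hee]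
  calc ∑ i ∈ T, e i = ∑ _i ∈ T, e i₀ := Finset.sum_congr rfl fun i hi =>
        Nat.eq_of_mul_eq_mul_right hn1 ((hen i hi).trans
          (hen i₀ (Finset.mem_filter.2 ⟨Finset.mem_univ _, rfl⟩)).symm)
    _ = T.card * e i₀ := by rw [Finset.sum_const, smul_eq_mul]
    _ ≤ n * e i₀ := Nat.mul_le_mul_right _ hcard
    _ = m := by rw [mul_comm]; exact hen i₀ (Finset.mem_filter.2 ⟨Finset.mem_univ _, rfl⟩)

end Fermat.Agent.MazurPrinciple.Branch

end
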