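/-
Mazur's principle at `p`: the cusps of `X₀(M)` in characteristic `q ∤ M` are at least as many as
in characteristic zero and `j` is tame at them.

One counts the embeddings of the residual function field into Laurent series given by
the expansions of `j (M g τ)` over the cosets of `Γ₀(M)`: at a cusp of width `w` their exponents
are multiples of `M / w`.
-/
import Fermat.Agent.MazurPrinciple.NodesBranch
import Fermat.Agent.MazurPrinciple.NodesResidualBranch
import Fermat.Agent.MazurPrinciple.NodesResidualOrd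
import Fermat.Agent.Igusa.FibreIrred
import Fermat.Agent.BadReduction.X0DegreeBound
import Fermat.Agent.Carayol.LTwoCompUnramLevel
import Mathlib.RingTheory.AdjoinRoot

set_option autoImplicit false
set_option linter.style.haveILetI false
set_option linter.unusedSectionVars false
set_option maxHeartbeats 2000000
set_option synthInstance.maxHeartbeats 400000

noncomputable section

open ModularCurve IntermediateField IsLocalRing AlgebraicCurve Polynomial UpperHalfPlane
open Fermat.Agent.BadReduction
open Fermat.Agent.Igusa.Fibre (deltaS)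
open scoped MatrixGroups IntermediateField.algebraAdjoinAdjoin

namespace Fermat.Agent.MazurPrinciple

local notation "ℚbar" => AlgebraicClosure ℚ

section Laurent

variable {k : Type*} [Field k]

theorem order_jqModC' : (jqModC k).order = -1 := Igusa.Fibre.order_jqModC k

end Laurent

variable {M q : ℕ} [NeZero M] [hq : Fact q.Prime]

local instance neZero_prime_nodesResidual : NeZero q := ⟨hq.out.ne_zero⟩

/-- The sum over the cosets of `M / width` is `M` times the number of cusps. -/
theorem sum_div_width :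
    ∑ i : Gamma0.Coset M, M / Gamma0.width M i.out = M * cuspCount M := by
  classical
  haveI : Fintype (Gamma0.CuspOrbit M) := Fintype.ofFinite _
  rw [← Gamma0.card_cuspOrbit M, Nat.card_eq_fintype_card, mul_comm, ← Finset.card_univ,
    ← smul_eq_mul, ← Finset.sum_const,
    ← Finset.sum_fiberwise Finset.univ (fun i => (Quotient.mk'' i : Gamma0.CuspOrbit M))]
  refine Finset.sum_congr rfl fun o _ => ?_
  obtain ⟨i₀, rfl⟩ := Quotient.exists_rep o
  have hw : ∀ i : Gamma0.Coset M, Nat.card (MulAction.orbit (Subgroup.zpowers ModularGroup.T) i) =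
      Gamma0.width M i.out := fun i => by
    conv_lhs => rw [← QuotientGroup.out_eq' i]
    exact Gamma0.card_orbit_T i.out
  set T := Finset.univ.filter fun i : Gamma0.Coset M =>
    (Quotient.mk'' i : Gamma0.CuspOrbit M) = Quotient.mk _ i₀
  have hT : ∀ i, i ∈ T ↔ i ∈ MulAction.orbit (Subgroup.zpowers ModularGroup.T) i₀ := fun i => by
    simp only [T, Finset.mem_filter, Finset.mem_univ, true_and]
    exact (Quotient.eq''.trans MulAction.orbitRel_apply)
  have hcard : T.card = Gamma0.width M i₀.out := by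
    rw [← hw, Nat.card_coe_set_eq, ← Set.ncard_coe_finset]
    congr 1
    ext i
    exact hT i
  rw [Finset.sum_congr rfl (g := fun _ => M / Gamma0.width M i₀.out) fun i hi => by
    rw [← hw, ← hw, MulAction.orbit_eq_iff.2 ((hT i).1 hi)], Finset.sum_const, smul_eq_mul, hcard,
    Nat.mul_div_cancel']
  exact Nat.div_dvd_of_dvd (Nat.gcd_dvd_left _ _)

section Expansions

variable {V : Subring ℂ} (hroot : ∀ d, d ∣ M → ∃ z : Vˣ, Units.map V.subtype z = ModFun.zetaU d)
  {k : Type*} [Field k] (f : V →+* k)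

theorem width_dvd (i : Gamma0.Coset M) : Gamma0.width M i.out ∣ M :=
  Nat.div_dvd_of_dvd (Nat.gcd_dvd_left _ _)

include hroot in
/-- At a cusp of width `w` the expansion of `j (M g τ)` is in `t ^ (M / w)`. -/
theorem jX_mem_range (i : Gamma0.Coset M) [NeZero (M / Gamma0.width M i.out)] :
    coeffMap f (Igusa.Fibre.jX hroot (dvd_refl M) i) ∈
      (qExpand k (M / Gamma0.width M i.out)).fieldRange := by
  set w := Gamma0.width M i.out
  haveI : NeZero w := ⟨(Gamma0.width_pos i.out).ne'⟩
  have hwd : w * (M / w) = M := Nat.mul_div_cancel' (width_dvd i)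
  have hper : ∀ τ : ℍ, Igusa.Fibre.jV M i (((w : ℝ)) +ᵥ τ) = Igusa.Fibre.jV M i τ := by
    intro τ
    have h1 : ((w : ℝ) +ᵥ τ) = ModularGroup.T ^ (w : ℤ) • τ := by
      rw [UpperHalfPlane.modular_T_zpow_smul]; simp
    rw [h1, Igusa.Fibre.jV_smul (dvd_refl M)]
    congr 1
    rw [← zpow_neg]
    conv_lhs => rw [← QuotientGroup.out_eq' i]
    conv_rhs => rw [← QuotientGroup.out_eq' i]
    exact Gamma0.T_zpow_smul_mk_eq_iff.2 (dvd_neg.2 dvd_rfl)
  have hX : ModFun.HasQExp (w * (M / w)) (Igusa.Fibre.jV M i)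
      (coeffMap V.subtype (Igusa.Fibre.jX hroot (dvd_refl M) i)) := by
    rw [hwd]
    exact Igusa.Fibre.hasQExp_jX hroot (dvd_refl M) i
  obtain ⟨y, hy, -⟩ := ModFun.HasQExp.exists_of_periodic (h := w) (M / w) hX
    (Filter.Eventually.of_forall hper)
  set X := Igusa.Fibre.jX hroot (dvd_refl M) i
  have hsupp : ∀ n : ℤ, ¬ ((M / w : ℕ) : ℤ) ∣ n → X.coeff n = 0 := fun n hn => by
    have := congrArg (fun z : LaurentSeries ℂ => z.coeff n) hy
    simp only [coeffMap_coeff, qExpand_coeff_of_not_dvd _ _ hn] at this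
    exact Subtype.ext (by simpa using this)
  refine ⟨{ coeff := fun m => f (X.coeff (((M / w : ℕ) : ℤ) * m))
            isPWO_support' := ?_ }, ?_⟩
  · refine Set.IsPWO.mono y.isPWO_support fun m hm h0 => hm ?_
    have := congrArg (fun z : LaurentSeries ℂ => z.coeff (((M / w : ℕ) : ℤ) * m)) hy
    simp only [coeffMap_coeff, qExpand_coeff_mul, h0] at this
    show f (X.coeff (((M / w : ℕ) : ℤ) * m)) = 0
    rw [show X.coeff (((M / w : ℕ) : ℤ) * m) = 0 from Subtype.ext (by simpa using this), map_zero]
  · ext n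
    rw [coeffMap_coeff]
    by_cases hn : ((M / w : ℕ) : ℤ) ∣ n
    · obtain ⟨m, rfl⟩ := hn
      rw [qExpand_coeff_mul]
    · rw [qExpand_coeff_of_not_dvd _ _ hn, hsupp n hn, map_zero]

theorem dvd_order_of_mem_range {d : ℕ} [NeZero d] {x : LaurentSeries k}
    (hx : x ∈ (qExpand k d).fieldRange) : (d : ℤ) ∣ x.order := by
  by_contra h
  obtain ⟨y, rfl⟩ := hx
  refine h ?_
  rcases eq_or_ne (qExpand k d y) 0 with h0 | h0
  · rw [h0]; simp
  · by_contra hd
    exact h0 (HahnSeries.coeff_order_eq_zero.1 (qExpand_coeff_of_not_dvd _ _ hd))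

end Expansions

variable (hqM : ¬ q ∣ M) (A : ValuationSubring ℚbar) (hA : A.LiesOverPrime q)

include hqM hA in
/-- There are at least `cuspCount M` cusps in characteristic `q`, and `j` is tame at them. -/
theorem exists_residual_cusps : ∃ S : Finset (Place (ResidueField A) (X0Res M A)),
    cuspCount M ≤ S.card ∧ ∀ v ∈ S, v.ord (resJ (ResidueField A) M) < 0 ∧
      ¬ (q : ℤ) ∣ v.ord (resJ (ResidueField A) M) := by
  classical
  haveI := charP_residueField A hq.out hA
  haveI := (x0Reduction hqM A hA).isAlgClosed_residue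
  let k := ResidueField A
  let jb : (modularFunctionFieldFullC k M) := resJ k M
  let jN : (modularFunctionFieldFullC k M) := ⟨jqNModC k M, jqModCd_mem_full k M (dvd_refl M)⟩
  let V : Subring ℂ := A.toSubring.map qbarToC
  let e : A ≃+* V := A.toSubring.equivMapOfInjective qbarToC qbarToC.injective
  let f : V →+* k := (residue A).comp e.symm.toRingHom
  have hroot : ∀ d, d ∣ M → ∃ z : Vˣ, Units.map V.subtype z = ModFun.zetaU d := by
    intro d hd
    have hd0 : d ≠ 0 := ne_zero_of_dvd_ne_zero (NeZero.ne M) hd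
    haveI : NeZero d := ⟨hd0⟩
    obtain ⟨w, hw⟩ := (HasEnoughRootsOfUnity.exists_primitiveRoot ℚbar d :
      ∃ w : ℚbar, IsPrimitiveRoot w d)
    obtain ⟨i, -, hi⟩ := (hw.map_of_injective qbarToC.injective).eq_pow_of_pow_eq_one
      (Complex.isPrimitiveRoot_exp d hd0).pow_eq_one
    have hwi : (w ^ i) ^ d = 1 := by rw [← pow_mul, mul_comm, pow_mul, hw.pow_eq_one, one_pow]
    have hmem : w ^ i ∈ A := by
      rw [← A.valuation_le_one_iff]
      have h := congrArg A.valuation hwi
      rw [map_pow, map_one] at h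
      exact ((pow_eq_one_iff_left hd0).1 h).le
    have hu : IsUnit (⟨w ^ i, hmem⟩ : A) := IsUnit.of_pow_eq_one (Subtype.ext hwi) hd0
    refine ⟨Units.map e.toRingHom hu.unit, Units.ext ?_⟩
    show qbarToC (w ^ i) = _
    rw [map_pow]
    exact hi
  have hMk : (M : k) ≠ 0 := fun h => hqM ((CharP.cast_eq_zero_iff k q M).1 h)
  have hMV : IsUnit (M : V) := by
    have h1 : IsUnit (M : A) := by
      by_contra h
      exact hMk (by rw [← map_natCast (residue A) M]; exact (residue_eq_zero_iff _).2 h)
    simpa using h1.map e.toRingHom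
  -- the residual field over `k (j)`
  have htr : Transcendental k jb := BadReduction.transcendental_resJ k M
  haveI := Curve.finite_adjoin_of_transcendental (K := k) htr
  let s : LaurentSeries k := Igusa.Fibre.jt M k
  let x : Gamma0.Coset M → LaurentSeries k := fun i =>
    coeffMap f (Igusa.Fibre.jX hroot (dvd_refl M) i)
  let σ : (k⟮jb⟯) →+* LaurentSeries k :=
    (qExpand k M).comp ((modularFunctionFieldFullC k M).val.toRingHom.comp (IntermediateField.val (k⟮jb⟯)).toRingHom)
  have hx0 : x Igusa.Fibre.q₀ = qExpand k M (jqNModC k M) := by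
    show coeffMap f _ = _
    rw [Igusa.Fibre.jX_q₀, coeffMap_qExpand, coeffMap_jqNModC]
  have hxinj : Function.Injective x := Igusa.Fibre.injective_red hroot f hMV
  -- the product of `T - x i` over `k [j]`
  have hrange := Igusa.Fibre.pairPoly_red M V _ _ f (x' := x) (u' := x) (fun i => rfl) (fun i => rfl)
    (Igusa.Fibre.pairPoly_mem_range M V (fun i => Igusa.Fibre.jG hroot (dvd_refl M) i)
      (fun i => Igusa.Fibre.jG hroot (dvd_refl M) i) fun γ =>
        ⟨MulAction.toPerm γ⁻¹, fun i τ => ⟨Igusa.Fibre.jV_smul (dvd_refl M) γ i τ,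
          Igusa.Fibre.jV_smul (dvd_refl M) γ i τ⟩⟩)
  obtain ⟨R, hRmap, hRdeg, hRmonic⟩ := lifts_and_natDegree_eq_and_monic
    (Igusa.Fibre.prod_X_sub_C_mem_lifts (aeval (R := k) s).toRingHom x x hrange)
    (monic_prod_of_monic _ _ fun i _ => monic_X_sub_C (x i))
  let gj : (k⟮jb⟯) := AdjoinSimple.gen k jb
  let RL : (k⟮jb⟯)[X] := R.map (aeval (R := k) gj).toRingHom
  have hσ : σ.comp (aeval (R := k) gj).toRingHom = (aeval (R := k) s).toRingHom := by
    refine Polynomial.ringHom_ext (fun c => ?_) ?_
    · show σ (aeval (R := k) gj (C c)) = aeval (R := k) s (C c)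
      rw [aeval_C, aeval_C]
      show qExpand k M (algebraMap k (LaurentSeries k) c) = _
      rw [algebraMap_laurentSeries_eq_single]
      rw [qExpand_single, mul_zero]
    · show σ (aeval (R := k) gj X) = aeval (R := k) s X
      rw [aeval_X, aeval_X]
      rfl
  have hRL : RL.map σ = ∏ i, (X - C (x i)) := by
    rw [Polynomial.map_map, hσ]; exact hRmap
  have hRLdeg : RL.natDegree = Fintype.card (Gamma0.Coset M) := by
    rw [hRmonic.natDegree_map, hRdeg, natDegree_finsetProd_X_sub_C_eq_card, Finset.card_univ]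
  have hroots : ∀ i, RL.eval₂ σ (x i) = 0 := fun i => by
    rw [← eval_map, hRL, eval_prod]
    exact Finset.prod_eq_zero (Finset.mem_univ i) (by simp)
  have hinjE : Function.Injective
      ((qExpand k M).comp (modularFunctionFieldFullC k M).val.toRingHom) :=
    RingHom.injective _
  have hRLjN : aeval jN RL = 0 := hinjE (by
    rw [map_zero, aeval_def, hom_eval₂]
    refine Eq.trans ?_ (hroots Igusa.Fibre.q₀)
    rw [hx0]
    rfl)
  have hint : IsIntegral (k⟮jb⟯) jN := ⟨RL, hRmonic.map _, hRLjN⟩
  have hind : LinearIndependent (k⟮jb⟯) fun i : Fin (Fintype.card (Gamma0.Coset M)) => jN ^ (i : ℕ) := by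
    refine (LinearIndependent.iff_fractionRing (Algebra.adjoin k {jb}) (k⟮jb⟯)).1 ?_
    rw [linearIndependent_iff']
    intro S c hc i hi
    have hr : ∀ r : Algebra.adjoin k {jb}, ∃ P : k[X], aeval jb P = r := fun r => by
      have : (r : (modularFunctionFieldFullC k M)) ∈ (aeval (R := k) jb).range := by
        rw [← Algebra.adjoin_singleton_eq_range_aeval]; exact r.2
      exact this
    choose P hP using hr
    have h0 := Igusa.Fibre.independent_jqNModC hroot hMV f (fun i => if i ∈ S then P (c i) else 0) ?_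
    · have h1 := congrFun h0 i
      simp only [hi, if_true, Pi.zero_apply] at h1
      apply Subtype.ext
      rw [← hP (c i), h1, map_zero]
      rfl
    · rw [← ZeroMemClass.coe_zero (modularFunctionFieldFullC k M), ← hc,
        ← Finset.sum_subset (Finset.subset_univ S) fun x _ hx => by simp [hx]]
      push_cast
      refine Finset.sum_congr rfl fun l hl => ?_
      rw [if_pos hl, Algebra.smul_def]
      show _ = ((c l : (modularFunctionFieldFullC k M)) : LaurentSeries k) * _
      rw [← hP (c l)]
      exact (congrArg (· * _) (aeval_algHom_apply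
        (modularFunctionFieldFullC k M).val jb (P (c l)))).trans rfl
  have hMA : IsUnit (M : A) := by
    by_contra h
    exact hMk (by rw [← map_natCast (residue A) M]; exact (residue_eq_zero_iff _).2 h)
  have hfin : Module.finrank (k⟮jb⟯) (modularFunctionFieldFullC k M) = Fintype.card (Gamma0.Coset M) := by
    refine le_antisymm ?_ (by simpa using hind.fintype_card_le_finrank)
    rw [card_coset_eq M]
    refine le_of_eq (Eq.trans ?_ (Igusa.GaussX0.finrank_res (A := A) hMA))
    rw [show Igusa.GaussX0.jRed hMA = jb from Subtype.ext (Igusa.GaussX0.coe_φ_jBar hMA)]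
  have hmin : minpoly (k⟮jb⟯) jN = RL := by
    refine (eq_of_monic_of_dvd_of_natDegree_le (minpoly.monic hint) (hRmonic.map _)
      (minpoly.dvd (k⟮jb⟯) jN hRLjN) ?_).symm
    rw [hRLdeg]
    by_contra hlt
    rw [not_le] at hlt
    have h1 : minpoly (k⟮jb⟯) jN ≠ 0 := minpoly.ne_zero hint
    have hzero := minpoly.aeval (k⟮jb⟯) jN
    rw [aeval_eq_sum_range' hlt, ← Fin.sum_univ_eq_sum_range
      (fun i => (minpoly (k⟮jb⟯) jN).coeff i • jN ^ i)] at hzero
    have := Fintype.linearIndependent_iff.1 hind _ hzero ⟨(minpoly (k⟮jb⟯) jN).natDegree, hlt⟩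
    exact h1 (leadingCoeff_eq_zero.1 this)
  have htop : (k⟮jb⟯)⟮jN⟯ = ⊤ := by
    refine IntermediateField.eq_of_le_of_finrank_eq le_top ?_
    rw [IntermediateField.finrank_top', adjoin.finrank hint, hmin, hRLdeg, hfin]
  -- the embeddings
  haveI : Fact (Irreducible RL) := ⟨hmin ▸ minpoly.irreducible hint⟩
  let π0 : AdjoinRoot RL →+* (modularFunctionFieldFullC k M) := AdjoinRoot.lift (algebraMap (k⟮jb⟯) (modularFunctionFieldFullC k M)) jN hRLjN
  have hπ0 : Function.Bijective π0 := by
    refine ⟨π0.injective, fun z => ?_⟩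
    have hz : z ∈ (k⟮jb⟯)⟮jN⟯ := by rw [htop]; trivial
    rw [← IntermediateField.mem_toSubalgebra,
      IntermediateField.adjoin_simple_toSubalgebra_of_isAlgebraic hint.isAlgebraic,
      Algebra.adjoin_singleton_eq_range_aeval] at hz
    obtain ⟨P, rfl⟩ := hz
    exact ⟨AdjoinRoot.mk RL P, AdjoinRoot.lift_mk hRLjN P⟩
  let eq0 : AdjoinRoot RL ≃+* (modularFunctionFieldFullC k M) := RingEquiv.ofBijective π0 hπ0
  let ψ : Gamma0.Coset M → (modularFunctionFieldFullC k M) →+* LaurentSeries k := fun i =>
    (AdjoinRoot.lift σ (x i) (hroots i)).comp eq0.symm.toRingHom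
  have hof : ∀ l : (k⟮jb⟯), eq0.symm (l : (modularFunctionFieldFullC k M)) = AdjoinRoot.of RL l := fun l => by
    rw [RingEquiv.symm_apply_eq]
    exact (AdjoinRoot.lift_of hRLjN).symm
  have hψL : ∀ i (l : (k⟮jb⟯)), ψ i (l : (modularFunctionFieldFullC k M)) = σ l := fun i l => by
    show AdjoinRoot.lift σ (x i) (hroots i) (eq0.symm (l : (modularFunctionFieldFullC k M))) = _
    rw [hof, AdjoinRoot.lift_of]
  have hψjN : ∀ i, ψ i jN = x i := fun i => by
    have : eq0.symm jN = AdjoinRoot.root RL := by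
      rw [RingEquiv.symm_apply_eq]
      exact (AdjoinRoot.lift_root hRLjN).symm
    show AdjoinRoot.lift σ (x i) (hroots i) (eq0.symm jN) = _
    rw [this, AdjoinRoot.lift_root]
  have hnz : ∀ i : Gamma0.Coset M, NeZero (M / Gamma0.width M i.out) := fun i =>
    ⟨(Nat.div_pos (Nat.le_of_dvd (NeZero.pos M) (width_dvd i)) (Gamma0.width_pos i.out)).ne'⟩
  have hmem : ∀ i z, haveI := hnz i; ψ i z ∈ (qExpand k (M / Gamma0.width M i.out)).fieldRange := by
    intro i z
    haveI := hnz i
    obtain ⟨P, hP⟩ := AdjoinRoot.mk_surjective (eq0.symm z)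
    show AdjoinRoot.lift σ (x i) (hroots i) (eq0.symm z) ∈ _
    rw [← hP, AdjoinRoot.lift_mk, eval₂_eq_sum_range]
    refine sum_mem fun l _ => mul_mem ?_ (pow_mem (jX_mem_range hroot f i) _)
    show qExpand k M _ ∈ _
    haveI : NeZero (Gamma0.width M i.out) := ⟨(Gamma0.width_pos i.out).ne'⟩
    refine ⟨qExpand k (Gamma0.width M i.out) (((P.coeff l : (k⟮jb⟯)) : (modularFunctionFieldFullC k M)) : LaurentSeries k), ?_⟩
    rw [qExpand_qExpand]
    exact qExpand_congr (Nat.div_mul_cancel (width_dvd i)) _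
  obtain ⟨S, hS, hsum⟩ := Branch.exists_places htr ψ
    (fun i i' h => hxinj (by rw [← hψjN i, h, hψjN]))
    (fun i c => (hψL i (algebraMap k (k⟮jb⟯) c)).trans (by
      show qExpand k M (algebraMap k (LaurentSeries k) c) = _
      rw [algebraMap_laurentSeries_eq_single]
      rw [qExpand_single, mul_zero]))
    (s := s) (fun i => (hψL i gj).trans rfl) (m := M) (by
      show (qExpand k M (jqModC k)).order = _
      rw [Mazur.order_qExpand_eq M (Mazur.jqModC_ne k), order_jqModC']; ring) hMk
    (fun i => M / Gamma0.width M i.out)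
    (fun i z => by
      haveI := hnz i
      exact dvd_order_of_mem_range (hmem i z))
  refine ⟨S, ?_, fun v hv => ⟨(hS v hv).1, fun h => (hS v hv).2 ?_⟩⟩
  · rw [sum_div_width] at hsum
    exact Nat.le_of_mul_le_mul_left hsum (NeZero.pos M)
  · obtain ⟨c, hc⟩ := h
    rw [hc, Int.cast_mul, Int.cast_natCast, CharP.cast_eq_zero, zero_mul]

end Fermat.Agent.MazurPrinciple

end
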