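/-
Mazur's principle at `p`: the modular unit `Δ (q τ) / Δ (τ)` as the auxiliary unit of the
component step: valuations `0` and `- 12 e`, indivisible orders at the cusps and, for `q ≥ 5`, on
the first branch of every node.
-/
import Fermat.Agent.MazurPrinciple.NodesResidual
import Fermat.Agent.MazurPrinciple.Reps
import Fermat.Agent.MP.SecondComponentBridge

set_option autoImplicit false
set_option linter.style.haveILetI false
set_option linter.unusedSectionVars false
set_option synthInstance.maxHeartbeats 400000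
set_option maxHeartbeats 800000

noncomputable section

namespace Fermat.Agent.MazurPrinciple

open ModularCurve AlgebraicCurve IsLocalRing
open Fermat.Agent.BadReduction Fermat.Agent.Ribet.Slot
open Fermat.Agent.Curve (divisorOf divisorOf_apply)
open Fermat.Agent.MazurPrinciple.Move (indivisible mem_indivisible)

local notation "ℚbar" => AlgebraicClosure ℚ
local notation "Γℚ" => AlgebraicClosure ℚ ≃ₐ[ℚ] AlgebraicClosure ℚ

variable {M q : ℕ} [NeZero M] [hq : Fact q.Prime]

local instance neZero_prime_unitData : NeZero q := ⟨hq.out.ne_zero⟩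

variable (hqM : ¬ q ∣ M) {A : ValuationSubring ℚbar} (hA : A.LiesOverPrime q) {H : Subgroup Γℚ}
  (hH : H ≤ A.inertiaSubgroupIn ℚ) (U : Uniformiser A q H)

local notation "𝒟" => x0Descent hqM hA hH U
/-- The reduction of the modular unit on the component `∞`. -/
abbrev unitRed : X0Res M A := compPhi hqM A hA 0 ⟨modUnit M q, modUnit_mem_compV_zero hqM A⟩

local notation "ubar" => unitRed hqM hA

theorem modUnit_mem_F0 : modUnit M q ∈ (𝒟).F0 :=
  mem_fixedFun.2 fun σ _ => galois_smul_modUnit M q σ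

/-- The valuations of the modular unit. -/
def unitVal : Fin 2 → ℤ := ![0, -(12 * (U.e : ℤ))]

include hqM hA in
theorem exists_hasVal_modUnit : ∃ ub : Fin 2 → X0Res M A,
    Move.HasVal (𝒟) (modUnit M q) (unitVal U) ub ∧ ub 0 = ubar ∧
      ∀ v : Place (ResidueField A) (X0Res M A), v.ord (ub 1) = -v.ord ubar := by
  have hq0 : (q : ℚbar) ≠ 0 := Nat.cast_ne_zero.2 hq.out.ne_zero
  set r : ℚbar := U.π ^ (12 * U.e) / (q : ℚbar) ^ 12 with hr
  have hvr : A.valuation r = 1 := by
    rw [hr, map_div₀, map_pow, map_pow, U.valuation_p, ← pow_mul, mul_comm U.e 12]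
    exact div_self (pow_ne_zero _ ((Valuation.ne_zero_iff _).2 U.ne_zero))
  have hrA : r ∈ A := (A.valuation_le_one_iff r).1 hvr.le
  have hres : residue A ⟨r, hrA⟩ ≠ 0 := by
    rw [residue_ne_zero_iff_isUnit]
    exact (A.valuation_eq_one_iff ⟨r, hrA⟩).2 hvr
  have heq : U.π ^ (12 * U.e) • modUnit M q =
      algebraMap ℚbar (X0F M q) r * ((q : ℚbar) ^ 12 • modUnit M q) := by
    rw [← Algebra.smul_def, smul_smul, hr, div_mul_cancel₀ _ (pow_ne_zero _ hq0)]
  have hmem : U.π ^ (12 * U.e) • modUnit M q ∈ compV hqM A 1 := by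
    rw [heq]
    exact mul_mem ((algebraMap_mem_compV_iff hqM A 1 r).2 hrA)
      (scaled_modUnit_mem_compV_one hqM A)
  have hu0 := compPhi_zero_modUnit_ne_zero hqM A hA
  have hred : compPhi hqM A hA 1 ⟨_, hmem⟩ =
      algebraMap (ResidueField A) (X0Res M A) (residue A ⟨r, hrA⟩) * ubar⁻¹ := by
    rw [← compPhi_one_scaled_modUnit hqM A hA, ← compPhi_algebraMap hqM A hA 1 ⟨r, hrA⟩,
      ← map_mul]
    exact congrArg _ (Subtype.ext heq)
  refine ⟨![ubar, compPhi hqM A hA 1 ⟨_, hmem⟩], ⟨?_, ?_⟩, rfl, fun v => ?_⟩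
  · intro i
    fin_cases i
    · have e : ((U.π ^ (unitVal U 0))⁻¹ : ℚbar) • modUnit M q = modUnit M q := by
        simp [unitVal]
      refine ⟨?_, ?_⟩
      · show ((U.π ^ (unitVal U 0))⁻¹ : ℚbar) • modUnit M q ∈ compV hqM A 0
        rw [e]
        exact modUnit_mem_compV_zero hqM A
      · show compPhi hqM A hA 0 _ = ubar
        exact congrArg (compPhi hqM A hA 0) (Subtype.ext e)
    · have e : ((U.π ^ (unitVal U 1))⁻¹ : ℚbar) • modUnit M q =
          U.π ^ (12 * U.e) • modUnit M q := by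
        rw [unitVal, Matrix.cons_val_one, Matrix.cons_val_fin_one, zpow_neg, inv_inv,
          show (12 : ℤ) * (U.e : ℤ) = ((12 * U.e : ℕ) : ℤ) by push_cast; rfl, zpow_natCast]
      refine ⟨?_, ?_⟩
      · show ((U.π ^ (unitVal U 1))⁻¹ : ℚbar) • modUnit M q ∈ compV hqM A 1
        rw [e]
        exact hmem
      · show compPhi hqM A hA 1 _ = compPhi hqM A hA 1 ⟨_, hmem⟩
        exact congrArg (compPhi hqM A hA 1) (Subtype.ext e)
  · intro i
    fin_cases i
    · exact hu0
    · show compPhi hqM A hA 1 ⟨_, hmem⟩ ≠ 0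
      rw [hred]
      exact mul_ne_zero ((map_ne_zero _).2 hres) (inv_ne_zero hu0)
  · show v.ord (compPhi hqM A hA 1 ⟨_, hmem⟩) = _
    rw [hred, v.ord_mul ((map_ne_zero _).2 hres) (inv_ne_zero hu0), Curve.ord_algebraMap,
      v.ord_inv, zero_add]

/-- The reductions of the scaled modular unit. -/
def unitBar : Fin 2 → X0Res M A := (exists_hasVal_modUnit hqM hA hH U).choose

theorem unitBar_spec :
    Move.HasVal (𝒟) (modUnit M q) (unitVal U) (unitBar hqM hA hH U) ∧
      unitBar hqM hA hH U 0 = ubar ∧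
      ∀ v : Place (ResidueField A) (X0Res M A),
        v.ord (unitBar hqM hA hH U 1) = -v.ord ubar :=
  (exists_hasVal_modUnit hqM hA hH U).choose_spec

theorem ord_unitBar (i : Fin 2) {v : Place (ResidueField A) (X0Res M A)}
    (hv : v.ord (resJ (ResidueField A) M) < 0) :
    v.ord (unitBar hqM hA hH U i) = (if i = 0 then -1 else 1) *
      (((q : ℤ) - 1) * v.ord (resJ (ResidueField A) M)) := by
  obtain ⟨-, h0, h1⟩ := unitBar_spec hqM hA hH U
  fin_cases i
  · show v.ord (unitBar hqM hA hH U 0) = _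
    rw [h0, ord_compPhi_zero_modUnit hqM A hA hv]
    simp
    ring
  · show v.ord (unitBar hqM hA hH U 1) = _
    rw [h1, ord_compPhi_zero_modUnit hqM A hA hv]
    simp
    ring

/-- The cusps of the two components. -/
def cuspBranches : Finset (Σ _ : Fin 2, Place (ResidueField A) (X0Res M A)) :=
  Finset.univ.sigma fun _ => (exists_residual_cusps hqM A hA).choose

include hH in
theorem mem_cuspBranches (b : Σ _ : Fin 2, Place (ResidueField A) (X0Res M A))
    (hb : b ∈ cuspBranches hqM hA) :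
    ¬ (q : ℤ) ∣ b.2.ord (unitBar hqM hA hH U b.1) ∧
      ∀ s j, (x0NodePairs hqM A hA).br s j ≠ b := by
  obtain ⟨i, v⟩ := b
  obtain ⟨hneg, htame⟩ :=
    (exists_residual_cusps hqM A hA).choose_spec.2 v (Finset.mem_sigma.1 hb).2
  refine ⟨fun h => ?_, fun s j => x0NodePairs_br_ne_cusp hqM A hA s j i hneg⟩
  dsimp only at h
  rw [ord_unitBar hqM hA hH U i hneg] at h
  have hp : Prime (q : ℤ) := Nat.prime_iff_prime_int.1 hq.out
  rcases hp.dvd_or_dvd h with h | h
  · have hu : IsUnit (if i = 0 then (-1 : ℤ) else 1) := by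
      split_ifs
      · exact isUnit_one.neg
      · exact isUnit_one
    exact hp.not_isUnit (isUnit_of_dvd_unit h hu)
  · rcases hp.dvd_or_dvd h with h | h
    · have h2 : (q : ℤ) ∣ 1 := by simpa using dvd_sub (dvd_refl (q : ℤ)) h
      exact hp.not_dvd_one h2
    · exact htame h

theorem card_indivisible_modUnit :
    (indivisible q (divisorOf ℚbar (modUnit M q : X0F M q))).card ≤
      (cuspBranches hqM hA).card := by
  classical
  have hcusp : cuspCount (M * q) = 2 * cuspCount M := by
    rw [mul_comm M q]; exact Carayol.LTwoComp.cuspCount_prime_mul hq.out hqM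
  have hbar : Carayol.LTwoComp.barJ (M * q) = Igusa.jBar (M * q) :=
    Subtype.ext (Igusa.coe_jBar' (M * q)).symm
  have hfin : {v : Place ℚbar (X0F M q) | v.ord (Igusa.jBar (M * q)) < 0}.Finite :=
    (Curve.finite_setOf_ord_ne_zero (K := ℚbar) (Igusa.jBar (M * q))).subset
      fun _ hv => ne_of_lt hv
  have hsub : indivisible q (divisorOf ℚbar (modUnit M q : X0F M q)) ⊆ hfin.toFinset := by
    intro v hv
    rw [Set.Finite.mem_toFinset]
    by_contra hcon
    rw [mem_indivisible, divisorOf_apply,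
      ord_modUnit_eq_zero M q v (not_lt.1 hcon)] at hv
    exact hv (dvd_zero _)
  refine (Finset.card_le_card hsub).trans ?_
  have hcard : hfin.toFinset.card = cuspCount (M * q) := by
    rw [← Set.ncard_eq_toFinset_card _ hfin, ← (Carayol.LTwoComp.bar_ramification (M * q)).2,
      hbar]
  rw [hcard, hcusp, cuspBranches, Finset.card_sigma, Finset.sum_const, Finset.card_univ,
    Fintype.card_fin, smul_eq_mul]
  exact Nat.mul_le_mul_left 2 (exists_residual_cusps hqM A hA).choose_spec.1

include hqM hA in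
/-- For `q ≥ 5` the reduction of the modular unit has indivisible order at every node. -/
theorem not_dvd_ord_node (hq5 : 5 ≤ q) (s : x0NodeSet hqM A hA) :
    ¬ (q : ℤ) ∣ ((x0NodePairs hqM A hA).br s 0).2.ord ubar := by
  haveI := charP_residue_of_liesOverPrime hq.out hA
  set I := A.inertiaSubgroupIn ℚ
  obtain ⟨U₁, hU₁⟩ := exists_uniformiser hq.out hA I 1 fun c hc =>
    ⟨{c}, Finset.mem_singleton_self c, le_of_eq (Finset.card_singleton c),
      fun σ hσ => Finset.mem_singleton.2 (hc σ hσ)⟩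
  have he : U₁.e = 1 := le_antisymm hU₁ U₁.e_pos
  obtain ⟨hval, h0, -⟩ := unitBar_spec hqM hA le_rfl U₁
  intro hs
  have hfst := x0NodePairs_br_fst hqM A hA s 0
  have key := Move.dvd_sub_of_node (x0Descent hqM hA le_rfl U₁)
    (Mazur.rankLeOne_of_liesOverPrime hq.out hA) (x0NodePairs hqM A hA)
    (modUnit_ne_zero M q) hval
    (spannedByFixed hqM hA le_rfl U₁ ⟨modUnit M q, modUnit_mem_F0 hqM hA le_rfl U₁⟩)
    (cuspBranches hqM hA) (mem_cuspBranches hqM hA le_rfl U₁)
    (card_indivisible_modUnit hqM hA) s (x0NodePairs_htwo hqM A hA s)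
    (by rw [hfst, h0]; exact hs)
  rw [hfst, x0NodePairs_br_fst hqM A hA s 1] at key
  have h12 : (q : ℤ) ∣ ((12 : ℕ) : ℤ) := by
    simpa [unitVal, he] using key
  have h := Nat.le_of_dvd (by norm_num) (Int.natCast_dvd_natCast.1 h12)
  have h' := Int.natCast_dvd_natCast.1 h12
  interval_cases q <;> norm_num at hq h'
  all_goals exact absurd hq.out (by norm_num)

/-- The modular unit as auxiliary unit on `X₀(Mq)`. -/
def x0UnitData [CharP (ResidueField A) q] (hq5 : 5 ≤ q) :
    Move.UnitData (𝒟) q (x0NodePairs hqM A hA) where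
  U := ⟨modUnit M q, modUnit_mem_F0 hqM hA hH U⟩
  ne_zero := modUnit_ne_zero M q
  m := unitVal U
  ub := unitBar hqM hA hH U
  hasVal := (unitBar_spec hqM hA hH U).1
  T := cuspBranches hqM hA
  mem_T := mem_cuspBranches hqM hA hH U
  sep := card_indivisible_modUnit hqM hA
  node s := by
    have hfst := x0NodePairs_br_fst hqM A hA s 0
    rw [hfst, (unitBar_spec hqM hA hH U).2.1]
    exact not_dvd_ord_node hqM hA hq5 s

theorem x0UnitData_coe [CharP (ResidueField A) q] (hq5 : 5 ≤ q) :
    (((x0UnitData hqM hA hH U hq5).U : (𝒟).F0) : X0F M q) = modUnit M q := rfl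

theorem x0UnitData_m_zero [CharP (ResidueField A) q] (hq5 : 5 ≤ q) :
    (x0UnitData hqM hA hH U hq5).m 0 = 0 := rfl

theorem x0UnitData_m_one [CharP (ResidueField A) q] (hq5 : 5 ≤ q) :
    (x0UnitData hqM hA hH U hq5).m 1 = -(12 * (U.e : ℤ)) := rfl

end Fermat.Agent.MazurPrinciple

end
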