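/-
Mazur's principle: the eigenspace of `ρ̄` in `J₀(N)[p]`.
-/
import Fermat.Agent.MazurPrinciple.LocalData
import Fermat.Agent.MazurPrinciple.Group
import Fermat.Agent.MazurPrinciple.Embedding
import Fermat.Agent.Torsion.Main
import Fermat.Agent.ES.SpecialMain
import Fermat.Prelude.Def_FLTPrelim_ModularRep

set_option autoImplicit false

noncomputable section

namespace Fermat.Agent.MazurPrinciple

open AlgebraicCurve ModularCurve
open scoped WeierstrassCurve.Affine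

local notation "ℚbar" => AlgebraicClosure ℚ
local notation "Γℚ" => AlgebraicClosure ℚ ≃ₐ[ℚ] AlgebraicClosure ℚ

/-- A non-zero Galois stable group of `p`-torsion Hecke eigen classes of level `N` on which
Galois acts through the mod `p` representation of `W`. -/
structure EigenSpace (W : WeierstrassCurve ℤ) (p N : ℕ) [NeZero N] where
  /-- the classes -/
  carrier : AddSubgroup (JZero N)
  nontrivial : ∃ x ∈ carrier, x ≠ 0
  torsion : ∀ x ∈ carrier, p • x = 0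
  stable : ∀ (σ : Γℚ), ∀ x ∈ carrier, σ • x ∈ carrier
  eigen : ∀ x ∈ carrier, ∀ (ℓ : ℕ) (hℓ : ℓ.Prime), ¬ ℓ ∣ N → ℓ ≠ p → W.IsGoodPrimeFor ℓ →
    heckeOperatorBar N ⟨ℓ, hℓ⟩ x = W.apOfModel ℓ • x
  rep_ker : ∀ σ : Γℚ, modRep W p σ = 1 → ∀ x ∈ carrier, σ • x = x
  not_scalar : ∀ z : Γℚ, IsSeparating W p z → ∀ c : ℕ, (∀ ζ : ℚbar, ζ ^ p = 1 → z ζ = ζ ^ c) →
    ∃ x ∈ carrier, z • x ≠ c • x

/-- The eigenspace exists. -/
theorem exists_eigenSpace (W : WeierstrassCurve ℤ) (hΔ : W.Δ ≠ 0) {p : ℕ} (hp : p.Prime)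
    (hp2 : p ≠ 2) (hirr : W.ModRepIsIrreducible p) {N : ℕ} [NeZero N]
    (hmod : W.IsResiduallyModularOfLevel p N) : Nonempty (EigenSpace W p N) := by
  obtain ⟨f, hf, hfeq, hfeig⟩ := exists_equivariant_embedding hΔ hp hp2 hirr hmod
  haveI : Fact p.Prime := ⟨hp⟩
  haveI : NeZero p := ⟨hp.ne_zero⟩
  have := hirr.1
  obtain ⟨v₀, hv₀⟩ := exists_ne (0 : Submodule.torsionBy ℤ
    ((W.map (Int.castRingHom ℚ))⁄ℚbar).Point p)
  refine ⟨⟨f.range, ⟨f v₀, ⟨v₀, rfl⟩, fun h => hv₀ (hf (h.trans (map_zero f).symm))⟩, ?_, ?_,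
    ?_, ?_, ?_⟩⟩
  · rintro _ ⟨v, rfl⟩
    rw [← map_nsmul, ← Nat.cast_smul_eq_nsmul (ZMod p), ZMod.natCast_self, zero_smul, map_zero]
  · rintro σ _ ⟨v, rfl⟩
    exact ⟨_, hfeq σ v⟩
  · rintro _ ⟨v, rfl⟩ ℓ hℓ hℓN hℓp hgood
    exact hfeig v ℓ hℓ hℓN hℓp hgood
  · rintro σ hσ _ ⟨v, rfl⟩
    rw [← hfeq, hσ, Module.End.one_apply]
  · intro z hz c hc
    by_contra hcon
    push Not at hcon
    have hzv : ∀ v, modRep W p z v = (c : ZMod p) • v := fun v => hf (by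
      rw [Nat.cast_smul_eq_nsmul, map_nsmul, hfeq]
      exact hcon _ ⟨v, rfl⟩)
    obtain ⟨hzζ, ⟨v, hv, hzv'⟩ | hnone⟩ := hz
    · obtain ⟨ζ, hζ⟩ := HasEnoughRootsOfUnity.exists_primitiveRoot ℚbar p
      refine hzζ ζ hζ ?_
      have hc1 : (c : ZMod p) = 1 := by
        have h1 := hzv v
        rw [hzv'] at h1
        exact (smul_left_injective (ZMod p) hv ((one_smul (ZMod p) v).trans h1)).symm
      rw [hc ζ hζ.pow_eq_one, pow_eq_pow_mod c hζ.pow_eq_one]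
      rw [← ZMod.natCast_mod, ← Nat.cast_one, ZMod.natCast_eq_natCast_iff'] at hc1
      rw [Nat.mod_mod, Nat.mod_eq_of_lt hp.one_lt] at hc1
      rw [hc1, pow_one]
    · exact hv₀ (hnone _ v₀ (hzv v₀))

/-- Some good Hecke eigenvalue is not congruent to `1 + ℓ`. -/
theorem exists_apOfModel_ne (W : WeierstrassCurve ℤ) (hΔ : W.Δ ≠ 0) {p : ℕ} (hp : p.Prime)
    (hp2 : p ≠ 2) (hirr : W.ModRepIsIrreducible p) (S : Finset ℕ) :
    ∃ ℓ : ℕ, ℓ.Prime ∧ ℓ ∉ S ∧ ℓ ≠ p ∧ W.IsGoodPrimeFor ℓ ∧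
      (W.apOfModel ℓ : ZMod p) ≠ ((1 + ℓ : ℕ) : ZMod p) := by
  classical
  haveI : Fact p.Prime := ⟨hp⟩
  by_contra hcon
  push Not at hcon
  haveI := CondLevel.isElliptic_baseChange hΔ
  obtain ⟨b⟩ := CondLevel.exists_torsBasis hΔ hp.ne_zero
  haveI := Module.Finite.of_basis b
  have hV : Module.finrank (ZMod p) (CondLevel.Tors W p) = 2 := by
    rw [Module.finrank_eq_card_basis b, Fintype.card_fin]
  let ρ := CondLevel.torsRep W p
  obtain ⟨L, hL, hfix⟩ := EC.galoisFactorsThroughFiniteLevel (W.map (Int.castRingHom ℚ)) hp.ne_zero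
  let u : Γℚ →* Module.End (ZMod p) (ZMod p) := 1
  have hrel : ∀ σ, u σ + LinearMap.det (ρ σ) • u σ⁻¹ = LinearMap.trace (ZMod p) _ (ρ σ) • 1 := by
    refine fun σ => Density.forall_of_frobenius
      (P := fun σ => u σ + LinearMap.det (ρ σ) • u σ⁻¹ = LinearMap.trace (ZMod p) _ (ρ σ) • 1)
      L (fun σ τ h hσ => ?_) (fun σ m hσ => add_det_smul_inv_pow hV ρ u hσ m)
      (W.Δ.natAbs.primeFactors ∪ S ∪ {p}) (fun ℓ hℓ hℓS A hA τ hτ => ?_) σ
    · have e : ρ σ = ρ τ := by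
        rw [← mul_inv_cancel_left σ τ, map_mul, show ρ (σ⁻¹ * τ) = 1 from hfix _ fun y hy => by
          rw [AlgEquiv.mul_apply, ← h y hy]; exact σ.symm_apply_apply y, mul_one]
      rw [← e]
      exact hσ
    · simp only [Finset.mem_union, Finset.mem_singleton, not_or] at hℓS
      obtain ⟨⟨hℓΔ, hℓS⟩, hℓp⟩ := hℓS
      have hgood : W.IsGoodPrimeFor ℓ := fun h => hℓΔ (Nat.mem_primeFactors.2
        ⟨hℓ, Int.natCast_dvd.1 h, Int.natAbs_ne_zero.2 hΔ⟩)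
      obtain ⟨ht, hd⟩ := CondLevel.frobenius_tors (pow_one p).symm hp hℓ (Ne.symm hℓp) hgood hA hτ
      show 1 + LinearMap.det (CondLevel.torsRep W p τ) • (1 : Module.End (ZMod p) (ZMod p)) =
        LinearMap.trace (ZMod p) _ (CondLevel.torsRep W p τ) • _
      rw [ht, hd, hcon ℓ hℓ hℓS hℓp hgood, Nat.cast_add, Nat.cast_one, add_smul, one_smul]
  obtain ⟨c, hc⟩ := exists_trace_modRep_eq_zero (p := p) hΔ hp2
  have h2 : (2 : ZMod p) ≠ 0 := fun h => hp2 ((Nat.prime_dvd_prime_iff_eq hp Nat.prime_two).1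
    ((ZMod.natCast_eq_zero_iff 2 p).1 (by exact_mod_cast h)))
  obtain ⟨f, hf, -⟩ := exists_injective_intertwiner h2 hV ρ u
    (fun Y hY => hirr.2 Y fun σ x hx => hY σ x hx) hrel hc
  have h := LinearMap.finrank_le_finrank_of_injective hf
  rw [hV, Module.finrank_self] at h
  omega

end Fermat.Agent.MazurPrinciple

end
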