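/-
Mazur's principle at `p`: the component step on `X₀(Mq)`. The leading coefficients at the two
cusps of the function of an eigen class are `q`-th powers of fixed constants, so its valuations on
both components and the orders of its reductions are divisible by `q`, and it has root data.
-/
import Fermat.Agent.MazurPrinciple.EigenStep
import Fermat.Agent.MazurPrinciple.NodesX0
import Fermat.Agent.MazurPrinciple.X0Cusps
import Fermat.Agent.MazurPrinciple.Reps
import Fermat.Agent.MP.SecondRootData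

set_option autoImplicit false
set_option linter.style.haveILetI false
set_option synthInstance.maxHeartbeats 200000
set_option maxHeartbeats 1600000

noncomputable section

namespace Fermat.Agent.MazurPrinciple

open ModularCurve AlgebraicCurve IsLocalRing
open Fermat.Agent.BadReduction Fermat.Agent.HeckeJ

local notation "ℚbar" => AlgebraicClosure ℚ
local notation "Γℚ" => AlgebraicClosure ℚ ≃ₐ[ℚ] AlgebraicClosure ℚ

theorem leadingCoeff_pow' {K : Type*} [Field K] (x : LaurentSeries K) :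
    ∀ n : ℕ, (x ^ n).leadingCoeff = x.leadingCoeff ^ n
  | 0 => by rw [pow_zero, pow_zero, HahnSeries.leadingCoeff_one]
  | n + 1 => by rw [pow_succ, pow_succ, HahnSeries.leadingCoeff_mul, leadingCoeff_pow' x n]

variable (W : WeierstrassCurve ℤ) {M q : ℕ} [NeZero M] [hq : Fact q.Prime]

local instance neZero_prime_componentInputs : NeZero q := ⟨hq.out.ne_zero⟩

variable (hqM : ¬ q ∣ M) {H : Subgroup Γℚ}

theorem isFixedBy_leadingCoeff_atCusp (i : Fin 2) {f : X0F M q} (hf : f ∈ fixedFun H M q) :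
    IsFixedBy H (atCusp hqM i f).leadingCoeff := by
  intro σ hσ
  have key : coeffMap (σ : ℚbar →+* ℚbar) (atCusp hqM i f) = atCusp hqM i f := by
    match i with
    | 0 => rw [atCusp_zero, ← coe_galois_smul, mem_fixedFun.1 hf σ hσ]
    | 1 => rw [atCusp_one, ← coe_galois_smul, ← atkinLehner_galois, mem_fixedFun.1 hf σ hσ]
  rw [← leadingCoeff_conj, key]

/-- The leading coefficients at the cusps are `q`-th powers of fixed constants. -/
theorem exists_lead_pow {f : X0F M q} (hf : f ∈ fixedFun H M q) (hf0 : f ≠ 0)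
    (hlead : (f : LaurentSeries ℚbar).leadingCoeff = 1) (hrel : HeckeRel W H f)
    {l : ℕ} (hl : l.Prime) (hl2 : l ≠ 2) (hlN : ¬ l ∣ M * q) (hgood : W.IsGoodPrimeFor l)
    (hne : (W.apOfModel l : ZMod q) ≠ ((1 + l : ℕ) : ZMod q)) (i : Fin 2) :
    ∃ z : ℚbar, IsFixedBy H z ∧ (atCusp hqM i f).leadingCoeff = z ^ q := by
  match i with
  | 0 => exact ⟨1, fun σ _ => map_one σ, by rw [atCusp_zero, hlead, one_pow]⟩
  | 1 =>
    haveI : NeZero l := ⟨hl.ne_zero⟩
    obtain ⟨c, n, g, -, -, hg, hg0, hgl, hn, e⟩ := hrel l hl hlN hgood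
    -- the constant is `1`
    have hser : ∀ (x y : X0F M q), ((algebraMap ℚbar (X0F M q) c * (x ^ n * y ^ q) : X0F M q) :
        LaurentSeries ℚbar).leadingCoeff = c * ((x : LaurentSeries ℚbar).leadingCoeff ^ n *
          (y : LaurentSeries ℚbar).leadingCoeff ^ q) := fun x y => by
      rw [IntermediateField.coe_mul, IntermediateField.coe_mul, SubmonoidClass.coe_pow,
        SubmonoidClass.coe_pow, HahnSeries.leadingCoeff_mul, HahnSeries.leadingCoeff_mul,
        leadingCoeff_pow', leadingCoeff_pow']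
      congr 1
      show (algebraMap ℚbar (LaurentSeries ℚbar) c).leadingCoeff = c
      rw [algebraMap_laurentSeries_eq_single, HahnSeries.leadingCoeff_of_single]
    have hc : c = 1 := by
      have h1 := leadingCoeff_heckeFun hl hl2 hlN hf0
      rw [e, hser, hlead, hgl, one_pow, one_pow, one_pow, mul_one, mul_one] at h1
      exact h1
    set L := (atCusp hqM 1 f).leadingCoeff with hL
    set r := (atCusp hqM 1 g).leadingCoeff with hr
    rw [atCusp_one] at hL hr
    have hL0 : L ≠ 0 := by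
      rw [hL, HahnSeries.leadingCoeff_ne_zero]
      exact fun h => hf0 ((map_eq_zero (atkinLehner hqM)).1 (Subtype.ext h))
    have hLr : L ^ (l + 1) = L ^ n * r ^ q := by
      have h1 := leadingCoeff_heckeFun (f := atkinLehner hqM f) hl hl2 hlN
        ((map_ne_zero _).2 hf0)
      rw [heckeFun_atkinLehner hqM hl hlN, e, map_mul, map_mul, map_pow, map_pow,
        AlgEquiv.commutes, hser, hc, one_mul, ← hL, ← hr] at h1
      exact h1.symm
    have hd : IsCoprime (((l + 1 : ℕ) : ℤ) - n) (q : ℤ) := by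
      refine IsCoprime.symm ((Prime.coprime_iff_not_dvd (Nat.prime_iff_prime_int.1 hq.out)).2
        fun h => hne ?_)
      rw [← ZMod.intCast_zmod_eq_zero_iff_dvd, Int.cast_sub, sub_eq_zero, Int.cast_natCast,
        Int.cast_natCast, hn] at h
      rw [← h, add_comm]
    obtain ⟨u, v, huv⟩ := hd
    refine ⟨r ^ u * L ^ v, ((isFixedBy_leadingCoeff_atCusp hqM 1 hg).zpow u).mul
      ((isFixedBy_leadingCoeff_atCusp hqM 1 hf).zpow v), ?_⟩
    have h1 : r ^ (q : ℤ) = L ^ (((l + 1 : ℕ) : ℤ) - n) := by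
      rw [zpow_sub₀ hL0, zpow_natCast, zpow_natCast, zpow_natCast, hLr,
        mul_div_cancel_left₀ _ (pow_ne_zero _ hL0)]
    rw [← zpow_natCast (r ^ u * L ^ v) q, mul_zpow, ← zpow_mul, ← zpow_mul, mul_comm u,
      zpow_mul r, h1, ← zpow_mul, ← zpow_add₀ hL0, mul_comm _ u, huv, zpow_one]

variable {A : ValuationSubring ℚbar} (hA : A.LiesOverPrime q) (hH : H ≤ A.inertiaSubgroupIn ℚ)
  (U : Uniformiser A q H)

local notation "𝒟" => x0Descent hqM hA hH U

/-- The two cusps as smooth branches, given that they are not at nodes. -/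
theorem exists_cuspLeads
    (hsmooth : ∀ (i : Fin 2) (v : Place (ResidueField A) (X0Res M A)),
      (∀ z : X0Res M A, v.ord z = (z : LaurentSeries (ResidueField A)).order) →
      ∀ s j, (x0NodePairs hqM A hA).br s j ≠ ⟨i, v⟩) :
    ∃ C : Fin 2 → Move.CuspLead (𝒟) (x0NodePairs hqM A hA),
      (∀ b, (C b).b = b) ∧ ∀ b (g : X0F M q), (C b).ℓ g = (atCusp hqM b g).leadingCoeff := by
  have key : ∀ i, ∃ C : Move.CuspLead (𝒟) (x0NodePairs hqM A hA),
      C.b = i ∧ ∀ g : X0F M q, C.ℓ g = (atCusp hqM i g).leadingCoeff := fun i => by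
    obtain ⟨v, hv, hC⟩ := exists_cuspLead hqM hA hH U i
    exact hC (x0NodePairs hqM A hA) (hsmooth i v hv)
  choose C hC using key
  exact ⟨C, fun b => (hC b).1, fun b => (hC b).2⟩

/-- The component step: the function of an eigen class has root data. -/
theorem exists_rootData_x0 (hnot : ¬ W.IsResiduallyModularOfLevel q M) {f : (𝒟).F0}
    (hf0 : (f : X0F M q) ≠ 0) (hdvd : ∀ v : Place ℚbar (X0F M q), (q : ℤ) ∣ v.ord (f : X0F M q))
    (hlead : ((f : X0F M q) : LaurentSeries ℚbar).leadingCoeff = 1)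
    (hrel : HeckeRel W H (f : X0F M q))
    {l : ℕ} (hl : l.Prime) (hl2 : l ≠ 2) (hlN : ¬ l ∣ M * q) (hgood : W.IsGoodPrimeFor l)
    (hne : (W.apOfModel l : ZMod q) ≠ ((1 + l : ℕ) : ZMod q))
    (Ud : Move.UnitData (𝒟) q (x0NodePairs hqM A hA))
    (C : Fin 2 → Move.CuspLead (𝒟) (x0NodePairs hqM A hA)) (hC : ∀ b, (C b).b = b)
    (hℓ : ∀ b (g : X0F M q), (C b).ℓ g = (atCusp hqM b g).leadingCoeff)
    (hcase : (∀ t, ¬ (q : ℤ) ∣ Ud.m ((x0NodePairs hqM A hA).br t 0).1
        - Ud.m ((x0NodePairs hqM A hA).br t 1).1) ∨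
      Nonempty (Move.WildData (x0NodePairs hqM A hA) Ud C)) :
    ∃ h : Fin 2 → (𝒟).F0, Nonempty (Move.RootData (𝒟) q h f) := by
  haveI := charP_residueField A hq.out hA
  haveI := (x0Reduction hqM A hA).isAlgClosed_residue
  have hAr := Mazur.rankLeOne_of_liesOverPrime hq.out hA
  obtain ⟨n, φ, hval⟩ := Move.exists_hasVal (D := 𝒟) hAr f.2 hf0
  choose z hz hzq using exists_lead_pow W hqM f.2 hf0 hlead hrel hl hl2 hlN hgood hne
  obtain ⟨hn, hord⟩ := Move.dvd_val_and_ord hAr (x0NodePairs hqM A hA) Ud f hval hf0 hdvd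
    (fun a => spannedByFixed hqM hA hH U (f * Ud.U ^ a)) C hC z hz
    (fun b => (hℓ b f).trans (hzq b)) (x0NodePairs_htwo hqM A hA) (x0_connected hqM A hA) hcase
  exact Move.exists_rootData hAr (x0NodePairs hqM A hA) f hval hf0 hdvd
    (spannedByFixed hqM hA hH U f) hn
    (exists_pow_of_hasVal W hqM hA hH U hnot hrel hval hord)

end Fermat.Agent.MazurPrinciple

end
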