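/-
Mazur's principle at `p`: a residually modular `W` of level `M p`, `p ∤ M`, with the local input
at `p` (`LocalData`) is residually modular of level `M`.

Otherwise every class in the eigenspace satisfies `z • x = a • x` for a separating inertia
element `z` with cyclotomic value `a`, which separation forbids.
-/
import Fermat.Agent.MazurPrinciple.EigenStep
import Fermat.Agent.MazurPrinciple.Setting
import Fermat.Agent.MazurPrinciple.Reps
import Fermat.Agent.MazurPrinciple.NodesX0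
import Fermat.Agent.MP.SecondRootData
import Fermat.Agent.MP.SecondX0Inertial
import Fermat.Agent.MazurPrinciple.X0ComponentInputs
import Fermat.Agent.MazurPrinciple.NodesBranch
import Fermat.Agent.MazurPrinciple.NodesUnitData

set_option autoImplicit false
set_option linter.style.haveILetI false
set_option synthInstance.maxHeartbeats 400000

noncomputable section

namespace Fermat.Agent.MazurPrinciple

open ModularCurve AlgebraicCurve IsLocalRing
open Fermat.Agent.BadReduction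

local notation "ℚbar" => AlgebraicClosure ℚ
local notation "Γℚ" => AlgebraicClosure ℚ ≃ₐ[ℚ] AlgebraicClosure ℚ

variable {W : WeierstrassCurve ℤ} {p : ℕ} [hp : Fact p.Prime] {M : ℕ} [NeZero M]

local instance neZero_prime_main : NeZero p := ⟨hp.out.ne_zero⟩

/-- A torsion class with `p Dv = div f` is moved by `σ` like `-c` when `σ f * f ^ c` is a `p`-th
power. -/
theorem galois_smul_add_nsmul_eq_zero
    {Dv : Divisor.degZero (K := ℚbar) (F := X0F M p)} {f : X0F M p} (hf : f ≠ 0)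
    (hdiv : ∀ v : Place ℚbar (X0F M p), (p : ℤ) * (Dv : Divisor ℚbar (X0F M p)) v = v.ord f)
    (σ : Γℚ) (c : ℕ) {G : X0F M p}
    (hG : G ^ p = arithmeticGalois (modularFunctionFieldFull (M * p)) σ • f * f ^ c) :
    σ • (Pic0.mk Dv : JZero (M * p)) + c • (Pic0.mk Dv : JZero (M * p)) = 0 := by
  have hσf := galois_smul_ne_zero σ hf
  have hG0 : G ≠ 0 := fun h => mul_ne_zero hσf (pow_ne_zero c hf) (by
    rw [← hG, h, zero_pow hp.out.ne_zero])
  show (QuotientAddGroup.mk (SemilinearAut.degZeroSMulHom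
    (arithmeticGalois (modularFunctionFieldFull (M * p)) σ) Dv + c • Dv) :
      Pic0 ℚbar (X0F M p)) = 0
  rw [QuotientAddGroup.eq_zero_iff, AddSubgroup.mem_addSubgroupOf]
  refine ⟨G, hG0, fun v => ?_⟩
  have h := congrArg v.ord hG
  rw [Curve.ord_pow v, v.ord_mul hσf (pow_ne_zero _ hf), Curve.ord_pow v, ord_galois_smul,
    ← hdiv, ← hdiv] at h
  simp only [AddSubgroup.coe_add, AddSubgroup.coe_nsmul, SemilinearAut.coe_degZeroSMulHom,
    Finsupp.coe_add, Finsupp.coe_smul, Pi.add_apply, Pi.smul_apply,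
    SemilinearAut.divisor_smul_apply, smul_eq_mul]
  refine mul_left_cancel₀ (a := (p : ℤ)) (by exact_mod_cast hp.out.ne_zero) ?_
  linear_combination -h

variable (hpM : ¬ p ∣ M) {A : ValuationSubring ℚbar} (hA : A.LiesOverPrime p)
  (L : LocalData W p A)

include hpM hA L in
/-- Unless `W` is residually modular of level `M`, a separating element acts on the eigen classes
by its cyclotomic value. -/
theorem galois_smul_eq_cyclotomic (hp5 : 5 ≤ p) (hnot : ¬ W.IsResiduallyModularOfLevel p M)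
    (E : EigenSpace W p (M * p))
    {l : ℕ} (hl : l.Prime) (hl2 : l ≠ 2) (hlN : ¬ l ∣ M * p) (hgood : W.IsGoodPrimeFor l)
    (hne : (W.apOfModel l : ZMod p) ≠ ((1 + l : ℕ) : ZMod p))
    (Ud : Move.UnitData (x0Descent hpM hA L.le_inertia L.U) p (x0NodePairs hpM A hA))
    (C : Fin 2 → Move.CuspLead (x0Descent hpM hA L.le_inertia L.U) (x0NodePairs hpM A hA))
    (hC : ∀ b, (C b).b = b)
    (hℓ : ∀ b (g : X0F M p), (C b).ℓ g = (atCusp hpM b g).leadingCoeff)
    (hcase : (∀ t, ¬ (p : ℤ) ∣ Ud.m ((x0NodePairs hpM A hA).br t 0).1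
        - Ud.m ((x0NodePairs hpM A hA).br t 1).1) ∨
      Nonempty (Move.WildData (x0NodePairs hpM A hA) Ud C))
    {z : Γℚ} (hz : z ∈ A.inertiaSubgroupIn ℚ) {x : JZero (M * p)} (hx : x ∈ E.carrier) :
    ∃ a : ℕ, (∀ ζ : ℚbar, ζ ^ p = 1 → z ζ = ζ ^ a) ∧ z • x = a • x := by
  obtain ⟨i₀, a, c, u0, w, s, hu0, hpe, hi₀, hth, -, hs, hπ, hzζ, hac, hc⟩ :=
    exists_twist_data hpM hA L hz
  refine ⟨a, hzζ, ?_⟩
  have hfix : ∀ σ ∈ L.H, σ • x = x := fun σ hσ => E.rep_ker σ (L.rep_eq_one σ hσ) x hx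
  obtain ⟨Dv, f, hmk, hf, hf0, hdiv, hlead⟩ := exists_fixed_rep x (E.torsion x hx) hfix
  have hdvd : ∀ v : Place ℚbar (X0F M p), (p : ℤ) ∣ v.ord f := fun v => ⟨_, (hdiv v).symm⟩
  have hrel : HeckeRel W L.H f := fun k _ hk hkN hkgood =>
    exists_hecke_rel hf hf0 hdiv hlead hk (W.apOfModel k) (by
      rw [hmk]
      exact E.eigen x hx k hk hkN (fun h => hkN (h ▸ dvd_mul_left p M)) hkgood)
  obtain ⟨h, ⟨R⟩⟩ := exists_rootData_x0 (W := W) (hqM := hpM) (hA := hA) (hH := L.le_inertia)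
    (U := L.U) hnot (f := ⟨f, hf⟩) hf0 hdvd hlead hrel hl hl2 hlN hgood hne Ud C hC hℓ hcase
  have hdvd₂ : ∀ v : Place ℚbar (X0F M p), (p : ℤ) ∣
      v.ord ((s.σ ⟨f, hf⟩ : (x0Descent hpM hA L.le_inertia L.U).F0) : X0F M p) := fun v => by
    rw [hs]; exact dvd_ord_galois_smul z hdvd v
  haveI := charP_residueField A hp.out hA
  let D := x0Descent hpM hA L.le_inertia L.U
  let f₀ : D.F0 := ⟨f, hf⟩
  have hspan : Move.SpannedByFixed D p f₀ := spannedByFixed hpM hA L.le_inertia L.U f₀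
  have hspan₂ : Move.SpannedByFixed D p (s.σ f₀ * f₀ ^ c) :=
    spannedByFixed hpM hA L.le_inertia L.U (s.σ f₀ * f₀ ^ c)
  have hex : Move.RootExact D p L.U.e f₀ :=
    rootExact_x0 W hpM hA L.le_inertia L.U hnot (f := f₀) hrel hpe
  obtain ⟨G, hG⟩ := Move.exists_pow_eq_twist_of_descent (D := D) (p := p) (f := f₀)
    (P := x0NodePairs hpM A hA) (hp.out.odd_of_ne_two (by omega))
    (Mazur.rankLeOne_of_liesOverPrime hp.out hA) (x_mem_F0 hpM hA L.le_inertia L.U)
    (x0_connected hpM A hA) hu0 hpe hi₀ hth R hdvd s hπ hc hdvd₂ hspan hspan₂ hex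
  rw [Subfield.coe_mul, SubmonoidClass.coe_pow, hs] at hG
  have h0 := galois_smul_add_nsmul_eq_zero hf0 hdiv z c hG
  rw [hmk] at h0
  obtain ⟨k, hk⟩ := hac
  have h1 : (a + c) • x = 0 := by rw [hk, Nat.mul_comm p k, mul_smul, E.torsion x hx, smul_zero]
  rw [add_smul] at h1
  exact add_right_cancel (h0.trans h1.symm)

theorem order_jqModC_neg_aux (k : Type*) [Field k] : (jqModC k).order < 0 := by
  rw [order_jqModC]; norm_num

/-- **Mazur's principle at `p`.** -/
theorem isResiduallyModularOfLevel_of_localData (hΔ : W.Δ ≠ 0) (hp5 : 5 ≤ p) (hpM : ¬ p ∣ M)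
    (hirr : W.ModRepIsIrreducible p) (hmod : W.IsResiduallyModularOfLevel p (M * p))
    {A : ValuationSubring ℚbar} (hA : A.LiesOverPrime p) (L : LocalData W p A) :
    W.IsResiduallyModularOfLevel p M := by
  classical
  by_contra hnot
  obtain ⟨E⟩ := exists_eigenSpace W hΔ hp.out (by omega) hirr hmod
  haveI := charP_residueField A hp.out hA
  -- the cusps are smooth and the modular unit separates the nodes
  let Ud := x0UnitData hpM hA L.le_inertia L.U hp5
  have hU : ∀ σ : Γℚ, arithmeticGalois (modularFunctionFieldFull (M * p)) σ • (Ud.U : X0F M p)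
      = Ud.U := fun σ => by
    rw [x0UnitData_coe]; exact galois_smul_modUnit M p σ
  have hm0 : Ud.m 0 = 0 := x0UnitData_m_zero hpM hA L.le_inertia L.U hp5
  have hm1 : (Ud.m 1).natAbs = 12 * L.U.e := by
    rw [x0UnitData_m_one, Int.natAbs_neg]; norm_cast
  have hsmooth : ∀ (i : Fin 2) (v : Place (ResidueField A) (X0Res M A)),
      (∀ g : X0Res M A, v.ord g = (g : LaurentSeries (ResidueField A)).order) →
      ∀ s j, (x0NodePairs hpM A hA).br s j ≠ ⟨i, v⟩ := fun i v hv s j =>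
    x0NodePairs_br_ne_cusp hpM A hA s j i
      (by rw [hv]; exact order_jqModC_neg_aux _)
  obtain ⟨C, hC, hℓ⟩ := exists_cuspLeads (hqM := hpM) (hA := hA) (hH := L.le_inertia) (U := L.U)
    hsmooth
  have hcase := tame_or_wildData hpM hA L hp5 (x0NodePairs hpM A hA) Ud hU hm0 hm1
    (fun t => by rw [x0NodePairs_br_fst, x0NodePairs_br_fst]; decide) C (fun b f => hℓ b f)
  obtain ⟨l, hl, hlS, hlp, hgood, hne⟩ := exists_apOfModel_ne W hΔ hp.out (by omega) hirr
    (insert 2 (M * p).primeFactors)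
  rw [Finset.mem_insert, not_or] at hlS
  have hlN : ¬ l ∣ M * p := fun h => hlS.2
    (Nat.mem_primeFactors.2 ⟨hl, h, mul_ne_zero (NeZero.ne M) hp.out.ne_zero⟩)
  obtain ⟨z, hz, hsep⟩ := L.separating
  obtain ⟨i₀, a, c, u0, w, s, -, -, -, -, -, -, -, hzζ, -, -⟩ := exists_twist_data hpM hA L hz
  obtain ⟨x, hx, hxne⟩ := E.not_scalar z hsep a hzζ
  obtain ⟨a', hzζ', hax⟩ := galois_smul_eq_cyclotomic hpM hA L hp5 hnot E hl hlS.1 hlN hgood hne
    Ud C hC hℓ hcase hz hx
  refine hxne (hax.trans ?_)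
  obtain ⟨ζ, hζ⟩ := HasEnoughRootsOfUnity.exists_primitiveRoot (M := ℚbar) (n := p)
  have e : a % p = a' % p := hζ.pow_inj (Nat.mod_lt _ hp.out.pos) (Nat.mod_lt _ hp.out.pos) (by
    rw [← pow_eq_pow_mod a hζ.pow_eq_one, ← pow_eq_pow_mod a' hζ.pow_eq_one,
      ← hzζ ζ hζ.pow_eq_one, ← hzζ' ζ hζ.pow_eq_one])
  have hmod_p : ∀ n : ℕ, n • x = (n % p) • x := fun n => by
    have h := E.torsion x hx
    calc n • x = (n % p + n / p * p) • x := by rw [Nat.mod_add_div']
      _ = _ := by rw [add_smul, mul_smul, h, smul_zero, add_zero]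
  rw [hmod_p a', hmod_p a, e]

end Fermat.Agent.MazurPrinciple

end
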