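/-
Mazur's principle at `p`: at a cusp of `X₀(M)` in characteristic `q ∤ M` the reduction of the
modular unit, `Δ ^ (q - 1)`, has order `-(q - 1) ord j`: it is a rational function of `j`, whose
degree is read off at `∞`.
-/
import Fermat.Agent.MazurPrinciple.NodesBranch

set_option autoImplicit false
set_option linter.style.haveILetI false
set_option synthInstance.maxHeartbeats 400000
set_option maxHeartbeats 800000

noncomputable section

open ModularCurve IntermediateField IsLocalRing AlgebraicCurve Polynomial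
open Fermat.Agent.BadReduction Fermat.Agent.Curve
open Fermat.Agent.Igusa.Fibre (deltaS Lead lead_deltaS)

namespace Fermat.Agent.MazurPrinciple

local notation "ℚbar" => AlgebraicClosure ℚ

variable {M q : ℕ} [NeZero M] [hq : Fact q.Prime]

local instance neZero_prime_nodesResidualOrd : NeZero q := ⟨hq.out.ne_zero⟩

theorem coeff_algebraMap_mul_laurent {k : Type*} [Field k] (c : k) (x : LaurentSeries k) (i : ℤ) :
    (algebraMap k (LaurentSeries k) c * x).coeff i = c * x.coeff i := by
  rw [algebraMap_laurentSeries_eq_single, HahnSeries.coeff_single_mul, sub_zero]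

theorem coeff_aeval_jqModC {k : Type*} [Field k] (P : k[X]) (i : ℤ) :
    (aeval (jqModC k) P).coeff i =
      ∑ b ∈ Finset.range (P.natDegree + 1), P.coeff b * (jqModC k ^ b).coeff i := by
  conv_lhs => rw [P.as_sum_range_C_mul_X_pow]
  rw [map_sum, HahnSeries.coeff_sum]
  refine Finset.sum_congr rfl fun b _ => ?_
  rw [map_mul, aeval_C, aeval_X_pow, coeff_algebraMap_mul_laurent]

/-- A polynomial in `j` has a pole of order its degree at `∞`. -/
theorem order_aeval_jqModC {k : Type*} [Field k] {P : k[X]} (hP : P ≠ 0) :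
    (aeval (jqModC k) P).order = -(P.natDegree : ℤ) := by
  refine Lead.order_eq (c := P.leadingCoeff) ⟨?_, fun i hi => ?_⟩ (leadingCoeff_ne_zero.2 hP)
  · rw [coeff_aeval_jqModC, Finset.sum_eq_single P.natDegree]
    · rw [coeff_jqModC_pow_self, mul_one, Polynomial.leadingCoeff]
    · intro b hb hne
      rw [Finset.mem_range] at hb
      rw [coeff_jqModC_pow_of_lt k (by omega), mul_zero]
    · intro h
      exact absurd (Finset.mem_range.2 (Nat.lt_succ_self _)) h
  · rw [coeff_aeval_jqModC]
    refine Finset.sum_eq_zero fun b hb => ?_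
    rw [Finset.mem_range] at hb
    rw [coeff_jqModC_pow_of_lt k (by omega), mul_zero]

/-- At a pole of `z` a polynomial in `z` has the order of its leading term. -/
theorem ord_aeval_of_neg' {K F : Type*} [Field K] [Field F] [Algebra K F] [IsFunctionFieldOne K F]
    {v : Place K F} {p : K[X]} (hp : p ≠ 0) {z : F} (hz : v.ord z < 0) :
    v.ord (aeval z p) = p.natDegree * v.ord z := by
  have hz0 : z ≠ 0 := fun h => by rw [h, Place.ord_zero] at hz; omega
  have hlc : algebraMap K F p.leadingCoeff ≠ 0 :=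
    (_root_.map_ne_zero _).2 (leadingCoeff_ne_zero.2 hp)
  have hlead : v.ord (algebraMap K F p.leadingCoeff * z ^ p.natDegree) =
      p.natDegree * v.ord z := by
    rw [v.ord_mul hlc (pow_ne_zero _ hz0), ord_algebraMap, zero_add, ord_pow]
  rw [← hlead, aeval_eq_sum_range, Finset.sum_range_succ, Algebra.smul_def, add_comm]
  refine ord_add_eq_left v (mul_ne_zero hlc (pow_ne_zero _ hz0)) ?_
  intro hne
  show v.ord (algebraMap K F p.leadingCoeff * z ^ p.natDegree) < _
  rw [hlead]
  refine lt_of_lt_of_le (?_ : _ < ((p.natDegree : ℤ) - 1) * v.ord z) ?_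
  · rw [sub_mul, one_mul]; omega
  refine le_ord_sum v _ _ _ (fun i hi hne' => ?_) hne
  rw [Finset.mem_range] at hi
  rw [Algebra.smul_def] at hne' ⊢
  rw [v.ord_mul (left_ne_zero_of_mul hne') (right_ne_zero_of_mul hne'), ord_algebraMap,
    zero_add, ord_pow]
  exact mul_le_mul_of_nonpos_right (by omega) hz.le

variable (hqM : ¬ q ∣ M) (A : ValuationSubring ℚbar) (hA : A.LiesOverPrime q)

include hA in
/-- In characteristic `q` the series `Δ ^ (q - 1)` is a rational function of `j`. -/
theorem deltaS_pow_mem_adjoin :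
    deltaS (ResidueField A) ^ (q - 1) ∈
      IntermediateField.adjoin (ResidueField A)
        ({jqModC (ResidueField A)} : Set (LaurentSeries (ResidueField A))) := by
  haveI := charP_residue_of_liesOverPrime hq.out hA
  have hq1 : ¬ q ∣ 1 := hq.out.not_dvd_one
  have hmem := (compPhi hq1 A hA 0 ⟨modUnit 1 q, modUnit_mem_compV_zero hq1 A⟩).2
  rw [coe_compPhi_zero_modUnit_eq_pow hq1 A hA] at hmem
  refine IntermediateField.adjoin.mono _ _ _ ?_ hmem
  rintro x ⟨d, hd, hdvd, rfl⟩
  obtain rfl := Nat.dvd_one.1 hdvd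
  rw [qExpand_one_apply]
  exact Set.mem_singleton _

/-- At a cusp the reduction of the modular unit has order `-(q - 1) ord j`. -/
theorem ord_compPhi_zero_modUnit {v : Place (ResidueField A) (X0Res M A)}
    (hv : v.ord (resJ (ResidueField A) M) < 0) :
    v.ord (compPhi hqM A hA 0 ⟨modUnit M q, modUnit_mem_compV_zero hqM A⟩) =
      -((q : ℤ) - 1) * v.ord (resJ (ResidueField A) M) := by
  haveI := charP_residue_of_liesOverPrime hq.out hA
  set k := ResidueField A
  set j := resJ k M with hjdef
  set u := compPhi hqM A hA 0 ⟨modUnit M q, modUnit_mem_compV_zero hqM A⟩ with hudef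
  have hu : (u : LaurentSeries k) = deltaS k ^ (q - 1) :=
    coe_compPhi_zero_modUnit_eq_pow hqM A hA
  obtain ⟨P, Q, hPQ⟩ := (IntermediateField.mem_adjoin_simple_iff _ _).1
    (deltaS_pow_mem_adjoin A hA)
  have hd0 : deltaS k ^ (q - 1) ≠ 0 := pow_ne_zero _ (deltaS_ne_zero k)
  have hP0 : aeval (jqModC k) P ≠ 0 := fun h => hd0 (by rw [hPQ, h, zero_div])
  have hQ0 : aeval (jqModC k) Q ≠ 0 := fun h => hd0 (by rw [hPQ, h, div_zero])
  have hP : P ≠ 0 := fun h => hP0 (by rw [h, map_zero])
  have hQ : Q ≠ 0 := fun h => hQ0 (by rw [h, map_zero])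
  -- the order at `∞`
  have hdeg : (Q.natDegree : ℤ) - P.natDegree = (q : ℤ) - 1 := by
    have h1 : deltaS k ^ (q - 1) * aeval (jqModC k) Q = aeval (jqModC k) P := by
      rw [hPQ, div_mul_cancel₀ _ hQ0]
    have h2 := congrArg HahnSeries.order h1
    rw [HahnSeries.order_mul hd0 hQ0, HahnSeries.order_pow,
      (lead_deltaS (R := k)).order_eq one_ne_zero, order_aeval_jqModC hQ,
      order_aeval_jqModC hP, nsmul_one, Nat.cast_sub hq.out.one_le] at h2
    push_cast at h2
    omega
  have hcoe : ∀ R : k[X], ((aeval j R : X0Res M A) : LaurentSeries k) =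
      aeval (jqModC k) R := fun R =>
    (aeval_algHom_apply (modularFunctionFieldFullC k M).val j R).symm
  have hmul : u * aeval j Q = aeval j P := by
    refine Subtype.ext ?_
    rw [IntermediateField.coe_mul, hu, hcoe, hcoe, hPQ, div_mul_cancel₀ _ hQ0]
  have hu0 : u ≠ 0 := compPhi_zero_modUnit_ne_zero hqM A hA
  have hjQ : aeval j Q ≠ 0 := fun h => hQ0 (by rw [← hcoe, h]; rfl)
  have h3 := congrArg v.ord hmul
  rw [v.ord_mul hu0 hjQ, ord_aeval_of_neg' hQ hv, ord_aeval_of_neg' hP hv] at h3
  rw [← hdeg]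
  linarith

end Fermat.Agent.MazurPrinciple

end
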